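import Mathlib

/-!
# S28, piece A0 (abstract core): the polynomial identity

Abstract form of the "norm" computation in the proof that `J(q^p) ∉ κ(J(q))`.

`L` is a field over an algebraically closed field `κ`, with
* `E : L →ₐ[κ] L` (think `q ↦ q^p`), `T i : L →ₐ[κ] L` for `i < p` (think `q ↦ ζ^i q`),
  with `T i ∘ E = E`;
* a `κ`-derivation `θ` of `L` (think `q d/dq`) with `θ ∘ E = p · E ∘ θ`, `θ ∘ T i = T i ∘ θ`;
* elements `J`, `D` with `(θ J)^6 = (J - a)^4 (J - b)^3 D` and
  `∏_i T i D · E (E D) = ε · (E D)^(p+1)`.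

If `E J = R(J)` for a polynomial `R` of degree `p` (and the `T i J`, `i < p`, are distinct), then
`R'^6 w^(p+1) = c · C^6 (X - R(a))^4 (X - R(b))^3 · w(R)` with `w = (X - a)^4 (X - b)^3`, for some
constant `c ≠ 0` and some polynomial `C`.
-/

set_option autoImplicit false

namespace Fermat.Agent.S28.A0Core

open Polynomial

section factor

variable {L : Type*} [Field L]

/-- a polynomial of degree `p` with `p` distinct roots `x i` (`i < p`) is
`lc · ∏ (X - x i)`. -/
theorem eq_C_mul_prod {F : L[X]} {p : ℕ} (hdeg : F.natDegree = p) (x : ℕ → L)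
    (hroot : ∀ i < p, F.eval (x i) = 0) (hinj : ∀ i < p, ∀ j < p, x i = x j → i = j) :
    F = C F.leadingCoeff * ∏ i ∈ Finset.range p, (X - C (x i)) := by
  by_cases hF : F = 0
  · rw [hF, leadingCoeff_zero, C_0, zero_mul]
  have hdvd : ∏ i ∈ Finset.range p, (X - C (x i)) ∣ F := by
    apply Finset.prod_dvd_of_coprime
    · intro i hi j hj hij
      apply isCoprime_X_sub_C_of_isUnit_sub
      rw [isUnit_iff_ne_zero, sub_ne_zero]
      intro h
      exact hij (hinj i (Finset.mem_range.mp hi) j (Finset.mem_range.mp hj) h)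
    · intro i hi
      rw [dvd_iff_isRoot]
      exact hroot i (Finset.mem_range.mp hi)
  obtain ⟨G, hG⟩ := hdvd
  have hmonic : (∏ i ∈ Finset.range p, (X - C (x i))).Monic :=
    monic_prod_of_monic _ _ fun i _ => monic_X_sub_C (x i)
  have hdegP : (∏ i ∈ Finset.range p, (X - C (x i))).natDegree = p := by
    rw [natDegree_prod_of_monic _ _ fun i _ => monic_X_sub_C (x i)]
    simp
  have hG0 : G ≠ 0 := by
    rintro rfl
    exact hF (by rw [hG, mul_zero])
  have hdegG : G.natDegree = 0 := by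
    have h := congrArg natDegree hG
    rw [hmonic.natDegree_mul' hG0, hdeg, hdegP] at h
    omega
  have hlc : F.leadingCoeff = G.leadingCoeff := by
    rw [hG, leadingCoeff_mul, hmonic.leadingCoeff, one_mul]
  rw [hlc]
  have hGC : G = C G.leadingCoeff := by
    conv_lhs => rw [eq_C_of_natDegree_eq_zero hdegG]
    rw [leadingCoeff, hdegG]
  rw [← hGC, hG, mul_comm]

end factor

section core

variable {κ L : Type*} [Field κ] [IsAlgClosed κ] [Field L] [Algebra κ L]

omit [IsAlgClosed κ] in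
/-- `∏ (x i - t)` in terms of the value at `t` -/
theorem prod_sub_eq {R : κ[X]} {p : ℕ} (x : ℕ → L) (Y : L)
    (hfac : R.map (algebraMap κ L) - C Y =
      C (algebraMap κ L R.leadingCoeff) * ∏ i ∈ Finset.range p, (X - C (x i))) (t : κ) :
    algebraMap κ L R.leadingCoeff * ∏ i ∈ Finset.range p, (x i - algebraMap κ L t) =
      (-1) ^ (p + 1) * (Y - algebraMap κ L (R.eval t)) := by
  have h := congrArg (eval (algebraMap κ L t)) hfac
  rw [eval_sub, eval_map, eval_C, eval_mul, eval_C, eval_prod, eval₂_at_apply] at h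
  simp only [eval_sub, eval_X, eval_C] at h
  have h2 : ∏ i ∈ Finset.range p, (x i - algebraMap κ L t) =
      (-1) ^ p * ∏ i ∈ Finset.range p, (algebraMap κ L t - x i) := by
    have h3 : ∀ i ∈ Finset.range p,
        x i - algebraMap κ L t = (-1) * (algebraMap κ L t - x i) := fun i _ => by ring
    rw [Finset.prod_congr rfl h3, Finset.prod_mul_distrib, Finset.prod_const, Finset.card_range]
  rw [h2, mul_left_comm, ← h, pow_succ]
  ring

omit [IsAlgClosed κ] in
/-- the derivative of a polynomial of degree `p` when `p ≠ 0` in `κ` -/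
theorem deriv_data {R : κ[X]} {p : ℕ} (hp : 1 ≤ p) (hpκ : (p : κ) ≠ 0) (hdeg : R.natDegree = p) :
    (derivative R).natDegree = p - 1 ∧ (derivative R).leadingCoeff = R.leadingCoeff * p ∧
      derivative R ≠ 0 := by
  have hR0 : R ≠ 0 := by
    rintro rfl
    rw [natDegree_zero] at hdeg
    omega
  have hlc : R.leadingCoeff ≠ 0 := leadingCoeff_ne_zero.mpr hR0
  have hcoeff : (derivative R).coeff (p - 1) = R.leadingCoeff * p := by
    rw [coeff_derivative, leadingCoeff, hdeg, Nat.sub_add_cancel hp]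
    congr 1
    have : ((p - 1 : ℕ) : κ) + 1 = (p : κ) := by
      rw [← Nat.cast_one (R := κ), ← Nat.cast_add, Nat.sub_add_cancel hp]
    simpa using this
  have hne : (derivative R).coeff (p - 1) ≠ 0 := by
    rw [hcoeff]
    exact mul_ne_zero hlc hpκ
  have hle : (derivative R).natDegree ≤ p - 1 := by
    have := natDegree_derivative_le R
    rw [hdeg] at this
    exact this
  have hnat : (derivative R).natDegree = p - 1 :=
    le_antisymm hle (le_natDegree_of_ne_zero hne)
  refine ⟨hnat, ?_, fun h0 => hne (by rw [h0, coeff_zero])⟩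
  rw [leadingCoeff, hnat, hcoeff]

/-- the product of the values of `R'` at the `x i` is, up to constants, a polynomial in `Y` -/
theorem prod_aeval_derivative {R : κ[X]} {p : ℕ} (x : ℕ → L) (Y : L)
    (hfac : R.map (algebraMap κ L) - C Y =
      C (algebraMap κ L R.leadingCoeff) * ∏ i ∈ Finset.range p, (X - C (x i))) :
    algebraMap κ L (R.leadingCoeff ^ (derivative R).roots.card) *
        ∏ i ∈ Finset.range p, aeval (x i) (derivative R) =
      algebraMap κ L ((derivative R).leadingCoeff ^ p *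
          ((-1) ^ (p + 1)) ^ (derivative R).roots.card) *
        aeval Y (((derivative R).roots.map fun c => X - C (R.eval c)).prod) := by
  have hsplit := (IsAlgClosed.splits (derivative R)).eq_prod_roots
  set M := (derivative R).roots with hM
  have h1 : ∀ i, aeval (x i) (derivative R) =
      algebraMap κ L (derivative R).leadingCoeff *
        (M.map fun c => x i - algebraMap κ L c).prod := by
    intro i
    conv_lhs => rw [hsplit]
    rw [map_mul, aeval_C, map_multiset_prod, Multiset.map_map]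
    congr 2
    refine Multiset.map_congr rfl fun c _ => ?_
    simp
  have h2 : ∏ i ∈ Finset.range p, aeval (x i) (derivative R) =
      algebraMap κ L (derivative R).leadingCoeff ^ p *
        (M.map fun c => ∏ i ∈ Finset.range p, (x i - algebraMap κ L c)).prod := by
    rw [Finset.prod_congr rfl fun i _ => h1 i, Finset.prod_mul_distrib, Finset.prod_const,
      Finset.card_range, Multiset.prod_map_prod]
  have h3 : algebraMap κ L (R.leadingCoeff ^ M.card) *
      (M.map fun c => ∏ i ∈ Finset.range p, (x i - algebraMap κ L c)).prod =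
      (M.map fun c => algebraMap κ L R.leadingCoeff *
        ∏ i ∈ Finset.range p, (x i - algebraMap κ L c)).prod := by
    rw [Multiset.prod_map_mul, Multiset.map_const', Multiset.prod_replicate, map_pow]
  have h4 : (M.map fun c => algebraMap κ L R.leadingCoeff *
        ∏ i ∈ Finset.range p, (x i - algebraMap κ L c)).prod =
      ((-1) ^ (p + 1)) ^ M.card * (M.map fun c => Y - algebraMap κ L (R.eval c)).prod := by
    rw [Multiset.map_congr rfl fun c _ => prod_sub_eq x Y hfac c, Multiset.prod_map_mul,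
      Multiset.map_const', Multiset.prod_replicate]
  have h5 : aeval Y ((M.map fun c => X - C (R.eval c)).prod) =
      (M.map fun c => Y - algebraMap κ L (R.eval c)).prod := by
    rw [map_multiset_prod, Multiset.map_map]
    congr 1
    refine Multiset.map_congr rfl fun c _ => ?_
    simp
  rw [h2, h5, mul_left_comm, h3, h4]
  simp only [map_mul, map_pow, map_neg, map_one]
  ring

/-- **The polynomial identity.** -/
theorem core_identity {p : ℕ} (hp : 1 ≤ p) (hpκ : (p : κ) ≠ 0)
    (E : L →ₐ[κ] L) (T : ℕ → L →ₐ[κ] L) (hTE : ∀ i < p, ∀ x, T i (E x) = E x)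
    (θ : Derivation κ L L) (hθE : ∀ x, θ (E x) = (p : L) * E (θ x))
    (J D : L) (hD : D ≠ 0) (hJ : Transcendental κ J) (a b : κ)
    (hα : θ J ^ 6 = (J - algebraMap κ L a) ^ 4 * (J - algebraMap κ L b) ^ 3 * D)
    (ε : κ) (hε : ε ≠ 0)
    (hβ : (∏ i ∈ Finset.range p, T i D) * E (E D) = algebraMap κ L ε * E D ^ (p + 1))
    (hinj : ∀ i < p, ∀ j < p, T i J = T j J → i = j)
    (R : κ[X]) (hdeg : R.natDegree = p) (hR : E J = aeval J R) :
    ∃ (c : κ) (Cp : κ[X]), c ≠ 0 ∧
      derivative R ^ 6 * ((X - C a) ^ 4 * (X - C b) ^ 3) ^ (p + 1) =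
        C c * Cp ^ 6 * (X - C (R.eval a)) ^ 4 * (X - C (R.eval b)) ^ 3 *
          ((R - C a) ^ 4 * (R - C b) ^ 3) := by
  have hEinj : Function.Injective E := E.toRingHom.injective
  have hYtr : Transcendental κ (E J) := by
    rw [transcendental_iff] at hJ ⊢
    intro P hP
    apply hJ P
    apply hEinj
    rw [← aeval_algHom_apply, hP, map_zero]
  have hR0 : R ≠ 0 := by
    rintro rfl
    rw [natDegree_zero] at hdeg
    omega
  have hlc : R.leadingCoeff ≠ 0 := leadingCoeff_ne_zero.mpr hR0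
  obtain ⟨hdnat, hdlc, hd0⟩ := deriv_data hp hpκ hdeg
  -- the roots `x i = T i J` of `R - Y`
  have hroot : ∀ i < p, aeval (T i J) R = E J := fun i hi => by
    rw [aeval_algHom_apply, ← hR]
    exact hTE i hi J
  have hFdeg : (R.map (algebraMap κ L) - C (E J)).natDegree = p := by
    rw [natDegree_sub_C, natDegree_map, hdeg]
  have hFlc : (R.map (algebraMap κ L) - C (E J)).leadingCoeff =
      algebraMap κ L R.leadingCoeff := by
    rw [leadingCoeff, hFdeg, coeff_sub, coeff_map, coeff_C, if_neg (by omega), sub_zero,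
      leadingCoeff, hdeg]
  have hfac := eq_C_mul_prod hFdeg (fun i => T i J)
    (fun i hi => by rw [eval_sub, eval_map, eval_C, ← aeval_def, hroot i hi, sub_self]) hinj
  rw [hFlc] at hfac
  -- the differentiated relation
  have h0 : (p : L) * E (θ J) = aeval J (derivative R) * θ J := by
    rw [← hθE, hR, Derivation.map_aeval, smul_eq_mul]
  have hI : (p : L) ^ 6 * ((E J - algebraMap κ L a) ^ 4 * (E J - algebraMap κ L b) ^ 3 * E D) =
      aeval J (derivative R) ^ 6 *
        ((J - algebraMap κ L a) ^ 4 * (J - algebraMap κ L b) ^ 3 * D) := by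
    have e1 : E (θ J) ^ 6 =
        (E J - algebraMap κ L a) ^ 4 * (E J - algebraMap κ L b) ^ 3 * E D := by
      rw [← map_pow, hα]
      simp only [map_mul, map_pow, map_sub, AlgHom.commutes]
    rw [← e1, ← hα, ← mul_pow, ← mul_pow, h0]
  -- twisted versions
  have hIi : ∀ i < p,
      (p : L) ^ 6 * ((E J - algebraMap κ L a) ^ 4 * (E J - algebraMap κ L b) ^ 3 * E D) =
      aeval (T i J) (derivative R) ^ 6 *
        ((T i J - algebraMap κ L a) ^ 4 * (T i J - algebraMap κ L b) ^ 3 * T i D) := by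
    intro i hi
    have h := congrArg (T i) hI
    simp only [map_mul, map_pow, map_sub, AlgHom.commutes, map_natCast, hTE i hi,
      ← aeval_algHom_apply] at h
    exact h
  have h7 : ((p : L) ^ 6 * ((E J - algebraMap κ L a) ^ 4 * (E J - algebraMap κ L b) ^ 3 * E D)) ^ p
      = (∏ i ∈ Finset.range p, aeval (T i J) (derivative R)) ^ 6 *
        ((∏ i ∈ Finset.range p, (T i J - algebraMap κ L a)) ^ 4 *
          (∏ i ∈ Finset.range p, (T i J - algebraMap κ L b)) ^ 3 *
          ∏ i ∈ Finset.range p, T i D) := by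
    have hconst : ∏ _i ∈ Finset.range p, ((p : L) ^ 6 *
        ((E J - algebraMap κ L a) ^ 4 * (E J - algebraMap κ L b) ^ 3 * E D)) =
        ((p : L) ^ 6 * ((E J - algebraMap κ L a) ^ 4 * (E J - algebraMap κ L b) ^ 3 * E D)) ^ p := by
      rw [Finset.prod_const, Finset.card_range]
    rw [← hconst, Finset.prod_congr rfl fun i hi => hIi i (Finset.mem_range.mp hi)]
    simp only [Finset.prod_mul_distrib, Finset.prod_pow]
  have h8 : (p : L) ^ 6 * ((aeval (E J) R - algebraMap κ L a) ^ 4 *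
        (aeval (E J) R - algebraMap κ L b) ^ 3 * E (E D)) =
      aeval (E J) (derivative R) ^ 6 *
        ((E J - algebraMap κ L a) ^ 4 * (E J - algebraMap κ L b) ^ 3 * E D) := by
    have h := congrArg E hI
    simp only [map_mul, map_pow, map_sub, AlgHom.commutes, map_natCast,
      ← aeval_algHom_apply] at h
    rw [aeval_algHom_apply E J R, ← hR]
    exact h
  have hED : E D ≠ 0 := fun h => hD (hEinj (by rw [h, map_zero]))
  have hA := prod_sub_eq (fun i => T i J) (E J) hfac a
  have hB := prod_sub_eq (fun i => T i J) (E J) hfac b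
  have hP1 := prod_aeval_derivative (fun i => T i J) (E J) hfac
  set m := (derivative R).roots.card with hm
  set Cp := ((derivative R).roots.map fun c => X - C (R.eval c)).prod with hCp
  -- abbreviations
  generalize hP1' : ∏ i ∈ Finset.range p, aeval (T i J) (derivative R) = P1 at h7 hP1
  generalize hA1' : ∏ i ∈ Finset.range p, (T i J - algebraMap κ L a) = A1 at h7 hA
  generalize hB1' : ∏ i ∈ Finset.range p, (T i J - algebraMap κ L b) = B1 at h7 hB
  generalize hPD' : ∏ i ∈ Finset.range p, T i D = PD at h7 hβ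
  generalize hY' : E J = Y at *
  generalize hD1' : E D = D1 at *
  generalize hD2' : E D1 = D2 at *
  generalize hRY' : aeval Y R = RY at *
  generalize hdY' : aeval Y (derivative R) = dY at *
  generalize hCY' : aeval Y Cp = CY at *
  obtain ⟨W, hW⟩ : ∃ W : L, W = (Y - algebraMap κ L a) ^ 4 * (Y - algebraMap κ L b) ^ 3 :=
    ⟨_, rfl⟩
  obtain ⟨WR, hWR⟩ : ∃ WR : L, WR = (RY - algebraMap κ L a) ^ 4 * (RY - algebraMap κ L b) ^ 3 :=
    ⟨_, rfl⟩
  rw [← hW] at h7 h8
  rw [← hWR] at h8
  have hIV' : (p : L) ^ (6 * p) * W ^ (p + 1) * dY ^ 6 * D1 ^ (p + 1) =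
      algebraMap κ L ε * (p : L) ^ 6 * WR * P1 ^ 6 * (A1 ^ 4 * B1 ^ 3) * D1 ^ (p + 1) := by
    linear_combination ((p : L) ^ 6 * WR * D2) * h7 - ((p : L) ^ 6 * (W * D1)) ^ p * h8
      + (P1 ^ 6 * (A1 ^ 4 * B1 ^ 3) * (p : L) ^ 6 * WR) * hβ
  have hIV := mul_right_cancel₀ (pow_ne_zero (p + 1) hED) hIV'
  have e : algebraMap κ L R.leadingCoeff ^ (6 * m + 7) * (P1 ^ 6 * (A1 ^ 4 * B1 ^ 3)) =
      (algebraMap κ L (R.leadingCoeff ^ m) * P1) ^ 6 *
        ((algebraMap κ L R.leadingCoeff * A1) ^ 4 * (algebraMap κ L R.leadingCoeff * B1) ^ 3) := by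
    rw [map_pow]
    ring
  rw [hP1, hA, hB] at e
  -- the identity as `aeval Y` of polynomials
  have hLhs : aeval Y (C ((p : κ) ^ (6 * p) * R.leadingCoeff ^ (6 * m + 7)) *
        (derivative R ^ 6 * ((X - C a) ^ 4 * (X - C b) ^ 3) ^ (p + 1))) =
      (p : L) ^ (6 * p) * algebraMap κ L R.leadingCoeff ^ (6 * m + 7) * (dY ^ 6 * W ^ (p + 1)) := by
    rw [hW]
    simp only [map_mul, map_pow, map_sub, aeval_X, aeval_C, map_natCast, hdY']
  have hRhs : aeval Y (C (ε * (p : κ) ^ 6 *
        ((derivative R).leadingCoeff ^ p * ((-1) ^ (p + 1)) ^ m) ^ 6 *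
        ((-1) ^ (p + 1)) ^ 7) * Cp ^ 6 * (X - C (R.eval a)) ^ 4 * (X - C (R.eval b)) ^ 3 *
          ((R - C a) ^ 4 * (R - C b) ^ 3)) =
      algebraMap κ L ε * (p : L) ^ 6 *
        (algebraMap κ L (derivative R).leadingCoeff ^ p * ((-1) ^ (p + 1)) ^ m) ^ 6 *
        ((-1) ^ (p + 1)) ^ 7 * CY ^ 6 * (Y - algebraMap κ L (R.eval a)) ^ 4 *
        (Y - algebraMap κ L (R.eval b)) ^ 3 * WR := by
    rw [hWR]
    simp only [map_mul, map_pow, map_sub, aeval_X, aeval_C, map_natCast, hRY', hCY', map_neg,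
      map_one]
  have key : aeval Y (C ((p : κ) ^ (6 * p) * R.leadingCoeff ^ (6 * m + 7)) *
        (derivative R ^ 6 * ((X - C a) ^ 4 * (X - C b) ^ 3) ^ (p + 1))) =
      aeval Y (C (ε * (p : κ) ^ 6 * ((derivative R).leadingCoeff ^ p * ((-1) ^ (p + 1)) ^ m) ^ 6 *
        ((-1) ^ (p + 1)) ^ 7) * Cp ^ 6 * (X - C (R.eval a)) ^ 4 * (X - C (R.eval b)) ^ 3 *
          ((R - C a) ^ 4 * (R - C b) ^ 3)) := by
    rw [hLhs, hRhs]
    simp only [map_mul, map_pow, map_neg, map_one] at e
    linear_combination algebraMap κ L R.leadingCoeff ^ (6 * m + 7) * hIV +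
      algebraMap κ L ε * (p : L) ^ 6 * WR * e
  have hYtr' : Transcendental κ Y := hYtr
  have hpoly := (transcendental_iff_injective.mp hYtr') key
  have hc0 : (p : κ) ^ (6 * p) * R.leadingCoeff ^ (6 * m + 7) ≠ 0 :=
    mul_ne_zero (pow_ne_zero _ hpκ) (pow_ne_zero _ hlc)
  have hdlc0 : (derivative R).leadingCoeff ≠ 0 := leadingCoeff_ne_zero.mpr hd0
  refine ⟨((p : κ) ^ (6 * p) * R.leadingCoeff ^ (6 * m + 7))⁻¹ *
      (ε * (p : κ) ^ 6 * ((derivative R).leadingCoeff ^ p * ((-1) ^ (p + 1)) ^ m) ^ 6 *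
        ((-1) ^ (p + 1)) ^ 7), Cp, ?_, ?_⟩
  · refine mul_ne_zero (inv_ne_zero hc0) ?_
    have h1 : ((-1 : κ) ^ (p + 1)) ≠ 0 := pow_ne_zero _ (neg_ne_zero.mpr one_ne_zero)
    exact mul_ne_zero (mul_ne_zero (mul_ne_zero hε (pow_ne_zero _ hpκ))
      (pow_ne_zero _ (mul_ne_zero (pow_ne_zero _ hdlc0) (pow_ne_zero _ h1)))) (pow_ne_zero _ h1)
  · have hC0 : (C ((p : κ) ^ (6 * p) * R.leadingCoeff ^ (6 * m + 7)) : κ[X]) ≠ 0 :=
      C_ne_zero.mpr hc0
    apply mul_left_cancel₀ hC0
    rw [hpoly, C_mul (a := ((p : κ) ^ (6 * p) * R.leadingCoeff ^ (6 * m + 7))⁻¹)]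
    have hinv : (C ((p : κ) ^ (6 * p) * R.leadingCoeff ^ (6 * m + 7)) : κ[X]) *
        C ((p : κ) ^ (6 * p) * R.leadingCoeff ^ (6 * m + 7))⁻¹ = 1 := by
      rw [← C_mul, mul_inv_cancel₀ hc0, C_1]
    linear_combination (-(C (ε * (p : κ) ^ 6 * ((derivative R).leadingCoeff ^ p *
      ((-1) ^ (p + 1)) ^ m) ^ 6 * ((-1) ^ (p + 1)) ^ 7) * Cp ^ 6 * (X - C (R.eval a)) ^ 4 *
        (X - C (R.eval b)) ^ 3 * ((R - C a) ^ 4 * (R - C b) ^ 3))) * hinv

end core

end Fermat.Agent.S28.A0Core
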