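import Mathlib

/-!
# The root count behind `(A0)`: no polynomial self-cover of the `(2,3,∞)`-orbifold

If `R` is a polynomial of degree `p ≥ 2` with `R' ≠ 0` over a field, and `a ≠ b`, then the identity
`R'^6 * ((X - a)^4 (X - b)^3)^(p+1) = c * C^6 * (X - R(a))^4 * (X - R(b))^3 * ((R - a)^4 (R - b)^3)`
is impossible (`no_cover`).  Taking root multiplicities at the points of the fibre `R = a` modulo
`3`, and at the points of the fibre `R = b` modulo `2`, shows that all ramification indices are
divisible by `3`, resp. `2`, with at most one exception in each fibre; this contradicts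
`∑ (e_x - 1) ≤ deg R'`.
-/

set_option autoImplicit false

open Polynomial

namespace Fermat.Agent.S28.A0Count

variable {K : Type*} [Field K]

/-- root multiplicity of a power -/
theorem rootMultiplicity_pow' {f : K[X]} (hf : f ≠ 0) (x : K) (n : ℕ) :
    rootMultiplicity x (f ^ n) = n * rootMultiplicity x f := by
  induction n with
  | zero => simp
  | succ n ih =>
    rw [pow_succ, rootMultiplicity_mul (mul_ne_zero (pow_ne_zero n hf) hf), ih]
    ring

/-- the counts of a multiset over any finset sum to at most its cardinality -/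
theorem sum_count_le_card' {α : Type*} [DecidableEq α] (S : Finset α) (m : Multiset α) :
    ∑ x ∈ S, m.count x ≤ Multiset.card m := by
  calc ∑ x ∈ S, m.count x = ∑ x ∈ S.filter (· ∈ m.toFinset), m.count x := by
        rw [Finset.sum_filter_of_ne]
        intro x _ hne
        exact Multiset.mem_toFinset.mpr (Multiset.count_ne_zero.mp hne)
    _ ≤ ∑ x ∈ m.toFinset, m.count x :=
        Finset.sum_le_sum_of_subset (fun x hx => (Finset.mem_filter.mp hx).2)
    _ = Multiset.card m := Multiset.toFinset_sum_count_eq m

/-- If all root multiplicities of a split polynomial are divisible by `m`, except possibly at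
one point `x₀`, then `m * #roots ≤ deg + (m - 1)`. -/
theorem mul_card_roots_le [IsAlgClosed K] [DecidableEq K] (A : K[X]) (m : ℕ) (hm : 0 < m)
    (x₀ : K) (h : ∀ x, A.IsRoot x → x ≠ x₀ → m ∣ A.rootMultiplicity x) :
    m * A.roots.toFinset.card ≤ A.natDegree + (m - 1) := by
  rcases eq_or_ne A 0 with rfl | hA
  · simp
  have hdeg : A.natDegree = ∑ x ∈ A.roots.toFinset, A.rootMultiplicity x := by
    rw [← splits_iff_card_roots.mp (IsAlgClosed.splits A), ← Multiset.toFinset_sum_count_eq]
    exact Finset.sum_congr rfl fun x _ => count_roots A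
  have hpos : ∀ x ∈ A.roots.toFinset, 1 ≤ A.rootMultiplicity x := fun x hx =>
    (rootMultiplicity_pos hA).mpr (isRoot_of_mem_roots (Multiset.mem_toFinset.mp hx))
  have hge : ∀ x ∈ A.roots.toFinset, x ≠ x₀ → m ≤ A.rootMultiplicity x := fun x hx hne =>
    Nat.le_of_dvd (hpos x hx)
      (h x (isRoot_of_mem_roots (Multiset.mem_toFinset.mp hx)) hne)
  by_cases hx₀ : x₀ ∈ A.roots.toFinset
  · have h1 : ∑ x ∈ A.roots.toFinset, A.rootMultiplicity x =
        A.rootMultiplicity x₀ + ∑ x ∈ A.roots.toFinset.erase x₀, A.rootMultiplicity x :=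
      (Finset.add_sum_erase _ _ hx₀).symm
    have h2 : (A.roots.toFinset.erase x₀).card * m ≤
        ∑ x ∈ A.roots.toFinset.erase x₀, A.rootMultiplicity x := by
      rw [← smul_eq_mul]
      exact Finset.card_nsmul_le_sum _ _ _ fun x hx =>
        hge x (Finset.mem_of_mem_erase hx) (Finset.ne_of_mem_erase hx)
    have h3 : (A.roots.toFinset.erase x₀).card + 1 = A.roots.toFinset.card :=
      Finset.card_erase_add_one hx₀
    have h4 := hpos x₀ hx₀
    have h5 : m * A.roots.toFinset.card = (A.roots.toFinset.erase x₀).card * m + m := by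
      rw [← h3]; ring
    omega
  · have h2 : A.roots.toFinset.card * m ≤ ∑ x ∈ A.roots.toFinset, A.rootMultiplicity x := by
      rw [← smul_eq_mul]
      exact Finset.card_nsmul_le_sum _ _ _ fun x hx => hge x hx (fun h => hx₀ (h ▸ hx))
    have h5 : m * A.roots.toFinset.card = A.roots.toFinset.card * m := mul_comm _ _
    omega

/-- `∑ (e_x - 1) ≤ deg R'` over two distinct fibres of `R`. -/
theorem natDegree_sub_card_add_le [IsAlgClosed K] [DecidableEq K] (R : K[X])
    (hR' : derivative R ≠ 0) {a b : K} (hab : a ≠ b) :
    ((R - C a).natDegree - (R - C a).roots.toFinset.card) +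
      ((R - C b).natDegree - (R - C b).roots.toFinset.card) ≤ (derivative R).natDegree := by
  have key : ∀ c : K, (R - C c).natDegree - (R - C c).roots.toFinset.card ≤
      ∑ x ∈ (R - C c).roots.toFinset, (derivative R).rootMultiplicity x := by
    intro c
    have hne : R - C c ≠ 0 := by
      intro h0
      apply hR'
      have : R = C c := sub_eq_zero.mp h0
      rw [this, derivative_C]
    have hdeg : (R - C c).natDegree = ∑ x ∈ (R - C c).roots.toFinset,
        (R - C c).rootMultiplicity x := by
      rw [← splits_iff_card_roots.mp (IsAlgClosed.splits (R - C c)),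
        ← Multiset.toFinset_sum_count_eq]
      exact Finset.sum_congr rfl fun x _ => count_roots _
    have hd : derivative (R - C c) = derivative R := by simp
    have h1 : ∀ x ∈ (R - C c).roots.toFinset,
        (R - C c).rootMultiplicity x ≤ (derivative R).rootMultiplicity x + 1 := by
      intro x _
      have := rootMultiplicity_sub_one_le_derivative_rootMultiplicity_of_ne_zero (R - C c) x
        (by rw [hd]; exact hR')
      rw [hd] at this
      omega
    have h2 : ∑ x ∈ (R - C c).roots.toFinset, (R - C c).rootMultiplicity x ≤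
        ∑ x ∈ (R - C c).roots.toFinset, ((derivative R).rootMultiplicity x + 1) :=
      Finset.sum_le_sum h1
    rw [Finset.sum_add_distrib, Finset.sum_const, smul_eq_mul, mul_one] at h2
    omega
  have hdisj : Disjoint (R - C a).roots.toFinset (R - C b).roots.toFinset := by
    rw [Finset.disjoint_left]
    intro x hxa hxb
    have h1 := isRoot_of_mem_roots (Multiset.mem_toFinset.mp hxa)
    have h2 := isRoot_of_mem_roots (Multiset.mem_toFinset.mp hxb)
    simp only [IsRoot.def, eval_sub, eval_C, sub_eq_zero] at h1 h2
    exact hab (h1.symm.trans h2)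
  have hsum : ∑ x ∈ (R - C a).roots.toFinset ∪ (R - C b).roots.toFinset,
      (derivative R).rootMultiplicity x ≤ (derivative R).natDegree := by
    calc ∑ x ∈ (R - C a).roots.toFinset ∪ (R - C b).roots.toFinset,
          (derivative R).rootMultiplicity x
        = ∑ x ∈ (R - C a).roots.toFinset ∪ (R - C b).roots.toFinset,
          (derivative R).roots.count x :=
            Finset.sum_congr rfl fun x _ => (count_roots _).symm
      _ ≤ Multiset.card (derivative R).roots := sum_count_le_card' _ _
      _ ≤ (derivative R).natDegree := card_roots' _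
  rw [Finset.sum_union hdisj] at hsum
  have ha := key a
  have hb := key b
  omega

/-- The root count, over an algebraically closed field. -/
theorem no_cover_of_isAlgClosed [IsAlgClosed K] (a b : K) (hab : a ≠ b) (R C₀ : K[X]) {p : ℕ}
    (hp : 2 ≤ p) (hdeg : R.natDegree = p) (hR' : derivative R ≠ 0) (c : K) (hc : c ≠ 0)
    (h : derivative R ^ 6 * ((X - C a) ^ 4 * (X - C b) ^ 3) ^ (p + 1) =
      C c * C₀ ^ 6 * (X - C (R.eval a)) ^ 4 * (X - C (R.eval b)) ^ 3 *
        ((R - C a) ^ 4 * (R - C b) ^ 3)) : False := by
  classical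
  have hXa : ∀ y : K, (X - C y : K[X]) ≠ 0 := fun y => X_sub_C_ne_zero y
  have hRc : ∀ y : K, R - C y ≠ 0 := by
    intro y h0
    apply hR'
    have : R = C y := sub_eq_zero.mp h0
    rw [this, derivative_C]
  have hdegc : ∀ y : K, (R - C y).natDegree = p := by
    intro y
    rw [natDegree_sub_C, hdeg]
  have hLHS : derivative R ^ 6 * ((X - C a) ^ 4 * (X - C b) ^ 3) ^ (p + 1) ≠ 0 :=
    mul_ne_zero (pow_ne_zero _ hR')
      (pow_ne_zero _ (mul_ne_zero (pow_ne_zero _ (hXa a)) (pow_ne_zero _ (hXa b))))
  have hC₀ : C₀ ≠ 0 := by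
    rintro rfl
    apply hLHS
    rw [h]
    simp
  have hCc : (C c : K[X]) ≠ 0 := C_ne_zero.mpr hc
  -- root multiplicities of both sides at an arbitrary point
  have hmult : ∀ x : K,
      6 * (derivative R).rootMultiplicity x +
        (p + 1) * (4 * (if x = a then 1 else 0) + 3 * (if x = b then 1 else 0)) =
      6 * C₀.rootMultiplicity x + 4 * (if x = R.eval a then 1 else 0) +
        3 * (if x = R.eval b then 1 else 0) +
        (4 * (R - C a).rootMultiplicity x + 3 * (R - C b).rootMultiplicity x) := by
    intro x
    have h1 := congrArg (rootMultiplicity x) h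
    rw [rootMultiplicity_mul hLHS, rootMultiplicity_pow' hR',
      rootMultiplicity_pow' (mul_ne_zero (pow_ne_zero _ (hXa a)) (pow_ne_zero _ (hXa b))),
      rootMultiplicity_mul (mul_ne_zero (pow_ne_zero _ (hXa a)) (pow_ne_zero _ (hXa b))),
      rootMultiplicity_pow' (hXa a), rootMultiplicity_pow' (hXa b),
      rootMultiplicity_X_sub_C, rootMultiplicity_X_sub_C] at h1
    have hR1 : (R - C a) ^ 4 * (R - C b) ^ 3 ≠ 0 :=
      mul_ne_zero (pow_ne_zero _ (hRc a)) (pow_ne_zero _ (hRc b))
    have hR2 : C c * C₀ ^ 6 ≠ 0 := mul_ne_zero hCc (pow_ne_zero _ hC₀)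
    have hR3 : C c * C₀ ^ 6 * (X - C (R.eval a)) ^ 4 ≠ 0 :=
      mul_ne_zero hR2 (pow_ne_zero _ (hXa _))
    have hR4 : C c * C₀ ^ 6 * (X - C (R.eval a)) ^ 4 * (X - C (R.eval b)) ^ 3 ≠ 0 :=
      mul_ne_zero hR3 (pow_ne_zero _ (hXa _))
    rw [rootMultiplicity_mul (mul_ne_zero hR4 hR1), rootMultiplicity_mul hR4,
      rootMultiplicity_mul hR3, rootMultiplicity_mul hR2, rootMultiplicity_C,
      rootMultiplicity_pow' hC₀, rootMultiplicity_pow' (hXa _), rootMultiplicity_pow' (hXa _),
      rootMultiplicity_X_sub_C, rootMultiplicity_X_sub_C, rootMultiplicity_mul hR1,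
      rootMultiplicity_pow' (hRc a), rootMultiplicity_pow' (hRc b)] at h1
    omega
  have hroot : ∀ (y x : K), (R - C y).IsRoot x ↔ R.eval x = y := by
    intro y x
    simp [IsRoot.def, sub_eq_zero]
  -- the fibre over `a`: all multiplicities divisible by 3 except at one point
  have hA : 3 * (R - C a).roots.toFinset.card ≤ p + 2 := by
    have := mul_card_roots_le (R - C a) 3 (by norm_num) (if R.eval a = a then a else R.eval a)
      (fun x hx hne => by
        have hxa : R.eval x = a := (hroot a x).mp hx
        have hxb : ¬ (R - C b).IsRoot x := by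
          rw [hroot b x, hxa]; exact hab
        have h1 := hmult x
        rw [rootMultiplicity_eq_zero hxb] at h1
        have hx_ne_a : x ≠ a := by
          rintro rfl
          rw [if_pos hxa] at hne
          exact hne rfl
        have hx_ne_Ra : x ≠ R.eval a := by
          intro hxR
          by_cases hRa : R.eval a = a
          · exact hx_ne_a (hxR.trans hRa)
          · rw [if_neg hRa] at hne
            exact hne hxR
        rw [if_neg hx_ne_a, if_neg hx_ne_Ra] at h1
        split_ifs at h1 <;> omega)
    rw [hdegc a] at this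
    omega
  -- the fibre over `b`: all multiplicities even except at one point
  have hB : 2 * (R - C b).roots.toFinset.card ≤ p + 1 := by
    have := mul_card_roots_le (R - C b) 2 (by norm_num) (if R.eval b = b then b else R.eval b)
      (fun x hx hne => by
        have hxb : R.eval x = b := (hroot b x).mp hx
        have hxa : ¬ (R - C a).IsRoot x := by
          rw [hroot a x, hxb]; exact fun h => hab h.symm
        have h1 := hmult x
        rw [rootMultiplicity_eq_zero hxa] at h1
        have hx_ne_b : x ≠ b := by
          rintro rfl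
          rw [if_pos hxb] at hne
          exact hne rfl
        have hx_ne_Rb : x ≠ R.eval b := by
          intro hxR
          by_cases hRb : R.eval b = b
          · exact hx_ne_b (hxR.trans hRb)
          · rw [if_neg hRb] at hne
            exact hne hxR
        rw [if_neg hx_ne_b, if_neg hx_ne_Rb] at h1
        split_ifs at h1 <;> omega)
    rw [hdegc b] at this
    omega
  have hD := natDegree_sub_card_add_le R hR' hab
  rw [hdegc a, hdegc b] at hD
  have hdR : (derivative R).natDegree ≤ p - 1 := by
    rw [← hdeg]; exact natDegree_derivative_le R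
  omega

/-- **The root count.**  No polynomial `R` of degree `p ≥ 2` with `R' ≠ 0` satisfies the
orbifold-cover identity for two distinct branch points `a ≠ b`. -/
theorem no_cover (a b : K) (hab : a ≠ b) (R C₀ : K[X]) {p : ℕ}
    (hp : 2 ≤ p) (hdeg : R.natDegree = p) (hR' : derivative R ≠ 0) (c : K) (hc : c ≠ 0)
    (h : derivative R ^ 6 * ((X - C a) ^ 4 * (X - C b) ^ 3) ^ (p + 1) =
      C c * C₀ ^ 6 * (X - C (R.eval a)) ^ 4 * (X - C (R.eval b)) ^ 3 *
        ((R - C a) ^ 4 * (R - C b) ^ 3)) : False := by
  let φ := algebraMap K (AlgebraicClosure K)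
  have hφ : Function.Injective φ := φ.injective
  refine no_cover_of_isAlgClosed (φ a) (φ b) (fun h => hab (hφ h)) (R.map φ) (C₀.map φ) hp
    (by rw [natDegree_map]; exact hdeg)
    (by rw [derivative_map]; exact (Polynomial.map_ne_zero_iff hφ).mpr hR')
    (φ c) (by simpa using hc) ?_
  have h1 := congrArg (Polynomial.map φ) h
  simpa [Polynomial.map_mul, Polynomial.map_pow, Polynomial.map_sub, derivative_map,
    eval_map_apply] using h1

end Fermat.Agent.S28.A0Count
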