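import Mathlib
import Fermat.Prelude.Def_ModularCurve_X0

/-!
# S28, piece ETA-NORM: the norm of the `η`-product under the twists `x ↦ ζ^b x`

For a commutative domain `R` with a primitive `p`-th root of unity `ζ` (`p` prime), and
`E = ∏ (1 - xⁿ)`, `Δ = x E^24`:

* `eta_norm`   : `∏_{b<p} E(ζ^b x) * E(x^(p²)) = E(x^p)^(p+1)`;
* `delta_norm` : `∏_{b<p} Δ(ζ^b x) * Δ(x^(p²)) = (-1)^(p+1) Δ(x^p)^(p+1)`.

Vocabulary: `PowerSeries.rescale a` is `x ↦ a x`, `PowerSeries.expand n hn` is `x ↦ x^n`.
-/

set_option autoImplicit false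

open PowerSeries
open scoped PowerSeries.WithPiTopology

noncomputable section

namespace Fermat.Agent.S28.EtaNorm

/-- The `η`-product `∏ (1 - xⁿ)` with coefficients in `R` (image of the Prelude's `etaProd`). -/
def etaR (R : Type*) [CommRing R] : PowerSeries R :=
  ModularCurve.etaProd.map (Int.castRingHom R)

/-- `Δ = x ∏ (1 - xⁿ)^24` with coefficients in `R`. -/
def delR (R : Type*) [CommRing R] : PowerSeries R :=
  PowerSeries.X * etaR R ^ 24

section Top

variable {R : Type*} [CommRing R] [TopologicalSpace R]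

omit [CommRing R] in
/-- A map between power series rings is continuous as soon as all its coefficients are. -/
theorem continuous_of_coeff {S : Type*} [CommRing S] [TopologicalSpace S]
    {g : PowerSeries R → PowerSeries S}
    (h : ∀ d : ℕ, Continuous fun f => PowerSeries.coeff d (g f)) : Continuous g := by
  rw [continuous_iff_continuousAt]
  intro f
  rw [ContinuousAt, PowerSeries.WithPiTopology.tendsto_iff_coeff_tendsto]
  intro d
  exact (h d).tendsto f

theorem continuous_rescale [IsTopologicalRing R] (a : R) :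
    Continuous (PowerSeries.rescale a : PowerSeries R → PowerSeries R) := by
  refine continuous_of_coeff fun d => ?_
  simp only [PowerSeries.coeff_rescale]
  exact continuous_const.mul (PowerSeries.WithPiTopology.continuous_coeff R d)

theorem continuous_expand (n : ℕ) (hn : n ≠ 0) :
    Continuous (PowerSeries.expand n hn : PowerSeries R → PowerSeries R) := by
  refine continuous_of_coeff fun d => ?_
  simp only [PowerSeries.coeff_expand]
  split_ifs with h
  · exact PowerSeries.WithPiTopology.continuous_coeff R (d / n)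
  · exact continuous_const

theorem continuous_map_intCast :
    Continuous (PowerSeries.map (Int.castRingHom R) : PowerSeries ℤ → PowerSeries R) := by
  refine continuous_of_coeff fun d => ?_
  simp only [PowerSeries.coeff_map]
  exact continuous_of_discreteTopology.comp (PowerSeries.WithPiTopology.continuous_coeff ℤ d)

end Top

section Alg

variable {R : Type*} [CommRing R]

/-- `∏_{b<p} (1 - μ^b Y) = 1 - Y^p` for a primitive `p`-th root of unity `μ`. -/
theorem prod_one_sub_mul [IsDomain R] {p : ℕ} (hp : 0 < p) {μ : R} (hμ : IsPrimitiveRoot μ p)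
    (Y : PowerSeries R) :
    ∏ b ∈ Finset.range p, (1 - PowerSeries.C (μ ^ b) * Y) = 1 - Y ^ p := by
  have hμ' : IsPrimitiveRoot (PowerSeries.C μ) p :=
    hμ.map_of_injective PowerSeries.C_injective
  have h := X_pow_sub_C_eq_prod hμ' hp (rfl : Y ^ p = Y ^ p)
  have h2 := congrArg (Polynomial.eval 1) h
  simp only [Polynomial.eval_sub, Polynomial.eval_pow, Polynomial.eval_X, one_pow,
    Polynomial.eval_C, Polynomial.eval_prod] at h2
  rw [h2]
  simp only [map_pow]

theorem rescale_one_sub_X_pow (a : R) (n : ℕ) :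
    PowerSeries.rescale a (1 - (PowerSeries.X : PowerSeries R) ^ (n + 1))
      = 1 - PowerSeries.C (a ^ (n + 1)) * PowerSeries.X ^ (n + 1) := by
  rw [map_sub, map_one, map_pow, PowerSeries.rescale_X, mul_pow, map_pow]

theorem expand_one_sub_X_pow (m : ℕ) (hm : m ≠ 0) (n : ℕ) :
    PowerSeries.expand m hm (1 - (PowerSeries.X : PowerSeries R) ^ (n + 1))
      = 1 - PowerSeries.X ^ (m * (n + 1)) := by
  rw [map_sub, map_one, map_pow, PowerSeries.expand_X, pow_mul]

/-- The twisted norm of a single factor. -/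
theorem prod_rescale_factor [IsDomain R] {p : ℕ} (hp : p.Prime) {ζ : R}
    (hζ : IsPrimitiveRoot ζ p) (n : ℕ) :
    ∏ b ∈ Finset.range p,
        PowerSeries.rescale (ζ ^ b) (1 - (PowerSeries.X : PowerSeries R) ^ (n + 1))
      = if p ∣ n + 1 then (1 - (PowerSeries.X : PowerSeries R) ^ (n + 1)) ^ p
        else 1 - PowerSeries.X ^ (p * (n + 1)) := by
  simp only [rescale_one_sub_X_pow]
  have hpow : ∀ b : ℕ, (ζ ^ b) ^ (n + 1) = (ζ ^ (n + 1)) ^ b := fun b => by
    rw [← pow_mul, ← pow_mul, mul_comm]
  simp only [hpow]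
  split_ifs with hdvd
  · have h1 : ζ ^ (n + 1) = 1 := (hζ.pow_eq_one_iff_dvd (n + 1)).mpr hdvd
    simp [h1]
  · have hcop : (n + 1).Coprime p := ((Nat.Prime.coprime_iff_not_dvd hp).mpr hdvd).symm
    rw [prod_one_sub_mul hp.pos (hζ.pow_of_coprime (n + 1) hcop), ← pow_mul, mul_comm]

end Alg

section Discrete

variable {R : Type*} [CommRing R] [TopologicalSpace R] [DiscreteTopology R]

theorem etaR_eq_tprod :
    etaR R = ∏' n : ℕ, (1 - (PowerSeries.X : PowerSeries R) ^ (n + 1)) := by
  unfold etaR ModularCurve.etaProd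
  rw [(PowerSeries.WithPiTopology.multipliable_one_sub_X_pow ℤ).map_tprod _
    continuous_map_intCast]
  simp

/-- Core identity, for the discrete topology on `R`. -/
theorem eta_norm_aux [IsDomain R] {p : ℕ} (hp : p.Prime) {ζ : R} (hζ : IsPrimitiveRoot ζ p) :
    (∏ b ∈ Finset.range p, PowerSeries.rescale (ζ ^ b) (etaR R))
        * (etaR R).expand (p ^ 2) (pow_ne_zero 2 hp.ne_zero)
      = ((etaR R).expand p hp.ne_zero) ^ (p + 1) := by
  classical
  have hp0 : p ≠ 0 := hp.ne_zero
  have hp1 : 1 ≤ p := hp.pos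
  -- the families
  set A : ℕ → PowerSeries R := fun n => 1 - (PowerSeries.X : PowerSeries R) ^ (n + 1) with hA
  set B : ℕ → PowerSeries R := fun n =>
    if p ∣ n + 1 then (1 - (PowerSeries.X : PowerSeries R) ^ (n + 1)) ^ p
    else 1 - PowerSeries.X ^ (p * (n + 1)) with hB
  set D : ℕ → PowerSeries R := fun n => 1 - (PowerSeries.X : PowerSeries R) ^ (p * (n + 1))
    with hD
  set F : ℕ → PowerSeries R := fun n => 1 - (PowerSeries.X : PowerSeries R) ^ (p ^ 2 * (n + 1))
    with hF
  set H : ℕ → PowerSeries R := fun n =>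
    if p ∣ n + 1 then 1 - (PowerSeries.X : PowerSeries R) ^ (p * (n + 1)) else 1 with hH
  set G : ℕ → PowerSeries R := fun n =>
    if p ∣ n + 1 then (1 - (PowerSeries.X : PowerSeries R) ^ (n + 1)) ^ p else 1 with hG
  set g : ℕ → ℕ := fun k => p * k + (p - 1) with hg
  have hg1 : ∀ k, g k + 1 = p * (k + 1) := fun k => by simp only [hg]; rw [mul_add, mul_one]; omega
  have hginj : Function.Injective g := fun a b hab => by
    have h1 : p * (a + 1) = p * (b + 1) := by rw [← hg1, ← hg1, hab]
    have := Nat.eq_of_mul_eq_mul_left hp.pos h1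
    omega
  have hrange : ∀ n, p ∣ n + 1 → n ∈ Set.range g := fun n hn => by
    obtain ⟨c, hc⟩ := hn
    have hc1 : 1 ≤ c := by
      rcases Nat.eq_zero_or_pos c with h0 | h0
      · rw [h0, mul_zero] at hc; omega
      · exact h0
    refine ⟨c - 1, ?_⟩
    have : g (c - 1) + 1 = n + 1 := by
      rw [hg1, hc, Nat.sub_add_cancel hc1]
    omega
  -- multipliability
  have mA : Multipliable A := PowerSeries.WithPiTopology.multipliable_one_sub_X_pow R
  have mD : Multipliable D := by
    have := mA.map (PowerSeries.expand p hp0 : PowerSeries R →ₐ[R] PowerSeries R)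
      (continuous_expand p hp0)
    refine this.congr fun n => ?_
    simp only [Function.comp_apply, hA, hD, expand_one_sub_X_pow]
  have mF : Multipliable F := by
    have := mA.map
      (PowerSeries.expand (p ^ 2) (pow_ne_zero 2 hp0) : PowerSeries R →ₐ[R] PowerSeries R)
      (continuous_expand (p ^ 2) (pow_ne_zero 2 hp0))
    refine this.congr fun n => ?_
    simp only [Function.comp_apply, hA, hF, expand_one_sub_X_pow]
  have mB : Multipliable B := by
    have : Multipliable fun n => ∏ b ∈ Finset.range p, PowerSeries.rescale (ζ ^ b) (A n) :=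
      multipliable_prod fun b _ => mA.map (PowerSeries.rescale (ζ ^ b)) (continuous_rescale _)
    refine this.congr fun n => ?_
    simp only [hA, hB, prod_rescale_factor hp hζ]
  have hHg : ∀ k, H (g k) = F k := fun k => by
    simp only [hH, hF, hg1, dvd_mul_right, if_true]
    rw [← mul_assoc, ← sq]
  have hGg : ∀ k, G (g k) = D k ^ p := fun k => by
    simp only [hG, hD, hg1, dvd_mul_right, if_true]
  have mH : Multipliable H := by
    refine (hginj.multipliable_iff (f := H) ?_).mp ?_
    · intro n hn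
      simp only [hH]
      rw [if_neg fun hdvd => hn (hrange n hdvd)]
    · exact mF.congr fun k => (hHg k).symm
  have mG : Multipliable G := by
    refine (hginj.multipliable_iff (f := G) ?_).mp ?_
    · intro n hn
      simp only [hG]
      rw [if_neg fun hdvd => hn (hrange n hdvd)]
    · exact (mD.pow p).congr fun k => (hGg k).symm
  -- values of the infinite products
  have eA : etaR R = ∏' n, A n := etaR_eq_tprod
  have eB : ∏ b ∈ Finset.range p, PowerSeries.rescale (ζ ^ b) (etaR R) = ∏' n, B n := by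
    rw [eA]
    have h1 : ∀ b ∈ Finset.range p, PowerSeries.rescale (ζ ^ b) (∏' n, A n)
        = ∏' n, PowerSeries.rescale (ζ ^ b) (A n) := fun b _ =>
      mA.map_tprod (PowerSeries.rescale (ζ ^ b)) (continuous_rescale _)
    have h2 : ∏' n, ∏ b ∈ Finset.range p, PowerSeries.rescale (ζ ^ b) (A n)
        = ∏ b ∈ Finset.range p, ∏' n, PowerSeries.rescale (ζ ^ b) (A n) :=
      Multipliable.tprod_finsetProd (f := fun b n => PowerSeries.rescale (ζ ^ b) (A n))
        (fun b _ => mA.map (PowerSeries.rescale (ζ ^ b)) (continuous_rescale _))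
    rw [Finset.prod_congr rfl h1, ← h2]
    refine tprod_congr fun n => ?_
    simp only [hA, hB, prod_rescale_factor hp hζ]
  have eD : (etaR R).expand p hp0 = ∏' n, D n := by
    rw [eA]
    have := mA.map_tprod (PowerSeries.expand p hp0 : PowerSeries R →ₐ[R] PowerSeries R)
      (continuous_expand p hp0)
    rw [this]
    refine tprod_congr fun n => ?_
    simp only [hA, hD, expand_one_sub_X_pow]
  have eF : (etaR R).expand (p ^ 2) (pow_ne_zero 2 hp0) = ∏' n, F n := by
    rw [eA]
    have := mA.map_tprod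
      (PowerSeries.expand (p ^ 2) (pow_ne_zero 2 hp0) : PowerSeries R →ₐ[R] PowerSeries R)
      (continuous_expand (p ^ 2) (pow_ne_zero 2 hp0))
    rw [this]
    refine tprod_congr fun n => ?_
    simp only [hA, hF, expand_one_sub_X_pow]
  have eH : ∏' n, H n = ∏' k, F k := by
    rw [← hginj.tprod_eq (f := H)]
    · exact tprod_congr hHg
    · intro n hn
      by_contra hcon
      apply hn
      simp only [hH]
      rw [if_neg fun hdvd => hcon (hrange n hdvd)]
  have eG : ∏' n, G n = (∏' k, D k) ^ p := by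
    rw [← hginj.tprod_eq (f := G), ← mD.tprod_pow]
    · exact tprod_congr hGg
    · intro n hn
      by_contra hcon
      apply hn
      simp only [hG]
      rw [if_neg fun hdvd => hcon (hrange n hdvd)]
  have hpt : ∀ n, B n * H n = G n * D n := fun n => by
    simp only [hB, hH, hG, hD]
    split_ifs with hdvd
    · rfl
    · rw [mul_one, one_mul]
  rw [eB, eD, eF, ← eH, ← mB.tprod_mul mH, tprod_congr hpt, mG.tprod_mul mD, eG, pow_succ]

end Discrete

section Main

variable {R : Type*} [CommRing R] [IsDomain R]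

/-- **ETA-NORM**: `∏_{b<p} E(ζ^b x) * E(x^(p²)) = E(x^p)^(p+1)` for `E = ∏ (1 - xⁿ)`. -/
theorem eta_norm {p : ℕ} (hp : p.Prime) {ζ : R} (hζ : IsPrimitiveRoot ζ p) :
    (∏ b ∈ Finset.range p, PowerSeries.rescale (ζ ^ b) (etaR R))
        * (etaR R).expand (p ^ 2) (pow_ne_zero 2 hp.ne_zero)
      = ((etaR R).expand p hp.ne_zero) ^ (p + 1) := by
  let _ : TopologicalSpace R := ⊥
  have _ : DiscreteTopology R := ⟨rfl⟩
  exact eta_norm_aux hp hζ

/-- The product of all powers `ζ^b`, `b < p`, of a primitive `p`-th root of unity. -/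
theorem prod_pow_primitiveRoot {p : ℕ} (hp : 0 < p) {ζ : R} (hζ : IsPrimitiveRoot ζ p) :
    ∏ b ∈ Finset.range p, ζ ^ b = (-1) ^ (p + 1) := by
  have h := X_pow_sub_C_eq_prod hζ hp (one_pow p : (1 : R) ^ p = 1)
  have h2 := congrArg (Polynomial.eval 0) h
  simp only [Polynomial.eval_sub, Polynomial.eval_pow, Polynomial.eval_X, Polynomial.eval_C,
    Polynomial.eval_prod, mul_one, zero_sub, zero_pow hp.ne', Finset.prod_neg,
    Finset.card_range] at h2
  have h3 : (-1 : R) ^ p * ((-1) ^ p * ∏ b ∈ Finset.range p, ζ ^ b) = (-1) ^ (p + 1) := by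
    rw [← h2, pow_succ]
  rw [← h3, ← mul_assoc, ← pow_add, ← two_mul, pow_mul, neg_one_sq, one_pow, one_mul]

/-- **DELTA-NORM**: `∏_{b<p} Δ(ζ^b x) * Δ(x^(p²)) = (-1)^(p+1) Δ(x^p)^(p+1)`. -/
theorem delta_norm {p : ℕ} (hp : p.Prime) {ζ : R} (hζ : IsPrimitiveRoot ζ p) :
    (∏ b ∈ Finset.range p, PowerSeries.rescale (ζ ^ b) (delR R))
        * (delR R).expand (p ^ 2) (pow_ne_zero 2 hp.ne_zero)
      = PowerSeries.C ((-1 : R) ^ (p + 1)) * ((delR R).expand p hp.ne_zero) ^ (p + 1) := by
  have hE := eta_norm hp hζ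
  have h1 : ∏ b ∈ Finset.range p, PowerSeries.rescale (ζ ^ b) (delR R)
      = PowerSeries.C ((-1 : R) ^ (p + 1)) * PowerSeries.X ^ p
        * (∏ b ∈ Finset.range p, PowerSeries.rescale (ζ ^ b) (etaR R)) ^ 24 := by
    simp only [delR, map_mul, map_pow, PowerSeries.rescale_X, Finset.prod_mul_distrib,
      Finset.prod_pow, Finset.prod_const, Finset.card_range]
    have hC : ∏ x ∈ Finset.range p, (PowerSeries.C ζ : PowerSeries R) ^ x
        = PowerSeries.C (-1) ^ (p + 1) := by
      rw [← map_pow, ← prod_pow_primitiveRoot hp.pos hζ, map_prod]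
      simp only [map_pow]
    rw [hC]
  have h2 : (delR R).expand (p ^ 2) (pow_ne_zero 2 hp.ne_zero)
      = PowerSeries.X ^ (p ^ 2) * ((etaR R).expand (p ^ 2) (pow_ne_zero 2 hp.ne_zero)) ^ 24 := by
    simp only [delR, map_mul, map_pow, PowerSeries.expand_X]
  have h3 : (delR R).expand p hp.ne_zero
      = PowerSeries.X ^ p * ((etaR R).expand p hp.ne_zero) ^ 24 := by
    simp only [delR, map_mul, map_pow, PowerSeries.expand_X]
  rw [h1, h2, h3, mul_pow, ← pow_mul, ← pow_mul, mul_comm 24 (p + 1), pow_mul _ (p + 1) 24, ← hE]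
  ring

/-- `delR` in terms of the Prelude's `dedekindEtaUnit`. -/
theorem delR_eq_map_dedekindEtaUnit (R : Type*) [CommRing R] :
    delR R = PowerSeries.X * ModularCurve.dedekindEtaUnit.map (Int.castRingHom R) := by
  rw [delR, etaR, ModularCurve.dedekindEtaUnit, map_pow]

/-- `delta_norm` with the sign written as an element of `R⟦X⟧`. -/
theorem delta_norm' {p : ℕ} (hp : p.Prime) {ζ : R} (hζ : IsPrimitiveRoot ζ p) :
    (∏ b ∈ Finset.range p, PowerSeries.rescale (ζ ^ b) (delR R))
        * (delR R).expand (p ^ 2) (pow_ne_zero 2 hp.ne_zero)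
      = (-1) ^ (p + 1) * ((delR R).expand p hp.ne_zero) ^ (p + 1) := by
  rw [delta_norm hp hζ, map_pow, map_neg, map_one]

end Main

end Fermat.Agent.S28.EtaNorm
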