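import Mathlib
import Fermat.Prelude.Def_ModularCurve_JqCoeff
import Fermat.Agent.S28.EtaNorm

/-!
# S28, piece ETA-NORM, Laurent form

Bridges between `PowerSeries.expand` / `PowerSeries.rescale` and the Prelude's `qExpand` / any
coefficientwise twist on `LaurentSeries`, and the norm identity `(β)`

  `∏_{b<p} Δ(ζ^b x) * Δ(x^(p²)) = (-1)^(p+1) Δ(x^p)^(p+1)`

in `LaurentSeries R`, for `DelL R = x ∏ (1 - xⁿ)^24`.
-/

set_option autoImplicit false

open PowerSeries

noncomputable section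

namespace Fermat.Agent.S28.EtaNormL

open Fermat.Agent.S28.EtaNorm

section Bridge

variable {R : Type*} [CommRing R]

/-- `x ↦ x^n` on power series is the Prelude's `qExpand` on Laurent series. -/
theorem ofPowerSeries_expand (n : ℕ) [NeZero n] (f : PowerSeries R) :
    HahnSeries.ofPowerSeries ℤ R (PowerSeries.expand n (NeZero.ne n) f)
      = ModularCurve.qExpand R n (HahnSeries.ofPowerSeries ℤ R f) := by
  have hn : (0 : ℤ) < (n : ℤ) := by exact_mod_cast Nat.pos_of_ne_zero (NeZero.ne n)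
  ext k
  by_cases hk : (n : ℤ) ∣ k
  · obtain ⟨m, rfl⟩ := hk
    rw [ModularCurve.qExpand_coeff_mul]
    rcases le_or_gt 0 m with hm | hm
    · lift m to ℕ using hm
      rw [show (n : ℤ) * (m : ℤ) = ((n * m : ℕ) : ℤ) by push_cast; ring,
        HahnSeries.ofPowerSeries_apply_coeff, HahnSeries.ofPowerSeries_apply_coeff,
        PowerSeries.coeff_expand_mul]
    · rw [ModularCurve.ofPowerSeries_coeff_of_neg _ hm,
        ModularCurve.ofPowerSeries_coeff_of_neg _ (mul_neg_of_pos_of_neg hn hm)]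
  · rw [ModularCurve.qExpand_coeff_of_not_dvd n _ hk]
    rcases le_or_gt 0 k with hk0 | hk0
    · lift k to ℕ using hk0
      rw [HahnSeries.ofPowerSeries_apply_coeff, PowerSeries.coeff_expand_of_not_dvd]
      exact fun h => hk (Int.natCast_dvd_natCast.mpr h)
    · exact ModularCurve.ofPowerSeries_coeff_of_neg _ hk0

/-- A coefficientwise twist (units form: `coeff k ↦ ↑(ξ ^ k) * coeff k`) is `rescale` on power
series. -/
theorem twist_ofPowerSeries_of_units (ξ : Rˣ) (τ : LaurentSeries R → LaurentSeries R)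
    (hτ : ∀ (f : LaurentSeries R) (k : ℤ), (τ f).coeff k = ((ξ ^ k : Rˣ) : R) * f.coeff k)
    (f : PowerSeries R) :
    τ (HahnSeries.ofPowerSeries ℤ R f)
      = HahnSeries.ofPowerSeries ℤ R (PowerSeries.rescale (ξ : R) f) := by
  ext k
  rw [hτ]
  rcases le_or_gt 0 k with hk | hk
  · lift k to ℕ using hk
    rw [HahnSeries.ofPowerSeries_apply_coeff, HahnSeries.ofPowerSeries_apply_coeff,
      PowerSeries.coeff_rescale, zpow_natCast, Units.val_pow_eq_pow_val]
  · rw [ModularCurve.ofPowerSeries_coeff_of_neg _ hk, ModularCurve.ofPowerSeries_coeff_of_neg _ hk,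
      mul_zero]

end Bridge

section BridgeField

variable {κ : Type*} [Field κ]

/-- A coefficientwise twist (field form: `coeff k ↦ ζ ^ k * coeff k`, `zpow` in `κ`) is `rescale`
on power series. -/
theorem twist_ofPowerSeries_of_field (ζ : κ) (τ : LaurentSeries κ → LaurentSeries κ)
    (hτ : ∀ (f : LaurentSeries κ) (k : ℤ), (τ f).coeff k = ζ ^ k * f.coeff k)
    (f : PowerSeries κ) :
    τ (HahnSeries.ofPowerSeries ℤ κ f)
      = HahnSeries.ofPowerSeries ℤ κ (PowerSeries.rescale ζ f) := by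
  ext k
  rw [hτ]
  rcases le_or_gt 0 k with hk | hk
  · lift k to ℕ using hk
    rw [HahnSeries.ofPowerSeries_apply_coeff, HahnSeries.ofPowerSeries_apply_coeff,
      PowerSeries.coeff_rescale, zpow_natCast]
  · rw [ModularCurve.ofPowerSeries_coeff_of_neg _ hk, ModularCurve.ofPowerSeries_coeff_of_neg _ hk,
      mul_zero]

end BridgeField

section Del

variable (R : Type*) [CommRing R]

/-- `Δ = x ∏ (1 - xⁿ)^24` as a Laurent series over `R`. -/
def DelL : LaurentSeries R := HahnSeries.ofPowerSeries ℤ R (delR R)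

theorem DelL_def : DelL R = HahnSeries.ofPowerSeries ℤ R (delR R) := rfl

/-- `Δ = x * (dedekindEtaUnit mod R)`. -/
theorem DelL_eq_single_mul :
    DelL R = HahnSeries.single (1 : ℤ) (1 : R)
      * HahnSeries.ofPowerSeries ℤ R (ModularCurve.dedekindEtaUnit.map (Int.castRingHom R)) := by
  rw [DelL, delR_eq_map_dedekindEtaUnit, map_mul, HahnSeries.ofPowerSeries_X]

/-- `j * Δ = E₄³`. -/
theorem jqModC_mul_DelL :
    ModularCurve.jqModC R * DelL R
      = HahnSeries.ofPowerSeries ℤ R ((ModularCurve.eisenstein4 ^ 3).map (Int.castRingHom R)) := by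
  have h1 : ModularCurve.jNum * ModularCurve.dedekindEtaUnit = ModularCurve.eisenstein4 ^ 3 := by
    rw [ModularCurve.jNum, mul_assoc, mul_comm ModularCurve.dedekindEtaUnitInv,
      ModularCurve.dedekindEtaUnit_mul_inv, mul_one]
  have h2 : HahnSeries.single (-1 : ℤ) (1 : R) * HahnSeries.single (1 : ℤ) (1 : R) = 1 := by
    rw [HahnSeries.single_mul_single, neg_add_cancel, mul_one]
    rfl
  rw [ModularCurve.jqModC, DelL_eq_single_mul, ← h1, map_mul, map_mul]
  calc HahnSeries.single (-1 : ℤ) (1 : R)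
          * HahnSeries.ofPowerSeries ℤ R (ModularCurve.jNum.map (Int.castRingHom R))
        * (HahnSeries.single (1 : ℤ) (1 : R)
          * HahnSeries.ofPowerSeries ℤ R
              (ModularCurve.dedekindEtaUnit.map (Int.castRingHom R)))
      = (HahnSeries.single (-1 : ℤ) (1 : R) * HahnSeries.single (1 : ℤ) (1 : R))
          * (HahnSeries.ofPowerSeries ℤ R (ModularCurve.jNum.map (Int.castRingHom R))
            * HahnSeries.ofPowerSeries ℤ R
              (ModularCurve.dedekindEtaUnit.map (Int.castRingHom R))) := by ring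
    _ = _ := by rw [h2, one_mul]

/-- `E₄ ≡ 1` as soon as `240 = 0` in `R` (characteristics `2`, `3`, `5`). -/
theorem eisenstein4_map_eq_one (h : (240 : R) = 0) :
    ModularCurve.eisenstein4.map (Int.castRingHom R) = 1 := by
  ext n
  rw [PowerSeries.coeff_map, ModularCurve.eisenstein4, PowerSeries.coeff_mk, PowerSeries.coeff_one]
  split_ifs with hn
  · simp
  · rw [map_mul, show (Int.castRingHom R) 240 = (240 : R) by simp, h, zero_mul]

/-- `j * Δ = 1` as soon as `240 = 0` in `R`. -/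
theorem jqModC_mul_DelL_eq_one (h : (240 : R) = 0) : ModularCurve.jqModC R * DelL R = 1 := by
  rw [jqModC_mul_DelL, map_pow, eisenstein4_map_eq_one R h, one_pow, map_one]

end Del

section Norm

variable {R : Type*} [CommRing R] [IsDomain R]

/-- **(β), Laurent form, abstract twists**: `τ b` is any map acting on `Δ` as `x ↦ ζ^b x`. -/
theorem delta_norm_laurent {p : ℕ} [NeZero p] (hp : p.Prime) {ζ : R} (hζ : IsPrimitiveRoot ζ p)
    (τ : ℕ → LaurentSeries R → LaurentSeries R)
    (hτ : ∀ b ∈ Finset.range p,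
      τ b (DelL R) = HahnSeries.ofPowerSeries ℤ R (PowerSeries.rescale (ζ ^ b) (delR R))) :
    (∏ b ∈ Finset.range p, τ b (DelL R)) * ModularCurve.qExpand R (p ^ 2) (DelL R)
      = HahnSeries.C ((-1 : R) ^ (p + 1)) * ModularCurve.qExpand R p (DelL R) ^ (p + 1) := by
  rw [Finset.prod_congr rfl hτ, ← map_prod, DelL, ← ofPowerSeries_expand, ← ofPowerSeries_expand,
    ← map_mul, ← map_pow, ← HahnSeries.ofPowerSeries_C, ← map_mul]
  exact congrArg _ (delta_norm hp hζ)

/-- **(β), Laurent form, units law** (`(τ b f).coeff k = ↑((ζ ^ b) ^ k) * f.coeff k`). -/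
theorem delta_norm_laurent_units {p : ℕ} [NeZero p] (hp : p.Prime) {ζ : Rˣ}
    (hζ : IsPrimitiveRoot (ζ : R) p) (τ : ℕ → LaurentSeries R → LaurentSeries R)
    (hτ : ∀ (b : ℕ) (f : LaurentSeries R) (k : ℤ),
      (τ b f).coeff k = (((ζ ^ b) ^ k : Rˣ) : R) * f.coeff k) :
    (∏ b ∈ Finset.range p, τ b (DelL R)) * ModularCurve.qExpand R (p ^ 2) (DelL R)
      = HahnSeries.C ((-1 : R) ^ (p + 1)) * ModularCurve.qExpand R p (DelL R) ^ (p + 1) := by
  refine delta_norm_laurent hp hζ τ fun b _ => ?_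
  rw [DelL, twist_ofPowerSeries_of_units (ζ ^ b) (τ b) (hτ b), Units.val_pow_eq_pow_val]

end Norm

section NormField

variable {κ : Type*} [Field κ]

/-- **(β), Laurent form, field law** (`(τ b f).coeff k = (ζ ^ b) ^ k * f.coeff k`, `zpow` in
`κ`). -/
theorem delta_norm_laurent_field {p : ℕ} [NeZero p] (hp : p.Prime) {ζ : κ}
    (hζ : IsPrimitiveRoot ζ p) (τ : ℕ → LaurentSeries κ → LaurentSeries κ)
    (hτ : ∀ (b : ℕ) (f : LaurentSeries κ) (k : ℤ), (τ b f).coeff k = (ζ ^ b) ^ k * f.coeff k) :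
    (∏ b ∈ Finset.range p, τ b (DelL κ)) * ModularCurve.qExpand κ (p ^ 2) (DelL κ)
      = HahnSeries.C ((-1 : κ) ^ (p + 1)) * ModularCurve.qExpand κ p (DelL κ) ^ (p + 1) := by
  refine delta_norm_laurent hp hζ τ fun b _ => ?_
  rw [DelL, twist_ofPowerSeries_of_field (ζ ^ b) (τ b) (hτ b)]

/-- If `τ` twists by `ζ`, then `τ^[b]` twists by `ζ ^ b`. -/
theorem iterate_coeff (ζ : κ) (τ : LaurentSeries κ → LaurentSeries κ)
    (hτ : ∀ (f : LaurentSeries κ) (k : ℤ), (τ f).coeff k = ζ ^ k * f.coeff k)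
    (b : ℕ) (f : LaurentSeries κ) (k : ℤ) : (τ^[b] f).coeff k = (ζ ^ b) ^ k * f.coeff k := by
  induction b generalizing f with
  | zero => simp
  | succ b ih =>
    rw [Function.iterate_succ_apply, ih, hτ, pow_succ, mul_zpow, mul_assoc]

/-- **(β), Laurent form, iterates of one twist** `τ` with `(τ f).coeff k = ζ ^ k * f.coeff k`. -/
theorem delta_norm_laurent_iterate {p : ℕ} [NeZero p] (hp : p.Prime) {ζ : κ}
    (hζ : IsPrimitiveRoot ζ p) (τ : LaurentSeries κ → LaurentSeries κ)
    (hτ : ∀ (f : LaurentSeries κ) (k : ℤ), (τ f).coeff k = ζ ^ k * f.coeff k) :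
    (∏ b ∈ Finset.range p, τ^[b] (DelL κ)) * ModularCurve.qExpand κ (p ^ 2) (DelL κ)
      = HahnSeries.C ((-1 : κ) ^ (p + 1)) * ModularCurve.qExpand κ p (DelL κ) ^ (p + 1) :=
  delta_norm_laurent_field hp hζ (fun b => τ^[b]) (iterate_coeff ζ τ hτ)

end NormField

end Fermat.Agent.S28.EtaNormL
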