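/-
S28, piece CHAR0-THETA (helper18): the differential equation of the `j`-function,
`(θ j)⁶ = j⁴ (j - 1728)³ Δ` with `θ = q d/dq`, as an identity of formal power series over `ℤ`
between the Prelude's `jNum = q j` and `dedekindEtaUnit = Δ / q`:

  `(X * jNum' - jNum)⁶ = jNum⁴ * (jNum - 1728 X)³ * dedekindEtaUnit`.

Proof: `(D j) Δ` is a level one modular form of weight `14` with constant term `-1`, hence
`-E₄² E₆`; then `E₆² = E₄³ - 1728 Δ`.
-/
import Mathlib
import Fermat.Prelude.Def_ModularCurve_X0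
import Fermat.Agent.S23.QCalc
import Fermat.Agent.S23.JN
import Fermat.Agent.S23.LevelOne
import Fermat.Agent.S24.JqBridge

set_option autoImplicit false

noncomputable section

open UpperHalfPlane ModularForm EisensteinSeries Function Derivative
open scoped MatrixGroups ModularForm Manifold PowerSeries

namespace Fermat.Agent.S28.Theta

open Fermat.Agent.S23.QCalc Fermat.Agent.S23.JN Fermat.Agent.S24.JqBridge

local notation "Δ" => ModularForm.discriminant

/-! ### Termwise differentiation of `q`-expansions -/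

theorem coeff_X_mul_derivative (P : PowerSeries ℂ) (n : ℕ) :
    PowerSeries.coeff n (PowerSeries.X * PowerSeries.derivative ℂ P) =
      (n : ℂ) * PowerSeries.coeff n P := by
  cases n with
  | zero => simp
  | succ m =>
    rw [PowerSeries.coeff_succ_X_mul, PowerSeries.coeff_derivative]
    push_cast
    ring

/-- The normalized derivative of a function with a `q`-expansion has the termwise differentiated
`q`-expansion. -/
theorem hasQ_D {f : ℍ → ℂ} {P : PowerSeries ℂ} (hf : HasQ f P) :
    HasQ (D f) (PowerSeries.X * PowerSeries.derivative ℂ P) := by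
  intro z
  set δ : ℝ := z.im / 2 with hδ
  have hδ0 : 0 < δ := by have := z.im_pos; positivity
  have hδz : δ < z.im := by have := z.im_pos; rw [hδ]; linarith
  set U : Set ℂ := {w : ℂ | δ < w.im} with hU
  have hUo : IsOpen U := isOpen_lt continuous_const Complex.continuous_im
  have hzU : (z : ℂ) ∈ U := hδz
  let z' : ℍ := ⟨⟨0, δ⟩, hδ0⟩
  set F : ℕ → ℂ → ℂ := fun n w => PowerSeries.coeff n P * Periodic.qParam 1 w ^ n with hF
  set u : ℕ → ℝ := fun n => ‖PowerSeries.coeff n P * Periodic.qParam 1 (z' : ℂ) ^ n‖ with hu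
  have husum : Summable u := hf.summable_norm z'
  have hFd : ∀ n, DifferentiableOn ℂ (F n) U := fun n =>
    ((Periodic.differentiable_qParam (h := 1)).pow n).const_mul _ |>.differentiableOn
  have hF_le : ∀ (n : ℕ) (w : ℂ), w ∈ U → ‖F n w‖ ≤ u n := by
    intro n w hw
    simp only [hF, hu, norm_mul, norm_pow]
    refine mul_le_mul_of_nonneg_left (pow_le_pow_left₀ (norm_nonneg _) ?_ n) (norm_nonneg _)
    rw [Periodic.norm_qParam, Periodic.norm_qParam, Real.exp_le_exp]
    have hw' : δ < w.im := hw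
    have hz' : ((z' : ℂ)).im = δ := rfl
    rw [hz']
    have := Real.pi_pos
    simp only [div_one]
    nlinarith
  have h1 := Complex.hasSum_deriv_of_summable_norm husum hFd hUo hF_le hzU
  have h2 : deriv (fun w : ℂ => ∑' n : ℕ, F n w) z = deriv (f ∘ ofComplex) z := by
    apply Filter.EventuallyEq.deriv_eq
    filter_upwards [hUo.mem_nhds hzU] with w hw
    have hw0 : 0 < w.im := hδ0.trans hw
    have := (hf ⟨w, hw0⟩).tsum_eq
    simp only [Function.comp_apply, ofComplex_apply_of_im_pos hw0]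
    exact this
  rw [h2] at h1
  have h3 : ∀ n : ℕ, deriv (F n) z =
      (2 * Real.pi * Complex.I) * ((n : ℂ) * PowerSeries.coeff n P * Periodic.qParam 1 (z : ℂ) ^ n) := by
    intro n
    have hq : HasDerivAt (Periodic.qParam 1) (2 * Real.pi * Complex.I * Periodic.qParam 1 (z : ℂ))
        (z : ℂ) := by
      have h := (((hasDerivAt_id (z : ℂ)).const_mul (2 * Real.pi * Complex.I)).div_const
        (((1 : ℝ) : ℂ))).cexp
      have e : (fun w : ℂ => Complex.exp (2 * Real.pi * Complex.I * id w / ((1 : ℝ) : ℂ))) =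
          Periodic.qParam 1 := rfl
      rw [e] at h
      refine h.congr_deriv ?_
      show Complex.exp (2 * Real.pi * Complex.I * (z : ℂ) / ((1 : ℝ) : ℂ)) *
          (2 * Real.pi * Complex.I * 1 / ((1 : ℝ) : ℂ)) =
        2 * Real.pi * Complex.I * Complex.exp (2 * Real.pi * Complex.I * (z : ℂ) / ((1 : ℝ) : ℂ))
      push_cast
      ring
    have hFn : HasDerivAt (F n) _ (z : ℂ) := (hq.pow n).const_mul (PowerSeries.coeff n P)
    rw [hFn.deriv]
    cases n with
    | zero => simp
    | succ m =>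
      simp only [Nat.add_sub_cancel, Nat.cast_add, Nat.cast_one]
      ring
  have h4 := h1.mul_left (2 * Real.pi * Complex.I)⁻¹
  simp only [h3] at h4
  have hne : (2 * Real.pi * Complex.I : ℂ) ≠ 0 := Complex.two_pi_I_ne_zero
  refine h4.congr_fun fun n => ?_
  rw [coeff_X_mul_derivative]
  field_simp

/-! ### The function `q` -/

/-- the function `q = exp (2 π i z)` on the upper half plane -/
def qf (z : ℍ) : ℂ := Periodic.qParam 1 (z : ℂ)

theorem hasQ_qf : HasQ qf PowerSeries.X := fun z => by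
  have h := hasSum_ite_eq (1 : ℕ) (Periodic.qParam 1 (z : ℂ))
  refine h.congr_fun fun n => ?_
  rw [PowerSeries.coeff_X]
  split_ifs with hn
  · subst hn; simp
  · simp

theorem mdiff_qf : MDiff qf := by
  rw [UpperHalfPlane.mdifferentiable_iff]
  refine (Periodic.differentiable_qParam (h := 1)).differentiableOn.congr fun w hw => ?_
  simp only [Function.comp_apply, qf, ofComplex_apply_of_im_pos hw]

theorem D_qf : D qf = qf := by
  have h := hasQ_D hasQ_qf
  rw [PowerSeries.derivative_X, mul_one] at h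
  exact h.unique hasQ_qf

/-! ### The weight `14` form `(D j) Δ` -/

/-- the function `(D j) Δ` -/
def G14 (z : ℍ) : ℂ := D jFun z * Δ z

theorem mdiff_D_jFun : MDiff (D jFun) := normalizedDerivOfComplex_mdifferentiable mdiff_jFun

theorem mdiff_discriminant : MDiff (Δ : ℍ → ℂ) := CuspForm.discriminant.holo'

theorem mdiff_G14 : MDiff G14 := mdiff_D_jFun.mul mdiff_discriminant

theorem jFun_slash (γ : SL(2, ℤ)) : jFun ∣[(0 : ℤ)] γ = jFun := by
  ext z
  rw [SL_slash_apply, jFun_smul]
  simp

theorem D_jFun_slash (γ : SL(2, ℤ)) : D jFun ∣[(2 : ℤ)] γ = D jFun := by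
  have h := normalizedDerivOfComplex_SL_slash (k := 0) mdiff_jFun (γ := γ)
  rw [jFun_slash] at h
  have e : (D jFun ∣[(0 : ℤ) + 2] γ) = D jFun ∣[(2 : ℤ)] γ := by norm_num
  rw [e] at h
  have h0 : (fun z : ℍ => (((0 : ℤ) : ℂ)) * (2 * Real.pi * Complex.I)⁻¹ *
      ((γ 1 0 : ℂ) / denom γ z) * jFun z) = 0 := by
    ext z
    simp
  rw [h0, sub_zero] at h
  exact h.symm

theorem discriminant_slash (γ : SL(2, ℤ)) : (Δ : ℍ → ℂ) ∣[(12 : ℤ)] γ = Δ := by
  have hγ : (γ : GL (Fin 2) ℝ) ∈ 𝒮ℒ := ⟨γ, rfl⟩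
  change (⇑CuspForm.discriminant) ∣[(12 : ℤ)] γ = ⇑CuspForm.discriminant
  rw [SL_slash, SlashInvariantFormClass.slash_action_eq _ _ hγ]

theorem G14_slash (γ : SL(2, ℤ)) : G14 ∣[(14 : ℤ)] γ = G14 := by
  have e : G14 = D jFun * (Δ : ℍ → ℂ) := rfl
  rw [e, show (14 : ℤ) = 2 + 12 by norm_num, mul_slash_SL2, D_jFun_slash, discriminant_slash]

/-- `q * D j` has the `q`-expansion `X * jNum' - jNum` -/
theorem hasQ_q_mul_D_jFun :
    HasQ (fun z => qf z * D jFun z)
      (PowerSeries.X * PowerSeries.derivative ℂ (toC ModularCurve.jNum) -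
        toC ModularCurve.jNum) := by
  have h1 : HasQ (fun z => jFun z * qf z) (toC ModularCurve.jNum) := hasQ_jFun_mul_q
  have h2 := (hasQ_D h1).sub h1
  refine h2.congr fun z => ?_
  have e : (fun z => jFun z * qf z) = jFun * qf := rfl
  rw [Pi.sub_apply, e, normalizedDerivOfComplex_mul _ _ mdiff_jFun mdiff_qf, D_qf]
  simp only [Pi.add_apply, Pi.mul_apply]
  ring

theorem hasQ_G14 :
    HasQ G14 ((PowerSeries.X * PowerSeries.derivative ℂ (toC ModularCurve.jNum) -
        toC ModularCurve.jNum) * toC ModularCurve.dedekindEtaUnit) := by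
  refine (hasQ_q_mul_D_jFun.mul hasQ_eulerFun_pow).congr fun z => ?_
  simp only [Pi.mul_apply, G14]
  rw [discriminant_eq_q_mul_eulerFun_pow]
  simp only [qf]
  ring

/-- `(D j) Δ` as a level one modular form of weight `14` -/
def G14form : ModularForm 𝒮ℒ 14 where
  toFun := G14
  slash_action_eq' := fun _ ⟨γ, hγ⟩ ↦ hγ ▸ G14_slash γ
  holo' := mdiff_G14
  bdd_at_cusps' {c} hc := by
    rw [Subgroup.IsArithmetic.isCusp_iff_isCusp_SL2Z] at hc
    rw [OnePoint.isBoundedAt_iff_forall_SL2Z hc]
    intro γ _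
    rw [G14_slash γ]
    refine UpperHalfPlane.isBoundedAtImInfty_of_hasSum_qExpansion (h := 1) one_pos
      (c := fun n => PowerSeries.coeff n ((PowerSeries.X * PowerSeries.derivative ℂ
        (toC ModularCurve.jNum) - toC ModularCurve.jNum) * toC ModularCurve.dedekindEtaUnit))
      fun τ => ?_
    simpa [smul_eq_mul] using hasQ_G14 τ

theorem coe_G14form : (⇑G14form : ℍ → ℂ) = G14 := rfl

open Fermat.Agent.S23.LevelOne in
theorem monoSet_fourteen : monoSet 14 = {monoFun 2 1} := by
  ext φ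
  simp only [monoSet, Set.mem_ofPred_eq, Set.mem_singleton_iff]
  constructor
  · rintro ⟨a, b, hab, rfl⟩
    have ha : a = 2 := by omega
    have hb : b = 1 := by omega
    rw [ha, hb]
  · rintro rfl
    exact ⟨2, 1, by norm_num, rfl⟩

theorem constantCoeff_toC_jNum : PowerSeries.constantCoeff (toC ModularCurve.jNum) = 1 := by
  rw [← PowerSeries.coeff_zero_eq_constantCoeff_apply, PowerSeries.coeff_map,
    PowerSeries.coeff_zero_eq_constantCoeff_apply, ModularCurve.constantCoeff_jNum]
  simp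

theorem constantCoeff_toC_eta :
    PowerSeries.constantCoeff (toC ModularCurve.dedekindEtaUnit) = 1 := by
  rw [← PowerSeries.coeff_zero_eq_constantCoeff_apply, PowerSeries.coeff_map,
    PowerSeries.coeff_zero_eq_constantCoeff_apply, ModularCurve.constantCoeff_dedekindEtaUnit]
  simp

open Fermat.Agent.S23.LevelOne in
/-- `(D j) Δ = -E₄² E₆` -/
theorem G14_eq (z : ℍ) : D jFun z * Δ z = -(E₄ z ^ 2 * E₆ z) := by
  have hmem := coe_mem_span_monoSet G14form
  rw [monoSet_fourteen, Submodule.mem_span_singleton] at hmem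
  obtain ⟨c, hc⟩ := hmem
  rw [coe_G14form] at hc
  -- the `q`-expansion of the monomial
  have hm : HasQ (monoFun 2 1) (qExpansion 1 (monoFun 2 1)) := by
    have h := hasQ_modularForm (Γ := 𝒮ℒ) (k := 14) one_mem_strictPeriods_SL
      (monoForm 2 1 (by norm_num))
    rwa [coe_monoForm] at h
  have h1 : HasQ G14 (PowerSeries.C c * qExpansion 1 (monoFun 2 1)) :=
    (hm.const_mul c).congr fun z => by
      rw [← hc]
      rfl
  have h2 := congrArg (PowerSeries.coeff 0) (h1.series_unique hasQ_G14)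
  rw [PowerSeries.coeff_C_mul, coeff_zero_monoFun, mul_one,
    PowerSeries.coeff_zero_eq_constantCoeff_apply, map_mul, map_sub, map_mul,
    PowerSeries.constantCoeff_X, zero_mul, zero_sub, constantCoeff_toC_jNum,
    constantCoeff_toC_eta, mul_one] at h2
  have h3 := congrFun hc z
  rw [h2] at h3
  rw [show D jFun z * Δ z = G14 z from rfl, ← h3]
  simp [monoFun]

/-! ### The differential equation -/

open Fermat.Agent.S23.LevelOne in
/-- `(D j)⁶ = j⁴ (j - 1728)³ Δ`, multiplied by `q⁶` -/
theorem pointwise (z : ℍ) :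
    (qf z * D jFun z) ^ 6 =
      (jFun z * qf z) ^ 4 * (jFun z * qf z - 1728 * qf z) ^ 3 * eulerFun z ^ 24 := by
  have hΔ : Δ z ≠ 0 := discriminant_ne_zero z
  have hq : qf z ≠ 0 := Periodic.qParam_ne_zero _
  have he : eulerFun z ^ 24 ≠ 0 := pow_ne_zero _ (eulerFun_ne_zero z)
  have hΔq : Δ z = qf z * eulerFun z ^ 24 := discriminant_eq_q_mul_eulerFun_pow z
  have h6 := E₆_sq_eq z
  have hG := G14_eq z
  have hj : jFun z = E₄ z ^ 3 / Δ z := rfl
  have key : (D jFun z) ^ 6 * Δ z ^ 6 = E₄ z ^ 12 * (E₄ z ^ 3 - 1728 * Δ z) ^ 3 := by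
    calc (D jFun z) ^ 6 * Δ z ^ 6 = (D jFun z * Δ z) ^ 6 := by ring
      _ = E₄ z ^ 12 * (E₆ z ^ 2) ^ 3 := by rw [hG]; ring
      _ = E₄ z ^ 12 * (E₄ z ^ 3 - 1728 * Δ z) ^ 3 := by rw [h6]
  have e1 : (jFun z * qf z) ^ 4 * (jFun z * qf z - 1728 * qf z) ^ 3 * eulerFun z ^ 24 =
      qf z ^ 6 * (E₄ z ^ 12 * (E₄ z ^ 3 - 1728 * Δ z) ^ 3) / Δ z ^ 6 := by
    rw [hj]
    have : eulerFun z ^ 24 = Δ z / qf z := by rw [hΔq]; field_simp
    rw [this]
    field_simp
  rw [e1, ← key]
  field_simp

/-- the differential equation over `ℂ` -/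
theorem alpha_complex :
    (PowerSeries.X * PowerSeries.derivative ℂ (toC ModularCurve.jNum) -
        toC ModularCurve.jNum) ^ 6 =
      toC ModularCurve.jNum ^ 4 *
        (toC ModularCurve.jNum - PowerSeries.C (1728 : ℂ) * PowerSeries.X) ^ 3 *
          toC ModularCurve.dedekindEtaUnit := by
  have h1 := hasQ_q_mul_D_jFun.pow 6
  have hj : HasQ (fun z => jFun z * qf z) (toC ModularCurve.jNum) := hasQ_jFun_mul_q
  have h2 := ((hj.pow 4).mul ((hj.sub (hasQ_qf.const_mul 1728)).pow 3)).mul hasQ_eulerFun_pow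
  refine h1.series_unique (h2.congr fun z => ?_)
  simp only [Pi.mul_apply, Pi.pow_apply, Pi.sub_apply]
  exact (pointwise z).symm

theorem toC_injective : Function.Injective toC :=
  PowerSeries.map_injective _ Int.cast_injective

theorem toC_derivative (P : PowerSeries ℤ) :
    toC (PowerSeries.derivative ℤ P) = PowerSeries.derivative ℂ (toC P) := by
  ext n
  simp [PowerSeries.coeff_derivative]

/-- **(α)**: the differential equation `(θ j)⁶ = j⁴ (j - 1728)³ Δ` of the `j`-function, as an
identity of formal power series over `ℤ` (multiplied by `q⁶`; `j = q⁻¹ jNum`,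
`Δ = q dedekindEtaUnit`, `θ = q d/dq`). -/
theorem alpha :
    (PowerSeries.X * PowerSeries.derivative ℤ ModularCurve.jNum - ModularCurve.jNum) ^ 6 =
      ModularCurve.jNum ^ 4 * (ModularCurve.jNum - 1728 * PowerSeries.X) ^ 3 *
        ModularCurve.dedekindEtaUnit := by
  apply toC_injective
  have h := alpha_complex
  simp only [map_pow, map_mul, map_sub, PowerSeries.map_X, toC_derivative, map_ofNat]
  have e : (PowerSeries.C (1728 : ℂ) : PowerSeries ℂ) = 1728 := by
    rw [show (1728 : ℂ) = ((1728 : ℕ) : ℂ) by norm_num, map_natCast]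
    norm_num
  rw [e] at h
  exact h

end Fermat.Agent.S28.Theta

end
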