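import Mathlib
import Fermat.Prelude.Def_ModularCurve_X0ModL
import Fermat.Agent.S28.Theta
import Fermat.Agent.S28.EtaNorm
import Fermat.Agent.S28.EtaNormL

/-!
# S28, piece A0-ALG, part 1: the twist `x ↦ ξ x` and `θ = x d/dx` on `κ((x))`

* `tw ξ : LaurentSeries κ →ₐ[κ] LaurentSeries κ` (coefficient `k` is multiplied by `ξ ^ k`);
* `theta : Derivation κ (LaurentSeries κ) (LaurentSeries κ)` (coefficient `k` is multiplied by `k`);
* their commutation with each other, with `qExpand`, and with `ofPowerSeries`;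
* `alpha_kappa` : `(θ J)^6 = J^4 (J - 1728)^3 Δ` in `κ((x))`   (from `Theta.alpha`; `Δ` is
  `EtaNormL.DelL κ`);
* `beta_kappa`  : `∏_{b<p} Δ(ζ^b x) * Δ(x^(p²)) = (-1)^(p+1) Δ(x^p)^(p+1)` in `κ((x))`
  (from `EtaNorm.delta_norm'`);
* `transcendental_jqModC`.
-/

set_option autoImplicit false

open HahnSeries ModularCurve

noncomputable section

namespace Fermat.Agent.S28.A0Theta

variable {κ : Type*} [Field κ]

/-- The coefficient formula for a product, with the sum taken over any supersets of the supports. -/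
theorem coeff_mul_of_subset {x y : LaurentSeries κ} {s t : Set ℤ} (hs : s.IsPWO) (ht : t.IsPWO)
    (hxs : x.support ⊆ s) (hyt : y.support ⊆ t) (a : ℤ) :
    (x * y).coeff a = ∑ ij ∈ Finset.antidiagonal hs ht a, x.coeff ij.1 * y.coeff ij.2 := by
  rw [HahnSeries.coeff_mul]
  refine Finset.sum_subset ?_ ?_
  · intro ij hij
    rw [Finset.mem_antidiagonal] at hij ⊢
    exact ⟨hxs hij.1, hyt hij.2.1, hij.2.2⟩
  · intro ij hij hnot
    rw [Finset.mem_antidiagonal] at hij hnot
    by_cases h1 : x.coeff ij.1 = 0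
    · rw [h1, zero_mul]
    · by_cases h2 : y.coeff ij.2 = 0
      · rw [h2, mul_zero]
      · exact absurd ⟨h1, h2, hij.2.2⟩ hnot

/-- The series with coefficients `c k * f.coeff k`. -/
def wt (c : ℤ → κ) (f : LaurentSeries κ) : LaurentSeries κ where
  coeff k := c k * f.coeff k
  isPWO_support' := f.isPWO_support.mono (fun k hk => by
    simp only [Function.mem_support, ne_eq] at hk ⊢
    exact fun h => hk (by rw [h, mul_zero]))

@[simp] theorem wt_coeff (c : ℤ → κ) (f : LaurentSeries κ) (k : ℤ) :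
    (wt c f).coeff k = c k * f.coeff k := rfl

theorem support_wt_subset (c : ℤ → κ) (f : LaurentSeries κ) : (wt c f).support ⊆ f.support :=
  fun k hk => by
    simp only [HahnSeries.mem_support, wt_coeff, ne_eq] at hk ⊢
    exact fun h => hk (by rw [h, mul_zero])

theorem wt_mul_wt_coeff (c d : ℤ → κ) (f g : LaurentSeries κ) (a : ℤ) :
    (wt c f * wt d g).coeff a = ∑ ij ∈ Finset.antidiagonal f.isPWO_support g.isPWO_support a,
      (c ij.1 * d ij.2) * (f.coeff ij.1 * g.coeff ij.2) := by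
  rw [coeff_mul_of_subset f.isPWO_support g.isPWO_support (support_wt_subset c f)
    (support_wt_subset d g)]
  refine Finset.sum_congr rfl fun ij _ => ?_
  simp only [wt_coeff]
  ring

/-! ### The twist -/

/-- The twist `x ↦ ξ x` of Laurent series. -/
def tw (ξ : κˣ) : LaurentSeries κ →ₐ[κ] LaurentSeries κ where
  toFun f := wt (fun k => ((ξ ^ k : κˣ) : κ)) f
  map_one' := by
    ext k
    simp only [wt_coeff, HahnSeries.coeff_one]
    split_ifs with h
    · subst h; simp
    · simp
  map_mul' f g := by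
    ext a
    rw [wt_mul_wt_coeff, wt_coeff, HahnSeries.coeff_mul, Finset.mul_sum]
    refine Finset.sum_congr rfl fun ij hij => ?_
    rw [Finset.mem_antidiagonal] at hij
    rw [← hij.2.2, zpow_add, Units.val_mul]
  map_zero' := by
    ext k
    simp
  map_add' f g := by
    ext k
    simp [mul_add]
  commutes' r := by
    ext k
    rw [wt_coeff, algebraMap_laurentSeries_eq_single, HahnSeries.coeff_single]
    split_ifs with h
    · subst h; simp
    · simp

@[simp] theorem tw_coeff (ξ : κˣ) (f : LaurentSeries κ) (k : ℤ) :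
    (tw ξ f).coeff k = ((ξ ^ k : κˣ) : κ) * f.coeff k := rfl

/-! ### `θ = x d/dx` -/

/-- Leibniz rule for the coefficientwise `θ`. -/
theorem wt_id_mul (f g : LaurentSeries κ) :
    wt (fun k => (k : κ)) (f * g)
      = f * wt (fun k => (k : κ)) g + g * wt (fun k => (k : κ)) f := by
  ext a
  have h2 : f * wt (fun k => (k : κ)) g = wt (fun _ => 1) f * wt (fun k => (k : κ)) g := by
    congr 1
    ext k
    simp
  have h3 : g * wt (fun k => (k : κ)) f = wt (fun k => (k : κ)) f * wt (fun _ => 1) g := by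
    rw [mul_comm]
    congr 1
    ext k
    simp
  rw [wt_coeff, HahnSeries.coeff_add, h2, h3, wt_mul_wt_coeff, wt_mul_wt_coeff,
    HahnSeries.coeff_mul, Finset.mul_sum, ← Finset.sum_add_distrib]
  refine Finset.sum_congr rfl fun ij hij => ?_
  rw [Finset.mem_antidiagonal] at hij
  rw [← hij.2.2]
  push_cast
  ring

/-- `θ = x d/dx` on Laurent series, as a derivation. -/
def theta : Derivation κ (LaurentSeries κ) (LaurentSeries κ) where
  toFun f := wt (fun k => (k : κ)) f
  map_add' f g := by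
    ext k
    simp [mul_add]
  map_smul' r f := by
    ext k
    rw [Algebra.smul_def, RingHom.id_apply, algebraMap_laurentSeries_eq_single]
    simp only [wt_coeff, HahnSeries.coeff_single_zero_mul, HahnSeries.coeff_smul, smul_eq_mul]
    ring
  map_one_eq_zero' := by
    ext k
    show (k : κ) * (1 : LaurentSeries κ).coeff k = 0
    rw [HahnSeries.coeff_one]
    split_ifs with h
    · subst h; simp
    · simp
  leibniz' f g := by
    show wt (fun k => (k : κ)) (f * g) = f * wt (fun k => (k : κ)) g + g * wt (fun k => (k : κ)) f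
    exact wt_id_mul f g

@[simp] theorem theta_coeff (f : LaurentSeries κ) (k : ℤ) :
    (theta f).coeff k = (k : κ) * f.coeff k := rfl

/-! ### Commutation rules -/

theorem theta_tw (ξ : κˣ) (f : LaurentSeries κ) : theta (tw ξ f) = tw ξ (theta f) := by
  ext k
  simp only [theta_coeff, tw_coeff]
  ring

theorem tw_qExpand (p : ℕ) [NeZero p] (ξ : κˣ) (hξ : (ξ : κ) ^ p = 1) (f : LaurentSeries κ) :
    tw ξ (qExpand κ p f) = qExpand κ p f := by
  ext k
  rw [tw_coeff]
  by_cases hk : (p : ℤ) ∣ k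
  · obtain ⟨m, rfl⟩ := hk
    have h1 : ((ξ ^ ((p : ℤ) * m) : κˣ) : κ) = 1 := by
      rw [zpow_mul, zpow_natCast, Units.val_zpow_eq_zpow_val, Units.val_pow_eq_pow_val, hξ,
        one_zpow]
    rw [h1, one_mul]
  · rw [qExpand_coeff_of_not_dvd p f hk, mul_zero]

theorem natCast_mul_coeff (n : ℕ) (f : LaurentSeries κ) (k : ℤ) :
    ((n : LaurentSeries κ) * f).coeff k = (n : κ) * f.coeff k := by
  rw [← HahnSeries.single_zero_natCast, HahnSeries.coeff_single_zero_mul]

theorem theta_qExpand (p : ℕ) [NeZero p] (f : LaurentSeries κ) :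
    theta (qExpand κ p f) = (p : LaurentSeries κ) * qExpand κ p (theta f) := by
  ext k
  rw [theta_coeff, natCast_mul_coeff]
  by_cases hk : (p : ℤ) ∣ k
  · obtain ⟨m, rfl⟩ := hk
    rw [qExpand_coeff_mul, qExpand_coeff_mul, theta_coeff]
    push_cast
    ring
  · rw [qExpand_coeff_of_not_dvd p f hk, qExpand_coeff_of_not_dvd p _ hk, mul_zero, mul_zero]

theorem theta_single (n : ℤ) (a : κ) :
    theta (HahnSeries.single n a) = HahnSeries.single n ((n : κ) * a) := by
  ext k
  rw [theta_coeff, HahnSeries.coeff_single, HahnSeries.coeff_single]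
  split_ifs with h
  · rw [h]
  · rw [mul_zero]

theorem tw_ofPowerSeries (ξ : κˣ) (g : PowerSeries κ) :
    tw ξ (HahnSeries.ofPowerSeries ℤ κ g)
      = HahnSeries.ofPowerSeries ℤ κ (PowerSeries.rescale (ξ : κ) g) := by
  ext k
  rw [tw_coeff]
  rcases le_or_gt 0 k with hk | hk
  · lift k to ℕ using hk
    rw [HahnSeries.ofPowerSeries_apply_coeff, HahnSeries.ofPowerSeries_apply_coeff,
      PowerSeries.coeff_rescale, zpow_natCast, Units.val_pow_eq_pow_val]
  · rw [ofPowerSeries_coeff_of_neg _ hk, ofPowerSeries_coeff_of_neg _ hk, mul_zero]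

theorem qExpand_ofPowerSeries (n : ℕ) [NeZero n] (hn : n ≠ 0) (g : PowerSeries κ) :
    qExpand κ n (HahnSeries.ofPowerSeries ℤ κ g)
      = HahnSeries.ofPowerSeries ℤ κ (PowerSeries.expand n hn g) := by
  ext k
  have hnpos : (0 : ℤ) < n := by exact_mod_cast Nat.pos_of_ne_zero hn
  rcases le_or_gt 0 k with hk | hk
  · lift k to ℕ using hk
    rw [HahnSeries.ofPowerSeries_apply_coeff, PowerSeries.coeff_expand]
    split_ifs with h
    · obtain ⟨m, rfl⟩ := h
      rw [Nat.mul_div_cancel_left _ (Nat.pos_of_ne_zero hn)]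
      have h1 : ((n * m : ℕ) : ℤ) = (n : ℤ) * (m : ℤ) := by push_cast; ring
      rw [h1, qExpand_coeff_mul, HahnSeries.ofPowerSeries_apply_coeff]
    · exact qExpand_coeff_of_not_dvd n _ (fun h' => h (Int.natCast_dvd_natCast.mp h'))
  · rw [ofPowerSeries_coeff_of_neg _ hk]
    by_cases h : (n : ℤ) ∣ k
    · obtain ⟨m, rfl⟩ := h
      rw [qExpand_coeff_mul]
      exact ofPowerSeries_coeff_of_neg _ (by nlinarith)
    · exact qExpand_coeff_of_not_dvd n _ h

theorem theta_ofPowerSeries (g : PowerSeries κ) :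
    theta (HahnSeries.ofPowerSeries ℤ κ g)
      = HahnSeries.ofPowerSeries ℤ κ (PowerSeries.X * PowerSeries.derivative κ g) := by
  ext k
  rw [theta_coeff]
  rcases le_or_gt 0 k with hk | hk
  · lift k to ℕ using hk
    rw [HahnSeries.ofPowerSeries_apply_coeff, HahnSeries.ofPowerSeries_apply_coeff]
    cases k with
    | zero => simp
    | succ m =>
      rw [PowerSeries.coeff_succ_X_mul, PowerSeries.coeff_derivative]
      push_cast
      ring
  · rw [ofPowerSeries_coeff_of_neg _ hk, ofPowerSeries_coeff_of_neg _ hk, mul_zero]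

/-! ### `(α)` in `κ((x))` -/

/-- The numerator `x j` of `j`, with coefficients in `κ`. -/
def jN (κ : Type*) [Field κ] : PowerSeries κ := jNum.map (Int.castRingHom κ)

theorem jqModC_eq : jqModC κ = HahnSeries.single (-1 : ℤ) 1 * HahnSeries.ofPowerSeries ℤ κ (jN κ) :=
  rfl

theorem derivative_map_intCast (f : PowerSeries ℤ) :
    PowerSeries.derivative κ (f.map (Int.castRingHom κ))
      = (PowerSeries.derivative ℤ f).map (Int.castRingHom κ) := by
  ext n
  rw [PowerSeries.coeff_derivative, PowerSeries.coeff_map, PowerSeries.coeff_map,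
    PowerSeries.coeff_derivative]
  simp

theorem alpha_series :
    (PowerSeries.X * PowerSeries.derivative κ (jN κ) - jN κ) ^ 6
      = jN κ ^ 4 * (jN κ - 1728 * PowerSeries.X) ^ 3
        * dedekindEtaUnit.map (Int.castRingHom κ) := by
  have h := congrArg (PowerSeries.map (Int.castRingHom κ)) Theta.alpha
  simp only [map_pow, map_mul, map_sub, PowerSeries.map_X, map_ofNat] at h
  rw [jN, derivative_map_intCast]
  exact h

theorem theta_jqModC :
    theta (jqModC κ) = HahnSeries.single (-1 : ℤ) 1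
      * HahnSeries.ofPowerSeries ℤ κ (PowerSeries.X * PowerSeries.derivative κ (jN κ) - jN κ) := by
  rw [jqModC_eq, Derivation.leibniz, theta_single, theta_ofPowerSeries, smul_eq_mul, smul_eq_mul,
    map_sub, mul_sub]
  have h : HahnSeries.single (-1 : ℤ) (((-1 : ℤ) : κ) * 1) = -HahnSeries.single (-1 : ℤ) (1 : κ) := by
    rw [← HahnSeries.single_neg]
    congr 1
    simp
  rw [h]
  ring

theorem single_one_mul_single_neg_one :
    (HahnSeries.single (1 : ℤ) (1 : κ)) * HahnSeries.single (-1 : ℤ) 1 = 1 := by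
  rw [HahnSeries.single_mul_single]
  simp

/-- **(α) over `κ`**: `(θ J)^6 = J^4 (J - 1728)^3 Δ`. -/
theorem alpha_kappa :
    theta (jqModC κ) ^ 6 = jqModC κ ^ 4 * (jqModC κ - 1728) ^ 3 * EtaNormL.DelL κ := by
  have h := congrArg (HahnSeries.ofPowerSeries ℤ κ) (alpha_series (κ := κ))
  simp only [map_pow, map_mul, map_sub, HahnSeries.ofPowerSeries_X, map_ofNat] at h
  rw [theta_jqModC, EtaNormL.DelL_eq_single_mul, jqModC_eq, map_sub, map_mul,
    HahnSeries.ofPowerSeries_X]
  set q : LaurentSeries κ := HahnSeries.single (1 : ℤ) 1 with hq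
  set qi : LaurentSeries κ := HahnSeries.single (-1 : ℤ) 1 with hqi
  set a : LaurentSeries κ := HahnSeries.ofPowerSeries ℤ κ (jN κ) with ha
  set a' : LaurentSeries κ :=
    HahnSeries.ofPowerSeries ℤ κ (PowerSeries.derivative κ (jN κ)) with ha'
  set u : LaurentSeries κ :=
    HahnSeries.ofPowerSeries ℤ κ (dedekindEtaUnit.map (Int.castRingHom κ)) with hu
  have hqq : q * qi = 1 := single_one_mul_single_neg_one
  have h1 : qi * a - 1728 = qi * (a - 1728 * q) := by linear_combination (1728 : LaurentSeries κ) * hqq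
  have h2 : qi ^ 7 * q = qi ^ 6 := by linear_combination qi ^ 6 * hqq
  rw [h1]
  calc (qi * (q * a' - a)) ^ 6 = qi ^ 6 * (q * a' - a) ^ 6 := by ring
    _ = qi ^ 6 * (a ^ 4 * (a - 1728 * q) ^ 3 * u) := by rw [h]
    _ = qi ^ 7 * q * (a ^ 4 * (a - 1728 * q) ^ 3 * u) := by rw [h2]
    _ = (qi * a) ^ 4 * (qi * (a - 1728 * q)) ^ 3 * (q * u) := by ring

/-! ### `(β)` in `κ((x))` -/

/-- **(β) over `κ`**: `∏_{b<p} Δ(ζ^b x) * Δ(x^(p²)) = (-1)^(p+1) Δ(x^p)^(p+1)`. -/
theorem beta_kappa {p : ℕ} [NeZero p] (hp : p.Prime) (ζ : κˣ) (hζ : IsPrimitiveRoot (ζ : κ) p) :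
    (∏ b ∈ Finset.range p, tw (ζ ^ b) (EtaNormL.DelL κ)) * qExpand κ (p ^ 2) (EtaNormL.DelL κ)
      = (-1) ^ (p + 1) * qExpand κ p (EtaNormL.DelL κ) ^ (p + 1) := by
  have h := congrArg (HahnSeries.ofPowerSeries ℤ κ) (EtaNorm.delta_norm' (R := κ) hp hζ)
  simp only [map_mul, map_prod, map_pow, map_neg, map_one] at h
  rw [EtaNormL.DelL, qExpand_ofPowerSeries (p ^ 2) (pow_ne_zero 2 hp.ne_zero),
    qExpand_ofPowerSeries p hp.ne_zero, ← h]
  congr 1
  refine Finset.prod_congr rfl fun b _ => ?_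
  rw [tw_ofPowerSeries, Units.val_pow_eq_pow_val]

theorem DelL_ne_zero : EtaNormL.DelL κ ≠ 0 := by
  intro h
  have h1 := congrArg (fun f : LaurentSeries κ => f.coeff ((1 : ℕ) : ℤ)) h
  simp only [EtaNormL.DelL, HahnSeries.ofPowerSeries_apply_coeff, HahnSeries.coeff_zero] at h1
  rw [EtaNorm.delR_eq_map_dedekindEtaUnit] at h1
  have h2 : PowerSeries.coeff 1 (PowerSeries.X * dedekindEtaUnit.map (Int.castRingHom κ))
      = 1 := by
    rw [show (1 : ℕ) = 0 + 1 from rfl, PowerSeries.coeff_succ_X_mul, PowerSeries.coeff_map,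
      PowerSeries.coeff_zero_eq_constantCoeff, constantCoeff_dedekindEtaUnit]
    simp
  rw [h2] at h1
  exact one_ne_zero h1

/-! ### The twists of `J` are distinct -/

theorem tw_jqModC_inj {p : ℕ} (ζ : κˣ) (hζ : IsPrimitiveRoot (ζ : κ) p) {i j : ℕ} (hi : i < p)
    (hj : j < p) (h : tw (ζ ^ i) (jqModC κ) = tw (ζ ^ j) (jqModC κ)) : i = j := by
  have h1 := congrArg (fun f : LaurentSeries κ => f.coeff (-1)) h
  simp only [tw_coeff] at h1
  have hc : (jqModC κ).coeff (-1) = 1 := by
    have := coeff_jqModC_pow_self κ 1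
    simpa using this
  rw [hc, mul_one, mul_one] at h1
  have h2 : (ζ ^ i) ^ (-1 : ℤ) = (ζ ^ j) ^ (-1 : ℤ) := Units.ext h1
  rw [zpow_neg_one, zpow_neg_one, inv_inj] at h2
  have h3 : (ζ : κ) ^ i = (ζ : κ) ^ j := by
    rw [← Units.val_pow_eq_pow_val, ← Units.val_pow_eq_pow_val, h2]
  exact hζ.pow_inj hi hj h3

theorem exists_primitiveRoot_unit [IsAlgClosed κ] {p : ℕ} (hp : (p : κ) ≠ 0) :
    ∃ ζ : κˣ, IsPrimitiveRoot (ζ : κ) p := by
  have : NeZero (p : κ) := ⟨hp⟩
  obtain ⟨ζ, hζ⟩ := HasEnoughRootsOfUnity.exists_primitiveRoot κ p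
  have hp0 : p ≠ 0 := fun h => hp (by rw [h, Nat.cast_zero])
  exact ⟨Units.mk0 ζ (hζ.ne_zero hp0), hζ⟩

/-! ### Transcendence of `J` -/

theorem transcendental_jqModC : Transcendental κ (jqModC κ) := by
  rw [transcendental_iff]
  intro P hP
  by_contra hne
  have hlc : P.leadingCoeff ≠ 0 := Polynomial.leadingCoeff_ne_zero.mpr hne
  apply hlc
  have h1 := congrArg (fun f : LaurentSeries κ => f.coeff (-(P.natDegree : ℤ))) hP
  simp only [HahnSeries.coeff_zero] at h1
  rw [Polynomial.aeval_eq_sum_range, HahnSeries.coeff_sum] at h1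
  rw [Finset.sum_eq_single P.natDegree] at h1
  · rw [Algebra.smul_def, algebraMap_laurentSeries_eq_single, HahnSeries.coeff_single_zero_mul,
      coeff_jqModC_pow_self, mul_one] at h1
    exact h1
  · intro n hn hne'
    rw [Algebra.smul_def, algebraMap_laurentSeries_eq_single, HahnSeries.coeff_single_zero_mul,
      coeff_jqModC_pow_of_lt, mul_zero]
    have : n < P.natDegree := lt_of_le_of_ne (Nat.lt_succ_iff.mp (Finset.mem_range.mp hn)) hne'
    omega
  · intro h
    exact absurd (Finset.mem_range.mpr (Nat.lt_succ_self _)) h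

end Fermat.Agent.S28.A0Theta
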