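import Mathlib
import Fermat.Prelude.Def_ModularCurve_X0ModL
import Fermat.Agent.S28.A0Theta
import Fermat.Agent.S28.A0Core
import Fermat.Agent.S28.A0Count

/-!
# S28, piece A0-ALG, part 2: characteristic `ℓ ≥ 5`

If `1728 ≠ 0` in the algebraically closed field `κ` and `p` is a prime with `p ≠ 0` in `κ`, then
there is no polynomial `R` of degree `p` with `R(J(x)) = J(x^p)`.

This is the instantiation of `A0Core.core_identity` (the norm computation) at
`L = κ((x))`, `E = (x ↦ x^p)`, `T i = (x ↦ ζ^i x)`, `θ = x d/dx`, `J = jqModC κ`, `D = Δ`,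
`a = 0`, `b = 1728`, followed by the root count `A0Count.no_cover`.
-/

set_option autoImplicit false

open Polynomial ModularCurve

namespace Fermat.Agent.S28.A0Id

variable {κ : Type*} [Field κ]

/-- Transport of a derivation along an equality of module structures. -/
def derivOfEq {A : Type*} [CommSemiring A] [Algebra κ A] {m₁ m₂ : Module κ A} (e : m₁ = m₂)
    (d : @Derivation κ A A _ _ _ _ _ m₁) : @Derivation κ A A _ _ _ _ _ m₂ :=
  e ▸ d

theorem derivOfEq_apply {A : Type*} [CommSemiring A] [Algebra κ A] {m₁ m₂ : Module κ A}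
    (e : m₁ = m₂) (d : @Derivation κ A A _ _ _ _ _ m₁) (f : A) :
    @DFunLike.coe _ A (fun _ => A) (@Derivation.instFunLike κ A A _ _ _ _ _ m₂) (derivOfEq e d) f
      = @DFunLike.coe _ A (fun _ => A) (@Derivation.instFunLike κ A A _ _ _ _ _ m₁) d f := by
  subst e
  rfl

/-- The coefficientwise `κ`-module structure on `κ((x))` is the one coming from its
`κ`-algebra structure. -/
theorem module_eq :
    (HahnSeries.instModule : Module κ (LaurentSeries κ)) = Algebra.toModule := by
  refine Module.ext' _ _ fun r f => ?_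
  rw [Algebra.smul_def, algebraMap_laurentSeries_eq_single, HahnSeries.single_zero_mul_eq_smul]

/-- `θ = x d/dx` as a derivation for the `κ`-module structure on `κ((x))` coming from its
`κ`-algebra structure (the one `A0Core.core_identity` sees). -/
noncomputable def thetaA :
    @Derivation κ (LaurentSeries κ) (LaurentSeries κ) _ _ _ _ _ Algebra.toModule :=
  derivOfEq module_eq A0Theta.theta

theorem thetaA_apply (f : LaurentSeries κ) :
    @DFunLike.coe _ (LaurentSeries κ) (fun _ => LaurentSeries κ)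
        (@Derivation.instFunLike κ (LaurentSeries κ) (LaurentSeries κ) _ _ _ _ _ Algebra.toModule)
        thetaA f
      = A0Theta.theta f :=
  derivOfEq_apply module_eq A0Theta.theta f

variable [IsAlgClosed κ]

/-- **(A0), characteristic `≥ 5`**: `J(x^p)` is not a polynomial of degree `p` in `J(x)`. -/
theorem false_of_large_char (h1728 : (1728 : κ) ≠ 0) {p : ℕ} [NeZero p] (hp : p.Prime)
    (hpκ : (p : κ) ≠ 0) (R : κ[X]) (hdeg : R.natDegree = p)
    (h : aeval (jqModC κ) R = qExpand κ p (jqModC κ)) : False := by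
  obtain ⟨ζ, hζ⟩ := A0Theta.exists_primitiveRoot_unit hpκ
  have hζp : ∀ i : ℕ, ((ζ ^ i : κˣ) : κ) ^ p = 1 := fun i => by
    rw [Units.val_pow_eq_pow_val, ← pow_mul, mul_comm, pow_mul, hζ.pow_eq_one, one_pow]
  have hα : thetaA (jqModC κ) ^ 6
      = (jqModC κ - algebraMap κ (LaurentSeries κ) 0) ^ 4
        * (jqModC κ - algebraMap κ (LaurentSeries κ) 1728) ^ 3 * EtaNormL.DelL κ := by
    rw [map_zero, sub_zero, map_ofNat, thetaA_apply]
    exact A0Theta.alpha_kappa
  have h2 : qExpand κ p (qExpand κ p (EtaNormL.DelL κ)) = qExpand κ (p ^ 2) (EtaNormL.DelL κ) := by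
    rw [qExpand_qExpand]
    exact qExpand_congr (by ring) _
  have hβ : (∏ i ∈ Finset.range p, A0Theta.tw (ζ ^ i) (EtaNormL.DelL κ))
        * qExpandAlgHomC κ p (qExpandAlgHomC κ p (EtaNormL.DelL κ))
      = algebraMap κ (LaurentSeries κ) ((-1) ^ (p + 1))
        * qExpandAlgHomC κ p (EtaNormL.DelL κ) ^ (p + 1) := by
    rw [qExpandAlgHomC_apply, qExpandAlgHomC_apply, h2, A0Theta.beta_kappa hp ζ hζ, map_pow,
      map_neg, map_one]
  obtain ⟨c, Cp, hc, hid⟩ := A0Core.core_identity (κ := κ) (L := LaurentSeries κ) (p := p)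
    hp.one_le hpκ (qExpandAlgHomC κ p) (fun i => A0Theta.tw (ζ ^ i))
    (fun i _ x => A0Theta.tw_qExpand p (ζ ^ i) (hζp i) x)
    thetaA (fun x => by
      rw [thetaA_apply, thetaA_apply, qExpandAlgHomC_apply, qExpandAlgHomC_apply]
      exact A0Theta.theta_qExpand p x)
    (jqModC κ) (EtaNormL.DelL κ) A0Theta.DelL_ne_zero A0Theta.transcendental_jqModC 0 1728
    hα ((-1) ^ (p + 1)) (pow_ne_zero _ (neg_ne_zero.mpr one_ne_zero)) hβ
    (fun i hi j hj hij => A0Theta.tw_jqModC_inj ζ hζ hi hj hij)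
    R hdeg h.symm
  exact A0Count.no_cover (0 : κ) 1728 (fun h0 => h1728 h0.symm) R Cp hp.two_le hdeg
    (A0Core.deriv_data hp.one_le hpκ hdeg).2.2 c hc hid

end Fermat.Agent.S28.A0Id
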