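import Mathlib
import Fermat.Prelude.Def_ModularCurve_JqCoeff
import Fermat.Agent.S28.EtaNormL

/-!
# S28, leaf for (A0) in small characteristic: `Δ(x^p) ≠ Δ(x)^p`

In a field `κ` of prime characteristic `ℓ` and for a prime `p ≠ ℓ`:

* `expand_delR_ne_pow` : `Δ(x^p) ≠ Δ(x)^p` as power series;
* `qExpand_DelL_ne_pow` : the same for the Laurent series `DelL κ`;
* `qExpand_jqModC_ne_pow` : `J(x^p) ≠ J(x)^p` when moreover `240 = 0` in `κ` (`ℓ ∈ {2, 3, 5}`),
  where `J Δ = 1`.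

Proof: `24 = ℓ^a m` with `ℓ ∤ m`; Frobenius is injective, so `E(x^p)^m = E(x)^(p m)` for
`E = ∏ (1 - xⁿ)`, and the coefficients of `x` are `0` and `-p m ≠ 0`.
-/

set_option autoImplicit false

open PowerSeries
open scoped PowerSeries.WithPiTopology

noncomputable section

namespace Fermat.Agent.S28.EtaCoeff

open Fermat.Agent.S28.EtaNorm Fermat.Agent.S28.EtaNormL

section Coeff

variable {R : Type*} [CommRing R]

theorem coeff_one_mul (f g : PowerSeries R) :
    PowerSeries.coeff 1 (f * g)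
      = PowerSeries.coeff 0 f * PowerSeries.coeff 1 g
        + PowerSeries.coeff 1 f * PowerSeries.coeff 0 g := by
  rw [PowerSeries.coeff_mul]
  simp [Finset.Nat.antidiagonal_succ]

theorem coeff_zero_pow (f : PowerSeries R) (h0 : PowerSeries.coeff 0 f = 1) (n : ℕ) :
    PowerSeries.coeff 0 (f ^ n) = 1 := by
  rw [PowerSeries.coeff_zero_eq_constantCoeff] at h0 ⊢
  rw [map_pow, h0, one_pow]

theorem coeff_one_pow (f : PowerSeries R) (h0 : PowerSeries.coeff 0 f = 1) (n : ℕ) :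
    PowerSeries.coeff 1 (f ^ n) = n * PowerSeries.coeff 1 f := by
  induction n with
  | zero => simp [PowerSeries.coeff_one]
  | succ n ih =>
    rw [pow_succ, coeff_one_mul, ih, coeff_zero_pow f h0, h0]
    push_cast
    ring

/-- The partial products `∏_{i<n} (1 - X^(i+1))` have `X`-coefficient `-1` for `n ≥ 1`. -/
theorem coeff_one_partial (n : ℕ) :
    PowerSeries.coeff 1 (∏ i ∈ Finset.range (n + 1), (1 - (PowerSeries.X : PowerSeries ℤ) ^ (i + 1)))
      = -1 := by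
  induction n with
  | zero => simp [PowerSeries.coeff_one, PowerSeries.coeff_X]
  | succ n ih =>
    rw [Finset.prod_range_succ, mul_sub, mul_one, map_sub, ih, PowerSeries.coeff_mul_X_pow',
      if_neg (by omega), sub_zero]

theorem coeff_one_etaProd : PowerSeries.coeff 1 ModularCurve.etaProd = -1 := by
  have h1 := (PowerSeries.WithPiTopology.multipliable_one_sub_X_pow ℤ).hasProd.tendsto_prod_nat
  have h2 := ((PowerSeries.WithPiTopology.continuous_coeff ℤ 1).tendsto _).comp h1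
  have h3 : Filter.Tendsto (fun n : ℕ => PowerSeries.coeff 1
      (∏ i ∈ Finset.range n, (1 - (PowerSeries.X : PowerSeries ℤ) ^ (i + 1))))
      Filter.atTop (nhds (-1)) := by
    refine tendsto_const_nhds.congr' ?_
    filter_upwards [Filter.eventually_ge_atTop 1] with n hn
    obtain ⟨m, rfl⟩ : ∃ m, n = m + 1 := ⟨n - 1, by omega⟩
    exact (coeff_one_partial m).symm
  exact tendsto_nhds_unique h2 h3

variable (R) in
theorem coeff_zero_etaR : PowerSeries.coeff 0 (etaR R) = 1 := by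
  rw [etaR, PowerSeries.coeff_map, PowerSeries.coeff_zero_eq_constantCoeff,
    ModularCurve.constantCoeff_etaProd, map_one]

variable (R) in
theorem coeff_one_etaR : PowerSeries.coeff 1 (etaR R) = -1 := by
  rw [etaR, PowerSeries.coeff_map, coeff_one_etaProd]
  simp

end Coeff

section Main

variable (κ : Type*) [Field κ] (ℓ : ℕ) [Fact ℓ.Prime] [CharP κ ℓ]

/-- `E(x^p)^m ≠ E(x)^(p m)` when `p m ≠ 0` in `κ` (coefficient of `x`), `p ≥ 2`. -/
theorem expand_etaR_pow_ne {p : ℕ} (hp : 2 ≤ p) (hp0 : p ≠ 0) {m : ℕ} (hpm : ((p * m : ℕ) : κ) ≠ 0) :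
    ((etaR κ).expand p hp0) ^ m ≠ etaR κ ^ (p * m) := by
  intro h
  have h1 := congrArg (PowerSeries.coeff 1) h
  rw [coeff_one_pow _ (by rw [PowerSeries.coeff_zero_eq_constantCoeff, PowerSeries.constantCoeff_expand,
      ← PowerSeries.coeff_zero_eq_constantCoeff, coeff_zero_etaR]),
    PowerSeries.coeff_expand_of_not_dvd p hp0 _ (by
      intro hdvd
      have := Nat.le_of_dvd one_pos hdvd
      omega),
    mul_zero, coeff_one_pow _ (coeff_zero_etaR κ), coeff_one_etaR, mul_neg, mul_one] at h1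
  exact hpm (neg_eq_zero.mp h1.symm)

/-- **`Δ(x^p) ≠ Δ(x)^p`** in characteristic `ℓ`, for a prime `p ≠ ℓ`. -/
theorem expand_delR_ne_pow {p : ℕ} (hp : p.Prime) (hpℓ : p ≠ ℓ) :
    (delR κ).expand p hp.ne_zero ≠ delR κ ^ p := by
  intro h
  have hℓ : ℓ.Prime := Fact.out
  have : CharP (PowerSeries κ) ℓ := charP_of_injective_ringHom PowerSeries.C_injective ℓ
  have : ExpChar (PowerSeries κ) ℓ := ExpChar.prime hℓ
  -- cancel `X^p`
  have h1 : ((etaR κ).expand p hp.ne_zero) ^ 24 = etaR κ ^ (p * 24) := by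
    have h2 : (PowerSeries.X : PowerSeries κ) ^ p * ((etaR κ).expand p hp.ne_zero) ^ 24
        = PowerSeries.X ^ p * etaR κ ^ (p * 24) := by
      have h3 : (delR κ).expand p hp.ne_zero
          = PowerSeries.X ^ p * ((etaR κ).expand p hp.ne_zero) ^ 24 := by
        simp only [delR, map_mul, map_pow, PowerSeries.expand_X]
      rw [← h3, h, delR, mul_pow, ← pow_mul, mul_comm 24 p]
    exact mul_left_cancel₀ (pow_ne_zero p PowerSeries.X_ne_zero) h2
  -- `24 = ℓ^a * m`, `ℓ ∤ m`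
  set a : ℕ := (24 : ℕ).factorization ℓ with ha
  set m : ℕ := 24 / ℓ ^ a with hm
  have h24 : ℓ ^ a * m = 24 := Nat.ordProj_mul_ordCompl_eq_self 24 ℓ
  have hm' : ¬ ℓ ∣ m := Nat.not_dvd_ordCompl hℓ (by norm_num)
  have h4 : (((etaR κ).expand p hp.ne_zero) ^ m) ^ ℓ ^ a = (etaR κ ^ (p * m)) ^ ℓ ^ a := by
    rw [← pow_mul, ← pow_mul, mul_comm m, h24, mul_assoc, mul_comm m, h24, h1]
  have h5 : ((etaR κ).expand p hp.ne_zero) ^ m = etaR κ ^ (p * m) := by
    apply iterateFrobenius_inj (PowerSeries κ) ℓ a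
    simpa only [iterateFrobenius_def] using h4
  refine expand_etaR_pow_ne κ hp.two_le hp.ne_zero ?_ h5
  rw [Ne, CharP.cast_eq_zero_iff κ ℓ, hℓ.dvd_mul]
  rintro (hdvd | hdvd)
  · exact hpℓ ((Nat.prime_dvd_prime_iff_eq hℓ hp).mp hdvd).symm
  · exact hm' hdvd

/-- **`Δ(x^p) ≠ Δ(x)^p`**, Laurent form. -/
theorem qExpand_DelL_ne_pow {p : ℕ} [NeZero p] (hp : p.Prime) (hpℓ : p ≠ ℓ) :
    ModularCurve.qExpand κ p (DelL κ) ≠ DelL κ ^ p := by
  intro h
  rw [DelL, ← ofPowerSeries_expand, ← map_pow] at h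
  exact expand_delR_ne_pow κ ℓ hp hpℓ (HahnSeries.ofPowerSeries_injective h)

/-- **`J(x^p) ≠ J(x)^p`** in characteristic `ℓ` with `240 = 0` (`ℓ ∈ {2, 3, 5}`), `p ≠ ℓ`. -/
theorem qExpand_jqModC_ne_pow (h240 : (240 : κ) = 0) {p : ℕ} [NeZero p] (hp : p.Prime)
    (hpℓ : p ≠ ℓ) :
    ModularCurve.qExpand κ p (ModularCurve.jqModC κ) ≠ ModularCurve.jqModC κ ^ p := by
  intro h
  have h1 : ModularCurve.jqModC κ * DelL κ = 1 := jqModC_mul_DelL_eq_one κ h240
  have h2 : ModularCurve.jqModC κ ^ p * ModularCurve.qExpand κ p (DelL κ) = 1 := by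
    rw [← h, ← map_mul, h1, map_one]
  have h3 : ModularCurve.jqModC κ ^ p * DelL κ ^ p = 1 := by
    rw [← mul_pow, h1, one_pow]
  have hJ : ModularCurve.jqModC κ ^ p ≠ 0 := fun h0 => by
    rw [h0, zero_mul] at h3
    exact zero_ne_one h3
  exact qExpand_DelL_ne_pow κ ℓ hp hpℓ (mul_left_cancel₀ hJ (h2.trans h3.symm))

end Main

end Fermat.Agent.S28.EtaCoeff
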