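/-
S28, piece KUMMER: the twist `q ↦ ζ q` on Laurent series and the Kummer-type degree bounds for
the extension `κ((q)) / κ((q^p))`.

* `twist ζ` : the ring endomorphism of `LaurentSeries κ` multiplying the coefficient of `q^k`
  by `ζ^k`; `twist_qExpand` (series in `q^p` are fixed when `ζ^p = 1`), `iterate_twist`,
  `twist_jqModC_inj`, `twist_jqModC_ne_qExpand`.
* `natDegree_ge_of_fixed` : if `τ` fixes the coefficients of `g ≠ 0`, `g x = 0` and
  `x, τ x, …, τ^(p-1) x` are pairwise distinct, then `p ≤ deg g`.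
* `natDegree_ge_succ_of_fixed` : the dichotomy for a root `y` of
  `(X - y) ∏_{b<p} (X - τ^b x)`: `y` lies in the base field or has degree `≥ p + 1` over it.
-/
import Mathlib
import Fermat.Prelude.Def_ModularCurve_X0ModL

set_option autoImplicit false

noncomputable section

namespace Fermat.Agent.S28.Kummer

open ModularCurve Polynomial

/-! ### The twist -/

section Twist

variable {κ : Type*} [Field κ]

/-- the underlying function of the twist `q ↦ ζ q` -/
def twistFun (ζ : κˣ) (f : LaurentSeries κ) : LaurentSeries κ where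
  coeff k := (ζ : κ) ^ k * f.coeff k
  isPWO_support' := f.isPWO_support.mono fun k hk => by
    simp only [Function.mem_support, ne_eq] at hk
    exact fun h => hk (by rw [h, mul_zero])

theorem twistFun_coeff (ζ : κˣ) (f : LaurentSeries κ) (k : ℤ) :
    (twistFun ζ f).coeff k = (ζ : κ) ^ k * f.coeff k := rfl

theorem support_twistFun (ζ : κˣ) (f : LaurentSeries κ) :
    (twistFun ζ f).support = f.support := by
  ext k
  simp only [HahnSeries.mem_support, twistFun_coeff, ne_eq, mul_eq_zero, not_or]
  exact ⟨fun h => h.2, fun h => ⟨zpow_ne_zero _ ζ.ne_zero, h⟩⟩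

/-- The twist `q ↦ ζ q` on Laurent series: the coefficient of `q ^ k` is multiplied by
`ζ ^ k`. -/
def twist (ζ : κˣ) : LaurentSeries κ →+* LaurentSeries κ where
  toFun := twistFun ζ
  map_one' := by
    ext k
    rw [twistFun_coeff, HahnSeries.coeff_one]
    split_ifs with h
    · subst h
      simp
    · simp
  map_mul' x y := by
    ext k
    rw [twistFun_coeff, HahnSeries.coeff_mul, HahnSeries.coeff_mul, Finset.mul_sum]
    refine Finset.sum_congr ?_ fun ij hij => ?_
    · ext ij
      simp only [Finset.mem_antidiagonal, support_twistFun]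
    · have hk : ij.1 + ij.2 = k := (Finset.mem_antidiagonal.mp hij).2.2
      rw [twistFun_coeff, twistFun_coeff, ← hk, zpow_add₀ ζ.ne_zero]
      ring
  map_zero' := by
    ext k
    simp [twistFun_coeff]
  map_add' x y := by
    ext k
    simp [twistFun_coeff, mul_add]

@[simp]
theorem twist_coeff (ζ : κˣ) (f : LaurentSeries κ) (k : ℤ) :
    (twist ζ f).coeff k = (ζ : κ) ^ k * f.coeff k := rfl

/-- A ring endomorphism with the coefficient law of the twist is the twist. -/
theorem eq_twist (ζ : κˣ) (τ : LaurentSeries κ →+* LaurentSeries κ)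
    (hτ : ∀ (f : LaurentSeries κ) (k : ℤ), (τ f).coeff k = (ζ : κ) ^ k * f.coeff k) :
    τ = twist ζ := by
  ext f k
  rw [hτ, twist_coeff]

theorem twist_one : twist (1 : κˣ) = RingHom.id (LaurentSeries κ) := by
  ext f k
  simp

theorem twist_mul (ζ ξ : κˣ) : twist (ζ * ξ) = (twist ζ).comp (twist ξ) := by
  ext f k
  simp only [twist_coeff, RingHom.comp_apply, Units.val_mul, mul_zpow]
  ring

theorem twist_twist (ζ ξ : κˣ) (f : LaurentSeries κ) : twist ζ (twist ξ f) = twist (ζ * ξ) f := by
  rw [twist_mul]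
  rfl

theorem iterate_twist (ζ : κˣ) (b : ℕ) (f : LaurentSeries κ) :
    (twist ζ)^[b] f = twist (ζ ^ b) f := by
  induction b with
  | zero => simp [twist_one]
  | succ b ih =>
    rw [Function.iterate_succ_apply', ih, twist_twist, pow_succ']

/-- Series in `q ^ p` are fixed by the twist by a `p`-th root of unity. -/
theorem twist_qExpand (ζ : κˣ) (p : ℕ) [NeZero p] (hζ : (ζ : κ) ^ p = 1) (f : LaurentSeries κ) :
    twist ζ (qExpand κ p f) = qExpand κ p f := by
  ext k
  rw [twist_coeff]
  by_cases hk : (p : ℤ) ∣ k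
  · obtain ⟨m, rfl⟩ := hk
    rw [zpow_mul, zpow_natCast, hζ, one_zpow, one_mul]
  · rw [qExpand_coeff_of_not_dvd p f hk, mul_zero]

/-- The twists of `j` by distinct powers of a primitive `p`-th root of unity are distinct. -/
theorem twist_jqModC_inj (ζ : κˣ) {p : ℕ} (hζ : IsPrimitiveRoot (ζ : κ) p) {b c : ℕ}
    (hb : b < p) (hc : c < p) (h : twist (ζ ^ b) (jqModC κ) = twist (ζ ^ c) (jqModC κ)) :
    b = c := by
  have h1 := congrArg (fun f : LaurentSeries κ => f.coeff (-1)) h
  simp only [twist_coeff, coeff_jqModC_neg_one, mul_one, Units.val_pow_eq_pow_val,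
    zpow_neg, zpow_one, inv_inj] at h1
  exact hζ.pow_inj hb hc h1

/-- A twist of `j` is not a series in `q ^ n`, `n > 1`. -/
theorem twist_jqModC_ne_qExpand (ξ : κˣ) (n : ℕ) [NeZero n] (hn : 1 < n) (f : LaurentSeries κ) :
    twist ξ (jqModC κ) ≠ qExpand κ n f := by
  intro h
  have h1 := congrArg (fun f : LaurentSeries κ => f.coeff (-1)) h
  have hnd : ¬ (n : ℤ) ∣ (-1 : ℤ) := by
    intro hd
    have h2 : (n : ℤ) ∣ 1 := (dvd_neg).mp hd
    have h3 : n ∣ 1 := by exact_mod_cast h2
    have := Nat.le_of_dvd one_pos h3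
    omega
  simp only [twist_coeff, coeff_jqModC_neg_one, mul_one, qExpand_coeff_of_not_dvd n f hnd] at h1
  exact zpow_ne_zero _ ξ.ne_zero h1

end Twist

/-! ### Degree bounds from an automorphism-like endomorphism -/

section Bounds

variable {L : Type*} [Field L] {F : Type*} [Field F]

/-- If `τ` fixes the coefficients of `g`, it maps roots of `g` to roots of `g`. -/
theorem eval₂_map_fixed (τ : L →+* L) (i : F →+* L) (hi : ∀ a, τ (i a) = i a) (g : F[X]) {x : L}
    (h0 : g.eval₂ i x = 0) : g.eval₂ i (τ x) = 0 := by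
  have h := congrArg τ h0
  rw [Polynomial.hom_eval₂, map_zero] at h
  have hcomp : τ.comp i = i := RingHom.ext hi
  rwa [hcomp] at h

theorem eval₂_iterate_fixed (τ : L →+* L) (i : F →+* L) (hi : ∀ a, τ (i a) = i a) (g : F[X])
    {x : L} (h0 : g.eval₂ i x = 0) (b : ℕ) : g.eval₂ i (τ^[b] x) = 0 := by
  induction b with
  | zero => exact h0
  | succ b ih =>
    rw [Function.iterate_succ_apply']
    exact eval₂_map_fixed τ i hi g ih

/-- **Kummer bound.** If `τ` fixes the coefficients of `g ≠ 0`, `g x = 0`, and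
`x, τ x, …, τ^(p-1) x` are pairwise distinct, then `p ≤ deg g`. -/
theorem natDegree_ge_of_fixed (τ : L →+* L) (i : F →+* L) (hi : ∀ a, τ (i a) = i a) (x : L)
    {p : ℕ} (hx : ∀ b < p, ∀ c < p, τ^[b] x = τ^[c] x → b = c) (g : F[X]) (hg : g ≠ 0)
    (h0 : g.eval₂ i x = 0) : p ≤ g.natDegree := by
  classical
  have hG0 : g.map i ≠ 0 := (Polynomial.map_ne_zero_iff i.injective).mpr hg
  have hroots : (Finset.image (fun b => τ^[b] x) (Finset.range p)) ⊆ (g.map i).roots.toFinset := by
    intro r hr
    obtain ⟨b, -, rfl⟩ := Finset.mem_image.mp hr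
    rw [Multiset.mem_toFinset, Polynomial.mem_roots hG0, Polynomial.IsRoot.def,
      Polynomial.eval_map]
    exact eval₂_iterate_fixed τ i hi g h0 b
  have hcard : (Finset.image (fun b => τ^[b] x) (Finset.range p)).card = p := by
    rw [Finset.card_image_of_injOn, Finset.card_range]
    intro b hb c hc h
    exact hx b (Finset.mem_range.mp hb) c (Finset.mem_range.mp hc) h
  calc p = (Finset.image (fun b => τ^[b] x) (Finset.range p)).card := hcard.symm
    _ ≤ (g.map i).roots.toFinset.card := Finset.card_le_card hroots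
    _ ≤ Multiset.card (g.map i).roots := Multiset.toFinset_card_le _
    _ ≤ (g.map i).natDegree := Polynomial.card_roots' _
    _ = g.natDegree := Polynomial.natDegree_map i

/-- **Dichotomy.** Let `τ` fix the base field `F ⊆ L`, let `x` have the `p` pairwise distinct
conjugates `τ^b x` (`b < p`, `τ^p x = x`), and let `y ≠ τ^b x` be such that
`(X - y) ∏_{b<p} (X - τ^b x)` has coefficients in `F`.  If `y ∉ F`, every nonzero polynomial over
`F` vanishing at `y` has degree at least `p + 1`. -/
theorem natDegree_ge_succ_of_fixed (τ : L →+* L) (i : F →+* L) (hi : ∀ a, τ (i a) = i a)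
    (x y : L) {p : ℕ} (hx : ∀ b < p, ∀ c < p, τ^[b] x = τ^[c] x → b = c) (hτp : τ^[p] x = x)
    (hy : ∀ b < p, τ^[b] x ≠ y) (P₀ : F[X])
    (hP₀ : P₀.map i = (X - C y) * ∏ b ∈ Finset.range p, (X - C (τ^[b] x)))
    (hyF : y ∉ Set.range i) (g : F[X]) (hg : g ≠ 0) (h0 : g.eval₂ i y = 0) :
    p + 1 ≤ g.natDegree := by
  classical
  -- the set of the `p + 1` roots
  set T : Finset L := Finset.image (fun b => τ^[b] x) (Finset.range p) with hT
  have hTcard : T.card = p := by
    rw [hT, Finset.card_image_of_injOn, Finset.card_range]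
    intro b hb c hc h
    exact hx b (Finset.mem_range.mp hb) c (Finset.mem_range.mp hc) h
  have hyT : y ∉ T := by
    intro h
    obtain ⟨b, hb, hb'⟩ := Finset.mem_image.mp h
    exact hy b (Finset.mem_range.mp hb) hb'
  have hScard : (insert y T).card = p + 1 := by
    rw [Finset.card_insert_of_notMem hyT, hTcard]
  have hQ0 : P₀.map i ≠ 0 := by
    rw [hP₀]
    exact mul_ne_zero (X_sub_C_ne_zero y) (Finset.prod_ne_zero_iff.mpr fun b _ => X_sub_C_ne_zero _)
  have hP₀0 : P₀ ≠ 0 := fun h => hQ0 (by rw [h, Polynomial.map_zero])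
  have hQroot : ∀ r ∈ insert y T, (P₀.map i).IsRoot r := by
    intro r hr
    rw [hP₀, Polynomial.IsRoot.def, eval_mul, eval_prod]
    rcases Finset.mem_insert.mp hr with rfl | hr
    · simp
    · obtain ⟨b, hb, rfl⟩ := Finset.mem_image.mp hr
      rw [Finset.prod_eq_zero hb (by simp), mul_zero]
  -- the gcd
  set d : F[X] := EuclideanDomain.gcd g P₀ with hd
  have hd0 : d ≠ 0 := fun h => hP₀0 ((EuclideanDomain.gcd_eq_zero_iff.mp h).2)
  have hdg : d ∣ g := EuclideanDomain.gcd_dvd_left g P₀
  have hdP : d ∣ P₀ := EuclideanDomain.gcd_dvd_right g P₀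
  have hD0 : d.map i ≠ 0 := (Polynomial.map_ne_zero_iff i.injective).mpr hd0
  have hDeq : d.map i = EuclideanDomain.gcd (g.map i) (P₀.map i) := (Polynomial.gcd_map i).symm
  have hDy : (d.map i).IsRoot y := by
    rw [← dvd_iff_isRoot, hDeq]
    refine EuclideanDomain.dvd_gcd ?_ ?_
    · rw [dvd_iff_isRoot, Polynomial.IsRoot.def, Polynomial.eval_map]
      exact h0
    · rw [dvd_iff_isRoot]
      exact hQroot y (Finset.mem_insert_self _ _)
  have hDQ : d.map i ∣ P₀.map i := Polynomial.map_dvd i hdP
  obtain ⟨E, hE⟩ := hDQ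
  have hE0 : E ≠ 0 := fun h => hQ0 (by rw [hE, h, mul_zero])
  have hdeg : (d.map i).natDegree + E.natDegree = p + 1 := by
    have h1 := Polynomial.natDegree_mul hD0 hE0
    rw [← hE, hP₀, Polynomial.natDegree_mul (X_sub_C_ne_zero y)
      (Finset.prod_ne_zero_iff.mpr fun b _ => X_sub_C_ne_zero _), natDegree_X_sub_C,
      Polynomial.natDegree_prod _ _ (fun b _ => X_sub_C_ne_zero _)] at h1
    simp only [natDegree_X_sub_C, Finset.sum_const, Finset.card_range, smul_eq_mul, mul_one] at h1
    omega
  -- the roots of `d` among the `p + 1` roots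
  have hcount : (d.map i).natDegree ≤ ((insert y T).filter fun r => (d.map i).IsRoot r).card := by
    have hsub : insert y T ⊆ ((insert y T).filter fun r => (d.map i).IsRoot r) ∪ E.roots.toFinset := by
      intro r hr
      have h1 := hQroot r hr
      rw [hE, Polynomial.IsRoot.def, eval_mul, mul_eq_zero] at h1
      rcases h1 with h1 | h1
      · exact Finset.mem_union_left _ (Finset.mem_filter.mpr ⟨hr, h1⟩)
      · exact Finset.mem_union_right _ (Multiset.mem_toFinset.mpr ((Polynomial.mem_roots hE0).mpr h1))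
    have h2 := (Finset.card_le_card hsub).trans (Finset.card_union_le _ _)
    have h3 : E.roots.toFinset.card ≤ E.natDegree :=
      (Multiset.toFinset_card_le _).trans (Polynomial.card_roots' E)
    rw [hScard] at h2
    omega
  have hdeg1 : 1 ≤ (d.map i).natDegree := by
    have h1 : X - C y ∣ d.map i := dvd_iff_isRoot.mpr hDy
    have h2 := Polynomial.natDegree_le_of_dvd h1 hD0
    rwa [natDegree_X_sub_C] at h2
  -- some conjugate of `x` is a root of `d`
  have hex : ∃ b < p, (d.map i).IsRoot (τ^[b] x) := by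
    rcases Nat.lt_or_ge 1 (d.map i).natDegree with h2 | h2
    · obtain ⟨r, hr, hry⟩ := Finset.exists_mem_ne (lt_of_lt_of_le h2 hcount) y
      obtain ⟨hrS, hrD⟩ := Finset.mem_filter.mp hr
      rcases Finset.mem_insert.mp hrS with h | h
      · exact absurd h hry
      · obtain ⟨b, hb, rfl⟩ := Finset.mem_image.mp h
        exact ⟨b, Finset.mem_range.mp hb, hrD⟩
    · exfalso
      have h1 : d.natDegree = 1 := by
        have := Polynomial.natDegree_map (p := d) i
        omega
      have hdeq := Polynomial.eq_X_add_C_of_natDegree_le_one (p := d) h1.le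
      have hc1 : d.coeff 1 ≠ 0 := by
        have := Polynomial.leadingCoeff_ne_zero.mpr hd0
        rwa [Polynomial.leadingCoeff, h1] at this
      have hr := hDy
      rw [Polynomial.IsRoot.def, Polynomial.eval_map, hdeq] at hr
      simp only [eval₂_add, eval₂_mul, eval₂_C, eval₂_X] at hr
      apply hyF
      refine ⟨-(d.coeff 0) / d.coeff 1, ?_⟩
      have hi1 : i (d.coeff 1) ≠ 0 := (map_ne_zero i).mpr hc1
      rw [map_div₀, map_neg, div_eq_iff hi1]
      linear_combination -hr
  -- hence all of them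
  obtain ⟨b₀, hb₀, hroot₀⟩ := hex
  have hall : ∀ c < p, (d.map i).IsRoot (τ^[c] x) := by
    intro c hc
    have h1 : d.eval₂ i (τ^[b₀] x) = 0 := by
      rw [← Polynomial.eval_map]
      exact hroot₀
    have h2 := eval₂_iterate_fixed τ i hi d h1 (c + p - b₀)
    rw [← Function.iterate_add_apply, show c + p - b₀ + b₀ = c + p by omega,
      Function.iterate_add_apply, hτp] at h2
    rw [Polynomial.IsRoot.def, Polynomial.eval_map]
    exact h2
  have hsubD : insert y T ⊆ (d.map i).roots.toFinset := by
    intro r hr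
    rw [Multiset.mem_toFinset, Polynomial.mem_roots hD0]
    rcases Finset.mem_insert.mp hr with rfl | hr
    · exact hDy
    · obtain ⟨c, hc, rfl⟩ := Finset.mem_image.mp hr
      exact hall c (Finset.mem_range.mp hc)
  calc p + 1 = (insert y T).card := hScard.symm
    _ ≤ (d.map i).roots.toFinset.card := Finset.card_le_card hsubD
    _ ≤ Multiset.card (d.map i).roots := Multiset.toFinset_card_le _
    _ ≤ (d.map i).natDegree := Polynomial.card_roots' _
    _ = d.natDegree := Polynomial.natDegree_map i
    _ ≤ g.natDegree := Polynomial.natDegree_le_of_dvd hdg hg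


end Bounds

end Fermat.Agent.S28.Kummer
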