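/-
S28, piece DEG (degree induction of step (5)): shared definitions.

`LevelData κ p` packages, in Prelude vocabulary only, what the induction needs from the
level-`p` modular equation in `κ((x))`: a ring endomorphism `τ` (the twist `x ↦ ζ x`) fixing
`κ((x^p))` pointwise, and a monic polynomial `G` of degree `p + 1` with coefficients in
`κ(J(x^p))` whose roots are `J(x^{p²})` and the `p` distinct twists `τ^b J`.
-/
import Mathlib
import Fermat.Prelude.Def_ModularCurve_X0ModL

set_option autoImplicit false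

noncomputable section

open ModularCurve IntermediateField

namespace Fermat.Agent.S28.Deg

/-- Abstract level-`p` data: `(X − J(x^{p²})) ∏_{b<p} (X − τ^b J)` has coefficients in
`κ(J(x^p))`, where `τ` fixes `κ((x^p))` pointwise and permutes the `p` distinct `τ^b J`
cyclically. -/
def LevelData (κ : Type*) [Field κ] (p : ℕ) [NeZero p] : Prop :=
  ∃ (τ : LaurentSeries κ →+* LaurentSeries κ) (G : Polynomial (LaurentSeries κ)),
    (∀ f, τ (qExpand κ p f) = qExpand κ p f) ∧ G.Monic ∧ G.natDegree = p + 1 ∧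
    (∀ i, G.coeff i ∈ κ⟮qExpand κ p (jqModC κ)⟯) ∧
    G.eval (qExpand κ (p ^ 2) (jqModC κ)) = 0 ∧ (∀ b, G.eval (τ^[b] (jqModC κ)) = 0) ∧
    τ^[p] (jqModC κ) = jqModC κ ∧
    (∀ b c, b < p → c < p → τ^[b] (jqModC κ) = τ^[c] (jqModC κ) → b = c) ∧
    (∀ b, τ^[b] (jqModC κ) ≠ qExpand κ (p ^ 2) (jqModC κ))

end Fermat.Agent.S28.Deg

end
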