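/-
S28, piece LEVEL-DATA (glue for the degree induction of step (5)).

From the level-`p` modular equation in `κ((x))` in the shape delivered by piece (Φ)
(`a(J(x^p)) · (X − J(x^{p²})) ∏_{b<p} (X − J(ζ^b x)) = Φ(J(x^p), X)` with `a ≠ 0`), stated for an
arbitrary coefficientwise twist family `T`, we produce `Deg.LevelData κ p`.

Also exported: transcendence of `J` and of `J(x^d)` over `κ`, and the existence of a primitive
`p`-th root of unity (as a unit) in an algebraically closed field in which `p ≠ 0`.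
-/
import Mathlib
import Fermat.Prelude.Def_ModularCurve_X0ModL
import Fermat.Agent.S28.DegDefs

set_option autoImplicit false

noncomputable section

open Polynomial ModularCurve IntermediateField

namespace Fermat.Agent.S28.LevelData

variable (κ : Type*) [Field κ]

/-- Coefficients of a scalar multiple in `κ((x))` (for the algebra structure of `κ((x))`). -/
theorem coeff_algebraMap_mul (c : κ) (x : LaurentSeries κ) (k : ℤ) :
    (algebraMap κ (LaurentSeries κ) c * x).coeff k = c * x.coeff k := by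
  rw [algebraMap_laurentSeries_eq_single, HahnSeries.coeff_single_mul, sub_zero]

/-- The coefficient of `q^{-n}` in `a(J)` is the leading coefficient of `a` (`n = deg a`). -/
theorem coeff_aeval_jqModC (a : κ[X]) :
    (aeval (jqModC κ) a).coeff (-(a.natDegree : ℤ)) = a.leadingCoeff := by
  rw [aeval_eq_sum_range, HahnSeries.coeff_sum, Finset.sum_eq_single a.natDegree]
  · rw [Algebra.smul_def, coeff_algebraMap_mul, coeff_jqModC_pow_self, mul_one]
    rfl
  · intro i hi hne
    have hlt : i < a.natDegree :=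
      lt_of_le_of_ne (Nat.lt_succ_iff.mp (Finset.mem_range.mp hi)) hne
    rw [Algebra.smul_def, coeff_algebraMap_mul, coeff_jqModC_pow_of_lt κ (by omega), mul_zero]
  · intro h
    exact absurd (Finset.mem_range.mpr (Nat.lt_succ_self _)) h

/-- `J` is transcendental over `κ`. -/
theorem transcendental_jqModC : Transcendental κ (jqModC κ) := by
  rintro ⟨a, ha0, ha⟩
  have h := coeff_aeval_jqModC κ a
  rw [ha, HahnSeries.coeff_zero] at h
  exact ha0 (leadingCoeff_eq_zero.mp h.symm)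

/-- `J(x^d)` is transcendental over `κ`. -/
theorem transcendental_qExpand_jqModC (d : ℕ) [NeZero d] :
    Transcendental κ (qExpand κ d (jqModC κ)) := by
  rintro ⟨a, ha0, ha⟩
  have h : qExpandAlgHomC κ d (aeval (jqModC κ) a) = 0 := by
    rw [← aeval_algHom_apply]
    exact ha
  rw [qExpandAlgHomC_apply] at h
  have h2 : aeval (jqModC κ) a = 0 := qExpand_injective d (by rw [h, map_zero])
  exact transcendental_jqModC κ ⟨a, ha0, h2⟩

/-- A primitive `p`-th root of unity, as a unit, in an algebraically closed field with `p ≠ 0`. -/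
theorem exists_primitiveRoot_unit [IsAlgClosed κ] {p : ℕ} (hp : (p : κ) ≠ 0) :
    ∃ ζ : κˣ, IsPrimitiveRoot (ζ : κ) p := by
  have : NeZero (p : κ) := ⟨hp⟩
  obtain ⟨z, hz⟩ := HasEnoughRootsOfUnity.exists_primitiveRoot κ p
  have hp0 : p ≠ 0 := by
    rintro rfl
    exact hp (by simp)
  exact ⟨(hz.isUnit hp0).unit, by simpa using hz⟩

section Twist

variable {κ}
variable (T : κˣ → LaurentSeries κ →+* LaurentSeries κ)
  (hT : ∀ (ξ : κˣ) (f : LaurentSeries κ) (k : ℤ),
    (T ξ f).coeff k = ((ξ ^ k : κˣ) : κ) * f.coeff k)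

include hT

/-- Coefficients of the iterated twist. -/
theorem coeff_iterate (ζ : κˣ) (b : ℕ) (f : LaurentSeries κ) (k : ℤ) :
    ((T ζ)^[b] f).coeff k = (((ζ ^ k) ^ b : κˣ) : κ) * f.coeff k := by
  induction b with
  | zero => simp
  | succ b ih =>
    rw [Function.iterate_succ_apply', hT, ih, pow_succ, Units.val_mul]
    ring

/-- The `b`-th iterate of the twist by `ζ` is the twist by `ζ ^ b`. -/
theorem iterate_eq (ζ : κˣ) (b : ℕ) (f : LaurentSeries κ) : (T ζ)^[b] f = T (ζ ^ b) f := by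
  ext k
  rw [coeff_iterate T hT, hT]
  congr 2
  rw [← zpow_natCast, ← zpow_mul, mul_comm, zpow_mul, zpow_natCast]

/-- Series in `x^p` are fixed by the twist by a `p`-th root of unity. -/
theorem twist_qExpand (ζ : κˣ) (p : ℕ) [NeZero p] (hζ : ζ ^ p = 1) (f : LaurentSeries κ) :
    T ζ (qExpand κ p f) = qExpand κ p f := by
  ext k
  rw [hT]
  by_cases hk : (p : ℤ) ∣ k
  · obtain ⟨m, rfl⟩ := hk
    rw [zpow_mul, zpow_natCast, hζ, one_zpow, Units.val_one, one_mul]
  · rw [qExpand_coeff_of_not_dvd p f hk, mul_zero]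

end Twist

/-- **LEVEL-DATA**: the level-`p` modular equation (piece (Φ), with the twist abstracted to any
coefficientwise twist family `T`) gives `Deg.LevelData κ p`. -/
theorem levelData_of_phi (p : ℕ) [NeZero p] (hp : p.Prime) (ζ : κˣ)
    (hζ : IsPrimitiveRoot (ζ : κ) p)
    (T : κˣ → LaurentSeries κ →+* LaurentSeries κ)
    (hT : ∀ (ξ : κˣ) (f : LaurentSeries κ) (k : ℤ),
      (T ξ f).coeff k = ((ξ ^ k : κˣ) : κ) * f.coeff k)
    (hΦ : ∃ (a : κ[X]) (Φ : κ[X][X]), a ≠ 0 ∧
      Φ.map (aeval (qExpand κ p (jqModC κ))).toRingHom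
        = C (aeval (qExpand κ p (jqModC κ)) a) *
          ((X - C (qExpand κ (p ^ 2) (jqModC κ))) *
            ∏ b ∈ Finset.range p, (X - C (T (ζ ^ b) (jqModC κ))))) :
    Deg.LevelData κ p := by
  obtain ⟨a, Φ, ha, hΦ⟩ := hΦ
  have hζp : ζ ^ p = 1 := Units.ext (by simpa using hζ.pow_eq_one)
  have hpow : ∀ k : ℤ, (ζ ^ k) ^ p = 1 := fun k => by
    rw [← zpow_natCast, ← zpow_mul, mul_comm, zpow_mul, zpow_natCast, hζp, one_zpow]
  have hiter : ∀ b : ℕ, (T ζ)^[b] (jqModC κ) = T (ζ ^ b) (jqModC κ) :=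
    fun b => iterate_eq T hT ζ b (jqModC κ)
  have hat : aeval (qExpand κ p (jqModC κ)) a ≠ 0 :=
    fun h => transcendental_qExpand_jqModC κ p ⟨a, ha, h⟩
  have hmon : (∏ b ∈ Finset.range p, (X - C ((T ζ)^[b] (jqModC κ)))).Monic :=
    monic_prod_of_monic _ _ fun b _ => monic_X_sub_C _
  have hΦG : Φ.map (aeval (qExpand κ p (jqModC κ))).toRingHom
      = C (aeval (qExpand κ p (jqModC κ)) a) *
        ((X - C (qExpand κ (p ^ 2) (jqModC κ))) *
          ∏ b ∈ Finset.range p, (X - C ((T ζ)^[b] (jqModC κ)))) := by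
    rw [hΦ]
    congr 2
    exact Finset.prod_congr rfl (fun b _ => by rw [hiter])
  have hneg : ∀ b : ℕ, ((T ζ)^[b] (jqModC κ)).coeff (-1) = (((ζ ^ (-1 : ℤ)) ^ b : κˣ) : κ) := by
    intro b
    rw [coeff_iterate T hT, coeff_jqModC_neg_one, mul_one]
  refine ⟨T ζ, (X - C (qExpand κ (p ^ 2) (jqModC κ))) *
    ∏ b ∈ Finset.range p, (X - C ((T ζ)^[b] (jqModC κ))),
    fun f => twist_qExpand T hT ζ p hζp f, ?_, ?_, ?_, ?_, ?_, ?_, ?_, ?_⟩
  · exact (monic_X_sub_C _).mul hmon
  · rw [Monic.natDegree_mul (monic_X_sub_C _) hmon, natDegree_X_sub_C,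
      natDegree_prod_of_monic _ _ (fun b _ => monic_X_sub_C _)]
    simp [add_comm]
  · intro i
    have hGc : (X - C (qExpand κ (p ^ 2) (jqModC κ))) *
        ∏ b ∈ Finset.range p, (X - C ((T ζ)^[b] (jqModC κ)))
        = C (aeval (qExpand κ p (jqModC κ)) a)⁻¹ *
          Φ.map (aeval (qExpand κ p (jqModC κ))).toRingHom := by
      rw [hΦG, ← mul_assoc, ← C_mul, inv_mul_cancel₀ hat, C_1, one_mul]
    rw [hGc, coeff_C_mul, coeff_map]
    have hmem : ∀ c : κ[X], aeval (qExpand κ p (jqModC κ)) c ∈ κ⟮qExpand κ p (jqModC κ)⟯ :=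
      fun c => IntermediateField.algebra_adjoin_le_adjoin κ _ (aeval_mem_adjoin_singleton κ _)
    exact mul_mem (inv_mem (hmem a)) (hmem _)
  · rw [eval_mul, eval_sub, eval_X, eval_C, sub_self, zero_mul]
  · intro b
    have hmod : (T ζ)^[b] (jqModC κ) = (T ζ)^[b % p] (jqModC κ) := by
      ext k
      rw [coeff_iterate T hT, coeff_iterate T hT, pow_eq_pow_mod b (hpow k)]
    rw [eval_mul, eval_prod,
      Finset.prod_eq_zero (Finset.mem_range.mpr (Nat.mod_lt b hp.pos))
        (by rw [eval_sub, eval_X, eval_C, hmod, sub_self]), mul_zero]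
  · ext k
    rw [coeff_iterate T hT, hpow k, Units.val_one, one_mul]
  · intro b c hb hc h
    have h1 : (((ζ ^ (-1 : ℤ)) ^ b : κˣ) : κ) = (((ζ ^ (-1 : ℤ)) ^ c : κˣ) : κ) := by
      rw [← hneg b, ← hneg c, h]
    have hinv : IsPrimitiveRoot (ζ ^ (-1 : ℤ)) p := by
      rw [zpow_neg_one]
      exact (IsPrimitiveRoot.coe_units_iff.mp hζ).inv
    exact hinv.pow_inj hb hc (Units.ext h1)
  · intro b h
    have h1 := hneg b
    rw [h, qExpand_coeff_of_not_dvd (p ^ 2) (jqModC κ)] at h1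
    · exact Units.ne_zero _ h1.symm
    · intro hdvd
      have h2 : (p ^ 2 : ℕ) ∣ 1 := by
        have := (Int.natCast_dvd_natCast (m := p ^ 2) (n := 1)).mp
          (by simpa using (dvd_neg.mp hdvd))
        exact this
      have h3 : p ^ 2 = 1 := Nat.dvd_one.mp h2
      have h4 : 2 ≤ p := hp.two_le
      nlinarith

/-- Variant of `levelData_of_phi` with the coefficient law written with `zpow` in `κ`. -/
theorem levelData_of_phi_zpow (p : ℕ) [NeZero p] (hp : p.Prime) (ζ : κˣ)
    (hζ : IsPrimitiveRoot (ζ : κ) p)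
    (T : κˣ → LaurentSeries κ →+* LaurentSeries κ)
    (hT : ∀ (ξ : κˣ) (f : LaurentSeries κ) (k : ℤ),
      (T ξ f).coeff k = (ξ : κ) ^ k * f.coeff k)
    (hΦ : ∃ (a : κ[X]) (Φ : κ[X][X]), a ≠ 0 ∧
      Φ.map (aeval (qExpand κ p (jqModC κ))).toRingHom
        = C (aeval (qExpand κ p (jqModC κ)) a) *
          ((X - C (qExpand κ (p ^ 2) (jqModC κ))) *
            ∏ b ∈ Finset.range p, (X - C (T (ζ ^ b) (jqModC κ))))) :
    Deg.LevelData κ p :=
  levelData_of_phi κ p hp ζ hζ T
    (fun ξ f k => by rw [hT, Units.val_zpow_eq_zpow_val]) hΦ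

/-- Variant over an algebraically closed field in which `p ≠ 0`: the primitive root is supplied
here, so the modular equation is required for every primitive `p`-th root of unity. -/
theorem levelData_of_phi_algClosed [IsAlgClosed κ] (p : ℕ) [NeZero p] (hp : p.Prime)
    (hpκ : (p : κ) ≠ 0)
    (T : κˣ → LaurentSeries κ →+* LaurentSeries κ)
    (hT : ∀ (ξ : κˣ) (f : LaurentSeries κ) (k : ℤ),
      (T ξ f).coeff k = ((ξ ^ k : κˣ) : κ) * f.coeff k)
    (hΦ : ∀ ζ : κˣ, IsPrimitiveRoot (ζ : κ) p → ∃ (a : κ[X]) (Φ : κ[X][X]), a ≠ 0 ∧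
      Φ.map (aeval (qExpand κ p (jqModC κ))).toRingHom
        = C (aeval (qExpand κ p (jqModC κ)) a) *
          ((X - C (qExpand κ (p ^ 2) (jqModC κ))) *
            ∏ b ∈ Finset.range p, (X - C (T (ζ ^ b) (jqModC κ))))) :
    Deg.LevelData κ p := by
  obtain ⟨ζ, hζ⟩ := exists_primitiveRoot_unit κ hpκ
  exact levelData_of_phi κ p hp ζ hζ T hT (hΦ ζ hζ)

end Fermat.Agent.S28.LevelData

end
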