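import Mathlib
import Fermat.Prelude.Def_ModularCurve_X0ModL
import Fermat.Agent.S28.Kummer
import Fermat.Agent.S28.LevelData
import Fermat.Agent.S28.EtaCoeff

/-!
# S28, (A0): the norm factorisation and the small-characteristic case

Let `κ` be a field with a primitive `p`-th root of unity `ζ`, `J = jqModC κ`, and suppose
`J(x^p) = R(J(x))` for a monic `R ∈ κ[X]` of degree `p`.  Then the `p` twists `J(ζ^b x)` are
exactly the roots of `R(X) - J(x^p)`:

* `map_sub_C_eq_prod` : `R(X) - J(x^p) = ∏_{b<p} (X - J(ζ^b x))` in `κ((x))[X]`;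
* `prod_algebraMap_sub_twist` : `∏_{b<p} (c - J(ζ^b x)) = R(c) - J(x^p)` for `c ∈ κ`.

In characteristic `ℓ` with `240 = 0` (`ℓ ∈ {2, 3, 5}`) and `p ≠ ℓ` this is impossible
(`false_of_small_char`): `J Δ = 1` and the norm identity `(β)` force `R = X^p`, i.e.
`J(x^p) = J(x)^p`, which fails.
-/

set_option autoImplicit false

noncomputable section

namespace Fermat.Agent.S28.A0Norm

open Polynomial ModularCurve
open Fermat.Agent.S28

variable {κ : Type*} [Field κ]

/-- The twist fixes constants. -/
theorem twist_algebraMap (ξ : κˣ) (c : κ) :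
    Kummer.twist ξ (algebraMap κ (LaurentSeries κ) c) = algebraMap κ (LaurentSeries κ) c := by
  rw [algebraMap_laurentSeries_eq_single]
  ext k
  rw [Kummer.twist_coeff, HahnSeries.coeff_single]
  split_ifs with h
  · subst h
    simp
  · simp

/-- The twist commutes with polynomial evaluation. -/
theorem twist_aeval (ξ : κˣ) (f : LaurentSeries κ) (R : κ[X]) :
    Kummer.twist ξ (aeval f R) = aeval (Kummer.twist ξ f) R := by
  rw [aeval_def, aeval_def, Polynomial.hom_eval₂]
  congr 1
  exact RingHom.ext fun c => twist_algebraMap ξ c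

section Norm

variable {p : ℕ} [NeZero p] (ζ : κˣ) (hζ : IsPrimitiveRoot (ζ : κ) p) (R : κ[X]) (hR : R.Monic)
  (hdeg : R.natDegree = p) (h : aeval (jqModC κ) R = qExpand κ p (jqModC κ))

include hζ h in
/-- Each twist `J(ζ^b x)` is a root of `R(X) - J(x^p)`. -/
theorem aeval_twist (b : ℕ) :
    aeval (Kummer.twist (ζ ^ b) (jqModC κ)) R = qExpand κ p (jqModC κ) := by
  rw [← twist_aeval, h]
  refine Kummer.twist_qExpand (ζ ^ b) p ?_ _
  rw [Units.val_pow_eq_pow_val, ← pow_mul, mul_comm, pow_mul, hζ.pow_eq_one, one_pow]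

include hζ hR hdeg h in
/-- **Norm factorisation**: `R(X) - J(x^p) = ∏_{b<p} (X - J(ζ^b x))`. -/
theorem map_sub_C_eq_prod :
    R.map (algebraMap κ (LaurentSeries κ)) - C (qExpand κ p (jqModC κ))
      = ∏ b ∈ Finset.range p, (X - C (Kummer.twist (ζ ^ b) (jqModC κ))) := by
  classical
  have hp1 : 1 ≤ p := Nat.pos_of_ne_zero (NeZero.ne p)
  set P : (LaurentSeries κ)[X] :=
    R.map (algebraMap κ (LaurentSeries κ)) - C (qExpand κ p (jqModC κ)) with hP
  have hRm : (R.map (algebraMap κ (LaurentSeries κ))).Monic := hR.map _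
  have hRd : (R.map (algebraMap κ (LaurentSeries κ))).natDegree = p := by
    rw [hR.natDegree_map, hdeg]
  have hPmonic : P.Monic := by
    refine hRm.sub_of_left ?_
    rw [degree_eq_natDegree hRm.ne_zero, hRd]
    exact lt_of_le_of_lt degree_C_le (by exact_mod_cast hp1)
  have hPdeg : P.natDegree = p := by rw [hP, natDegree_sub_C, hRd]
  have hroot : ∀ b : ℕ, P.IsRoot (Kummer.twist (ζ ^ b) (jqModC κ)) := by
    intro b
    rw [IsRoot.def, hP, eval_sub, eval_C, eval_map, ← aeval_def, aeval_twist ζ hζ R h b, sub_self]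
  set M : Multiset (LaurentSeries κ) :=
    (Finset.range p).val.map fun b => Kummer.twist (ζ ^ b) (jqModC κ) with hM
  have hMnodup : M.Nodup := by
    refine Multiset.Nodup.map_on ?_ (Finset.range p).nodup
    intro b hb c hc hbc
    exact Kummer.twist_jqModC_inj ζ hζ (Finset.mem_range.mp hb) (Finset.mem_range.mp hc) hbc
  have hMle : M ≤ P.roots := by
    rw [Multiset.le_iff_subset hMnodup]
    intro r hr
    obtain ⟨b, -, rfl⟩ := Multiset.mem_map.mp hr
    exact (mem_roots hPmonic.ne_zero).mpr (hroot b)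
  have hMcard : Multiset.card M = p := by
    rw [hM, Multiset.card_map, Finset.card_val, Finset.card_range]
  have hroots : P.roots = M := by
    refine (Multiset.eq_of_le_of_card_le hMle ?_).symm
    rw [hMcard, ← hPdeg]
    exact card_roots' P
  have hcard : Multiset.card P.roots = P.natDegree := by rw [hroots, hMcard, hPdeg]
  rw [← prod_multiset_X_sub_C_of_monic_of_roots_card_eq hPmonic hcard, hroots, hM,
    Multiset.map_map, Finset.prod_eq_multiset_prod]
  rfl

include hζ hR hdeg h in
/-- `∏_{b<p} (c - J(ζ^b x)) = R(c) - J(x^p)` for constants `c`. -/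
theorem prod_algebraMap_sub_twist (c : κ) :
    ∏ b ∈ Finset.range p,
        (algebraMap κ (LaurentSeries κ) c - Kummer.twist (ζ ^ b) (jqModC κ))
      = algebraMap κ (LaurentSeries κ) (R.eval c) - qExpand κ p (jqModC κ) := by
  have h1 := congrArg (Polynomial.eval (algebraMap κ (LaurentSeries κ) c))
    (map_sub_C_eq_prod ζ hζ R hR hdeg h)
  rw [eval_sub, eval_C, eval_map, eval₂_at_apply, eval_prod] at h1
  rw [h1]
  refine Finset.prod_congr rfl fun b _ => ?_
  rw [eval_sub, eval_X, eval_C]

end Norm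

section Small

open Fermat.Agent.S28.EtaNormL

/-- **(A0) in small characteristic.** In characteristic `ℓ` with `240 = 0` (`ℓ ∈ {2, 3, 5}`),
for a prime `p ≠ ℓ` and a primitive `p`-th root of unity `ζ ∈ κ`, there is no monic polynomial
`R` of degree `p` with `J(x^p) = R(J(x))`. -/
theorem false_of_small_char (ℓ : ℕ) [Fact ℓ.Prime] [CharP κ ℓ] (h240 : (240 : κ) = 0)
    {p : ℕ} [NeZero p] (hp : p.Prime) (hpℓ : p ≠ ℓ) (ζ : κˣ) (hζ : IsPrimitiveRoot (ζ : κ) p)
    (R : κ[X]) (hR : R.Monic) (hdeg : R.natDegree = p)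
    (h : aeval (jqModC κ) R = qExpand κ p (jqModC κ)) : False := by
  set i : κ →+* LaurentSeries κ := algebraMap κ (LaurentSeries κ) with hi
  set J : LaurentSeries κ := jqModC κ with hJ
  set T : LaurentSeries κ := qExpand κ p J with hT
  set Del : LaurentSeries κ := DelL κ with hDel
  have hJD : J * Del = 1 := jqModC_mul_DelL_eq_one κ h240
  -- the two products over the twists
  set A : LaurentSeries κ := ∏ b ∈ Finset.range p, Kummer.twist (ζ ^ b) J with hA
  set D : LaurentSeries κ := ∏ b ∈ Finset.range p, Kummer.twist (ζ ^ b) Del with hD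
  have hAD : A * D = 1 := by
    rw [hA, hD, ← Finset.prod_mul_distrib]
    refine Finset.prod_eq_one fun b _ => ?_
    rw [← map_mul, hJD, map_one]
  -- (β)
  have hβ : D * qExpand κ (p ^ 2) Del
      = HahnSeries.C ((-1 : κ) ^ (p + 1)) * qExpand κ p Del ^ (p + 1) := by
    refine delta_norm_laurent_field hp hζ (fun b => Kummer.twist (ζ ^ b)) fun b f k => ?_
    rw [Kummer.twist_coeff, Units.val_pow_eq_pow_val]
  have hs : HahnSeries.C ((-1 : κ) ^ (p + 1)) = (-1 : LaurentSeries κ) ^ (p + 1) := by
    rw [map_pow, map_neg, map_one]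
  -- `J Δ = 1` after `x ↦ x^p`, `x ↦ x^(p²)`
  have hJp : T * qExpand κ p Del = 1 := by
    rw [hT, ← map_mul, hJD, map_one]
  have hJp2 : qExpand κ (p ^ 2) J * qExpand κ (p ^ 2) Del = 1 := by
    rw [← map_mul, hJD, map_one]
  -- `J(x^(p²)) = R(J(x^p))`
  have hRT : qExpand κ (p ^ 2) J = aeval T R := by
    have h1 : qExpand κ p (qExpand κ p J) = aeval T R := by
      have h2 := (aeval_algHom_apply (qExpandAlgHomC κ p) J R).symm
      rw [qExpandAlgHomC_apply, qExpandAlgHomC_apply, h] at h2
      exact h2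
    rw [← h1, qExpand_qExpand]
    exact qExpand_congr (sq p) J
  -- the constant term of the norm factorisation
  have hA0 : (-1 : LaurentSeries κ) ^ p * A = i (R.eval 0) - T := by
    have h1 := prod_algebraMap_sub_twist ζ hζ R hR hdeg h 0
    rw [map_zero] at h1
    simp only [zero_sub] at h1
    rw [Finset.prod_neg, Finset.card_range] at h1
    exact h1
  -- the key relation `T^(p+1) = (T - R(0)) R(T)`
  have hkey : T ^ (p + 1) = (T - i (R.eval 0)) * aeval T R := by
    have h1 : T ^ (p + 1) = (-1 : LaurentSeries κ) ^ (p + 1) * A * qExpand κ (p ^ 2) J := by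
      calc T ^ (p + 1)
          = T ^ (p + 1) * (A * D) * (qExpand κ (p ^ 2) J * qExpand κ (p ^ 2) Del) := by
            rw [hAD, hJp2, mul_one, mul_one]
        _ = A * qExpand κ (p ^ 2) J * T ^ (p + 1) * (D * qExpand κ (p ^ 2) Del) := by ring
        _ = A * qExpand κ (p ^ 2) J * T ^ (p + 1)
              * ((-1 : LaurentSeries κ) ^ (p + 1) * qExpand κ p Del ^ (p + 1)) := by
            rw [hβ, hs]
        _ = (-1 : LaurentSeries κ) ^ (p + 1) * A * qExpand κ (p ^ 2) J
              * (T * qExpand κ p Del) ^ (p + 1) := by ring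
        _ = (-1 : LaurentSeries κ) ^ (p + 1) * A * qExpand κ (p ^ 2) J := by
            rw [hJp, one_pow, mul_one]
    rw [h1, hRT, pow_succ, mul_assoc ((-1 : LaurentSeries κ) ^ p), mul_comm (-1 : LaurentSeries κ),
      ← mul_assoc, hA0]
    ring
  -- a polynomial identity, by transcendence of `T = J(x^p)`
  have htr : Transcendental κ T := LevelData.transcendental_qExpand_jqModC κ p
  have hpoly : (X - C (R.eval 0)) * R = X ^ (p + 1) := by
    apply (transcendental_iff_injective.mp htr)
    rw [map_mul, map_sub, aeval_X, aeval_C, map_pow, aeval_X]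
    exact hkey.symm
  -- hence `R = X^p`
  have hr0 : R.eval 0 = 0 := by
    have h1 := congrArg (Polynomial.eval 0) hpoly
    rw [eval_mul, eval_sub, eval_X, eval_C, eval_pow, eval_X, zero_pow (Nat.succ_ne_zero p),
      zero_sub, neg_mul, neg_eq_zero] at h1
    exact mul_self_eq_zero.mp h1
  have hRX : R = X ^ p := by
    rw [hr0, map_zero, sub_zero, pow_succ'] at hpoly
    exact mul_left_cancel₀ X_ne_zero hpoly
  -- contradiction: `J(x^p) ≠ J(x)^p`
  have hfin : T = J ^ p := by rw [← h, hRX, map_pow, aeval_X]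
  exact EtaCoeff.qExpand_jqModC_ne_pow κ ℓ h240 hp hpℓ hfin

end Small

end Fermat.Agent.S28.A0Norm
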