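import Mathlib
import Fermat.Prelude.Def_ModularCurve_X0ModL
import Fermat.Agent.S28.A0Id
import Fermat.Agent.S28.A0Norm

/-!
# S28, piece (A0): `J(x^p)` is not a polynomial of degree `p` in `J(x)`

`κ` algebraically closed of characteristic `ℓ`, `p ≠ ℓ` prime.

* `false_of_monic` : there is no monic `R ∈ κ[X]` of degree `p` with `R(J(x)) = J(x^p)`
  (`ℓ ≥ 5`: `A0Id.false_of_large_char`; `ℓ ∈ {2, 3}`: `A0Norm.false_of_small_char`);
* `not_mem_of_poly` : hence `J(x^p) ∉ κ(J(x))`, given the reduction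
  "`J(x^p) ∈ κ(J(x))` implies `J(x^p) = R(J(x))` with `R` monic of degree `p`" (piece A0-POLY).
-/

set_option autoImplicit false

open Polynomial ModularCurve

namespace Fermat.Agent.S28.A0

/-- `p ≠ 0` in a field of characteristic `ℓ ≠ p`. -/
theorem natCast_prime_ne_zero (κ : Type*) [Field κ] (ℓ : ℕ) [Fact ℓ.Prime] [CharP κ ℓ] {p : ℕ}
    (hp : p.Prime) (hpℓ : p ≠ ℓ) : (p : κ) ≠ 0 := by
  intro h0
  rw [CharP.cast_eq_zero_iff κ ℓ] at h0
  exact hpℓ ((Nat.prime_dvd_prime_iff_eq Fact.out hp).mp h0).symm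

/-- If `1728 = 0` in a field of prime characteristic, then `240 = 0`. -/
theorem c240_eq_zero (κ : Type*) [Field κ] (ℓ : ℕ) [Fact ℓ.Prime] [CharP κ ℓ]
    (h1728 : (1728 : κ) = 0) : (240 : κ) = 0 := by
  have hℓ : ℓ.Prime := Fact.out
  have h1 : ((1728 : ℕ) : κ) = 0 := by exact_mod_cast h1728
  rw [CharP.cast_eq_zero_iff κ ℓ] at h1
  have h2 : ℓ ∣ 2 ^ 6 * 3 ^ 3 := h1
  have h3 : ℓ ∣ 240 := by
    rcases (Nat.Prime.dvd_mul hℓ).mp h2 with h | h
    · exact (hℓ.dvd_of_dvd_pow h).trans (by norm_num)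
    · exact (hℓ.dvd_of_dvd_pow h).trans (by norm_num)
  have h4 : ((240 : ℕ) : κ) = 0 := (CharP.cast_eq_zero_iff κ ℓ 240).mpr h3
  exact_mod_cast h4

/-- **(A0), polynomial form**: over an algebraically closed field `κ` of characteristic `ℓ`, for a
prime `p ≠ ℓ`, no monic polynomial `R` of degree `p` satisfies `R(J(x)) = J(x^p)`. -/
theorem false_of_monic (κ : Type*) [Field κ] [IsAlgClosed κ] (ℓ : ℕ) [Fact ℓ.Prime] [CharP κ ℓ]
    {p : ℕ} [NeZero p] (hp : p.Prime) (hpℓ : p ≠ ℓ) (R : κ[X]) (hR : R.Monic)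
    (hdeg : R.natDegree = p) (h : aeval (jqModC κ) R = qExpand κ p (jqModC κ)) : False := by
  have hpκ : (p : κ) ≠ 0 := natCast_prime_ne_zero κ ℓ hp hpℓ
  by_cases h1728 : (1728 : κ) = 0
  · obtain ⟨ζ, hζ⟩ := A0Theta.exists_primitiveRoot_unit hpκ
    exact A0Norm.false_of_small_char ℓ (c240_eq_zero κ ℓ h1728) hp hpℓ ζ hζ R hR hdeg h
  · exact A0Id.false_of_large_char h1728 hp hpκ R hdeg h

/-- **(A0)**, given the reduction A0-POLY: `J(x^p) ∉ κ(J(x))`. -/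
theorem not_mem_of_poly (κ : Type*) [Field κ] [IsAlgClosed κ] (ℓ : ℕ) [Fact ℓ.Prime] [CharP κ ℓ]
    (p : ℕ) [NeZero p] (hp : p.Prime) (hpℓ : p ≠ ℓ)
    (hpoly : qExpand κ p (jqModC κ) ∈ IntermediateField.adjoin κ {jqModC κ} →
      ∃ R : κ[X], R.Monic ∧ R.natDegree = p ∧ aeval (jqModC κ) R = qExpand κ p (jqModC κ)) :
    qExpand κ p (jqModC κ) ∉ IntermediateField.adjoin κ {jqModC κ} := fun hmem => by
  obtain ⟨R, hR, hdeg, h⟩ := hpoly hmem
  exact false_of_monic κ ℓ hp hpℓ R hR hdeg h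

end Fermat.Agent.S28.A0
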