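/-
S28, piece A0-POLY (helper7).

If `J(x^p)` lies in `κ(J)` (`J = jqModC κ` in `κ((x))`) and the level-`p` modular equation of piece
(Φ) holds, then `J(x^p) = R(J)` for a MONIC polynomial `R ∈ κ[X]` of degree exactly `p`.

Proof: write `J(x^p) = f(J)` with `f = A/B ∈ κ(X)` in lowest terms.  The modular equation divided
by `X − J(x^{p²}) = X − f(J(x^p))` is a monic polynomial of degree `p` with coefficients in
`κ(J(x^p)) = κ(f(J))` killing `J`, so `max (deg A) (deg B) = [κ(J) : κ(f(J))] ≤ p`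
(Mathlib: `RatFunc.irreducible_minpolyX`, `RatFunc.natDegree_minpolyX`).  Comparing the orders of
pole at `x = 0` in `J(x^p) · B(J) = A(J)` gives `deg A = p + deg B`, hence `B = 1`, `deg A = p`,
and the leading coefficients give `A` monic.
-/
import Mathlib
import Fermat.Prelude.Def_ModularCurve_X0ModL
import Fermat.Agent.S28.LevelData

set_option autoImplicit false

noncomputable section

open Polynomial ModularCurve IntermediateField

open scoped IntermediateField.algebraAdjoinAdjoin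

namespace Fermat.Agent.S28.A0Poly

/-! ### Abstract part -/

section Abstract

variable {κ L : Type*} [Field κ] [Field L] [Algebra κ L]

/-- A nonzero polynomial over `κ(f)` of degree `≤ p` killing `X` bounds the degree of `f`. -/
theorem max_natDegree_le (f : RatFunc κ) (hf : ¬ ∃ c, f = RatFunc.C c) {p : ℕ}
    (Gf : (κ⟮f⟯)[X]) (hG0 : Gf ≠ 0) (hdeg : Gf.natDegree ≤ p)
    (hroot : aeval (RatFunc.X : RatFunc κ) Gf = 0) :
    max f.num.natDegree f.denom.natDegree ≤ p := by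
  have hirr := RatFunc.irreducible_minpolyX f hf
  have hX := RatFunc.minpolyX_aeval_X f
  have hdvd : f.minpolyX κ⟮f⟯ ∣ Gf := by
    have h1 := minpoly.eq_of_irreducible hirr hX
    have h2 := minpoly.dvd κ⟮f⟯ (RatFunc.X : RatFunc κ) hroot
    rw [← h1] at h2
    exact (dvd_mul_right _ _).trans h2
  rw [← RatFunc.natDegree_minpolyX]
  exact (natDegree_le_of_dvd hdvd hG0).trans hdeg

/-- Abstract form of (A0-POLY): numerator and denominator of degree `≤ p`. -/
theorem abstract_bound {J : L} (hJ : Transcendental κ J) (E : L →ₐ[κ] L) {p : ℕ}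
    (hY : Transcendental κ (E J)) (hmem : E J ∈ κ⟮J⟯)
    (a : κ[X]) (Φ : κ[X][X]) (G : L[X]) (ha : a ≠ 0) (hG : G.Monic) (hGdeg : G.natDegree = p)
    (hGJ : G.eval J = 0)
    (hΦ : Φ.map (aeval (E J)).toRingHom = C (aeval (E J) a) * ((X - C (E (E J))) * G)) :
    ∃ A B : κ[X], B.Monic ∧ A.natDegree ≤ p ∧ B.natDegree ≤ p ∧
      E J * aeval J B = aeval J A := by
  classical
  have hinj : Function.Injective (aeval J : κ[X] →ₐ[κ] L) := transcendental_iff_injective.mp hJ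
  have hne : ∀ P : κ[X], P ≠ 0 → aeval J P ≠ 0 := fun P hP h =>
    hP (hinj (by rw [h, map_zero]))
  have hφ : nonZeroDivisors κ[X] ≤ (nonZeroDivisors L).comap (aeval J : κ[X] →ₐ[κ] L) := by
    intro P hP
    rw [Submonoid.mem_comap, mem_nonZeroDivisors_iff_ne_zero]
    exact hne P (mem_nonZeroDivisors_iff_ne_zero.mp hP)
  obtain ⟨φ, hφdef⟩ : ∃ φ : RatFunc κ →ₐ[κ] L, φ = RatFunc.liftAlgHom (aeval J) hφ := ⟨_, rfl⟩
  have hφalg : ∀ P : κ[X], φ (algebraMap κ[X] (RatFunc κ) P) = aeval J P := by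
    intro P
    have h := RatFunc.liftAlgHom_apply_div (aeval J : κ[X] →ₐ[κ] L) hφ P 1
    rw [map_one, map_one, div_one, div_one] at h
    rw [hφdef]
    exact h
  have hφX : φ RatFunc.X = J := by
    rw [← RatFunc.algebraMap_X, hφalg, aeval_X]
  have hφinj : Function.Injective φ := φ.toRingHom.injective
  obtain ⟨r, s, hrs⟩ := (IntermediateField.mem_adjoin_simple_iff κ (E J)).mp hmem
  obtain ⟨f, hfdef⟩ : ∃ f : RatFunc κ,
    f = algebraMap κ[X] (RatFunc κ) r / algebraMap κ[X] (RatFunc κ) s := ⟨_, rfl⟩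
  have hfY : φ f = E J := by rw [hfdef, map_div₀, hφalg, hφalg, hrs]
  have hfnd : E J = aeval J f.num / aeval J f.denom := by
    rw [← hfY]
    conv_lhs => rw [← RatFunc.num_div_denom f]
    rw [map_div₀, hφalg, hφalg]
  have hden : aeval J f.denom ≠ 0 := hne _ f.denom_ne_zero
  have hfC : ¬ ∃ c, f = RatFunc.C c := by
    rintro ⟨c, hc⟩
    apply hY
    have : E J = algebraMap κ L c := by
      rw [← hfY, hc, ← RatFunc.algebraMap_eq_C, AlgHom.commutes]
    rw [this]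
    exact isAlgebraic_algebraMap c
  -- the generator of `κ(f)` and the restriction of `φ`
  obtain ⟨y, hy⟩ : ∃ y : κ⟮f⟯, (y : RatFunc κ) = f := ⟨⟨f, mem_adjoin_simple_self κ f⟩, rfl⟩
  obtain ⟨ψ, hψdef⟩ : ∃ ψ : κ⟮f⟯ →ₐ[κ] L, ψ = φ.comp (κ⟮f⟯).val := ⟨_, rfl⟩
  have hψ : ∀ x : κ⟮f⟯, ψ x = φ (x : RatFunc κ) := fun x => by rw [hψdef]; rfl
  have hψy : ψ y = E J := by rw [hψ, hy, hfY]
  have hψae : ∀ P : κ[X], ψ (aeval y P) = aeval (E J) P := by
    intro P
    rw [← aeval_algHom_apply, hψy]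
  have hEE : E (E J) = aeval (E J) f.num / aeval (E J) f.denom := by
    conv_lhs => rw [hfnd]
    rw [map_div₀, ← aeval_algHom_apply, ← aeval_algHom_apply]
  obtain ⟨z, hzdef⟩ : ∃ z : κ⟮f⟯, z = aeval y f.num / aeval y f.denom := ⟨_, rfl⟩
  have hψz : ψ z = E (E J) := by rw [hzdef, map_div₀, hψae, hψae, hEE]
  have haY : aeval (E J) a ≠ 0 := fun h => ha ((transcendental_iff.mp hY) a h)
  obtain ⟨af, hafdef⟩ : ∃ af : κ⟮f⟯, af = aeval y a := ⟨_, rfl⟩
  have hψaf : ψ af = aeval (E J) a := by rw [hafdef, hψae]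
  have hcomp : (ψ : κ⟮f⟯ →+* L).comp ((aeval y : κ[X] →ₐ[κ] κ⟮f⟯) : κ[X] →+* κ⟮f⟯)
      = ((aeval (E J) : κ[X] →ₐ[κ] L) : κ[X] →+* L) := by
    ext P
    · simp only [RingHom.coe_comp, Function.comp_apply, RingHom.coe_coe, aeval_C]
      rw [AlgHom.commutes]
    · simp only [RingHom.coe_comp, Function.comp_apply, RingHom.coe_coe, aeval_X]
      exact hψy
  obtain ⟨Q, hQdef⟩ : ∃ Q : (κ⟮f⟯)[X],
    Q = C af⁻¹ * Φ.map ((aeval y : κ[X] →ₐ[κ] κ⟮f⟯) : κ[X] →+* κ⟮f⟯) := ⟨_, rfl⟩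
  have hQmap : Q.map (ψ : κ⟮f⟯ →+* L) = (X - C (E (E J))) * G := by
    rw [hQdef, Polynomial.map_mul, Polynomial.map_C, Polynomial.map_map, hcomp]
    have h1 : (ψ : κ⟮f⟯ →+* L) af⁻¹ = (aeval (E J) a)⁻¹ := by
      rw [map_inv₀]
      congr 1
    rw [h1]
    have h2 : Φ.map ((aeval (E J) : κ[X] →ₐ[κ] L) : κ[X] →+* L)
        = C (aeval (E J) a) * ((X - C (E (E J))) * G) := hΦ
    rw [h2, ← mul_assoc, ← C_mul, inv_mul_cancel₀ haY, C_1, one_mul]
  obtain ⟨Gf, hGfdef⟩ : ∃ Gf : (κ⟮f⟯)[X], Gf = Q /ₘ (X - C z) := ⟨_, rfl⟩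
  have hGfmap : Gf.map (ψ : κ⟮f⟯ →+* L) = G := by
    rw [hGfdef, Polynomial.map_divByMonic _ (monic_X_sub_C z), hQmap, Polynomial.map_sub,
      Polynomial.map_X, Polynomial.map_C]
    have h1 : (ψ : κ⟮f⟯ →+* L) z = E (E J) := hψz
    rw [h1]
    exact mul_divByMonic_cancel_left G (monic_X_sub_C _)
  have hGf0 : Gf ≠ 0 := by
    intro h
    rw [h, Polynomial.map_zero] at hGfmap
    exact hG.ne_zero hGfmap.symm
  have hGfdeg : Gf.natDegree = p := by
    rw [← hGdeg, ← hGfmap, natDegree_map]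
  have hroot : aeval (RatFunc.X : RatFunc κ) Gf = 0 := by
    apply hφinj
    rw [map_zero, aeval_def]
    have h1 : φ (eval₂ (algebraMap (↥κ⟮f⟯) (RatFunc κ)) RatFunc.X Gf)
        = (φ : RatFunc κ →+* L) (eval₂ (algebraMap (↥κ⟮f⟯) (RatFunc κ)) RatFunc.X Gf) := rfl
    rw [h1, hom_eval₂]
    have h2 : (φ : RatFunc κ →+* L).comp (algebraMap (↥κ⟮f⟯) (RatFunc κ))
        = (ψ : κ⟮f⟯ →+* L) := by
      ext x
      exact (hψ x).symm
    have h3 : (φ : RatFunc κ →+* L) RatFunc.X = J := hφX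
    rw [h2, h3, ← eval_map, hGfmap, hGJ]
  have hmax := max_natDegree_le f hfC Gf hGf0 hGfdeg.le hroot
  refine ⟨f.num, f.denom, f.monic_denom, (le_max_left _ _).trans hmax,
    (le_max_right _ _).trans hmax, ?_⟩
  rw [hfnd, div_mul_cancel₀ _ hden]

end Abstract

/-! ### The `q`-expansion part -/

section Concrete

variable (κ : Type*) [Field κ]

/-- `J` is transcendental over `κ` (re-export of `LevelData.transcendental_jqModC`). -/
theorem transcendental_jqModC : Transcendental κ (jqModC κ) :=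
  LevelData.transcendental_jqModC κ

variable {κ} in
/-- The order of a Laurent series from its lowest nonzero coefficient. -/
theorem order_eq_of_coeff {x : LaurentSeries κ} {n : ℤ} (h1 : x.coeff n ≠ 0)
    (h2 : ∀ m < n, x.coeff m = 0) : x.order = n :=
  le_antisymm (HahnSeries.order_le_of_coeff_ne_zero h1)
    ((HahnSeries.le_order_iff_forall (HahnSeries.ne_zero_of_coeff_ne_zero h1)).mpr h2)

/-- Coefficients of `P(J)` below `-deg P` vanish. -/
theorem coeff_aeval_jqModC_of_lt (P : κ[X]) {m : ℤ} (hm : m < -(P.natDegree : ℤ)) :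
    (aeval (jqModC κ) P).coeff m = 0 := by
  rw [aeval_eq_sum_range, HahnSeries.coeff_sum]
  refine Finset.sum_eq_zero fun i hi => ?_
  have hi' : i ≤ P.natDegree := Nat.lt_succ_iff.mp (Finset.mem_range.mp hi)
  rw [Algebra.smul_def, LevelData.coeff_algebraMap_mul,
    coeff_jqModC_pow_of_lt κ (by omega), mul_zero]

theorem order_aeval_jqModC {P : κ[X]} (hP : P ≠ 0) :
    (aeval (jqModC κ) P).order = -(P.natDegree : ℤ) := by
  refine order_eq_of_coeff ?_ fun m hm => coeff_aeval_jqModC_of_lt κ P hm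
  rw [LevelData.coeff_aeval_jqModC]
  exact leadingCoeff_ne_zero.mpr hP

theorem leadingCoeff_aeval_jqModC {P : κ[X]} (hP : P ≠ 0) :
    (aeval (jqModC κ) P).leadingCoeff = P.leadingCoeff := by
  rw [HahnSeries.leadingCoeff_eq, order_aeval_jqModC κ hP, LevelData.coeff_aeval_jqModC]

theorem coeff_qExpand_jqModC_neg (p : ℕ) [NeZero p] :
    (qExpand κ p (jqModC κ)).coeff (-(p : ℤ)) = 1 := by
  have h : -(p : ℤ) = (p : ℤ) * (-1) := by ring
  rw [h, qExpand_coeff_mul, coeff_jqModC_neg_one]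

theorem coeff_qExpand_jqModC_of_lt (p : ℕ) [NeZero p] {m : ℤ} (hm : m < -(p : ℤ)) :
    (qExpand κ p (jqModC κ)).coeff m = 0 := by
  by_cases hd : (p : ℤ) ∣ m
  · obtain ⟨k, rfl⟩ := hd
    rw [qExpand_coeff_mul]
    apply coeff_jqModC_of_lt
    have hp : (0 : ℤ) < p := by exact_mod_cast Nat.pos_of_ne_zero (NeZero.ne p)
    by_contra hk
    rw [not_lt] at hk
    nlinarith
  · exact qExpand_coeff_of_not_dvd p _ hd

theorem order_qExpand_jqModC (p : ℕ) [NeZero p] :
    (qExpand κ p (jqModC κ)).order = -(p : ℤ) := by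
  refine order_eq_of_coeff ?_ fun m hm => coeff_qExpand_jqModC_of_lt κ p hm
  rw [coeff_qExpand_jqModC_neg]
  exact one_ne_zero

theorem leadingCoeff_qExpand_jqModC (p : ℕ) [NeZero p] :
    (qExpand κ p (jqModC κ)).leadingCoeff = 1 := by
  rw [HahnSeries.leadingCoeff_eq, order_qExpand_jqModC, coeff_qExpand_jqModC_neg]

/-- From `J(x^p) · B(J) = A(J)` with `deg A ≤ p`, `B` monic: `B = 1`, `A` monic of degree `p`. -/
theorem monic_of_mul_eq (p : ℕ) [NeZero p] (A B : κ[X]) (hB : B.Monic) (hA : A.natDegree ≤ p)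
    (h : qExpand κ p (jqModC κ) * aeval (jqModC κ) B = aeval (jqModC κ) A) :
    A.Monic ∧ A.natDegree = p ∧ aeval (jqModC κ) A = qExpand κ p (jqModC κ) := by
  have hB0 : B ≠ 0 := hB.ne_zero
  have hY0 : qExpand κ p (jqModC κ) ≠ 0 := by
    apply HahnSeries.ne_zero_of_coeff_ne_zero (g := -(p : ℤ))
    rw [coeff_qExpand_jqModC_neg]
    exact one_ne_zero
  have hBJ0 : aeval (jqModC κ) B ≠ 0 := fun hh =>
    hB0 ((transcendental_iff.mp (transcendental_jqModC κ)) B hh)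
  have hA0 : A ≠ 0 := by
    rintro rfl
    rw [map_zero] at h
    exact mul_ne_zero hY0 hBJ0 h
  have hord := congrArg HahnSeries.order h
  rw [HahnSeries.order_mul hY0 hBJ0, order_qExpand_jqModC, order_aeval_jqModC κ hB0,
    order_aeval_jqModC κ hA0] at hord
  have hlc := congrArg HahnSeries.leadingCoeff h
  rw [HahnSeries.leadingCoeff_mul, leadingCoeff_qExpand_jqModC, leadingCoeff_aeval_jqModC κ hB0,
    leadingCoeff_aeval_jqModC κ hA0, one_mul] at hlc
  have hBdeg : B.natDegree = 0 := by omega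
  have hAdeg : A.natDegree = p := by omega
  have hB1 : B = 1 := eq_one_of_monic_natDegree_zero hB hBdeg
  refine ⟨?_, hAdeg, ?_⟩
  · rw [Monic, ← hlc]
    exact hB
  · rw [← h, hB1, map_one, mul_one]

/-- **(A0-POLY)**, general form: `G` is any monic polynomial of degree `p` over `κ((x))` with
root `J` such that `a(J(x^p)) · (X − J(x^{p²})) · G = Φ(J(x^p), X)`. -/
theorem exists_monic_of_mem (p : ℕ) [NeZero p]
    (hPhi : ∃ (a : κ[X]) (Φ : κ[X][X]) (G : (LaurentSeries κ)[X]), a ≠ 0 ∧ G.Monic ∧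
      G.natDegree = p ∧ G.eval (jqModC κ) = 0 ∧
      Φ.map (aeval (qExpand κ p (jqModC κ))).toRingHom
        = C (aeval (qExpand κ p (jqModC κ)) a) *
          ((X - C (qExpand κ (p ^ 2) (jqModC κ))) * G))
    (hmem : qExpand κ p (jqModC κ) ∈ IntermediateField.adjoin κ {jqModC κ}) :
    ∃ R : κ[X], R.Monic ∧ R.natDegree = p ∧
      aeval (jqModC κ) R = qExpand κ p (jqModC κ) := by
  obtain ⟨a, Φ, G, ha, hG, hGdeg, hGJ, hΦ⟩ := hPhi
  have hEE : qExpandAlgHomC κ p (qExpandAlgHomC κ p (jqModC κ))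
      = qExpand κ (p ^ 2) (jqModC κ) := by
    rw [qExpandAlgHomC_apply, qExpandAlgHomC_apply, qExpand_qExpand]
    exact qExpand_congr (sq p).symm _
  obtain ⟨A, B, hB, hAdeg, -, hAB⟩ := abstract_bound (transcendental_jqModC κ)
    (qExpandAlgHomC κ p) (p := p)
    (by rw [qExpandAlgHomC_apply]; exact LevelData.transcendental_qExpand_jqModC κ p)
    (by rw [qExpandAlgHomC_apply]; exact hmem) a Φ G ha hG hGdeg hGJ
    (by rw [hEE, qExpandAlgHomC_apply]; exact hΦ)
  rw [qExpandAlgHomC_apply] at hAB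
  exact ⟨A, monic_of_mul_eq κ p A B hB hAdeg hAB⟩

/-- **(A0-POLY)** in the shape of piece (Φ) / `LevelData.levelData_of_phi`: `T` any
coefficientwise twist family. -/
theorem exists_monic_of_mem_twist (p : ℕ) [NeZero p] (ζ : κˣ)
    (T : κˣ → LaurentSeries κ →+* LaurentSeries κ)
    (hT : ∀ (ξ : κˣ) (f : LaurentSeries κ) (k : ℤ),
      (T ξ f).coeff k = ((ξ ^ k : κˣ) : κ) * f.coeff k)
    (hΦ : ∃ (a : κ[X]) (Φ : κ[X][X]), a ≠ 0 ∧
      Φ.map (aeval (qExpand κ p (jqModC κ))).toRingHom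
        = C (aeval (qExpand κ p (jqModC κ)) a) *
          ((X - C (qExpand κ (p ^ 2) (jqModC κ))) *
            ∏ b ∈ Finset.range p, (X - C (T (ζ ^ b) (jqModC κ)))))
    (hmem : qExpand κ p (jqModC κ) ∈ IntermediateField.adjoin κ {jqModC κ}) :
    ∃ R : κ[X], R.Monic ∧ R.natDegree = p ∧
      aeval (jqModC κ) R = qExpand κ p (jqModC κ) := by
  obtain ⟨a, Φ, ha, hΦ⟩ := hΦ
  refine exists_monic_of_mem κ p ⟨a, Φ, _, ha, ?_, ?_, ?_, hΦ⟩ hmem
  · exact monic_prod_of_monic _ _ fun b _ => monic_X_sub_C _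
  · rw [natDegree_prod_of_monic _ _ fun b _ => monic_X_sub_C _]
    simp
  · have hp : 0 < p := Nat.pos_of_ne_zero (NeZero.ne p)
    have h0 : T (ζ ^ 0) (jqModC κ) = jqModC κ := by
      ext k
      rw [hT, pow_zero, one_zpow, Units.val_one, one_mul]
    rw [eval_prod]
    apply Finset.prod_eq_zero (Finset.mem_range.mpr hp)
    rw [eval_sub, eval_X, eval_C, h0, sub_self]

/-- The same with the twist law written with `zpow` in `κ`. -/
theorem exists_monic_of_mem_twist_zpow (p : ℕ) [NeZero p] (ζ : κˣ)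
    (T : κˣ → LaurentSeries κ →+* LaurentSeries κ)
    (hT : ∀ (ξ : κˣ) (f : LaurentSeries κ) (k : ℤ), (T ξ f).coeff k = (ξ : κ) ^ k * f.coeff k)
    (hΦ : ∃ (a : κ[X]) (Φ : κ[X][X]), a ≠ 0 ∧
      Φ.map (aeval (qExpand κ p (jqModC κ))).toRingHom
        = C (aeval (qExpand κ p (jqModC κ)) a) *
          ((X - C (qExpand κ (p ^ 2) (jqModC κ))) *
            ∏ b ∈ Finset.range p, (X - C (T (ζ ^ b) (jqModC κ)))))
    (hmem : qExpand κ p (jqModC κ) ∈ IntermediateField.adjoin κ {jqModC κ}) :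
    ∃ R : κ[X], R.Monic ∧ R.natDegree = p ∧
      aeval (jqModC κ) R = qExpand κ p (jqModC κ) :=
  exists_monic_of_mem_twist κ p ζ T
    (fun ξ f k => by rw [hT, Units.val_zpow_eq_zpow_val]) hΦ hmem

end Concrete

end Fermat.Agent.S28.A0Poly
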