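import Mathlib
import Fermat.Prelude.Def_ModularCurve_X0ModL
import Fermat.Agent.S28.A0
import Fermat.Agent.S28.A0Poly
import Fermat.Agent.S28.Phi.Main

/-!
# S28, piece (A0), final form

`κ` algebraically closed of characteristic `ℓ`, `p ≠ ℓ` prime:

* `exists_monic_of_mem` : if `J(x^p) ∈ κ(J(x))` then `J(x^p) = R(J(x))` for a monic `R ∈ κ[X]`
  of degree `p` (A0-POLY with the modular equation `Phi.exists_modular_eq` plugged in);
* `not_mem` : **(A0)** `J(x^p) ∉ κ(J(x))`.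
-/

set_option autoImplicit false

open Polynomial ModularCurve

namespace Fermat.Agent.S28.A0Final

/-- A0-POLY, unconditional: `J(x^p) ∈ κ(J(x))` forces `J(x^p) = R(J(x))`, `R` monic of
degree `p`. -/
theorem exists_monic_of_mem (κ : Type*) [Field κ] [IsAlgClosed κ] (ℓ : ℕ) [Fact ℓ.Prime]
    [CharP κ ℓ] (p : ℕ) [NeZero p] (hp : p.Prime) (hpℓ : p ≠ ℓ)
    (h : qExpand κ p (jqModC κ) ∈ IntermediateField.adjoin κ {jqModC κ}) :
    ∃ R : κ[X], R.Monic ∧ R.natDegree = p ∧ aeval (jqModC κ) R = qExpand κ p (jqModC κ) := by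
  obtain ⟨ζ, hζ⟩ := A0Theta.exists_primitiveRoot_unit (A0.natCast_prime_ne_zero κ ℓ hp hpℓ)
  exact A0Poly.exists_monic_of_mem_twist κ p ζ (fun ξ => Phi.twistU ξ)
    (fun ξ f k => Phi.twistU_coeff ξ f k) (Phi.exists_modular_eq κ ℓ p hp ζ hζ) h

/-- **(A0)**: over an algebraically closed field `κ` of characteristic `ℓ`, for a prime `p ≠ ℓ`,
`J(x^p)` does not lie in `κ(J(x))`. -/
theorem not_mem (κ : Type*) [Field κ] [IsAlgClosed κ] (ℓ : ℕ) [Fact ℓ.Prime] [CharP κ ℓ]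
    (p : ℕ) [NeZero p] (hp : p.Prime) (hpℓ : p ≠ ℓ) :
    qExpand κ p (jqModC κ) ∉ IntermediateField.adjoin κ {jqModC κ} :=
  A0.not_mem_of_poly κ ℓ p hp hpℓ (exists_monic_of_mem κ ℓ p hp hpℓ)

end Fermat.Agent.S28.A0Final
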