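/-
S28 (Igusa), glue piece DEG0: the landed S24 degree bound `[F : ℚ(j)] ≤ [SL₂(ℤ) : Γ₀(N)]`,
transported to the frozen objects used by S28: `F = ModularCurve.modularFunctionFieldFull N`
inside `LaurentSeries ℚ`, the subfield `ℚ(j) = IntermediateField.adjoin ℚ {ModularCurve.jq}` and
the number `ModularCurve.dedekindPsi N`.

Main statements (`K0 := IntermediateField.adjoin ℚ {jq}`; `LaurentSeries ℚ` is a `K0`-vector space):
* `card_le` / `not_linearIndependent`: a `K0`-linearly independent family of elements of `F` has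
  at most `dedekindPsi N` members;
* `exists_eq_sum`: `dedekindPsi N` linearly independent elements of `F` span `F` over `K0`;
* `exists_poly`, `isAlgebraic`: every element of `F` is a root of a nonzero polynomial of degree
  `≤ dedekindPsi N` over `K0`.
-/
import Fermat.Agent.S24.Mod.Degree
import Fermat.Agent.S24.CombIndex

set_option autoImplicit false

open ModularCurve IntermediateField
open scoped MatrixGroups

namespace Fermat.Agent.S28.Deg0

/-! ### Generic transfer of linear independence -/

theorem val_mem_adjoin {k M : Type*} [Field k] [Field M] [Algebra k M] (F : IntermediateField k M)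
    (j : ↥F) (c : ↥k⟮j⟯) : ((c : ↥F) : M) ∈ IntermediateField.adjoin k {(j : M)} := by
  have h : (k⟮j⟯).map F.val = IntermediateField.adjoin k {(j : M)} := by
    rw [IntermediateField.adjoin_map]
    simp
  rw [← h]
  exact ⟨(c : ↥F), c.2, rfl⟩

theorem generic_card_le {k M : Type*} [Field k] [Field M] [Algebra k M]
    (F : IntermediateField k M) (j : ↥F) [FiniteDimensional ↥k⟮j⟯ ↥F] {n : ℕ} (f : Fin n → M)
    (hf : ∀ i, f i ∈ F) (hli : LinearIndependent ↥(IntermediateField.adjoin k {(j : M)}) f) :
    n ≤ Module.finrank ↥k⟮j⟯ ↥F := by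
  have hli' : LinearIndependent ↥k⟮j⟯ (fun i : Fin n => (⟨f i, hf i⟩ : ↥F)) := by
    rw [Fintype.linearIndependent_iff]
    intro g hg i
    rw [Fintype.linearIndependent_iff] at hli
    have key := hli (fun i => ⟨((g i : ↥F) : M), val_mem_adjoin F j (g i)⟩) ?_ i
    · have h1 : ((g i : ↥F) : M) = 0 := congrArg Subtype.val key
      exact Subtype.ext (Subtype.ext h1)
    · have h2 := congrArg (fun x : ↥F => (x : M)) hg
      simp only [ZeroMemClass.coe_zero] at h2
      rw [← h2]
      simp only [AddSubmonoidClass.coe_finsetSum]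
      refine Finset.sum_congr rfl fun i _ => ?_
      rfl
  simpa using hli'.fintype_card_le_finrank

/-! ### Identification of the S24 objects over `ℚ` with the frozen ones -/

theorem coeffEmb_rat (x : LaurentSeries ℚ) : coeffEmb ℚ x = x := by
  ext k
  simp

theorem FF_rat (N : ℕ) [NeZero N] : Fermat.Agent.S24.FF ℚ N = modularFunctionFieldFull N := by
  unfold Fermat.Agent.S24.FF laurentBaseChange
  have : (⇑(coeffEmb ℚ) '' (modularFunctionFieldFull N : Set (LaurentSeries ℚ)))
      = (modularFunctionFieldFull N : Set (LaurentSeries ℚ)) := by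
    ext x
    simp [coeffEmb_rat]
  rw [this]
  exact IntermediateField.adjoin_self ℚ _

theorem coe_jElt_rat (N : ℕ) [NeZero N] :
    ((Fermat.Agent.S24.jElt ℚ N : ↥(Fermat.Agent.S24.FF ℚ N)) : LaurentSeries ℚ) = jq := by
  show coeffEmb ℚ (Fermat.Agent.S24.jqd (⟨1, one_dvd N⟩ : Fermat.Agent.S24.Dv N)) = jq
  rw [coeffEmb_rat]
  show qExpand ℚ 1 jq = jq
  exact qExpand_one_apply jq

/-! ### The degree bound on the frozen objects -/

/-- A family of elements of the function field of `X₀(N)` which is linearly independent over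
`ℚ(j)` has at most `dedekindPsi N` members. -/
theorem card_le (N : ℕ) [NeZero N] {n : ℕ} (f : Fin n → LaurentSeries ℚ)
    (hf : ∀ i, f i ∈ modularFunctionFieldFull N)
    (hli : LinearIndependent ↥(IntermediateField.adjoin ℚ {jq}) f) : n ≤ dedekindPsi N := by
  have := Fermat.Agent.S24.Degree.finiteDimensional (L := ℚ) (algebraMap ℚ ℂ) N
  have h1 := Fermat.Agent.S24.Degree.finrank_le (L := ℚ) (algebraMap ℚ ℂ) N
  have h2 : Nat.card (SL(2, ℤ) ⧸ CongruenceSubgroup.Gamma0 N) = dedekindPsi N :=
    Fermat.Agent.S24.Comb.index_Gamma0 N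
  have hf' : ∀ i, f i ∈ Fermat.Agent.S24.FF ℚ N := fun i => by rw [FF_rat]; exact hf i
  have hli' : LinearIndependent
      ↥(IntermediateField.adjoin ℚ
        {((Fermat.Agent.S24.jElt ℚ N : ↥(Fermat.Agent.S24.FF ℚ N)) : LaurentSeries ℚ)}) f := by
    rw [coe_jElt_rat]
    exact hli
  have h3 := generic_card_le (Fermat.Agent.S24.FF ℚ N) (Fermat.Agent.S24.jElt ℚ N) f hf' hli'
  omega

theorem not_linearIndependent (N : ℕ) [NeZero N] {n : ℕ} (hn : dedekindPsi N < n)
    (f : Fin n → LaurentSeries ℚ) (hf : ∀ i, f i ∈ modularFunctionFieldFull N) :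
    ¬ LinearIndependent ↥(IntermediateField.adjoin ℚ {jq}) f := fun hli =>
  absurd (card_le N f hf hli) (by omega)

/-- `dedekindPsi N` elements of the function field of `X₀(N)` which are linearly independent over
`ℚ(j)` span it over `ℚ(j)`. -/
theorem exists_eq_sum (N : ℕ) [NeZero N] (f : Fin (dedekindPsi N) → LaurentSeries ℚ)
    (hf : ∀ i, f i ∈ modularFunctionFieldFull N)
    (hli : LinearIndependent ↥(IntermediateField.adjoin ℚ {jq}) f) {b : LaurentSeries ℚ}
    (hb : b ∈ modularFunctionFieldFull N) :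
    ∃ c : Fin (dedekindPsi N) → ↥(IntermediateField.adjoin ℚ {jq}), b = ∑ i, c i • f i := by
  by_cases hmem : b ∈ Submodule.span ↥(IntermediateField.adjoin ℚ {jq}) (Set.range f)
  · obtain ⟨c, hc⟩ := (Submodule.mem_span_range_iff_exists_fun _).mp hmem
    exact ⟨c, hc.symm⟩
  · exfalso
    have hli' : LinearIndependent ↥(IntermediateField.adjoin ℚ {jq})
        (Fin.cons b f : Fin (dedekindPsi N + 1) → LaurentSeries ℚ) :=
      linearIndependent_finCons.mpr ⟨hli, hmem⟩
    have hmem' : ∀ i, (Fin.cons b f : Fin (dedekindPsi N + 1) → LaurentSeries ℚ) i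
        ∈ modularFunctionFieldFull N := by
      intro i
      refine Fin.cases ?_ (fun j => ?_) i
      · simpa using hb
      · simpa using hf j
    have := card_le N _ hmem' hli'
    omega

/-- Every element of the function field of `X₀(N)` is a root of a nonzero polynomial of degree at
most `dedekindPsi N` over `ℚ(j)`. -/
theorem exists_poly (N : ℕ) [NeZero N] {b : LaurentSeries ℚ}
    (hb : b ∈ modularFunctionFieldFull N) :
    ∃ p : Polynomial ↥(IntermediateField.adjoin ℚ {jq}),
      p ≠ 0 ∧ p.natDegree ≤ dedekindPsi N ∧ Polynomial.aeval b p = 0 := by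
  classical
  have hnl := not_linearIndependent N (Nat.lt_succ_self (dedekindPsi N))
    (fun i : Fin (dedekindPsi N + 1) => b ^ (i : ℕ)) (fun i => pow_mem hb _)
  rw [Fintype.not_linearIndependent_iff] at hnl
  obtain ⟨g, hg, i₀, hi₀⟩ := hnl
  refine ⟨Polynomial.ofFn (dedekindPsi N + 1) g, ?_, ?_, ?_⟩
  · intro h0
    apply hi₀
    have := Polynomial.ofFn_coeff_eq_val_of_lt g i₀.2
    rw [h0, Polynomial.coeff_zero] at this
    exact this.symm
  · have := Polynomial.ofFn_natDegree_lt (n := dedekindPsi N + 1) (Nat.le_add_left 1 _) g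
    omega
  · have hlt := Polynomial.ofFn_natDegree_lt (n := dedekindPsi N + 1) (Nat.le_add_left 1 _) g
    rw [Polynomial.aeval_eq_sum_range' hlt, Finset.sum_range, ← hg]
    refine Finset.sum_congr rfl fun i _ => ?_
    rw [Polynomial.ofFn_coeff_eq_val_of_lt g i.2]

theorem isAlgebraic (N : ℕ) [NeZero N] {b : LaurentSeries ℚ}
    (hb : b ∈ modularFunctionFieldFull N) :
    IsAlgebraic ↥(IntermediateField.adjoin ℚ {jq}) b := by
  obtain ⟨p, hp0, -, hp⟩ := exists_poly N hb
  exact ⟨p, hp0, hp⟩

end Fermat.Agent.S28.Deg0
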