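/-
S28 (Igusa): the degree bound `ψ(N) ≤ [κ(J(q^d) : d ∣ N) : κ(J)]` over an algebraically closed
field `κ` of characteristic `ℓ ∤ N`, assembled from the landed pieces: the modular equations
(`Phi.exists_modular_eq`), (A0) in polynomial form (`A0.not_mem_of_poly`) and the spine
(`ConjSpine.psi_le_relrank_of_phi`).  The only input left open here is the reduction A0-POLY
(`J(x^p) ∈ κ(J) ⟹ J(x^p) = R(J)` with `R` monic of degree `p`), taken as a hypothesis.
-/
import Mathlib
import Fermat.Agent.S28.ConjSpine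
import Fermat.Agent.S28.A0
import Fermat.Agent.S28.Phi.Main

set_option autoImplicit false

open ModularCurve Polynomial IntermediateField

namespace Fermat.Agent.S28.IgusaDeg

/-- The degree lower bound over an algebraically closed field of characteristic `ℓ ∤ N`, given the
reduction A0-POLY for the prime divisors of `N`. -/
theorem psi_le_relrank_of_poly (ℓ : ℕ) [Fact ℓ.Prime] (N : ℕ) [NeZero N] (hℓN : ¬ ℓ ∣ N)
    (κ : Type*) [Field κ] [IsAlgClosed κ] [CharP κ ℓ]
    (hpoly : ∀ (p : ℕ) [NeZero p], p.Prime → p ∣ N →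
      qExpand κ p (jqModC κ) ∈ IntermediateField.adjoin κ {jqModC κ} →
        ∃ R : κ[X], R.Monic ∧ R.natDegree = p ∧ aeval (jqModC κ) R = qExpand κ p (jqModC κ)) :
    (dedekindPsi N : Cardinal) ≤
      IntermediateField.relrank κ⟮jqModC κ⟯ (modularFunctionFieldFullC κ N) := by
  have hne : ∀ p : ℕ, p ∣ N → p ≠ ℓ := fun p hpN hpℓ => hℓN (hpℓ ▸ hpN)
  refine ConjSpine.psi_le_relrank_of_phi κ N (fun ξ => Phi.twistU ξ)
    (fun ξ f k => Phi.twistU_coeff ξ f k) ?_ ?_
  · intro p _ hp hpN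
    exact A0.not_mem_of_poly κ ℓ p hp (hne p hpN) (hpoly p hp hpN)
  · intro r _ hr hrN
    obtain ⟨ζ, hζ⟩ := A0Theta.exists_primitiveRoot_unit
      (A0.natCast_prime_ne_zero κ ℓ hr (hne r hrN))
    exact ⟨ζ, hζ, Phi.exists_modular_eq κ ℓ r hr ζ hζ⟩

end Fermat.Agent.S28.IgusaDeg
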