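/-
S28, piece MONO (helper28): from the degree bound `ψ(N) ≤ [F_N : κ(J)]` over a field `κ` to
`ψ(N)` monomials in the `J(q^d)`, `d ∣ N`, which are linearly independent over `k(J)` for any
subfield `k` of `κ` (in the application `k = ZMod ℓ`, `κ = AlgebraicClosure (ZMod ℓ)`).

* `Jd R d`      : `J(q^d)` over any commutative ring `R`, as a total function of `d`
                  (`= qExpand R d (jqModC R)` for `d ≠ 0`).
* `mono R N e`  : the monomial `∏_{d ∣ N} J(q^d) ^ e d` (exponent vector `e : ℕ → ℕ`).
* `coeffMap_mono` : monomials are compatible with every change of coefficients, so the same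
                  exponent vectors give elements of `ℤ((q))`, `ℚ((q))`, `(ZMod ℓ)((q))`, ….
* `exists_monomials` : over a field `κ`, the degree bound gives `ψ(N)` elements of the
                  multiplicative monoid generated by the `J(q^d)` which are independent over `κ(J)`.
* `exists_indep_monomials` : **MONO**, the descent to any subfield `k` of `κ`.
-/
import Mathlib
import Fermat.Prelude.Def_ModularCurve_X0
import Fermat.Prelude.Def_ModularCurve_X0ModL

set_option autoImplicit false

noncomputable section

namespace Fermat.Agent.S28.Mono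

open ModularCurve IntermediateField

universe u

section Defs

variable (R : Type*) [CommRing R]

/-- `J(q^d)` over `R`, as a total function of `d` (the value at `d = 0` is `1`) -/
def Jd (d : ℕ) : LaurentSeries R :=
  if h : d = 0 then 1 else @qExpand R _ d ⟨h⟩ (jqModC R)

theorem Jd_eq (d : ℕ) [NeZero d] : Jd R d = qExpand R d (jqModC R) :=
  dif_neg (NeZero.ne d)

@[simp] theorem Jd_zero : Jd R 0 = 1 := dif_pos rfl

/-- the monomial `∏_{d ∣ N} J(q^d) ^ e d` -/
def mono (N : ℕ) (e : ℕ → ℕ) : LaurentSeries R :=
  ∏ d ∈ N.divisors, Jd R d ^ e d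

theorem mono_zero (N : ℕ) : mono R N 0 = 1 := by
  simp [mono]

theorem mono_add (N : ℕ) (e e' : ℕ → ℕ) : mono R N (e + e') = mono R N e * mono R N e' := by
  simp only [mono, Pi.add_apply, pow_add]
  exact Finset.prod_mul_distrib

theorem mono_single {N d : ℕ} (hd : d ∈ N.divisors) : mono R N (Pi.single d 1) = Jd R d := by
  classical
  rw [mono, Finset.prod_eq_single d]
  · rw [Pi.single_eq_same, pow_one]
  · intro b _ hb
    rw [Pi.single_eq_of_ne hb, pow_zero]
  · intro h
    exact absurd hd h

variable {R}

theorem coeffMap_Jd {S : Type*} [CommRing S] (f : R →+* S) (d : ℕ) :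
    coeffMap f (Jd R d) = Jd S d := by
  by_cases h : d = 0
  · subst h
    rw [Jd_zero, Jd_zero, map_one]
  · have : NeZero d := ⟨h⟩
    rw [Jd_eq, Jd_eq, coeffMap_qExpand, coeffMap_jqModC]

/-- monomials are compatible with every change of coefficients -/
theorem coeffMap_mono {S : Type*} [CommRing S] (f : R →+* S) (N : ℕ) (e : ℕ → ℕ) :
    coeffMap f (mono R N e) = mono S N e := by
  simp only [mono, map_prod, map_pow, coeffMap_Jd]

end Defs

section Field

variable (κ : Type u) [Field κ]

theorem Jd_mem_divisorExpansionsC {N d : ℕ} (hd : d ∈ N.divisors) :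
    Jd κ d ∈ divisorExpansionsC κ N := by
  have hd0 : d ≠ 0 := (Nat.pos_of_mem_divisors hd).ne'
  have : NeZero d := ⟨hd0⟩
  rw [Jd_eq]
  exact mem_divisorExpansionsC κ N (Nat.dvd_of_mem_divisors hd)

/-- a monomial lies in the function field `F_N` -/
theorem mono_mem_full (N : ℕ) (e : ℕ → ℕ) : mono κ N e ∈ modularFunctionFieldFullC κ N :=
  prod_mem fun _ hd => pow_mem (subset_adjoin κ _ (Jd_mem_divisorExpansionsC κ hd)) _

variable {κ}

/-- every element of the multiplicative monoid generated by the `J(q^d)`, `d ∣ N`, is a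
monomial -/
theorem exists_eq_mono {N : ℕ} (hN : N ≠ 0) {x : LaurentSeries κ}
    (hx : x ∈ Submonoid.closure (divisorExpansionsC κ N)) : ∃ e : ℕ → ℕ, x = mono κ N e := by
  induction hx using Submonoid.closure_induction with
  | mem x hx =>
    obtain ⟨d, hd0, hdN, rfl⟩ := hx
    refine ⟨Pi.single d 1, ?_⟩
    rw [mono_single κ (Nat.mem_divisors.mpr ⟨hdN, hN⟩), Jd_eq]
  | one => exact ⟨0, (mono_zero κ N).symm⟩
  | mul x y _ _ hx hy =>
    obtain ⟨e, rfl⟩ := hx
    obtain ⟨e', rfl⟩ := hy
    exact ⟨e + e', (mono_add κ N e e').symm⟩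

/-- powers of a transcendental element are linearly independent -/
theorem linearIndependent_pow_of_transcendental {K E : Type*} [Field K] [Field E] [Algebra K E]
    {x : E} (hx : Transcendental K x) (n : ℕ) :
    LinearIndependent K (fun i : Fin n => x ^ (i : ℕ)) := by
  have hinj : Function.Injective (Polynomial.aeval (R := K) x) := transcendental_iff_injective.mp hx
  have hb : LinearIndependent K (fun m : ℕ => (Polynomial.monomial m (1 : K))) := by
    have := (Polynomial.basisMonomials K).linearIndependent
    rwa [Polynomial.coe_basisMonomials] at this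
  have h1 := hb.map' (Polynomial.aeval (R := K) x).toLinearMap (LinearMap.ker_eq_bot.mpr hinj)
  have e : ((Polynomial.aeval (R := K) x).toLinearMap ∘
      fun m : ℕ => (Polynomial.monomial m (1 : K))) = fun m : ℕ => x ^ m := by
    funext m
    simp [Polynomial.aeval_monomial]
  rw [e] at h1
  exact h1.comp _ Fin.val_injective

/-- **Monomials over `κ`.** The degree bound gives `ψ(N)` elements of the multiplicative monoid
generated by the `J(q^d)`, `d ∣ N`, which are linearly independent over `κ(J)`. -/
theorem exists_monomials (N : ℕ) [NeZero N]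
    (h : (dedekindPsi N : Cardinal.{u}) ≤
      relrank κ⟮jqModC κ⟯ (modularFunctionFieldFullC κ N)) :
    ∃ s : Fin (dedekindPsi N) → LaurentSeries κ,
      (∀ i, s i ∈ Submonoid.closure (divisorExpansionsC κ N)) ∧
        LinearIndependent ↥(κ⟮jqModC κ⟯) s := by
  classical
  by_cases halg : ∀ x ∈ divisorExpansionsC κ N, IsAlgebraic ↥(κ⟮jqModC κ⟯) x
  · -- the field generated over `κ(J)` is spanned by the monomials
    have hle : κ⟮jqModC κ⟯ ≤ modularFunctionFieldFullC κ N :=
      adjoin_simple_le_iff.mpr (jqModC_mem_full κ N)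
    have hE : extendScalars hle = adjoin ↥(κ⟮jqModC κ⟯) (divisorExpansionsC κ N) :=
      extendScalars_adjoin hle
    rw [relrank_eq_rank_of_le hle, hE, ← rank_eq_rank_subalgebra,
      adjoin_toSubalgebra_of_isAlgebraic halg, ← Subalgebra.rank_toSubmodule,
      Algebra.adjoin_eq_span] at h
    obtain ⟨b, hbsub, hbspan, hbli⟩ := exists_linearIndependent ↥(κ⟮jqModC κ⟯)
      ((Submonoid.closure (divisorExpansionsC κ N) : Submonoid (LaurentSeries κ)) :
        Set (LaurentSeries κ))
    rw [← hbspan, rank_span_set hbli] at h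
    have h' : Cardinal.lift.{u} (Cardinal.mk (Fin (dedekindPsi N))) ≤
        Cardinal.lift.{0} (Cardinal.mk b) := by
      simpa using h
    obtain ⟨f⟩ := Cardinal.lift_mk_le'.mp h'
    exact ⟨fun i => (f i : LaurentSeries κ), fun i => hbsub (f i).2, hbli.comp f f.injective⟩
  · -- some generator is transcendental over `κ(J)`: its powers are independent
    obtain ⟨x, hxS, hx⟩ : ∃ x ∈ divisorExpansionsC κ N, Transcendental ↥(κ⟮jqModC κ⟯) x := by
      by_contra hcon
      exact halg fun x hx => by
        by_contra hx'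
        exact hcon ⟨x, hx, hx'⟩
    exact ⟨fun i => x ^ (i : ℕ), fun i => pow_mem (Submonoid.subset_closure hxS) _,
      linearIndependent_pow_of_transcendental hx _⟩

end Field

section Descent

variable {k : Type*} {κ : Type u} [Field k] [Field κ] [Algebra k κ]

/-- the change of coefficients maps `k(J)` into `κ(J)` -/
theorem coeffMap_mem_adjoin {c : LaurentSeries k} (hc : c ∈ k⟮jqModC k⟯) :
    coeffMap (algebraMap k κ) c ∈ κ⟮jqModC κ⟯ := by
  have hle : (k⟮jqModC k⟯).toSubfield ≤
      (κ⟮jqModC κ⟯).toSubfield.comap (coeffMap (algebraMap k κ)) := by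
    rw [adjoin_toSubfield, Subfield.closure_le]
    rintro x (⟨a, rfl⟩ | rfl)
    · change coeffMap (algebraMap k κ) (algebraMap k (LaurentSeries k) a) ∈ κ⟮jqModC κ⟯
      rw [algebraMap_laurentSeries_eq_single, coeffMap_single,
        ← algebraMap_laurentSeries_eq_single]
      exact (κ⟮jqModC κ⟯).algebraMap_mem _
    · change coeffMap (algebraMap k κ) (jqModC k) ∈ κ⟮jqModC κ⟯
      rw [coeffMap_jqModC]
      exact mem_adjoin_simple_self κ _
  exact hle hc

theorem coeffMap_injective : Function.Injective (coeffMap (algebraMap k κ)) := by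
  intro x y hxy
  ext n
  have := congrArg (fun z : LaurentSeries κ => z.coeff n) hxy
  simp only [coeffMap_coeff] at this
  exact (algebraMap k κ).injective this

/-- **MONO.** If `ψ(N) ≤ [F_N : κ(J)]` over the field `κ`, then for every subfield `k` of `κ`
there are `ψ(N)` monomials `∏_{d ∣ N} J(q^d) ^ e i d` in `k((q))` which are linearly independent
over `k(J)`. -/
theorem exists_indep_monomials (k : Type*) {κ : Type u} [Field k] [Field κ] [Algebra k κ]
    (N : ℕ) [NeZero N]
    (h : (dedekindPsi N : Cardinal.{u}) ≤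
      relrank κ⟮jqModC κ⟯ (modularFunctionFieldFullC κ N)) :
    ∃ e : Fin (dedekindPsi N) → ℕ → ℕ,
      LinearIndependent ↥(k⟮jqModC k⟯) (fun i => mono k N (e i)) := by
  obtain ⟨s, hs, hli⟩ := exists_monomials N h
  choose e he using fun i => exists_eq_mono (NeZero.ne N) (hs i)
  refine ⟨e, ?_⟩
  rw [Fintype.linearIndependent_iff] at hli ⊢
  intro g hg i
  -- push the relation to `κ`
  let g' : Fin (dedekindPsi N) → ↥(κ⟮jqModC κ⟯) := fun i =>
    ⟨coeffMap (algebraMap k κ) (g i : LaurentSeries k), coeffMap_mem_adjoin (g i).2⟩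
  have hg' : ∑ i, g' i • s i = 0 := by
    have h0 := congrArg (coeffMap (algebraMap k κ)) hg
    rw [map_zero, map_sum] at h0
    rw [← h0]
    refine Finset.sum_congr rfl fun i _ => ?_
    rw [he i, Algebra.smul_def, Algebra.smul_def, map_mul, coeffMap_mono]
    rfl
  have h1 := hli g' hg' i
  have h2 : coeffMap (algebraMap k κ) (g i : LaurentSeries k) = 0 :=
    congrArg Subtype.val h1
  have h3 : (g i : LaurentSeries k) = 0 := coeffMap_injective (by rw [h2, map_zero])
  exact Subtype.ext h3

end Descent

end Fermat.Agent.S28.Mono
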