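/-
S28, piece VAL-BASE (helper18): concrete leaf facts for the instantiation of the valuation
argument on the frozen charts.

* `coeff_aeval_jqModC`, `aeval_jqModC_injective`: `j` is transcendental over any nontrivial
  commutative ring (pole of order one at `q = 0`);
* `jqInvC`: the inverse of `j` over any commutative ring, and its transcendence;
* `map_eq_zero_of_coeffMap_aeval`: a polynomial in `j` (or in `1/j`) whose `q`-expansion is killed
  by a coefficient map `f` is killed by `f` (Gauss).
-/
import Mathlib
import Fermat.Prelude.Def_ModularCurve_X0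
import Fermat.Prelude.Def_ModularCurve_X0ModL
import Fermat.Prelude.Def_ModularCurve_LaurentCoeff

set_option autoImplicit false

noncomputable section

namespace Fermat.Agent.S28.ValBase

open ModularCurve Polynomial

section transc

variable (R : Type*) [CommRing R]

/-- the constants of `R((q))` -/
theorem algebraMap_eq_single (c : R) :
    algebraMap R (LaurentSeries R) c = HahnSeries.single 0 c := by
  have h1 : algebraMap R (PowerSeries R) c = PowerSeries.C c := by
    simp
  rw [HahnSeries.algebraMap_apply', h1, HahnSeries.ofPowerSeries_C]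
  rfl

theorem coeff_algebraMap_mul (c : R) (x : LaurentSeries R) (k : ℤ) :
    (algebraMap R (LaurentSeries R) c * x).coeff k = c * x.coeff k := by
  rw [algebraMap_eq_single, HahnSeries.coeff_single_zero_mul]

/-- the coefficient of `q ^ (-n)` of `P(j)`, for `deg P ≤ n` -/
theorem coeff_aeval_jqModC (P : R[X]) (n : ℕ) (hn : P.natDegree ≤ n) :
    (aeval (jqModC R) P).coeff (-(n : ℤ)) = P.coeff n := by
  rw [aeval_eq_sum_range' (Nat.lt_succ_of_le hn), HahnSeries.coeff_sum,
    Finset.sum_eq_single n]
  · rw [Algebra.smul_def, coeff_algebraMap_mul, coeff_jqModC_pow_self, mul_one]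
  · intro i hi hin
    have hi' : i < n := lt_of_le_of_ne (Nat.lt_succ_iff.mp (Finset.mem_range.mp hi)) hin
    rw [Algebra.smul_def, coeff_algebraMap_mul, coeff_jqModC_pow_of_lt R (by omega), mul_zero]
  · intro h
    exact absurd (Finset.mem_range.mpr (Nat.lt_succ_self n)) h

/-- `j` is transcendental over any commutative ring -/
theorem aeval_jqModC_eq_zero {P : R[X]} (h : aeval (jqModC R) P = 0) : P = 0 := by
  by_contra hP
  have h1 := coeff_aeval_jqModC R P P.natDegree le_rfl
  rw [h, HahnSeries.coeff_zero] at h1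
  exact hP (leadingCoeff_eq_zero.mp h1.symm)

theorem aeval_jqModC_injective :
    Function.Injective (aeval (R := R) (jqModC R)) := by
  intro P Q h
  have : aeval (jqModC R) (P - Q) = 0 := by rw [map_sub, h, sub_self]
  exact sub_eq_zero.mp (aeval_jqModC_eq_zero R this)

end transc

/-! ### The inverse of `j` -/

section inv

/-- the inverse of the unit part `jNum` of `j`, over `ℤ` -/
def jNumInv : PowerSeries ℤ := jNum.invOfUnit 1

theorem jNum_mul_jNumInv : jNum * jNumInv = 1 :=
  PowerSeries.mul_invOfUnit _ _ (by rw [constantCoeff_jNum]; rfl)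

theorem constantCoeff_jNumInv : PowerSeries.constantCoeff jNumInv = 1 := by
  have h := congrArg (PowerSeries.constantCoeff (R := ℤ)) jNum_mul_jNumInv
  rwa [map_mul, constantCoeff_jNum, one_mul, map_one] at h

variable (R : Type*) [CommRing R]

/-- `1 / j` as a Laurent series over any commutative ring -/
def jqInvC : LaurentSeries R :=
  HahnSeries.single (1 : ℤ) 1 * HahnSeries.ofPowerSeries ℤ R (jNumInv.map (Int.castRingHom R))

theorem jqModC_mul_jqInvC : jqModC R * jqInvC R = 1 := by
  have h1 : HahnSeries.ofPowerSeries ℤ R (jNum.map (Int.castRingHom R)) *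
      HahnSeries.ofPowerSeries ℤ R (jNumInv.map (Int.castRingHom R)) = 1 := by
    rw [← map_mul, ← map_mul, jNum_mul_jNumInv, map_one, map_one]
  have h2 : (HahnSeries.single (-1 : ℤ) (1 : R)) * HahnSeries.single (1 : ℤ) 1 = 1 := by
    rw [HahnSeries.single_mul_single]
    simp
  calc jqModC R * jqInvC R
      = (HahnSeries.single (-1 : ℤ) (1 : R) * HahnSeries.single (1 : ℤ) 1) *
        (HahnSeries.ofPowerSeries ℤ R (jNum.map (Int.castRingHom R)) *
          HahnSeries.ofPowerSeries ℤ R (jNumInv.map (Int.castRingHom R))) := by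
        rw [jqModC, jqInvC]; ring
    _ = 1 := by rw [h1, h2, mul_one]

theorem jqInvC_mul_jqModC : jqInvC R * jqModC R = 1 := by
  rw [mul_comm, jqModC_mul_jqInvC]

variable {R} in
theorem coeffMap_jqInvC {S : Type*} [CommRing S] (f : R →+* S) :
    coeffMap f (jqInvC R) = jqInvC S := by
  rw [jqInvC, map_mul, coeffMap_single, map_one, coeffMap_ofPowerSeries,
    ← RingHom.comp_apply (PowerSeries.map f) (PowerSeries.map (Int.castRingHom R)),
    ← PowerSeries.map_comp, RingHom.ext_int (f.comp (Int.castRingHom R)) (Int.castRingHom S)]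
  rfl

theorem jqInvC_pow (n : ℕ) :
    jqInvC R ^ n = HahnSeries.single (n : ℤ) 1 *
      HahnSeries.ofPowerSeries ℤ R ((jNumInv.map (Int.castRingHom R)) ^ n) := by
  have h : n • (1 : ℤ) = (n : ℤ) := by simp
  rw [jqInvC, mul_pow, HahnSeries.single_pow, one_pow, h, ← map_pow]

theorem coeff_jqInvC_pow_self (n : ℕ) : (jqInvC R ^ n).coeff (n : ℤ) = 1 := by
  rw [jqInvC_pow, HahnSeries.coeff_single_mul, one_mul, sub_self,
    show (0 : ℤ) = ((0 : ℕ) : ℤ) from rfl, HahnSeries.ofPowerSeries_apply_coeff,
    PowerSeries.coeff_zero_eq_constantCoeff, map_pow, ← PowerSeries.coeff_zero_eq_constantCoeff_apply,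
    PowerSeries.coeff_map, PowerSeries.coeff_zero_eq_constantCoeff_apply, constantCoeff_jNumInv]
  simp

theorem coeff_jqInvC_pow_of_lt {n : ℕ} {m : ℤ} (hm : m < (n : ℤ)) : (jqInvC R ^ n).coeff m = 0 := by
  rw [jqInvC_pow, HahnSeries.coeff_single_mul, one_mul]
  exact ofPowerSeries_coeff_of_neg _ (by omega)

/-- the coefficient of `q ^ m` of `P(1/j)`, when `P` has no terms of degree `< m` -/
theorem coeff_aeval_jqInvC (P : R[X]) (m : ℕ) (hm : ∀ i < m, P.coeff i = 0) :
    (aeval (jqInvC R) P).coeff (m : ℤ) = P.coeff m := by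
  rw [aeval_eq_sum_range, HahnSeries.coeff_sum]
  by_cases hmd : m ≤ P.natDegree
  · rw [Finset.sum_eq_single m]
    · rw [Algebra.smul_def, coeff_algebraMap_mul, coeff_jqInvC_pow_self, mul_one]
    · intro i _ hin
      rw [Algebra.smul_def, coeff_algebraMap_mul]
      rcases lt_or_gt_of_ne hin with h | h
      · rw [hm i h, zero_mul]
      · rw [coeff_jqInvC_pow_of_lt R (by exact_mod_cast h), mul_zero]
    · intro h
      exact absurd (Finset.mem_range.mpr (Nat.lt_succ_of_le hmd)) h
  · rw [not_le] at hmd
    rw [coeff_eq_zero_of_natDegree_lt hmd]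
    refine Finset.sum_eq_zero fun i hi => ?_
    have hi' : i < m := lt_of_le_of_lt (Nat.lt_succ_iff.mp (Finset.mem_range.mp hi)) hmd
    rw [Algebra.smul_def, coeff_algebraMap_mul, hm i hi', zero_mul]

/-- `1 / j` is transcendental over any commutative ring -/
theorem aeval_jqInvC_eq_zero {P : R[X]} (h : aeval (jqInvC R) P = 0) : P = 0 := by
  by_contra hP
  have h1 := coeff_aeval_jqInvC R P P.natTrailingDegree
    (fun i hi => coeff_eq_zero_of_lt_natTrailingDegree hi)
  rw [h, HahnSeries.coeff_zero] at h1
  exact hP (trailingCoeff_eq_zero.mp h1.symm)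

end inv

/-! ### Gauss -/

section gauss

variable {R S : Type*} [CommRing R] [CommRing S]

theorem coeffMap_comp_algebraMap (f : R →+* S) :
    (coeffMap f).comp (algebraMap R (LaurentSeries R)) =
      (algebraMap S (LaurentSeries S)).comp f := by
  ext c : 1
  rw [RingHom.comp_apply, RingHom.comp_apply, algebraMap_eq_single, algebraMap_eq_single,
    coeffMap_single]

/-- coefficient maps commute with the evaluation of polynomials -/
theorem coeffMap_aeval (f : R →+* S) (x : LaurentSeries R) (P : R[X]) :
    coeffMap f (aeval x P) = aeval (coeffMap f x) (P.map f) := by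
  rw [aeval_def, hom_eval₂, coeffMap_comp_algebraMap, aeval_def, eval₂_map]

/-- **Gauss** for polynomials in `j`: if the `q`-expansion of `P(j)` is killed by `f`, so is
`P`. -/
theorem map_eq_zero_of_coeffMap_aeval_jqModC (f : R →+* S) (P : R[X])
    (h : coeffMap f (aeval (jqModC R) P) = 0) : P.map f = 0 := by
  rw [coeffMap_aeval, coeffMap_jqModC] at h
  exact aeval_jqModC_eq_zero S h

/-- **Gauss** for polynomials in `1/j`. -/
theorem map_eq_zero_of_coeffMap_aeval_jqInvC (f : R →+* S) (P : R[X])
    (h : coeffMap f (aeval (jqInvC R) P) = 0) : P.map f = 0 := by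
  rw [coeffMap_aeval, coeffMap_jqInvC] at h
  exact aeval_jqInvC_eq_zero S h

/-- a polynomial killed by `f` is divisible by a generator of the kernel of `f` -/
theorem exists_eq_C_mul_of_map_eq_zero (f : R →+* S) (l : R)
    (hf : ∀ c : R, f c = 0 → ∃ c' : R, c = l * c') (P : R[X]) (h : P.map f = 0) :
    ∃ P' : R[X], P = C l * P' := by
  have : C l ∣ P := by
    rw [C_dvd_iff_dvd_coeff]
    intro i
    have hi : f (P.coeff i) = 0 := by
      have := congrArg (fun Q : S[X] => Q.coeff i) h
      simpa using this
    obtain ⟨c', hc'⟩ := hf _ hi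
    exact ⟨c', hc'⟩
  exact this

end gauss

end Fermat.Agent.S28.ValBase

end
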