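/-
S28 (Igusa), piece UB (upper bound in characteristic `ℓ`), for the KEY-free route to the degree
theorem (5): the reduction of the characteristic-`0` degree bound (`Upper0`).

For a field `κ` of characteristic `ℓ` and any level `M`:
`[κ(J(q^d) : d ∣ M) : κ(J)] ≤ ψ(M)`.

Proof: any `ψ(M) + 1` monomials in the `J(q^d)`, `d ∣ M`, are dependent over `ℚ(j)` in
characteristic `0` (the landed S24 degree bound, `Deg0.not_linearIndependent`); clearing
denominators and dividing by the `ℓ`-content gives a relation with coefficients in `ℤ[j]`, not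
all divisible by `ℓ`, between the same monomials in `ℤ((q))`; its reduction is a nontrivial
relation over `κ[J]`, since `J` is transcendental over `κ`.
-/
import Mathlib
import Fermat.Prelude.Def_ModularCurve_X0ModL
import Fermat.Agent.S28.Deg0
import Fermat.Agent.S28.ValBase
import Fermat.Agent.S28.Mono

set_option autoImplicit false

noncomputable section

namespace Fermat.Agent.S28.Upper0

open ModularCurve IntermediateField Polynomial
open Fermat.Agent.S28

universe u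

/-! ### Step A: a relation with coefficients in `ℚ[j]` -/

/-- any `ψ(M) + 1` monomials in the `j(q^d)`, `d ∣ M`, satisfy a nontrivial linear relation with
coefficients in `ℚ[j]` -/
theorem exists_rel_rat (M : ℕ) [NeZero M] {n : ℕ} (hn : dedekindPsi M < n)
    (e : Fin n → ℕ → ℕ) :
    ∃ R : Fin n → ℚ[X], (∃ i, R i ≠ 0) ∧
      ∑ i, aeval jq (R i) * Mono.mono ℚ M (e i) = 0 := by
  classical
  have hf : ∀ i, Mono.mono ℚ M (e i) ∈ modularFunctionFieldFull M := fun i =>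
    Mono.mono_mem_full ℚ M (e i)
  have hnl := Deg0.not_linearIndependent M hn (fun i => Mono.mono ℚ M (e i)) hf
  rw [Fintype.not_linearIndependent_iff] at hnl
  obtain ⟨g, hg, i₀, hi₀⟩ := hnl
  have hrs : ∀ i, ∃ r s : ℚ[X], aeval jq s ≠ 0 ∧
      ((g i : LaurentSeries ℚ)) * aeval jq s = aeval jq r := by
    intro i
    obtain ⟨r, s, hrs⟩ := (IntermediateField.mem_adjoin_simple_iff ℚ _).mp (g i).2
    by_cases hs : aeval jq s = 0
    · refine ⟨0, 1, by simp, ?_⟩
      rw [hrs, hs, div_zero]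
      simp
    · exact ⟨r, s, hs, by rw [hrs, div_mul_cancel₀ _ hs]⟩
  choose r s hs hrs using hrs
  have hD : (∏ k, aeval jq (s k)) ≠ 0 := Finset.prod_ne_zero_iff.mpr fun k _ => hs k
  have key : ∀ i, aeval jq (r i * ∏ k ∈ Finset.univ.erase i, s k) =
      (g i : LaurentSeries ℚ) * ∏ k, aeval jq (s k) := by
    intro i
    rw [map_mul, map_prod, ← hrs i, mul_assoc,
      Finset.mul_prod_erase Finset.univ (fun k => aeval jq (s k)) (Finset.mem_univ i)]
  refine ⟨fun i => r i * ∏ k ∈ Finset.univ.erase i, s k, ⟨i₀, ?_⟩, ?_⟩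
  · intro h0
    have h0' : r i₀ * ∏ k ∈ Finset.univ.erase i₀, s k = 0 := h0
    have h1 := key i₀
    rw [h0', map_zero] at h1
    rcases mul_eq_zero.mp h1.symm with h2 | h2
    · exact hi₀ (Subtype.ext h2)
    · exact hD h2
  · have h1 : ∑ i, aeval jq (r i * ∏ k ∈ Finset.univ.erase i, s k) * Mono.mono ℚ M (e i) =
        (∏ k, aeval jq (s k)) * ∑ i, g i • Mono.mono ℚ M (e i) := by
      rw [Finset.mul_sum]
      refine Finset.sum_congr rfl fun i _ => ?_
      rw [key i, IntermediateField.smul_def, smul_eq_mul]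
      ring
    rw [h1, hg, mul_zero]

/-! ### Step B: a relation with coefficients in `ℤ[j]`, not all divisible by `ℓ` -/

theorem coeffMap_intCast_injective :
    Function.Injective (coeffMap (Int.castRingHom ℚ)) := by
  intro x y hxy
  ext k
  have := congrArg (fun z : LaurentSeries ℚ => z.coeff k) hxy
  simp only [coeffMap_coeff] at this
  exact Int.cast_injective this

/-- dividing a relation by the `ℓ`-content -/
theorem content_step (ℓ : ℕ) {n : ℕ} (m : Fin n → LaurentSeries ℤ) (hℓ : 2 ≤ ℓ) :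
    ∀ (B : ℕ) (P : Fin n → ℤ[X]),
      (∃ i k, (P i).coeff k ≠ 0 ∧ ((P i).coeff k).natAbs ≤ B) →
      ∑ i, aeval (jqModC ℤ) (P i) * m i = 0 →
      ∃ P' : Fin n → ℤ[X], (∃ i k, ¬ (ℓ : ℤ) ∣ (P' i).coeff k) ∧
        ∑ i, aeval (jqModC ℤ) (P' i) * m i = 0 := by
  intro B
  induction B with
  | zero =>
    rintro P ⟨i, k, h0, h1⟩ -
    exact absurd (Int.natAbs_eq_zero.mp (Nat.le_zero.mp h1)) h0
  | succ B ih =>
    rintro P ⟨i, k, h0, h1⟩ hrel
    by_cases hdiv : ∃ i k, ¬ (ℓ : ℤ) ∣ (P i).coeff k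
    · exact ⟨P, hdiv, hrel⟩
    · have hdiv' : ∀ i k, (ℓ : ℤ) ∣ (P i).coeff k := fun i k => by
        by_contra h
        exact hdiv ⟨i, k, h⟩
      have hC : ∀ i, C (ℓ : ℤ) ∣ P i := fun i => (C_dvd_iff_dvd_coeff _ _).mpr (hdiv' i)
      choose P' hP' using hC
      refine ih P' ⟨i, k, ?_, ?_⟩ ?_
      · intro h
        apply h0
        rw [hP' i, coeff_C_mul, h, mul_zero]
      · have h2 : (P i).coeff k = (ℓ : ℤ) * (P' i).coeff k := by rw [hP' i, coeff_C_mul]
        have h3 : ((P i).coeff k).natAbs = ℓ * ((P' i).coeff k).natAbs := by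
          rw [h2, Int.natAbs_mul, Int.natAbs_natCast]
        have h4 : 0 < ((P' i).coeff k).natAbs := by
          rcases Nat.eq_zero_or_pos ((P' i).coeff k).natAbs with h | h
          · exfalso
            apply h0
            rw [h2, Int.natAbs_eq_zero.mp h, mul_zero]
          · exact h
        have h5 : 2 * ((P' i).coeff k).natAbs ≤ ℓ * ((P' i).coeff k).natAbs :=
          Nat.mul_le_mul_right _ hℓ
        omega
      · have h2 : ∑ i, aeval (jqModC ℤ) (P i) * m i =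
            (ℓ : LaurentSeries ℤ) * ∑ i, aeval (jqModC ℤ) (P' i) * m i := by
          rw [Finset.mul_sum]
          refine Finset.sum_congr rfl fun i _ => ?_
          rw [hP' i, map_mul, aeval_C]
          simp only [eq_intCast, Int.cast_natCast]
          ring
        rw [h2] at hrel
        ext j
        have h3 := congrArg (fun z : LaurentSeries ℤ => z.coeff j) hrel
        simp only [HahnSeries.coeff_zero] at h3
        have h4 : ((ℓ : LaurentSeries ℤ) * ∑ i, aeval (jqModC ℤ) (P' i) * m i).coeff j =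
            (ℓ : ℤ) * (∑ i, aeval (jqModC ℤ) (P' i) * m i).coeff j := by
          have h5 : (ℓ : LaurentSeries ℤ) = HahnSeries.C (ℓ : ℤ) := by
            rw [map_natCast]
          rw [h5, HahnSeries.C_mul_eq_smul, HahnSeries.coeff_smul, smul_eq_mul]
        rw [h4] at h3
        rcases mul_eq_zero.mp h3 with h6 | h6
        · exfalso
          have : (ℓ : ℤ) ≠ 0 := by
            have : 0 < ℓ := by omega
            exact_mod_cast this.ne'
          exact this h6
        · rw [HahnSeries.coeff_zero]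
          exact h6

/-- any `ψ(M) + 1` monomials in the `j(q^d)`, `d ∣ M`, satisfy in `ℤ((q))` a linear relation with
coefficients in `ℤ[j]`, not all divisible by `ℓ` -/
theorem exists_rel_int (ℓ : ℕ) (hℓ : 2 ≤ ℓ) (M : ℕ) [NeZero M] {n : ℕ}
    (hn : dedekindPsi M < n) (e : Fin n → ℕ → ℕ) :
    ∃ P : Fin n → ℤ[X], (∃ i k, ¬ (ℓ : ℤ) ∣ (P i).coeff k) ∧
      ∑ i, aeval (jqModC ℤ) (P i) * Mono.mono ℤ M (e i) = 0 := by
  classical
  obtain ⟨R, ⟨i₀, hi₀⟩, hR⟩ := exists_rel_rat M hn e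
  have hQ : ∀ i, ∃ b : ℤ, b ≠ 0 ∧
      (IsLocalization.integerNormalization (nonZeroDivisors ℤ) (R i)).map (algebraMap ℤ ℚ) =
        b • R i := fun i => by
    obtain ⟨b, hbM, hb⟩ := IsLocalization.integerNormalization_spec (nonZeroDivisors ℤ) (R i)
    exact ⟨b, nonZeroDivisors.ne_zero hbM, hb⟩
  choose b hb0 hb using hQ
  set Q : Fin n → ℤ[X] := fun i =>
    IsLocalization.integerNormalization (nonZeroDivisors ℤ) (R i) with hQdef
  set P₀ : Fin n → ℤ[X] := fun i => C (∏ k ∈ Finset.univ.erase i, (b k : ℤ)) * Q i with hP₀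
  have hBne : (∏ k, (b k : ℤ)) ≠ 0 :=
    Finset.prod_ne_zero_iff.mpr fun k _ => hb0 k
  have hmap : ∀ i, (P₀ i).map (Int.castRingHom ℚ) = C ((∏ k, (b k : ℤ) : ℤ) : ℚ) * R i := by
    intro i
    have h1 : (Q i).map (Int.castRingHom ℚ) = (b i : ℤ) • R i := hb i
    rw [hP₀]
    simp only
    rw [Polynomial.map_mul, Polynomial.map_C, h1, ← Finset.mul_prod_erase _ _ (Finset.mem_univ i)]
    rw [zsmul_eq_mul]
    simp only [eq_intCast, Int.cast_mul, Int.cast_prod, map_mul, map_prod, map_intCast]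
    ring
  have hrel : ∑ i, aeval (jqModC ℤ) (P₀ i) * Mono.mono ℤ M (e i) = 0 := by
    apply coeffMap_intCast_injective
    rw [map_zero, map_sum]
    have h2 : ∀ i, coeffMap (Int.castRingHom ℚ) (aeval (jqModC ℤ) (P₀ i) * Mono.mono ℤ M (e i)) =
        HahnSeries.C (((∏ k, (b k : ℤ) : ℤ) : ℚ)) * (aeval jq (R i) * Mono.mono ℚ M (e i)) := by
      intro i
      rw [map_mul, ValBase.coeffMap_aeval, coeffMap_jqModC, Mono.coeffMap_mono, hmap i, map_mul,
        aeval_C, jqModC_rat]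
      have : algebraMap ℚ (LaurentSeries ℚ) ((∏ k, (b k : ℤ) : ℤ) : ℚ) =
          HahnSeries.C (((∏ k, (b k : ℤ) : ℤ) : ℚ)) := by
        rw [ValBase.algebraMap_eq_single]
        rfl
      rw [this]
      ring
    rw [Finset.sum_congr rfl fun i _ => h2 i, ← Finset.mul_sum, hR, mul_zero]
  have hne : P₀ i₀ ≠ 0 := by
    intro h0
    have h1 := hmap i₀
    rw [h0, Polynomial.map_zero] at h1
    rcases mul_eq_zero.mp h1.symm with h2 | h2
    · rw [C_eq_zero] at h2
      exact hBne (by exact_mod_cast h2)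
    · exact hi₀ h2
  obtain ⟨k, hk⟩ : ∃ k, (P₀ i₀).coeff k ≠ 0 := by
    by_contra hcon
    refine hne (Polynomial.ext fun k => ?_)
    rw [coeff_zero]
    by_contra hk
    exact hcon ⟨k, hk⟩
  exact content_step ℓ (fun i => Mono.mono ℤ M (e i)) hℓ _ P₀ ⟨i₀, k, hk, le_rfl⟩ hrel

/-! ### Step C: the relation in characteristic `ℓ` -/

/-- **(UB), relation form.** Over a field `κ` of characteristic `ℓ`, any `ψ(M) + 1` monomials in
the `J(q^d)`, `d ∣ M`, satisfy a nontrivial linear relation with coefficients in `κ[J]`. -/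
theorem exists_rel_mono (κ : Type*) [Field κ] (ℓ : ℕ) [Fact ℓ.Prime] [CharP κ ℓ] (M : ℕ)
    [NeZero M] {n : ℕ} (hn : dedekindPsi M < n) (e : Fin n → ℕ → ℕ) :
    ∃ c : Fin n → κ[X], (∃ i, c i ≠ 0) ∧
      ∑ i, aeval (jqModC κ) (c i) * Mono.mono κ M (e i) = 0 := by
  obtain ⟨P, ⟨i, k, hik⟩, hP⟩ := exists_rel_int ℓ (Fact.out : ℓ.Prime).two_le M hn e
  refine ⟨fun i => (P i).map (Int.castRingHom κ), ⟨i, ?_⟩, ?_⟩
  · intro h0
    have h1 := congrArg (fun Q : κ[X] => Q.coeff k) h0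
    simp only [coeff_map, coeff_zero, eq_intCast] at h1
    exact hik ((CharP.intCast_eq_zero_iff κ ℓ _).mp h1)
  · have h1 := congrArg (coeffMap (Int.castRingHom κ)) hP
    rw [map_zero, map_sum] at h1
    rw [← h1]
    refine Finset.sum_congr rfl fun i _ => ?_
    rw [map_mul, ValBase.coeffMap_aeval, coeffMap_jqModC, Mono.coeffMap_mono]

/-! ### Step D: the degree bound -/

theorem mono_nsmul (R : Type*) [CommRing R] (N k : ℕ) (e : ℕ → ℕ) :
    Mono.mono R N (k • e) = Mono.mono R N e ^ k := by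
  induction k with
  | zero => rw [zero_nsmul, Mono.mono_zero, pow_zero]
  | succ k ih => rw [succ_nsmul, Mono.mono_add, ih, pow_succ]

theorem aeval_jqModC_mem (κ : Type*) [Field κ] (c : κ[X]) :
    aeval (jqModC κ) c ∈ κ⟮jqModC κ⟯ := by
  have h : jqModC κ ∈ κ⟮jqModC κ⟯ := mem_adjoin_simple_self κ _
  rw [aeval_eq_sum_range]
  exact sum_mem fun i _ => (κ⟮jqModC κ⟯).smul_mem (pow_mem h i)

/-- in characteristic `ℓ`, every `J(q^d)`, `d ∣ M`, is algebraic over `κ(J)` -/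
theorem isAlgebraic_of_mem_divisorExpansionsC (κ : Type*) [Field κ] (ℓ : ℕ) [Fact ℓ.Prime]
    [CharP κ ℓ] (M : ℕ) [NeZero M] {x : LaurentSeries κ} (hx : x ∈ divisorExpansionsC κ M) :
    IsAlgebraic ↥(κ⟮jqModC κ⟯) x := by
  classical
  obtain ⟨d, hd0, hdM, rfl⟩ := hx
  have hdmem : d ∈ M.divisors := Nat.mem_divisors.mpr ⟨hdM, NeZero.ne M⟩
  have hx : Mono.mono κ M (Pi.single d 1) = qExpand κ d (jqModC κ) := by
    rw [Mono.mono_single κ hdmem, Mono.Jd_eq]
  obtain ⟨c, ⟨i₀, hi₀⟩, hrel⟩ := exists_rel_mono κ ℓ M (Nat.lt_succ_self (dedekindPsi M))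
    (fun i : Fin (dedekindPsi M + 1) => (i : ℕ) • (Pi.single d 1 : ℕ → ℕ))
  simp only [mono_nsmul, hx] at hrel
  set g : Fin (dedekindPsi M + 1) → ↥(κ⟮jqModC κ⟯) := fun i =>
    ⟨aeval (jqModC κ) (c i), aeval_jqModC_mem κ (c i)⟩ with hg
  refine ⟨Polynomial.ofFn (dedekindPsi M + 1) g, ?_, ?_⟩
  · intro h0
    have h1 := Polynomial.ofFn_coeff_eq_val_of_lt g i₀.2
    rw [h0, Polynomial.coeff_zero] at h1
    have h2 : aeval (jqModC κ) (c i₀) = 0 := by
      have := congrArg Subtype.val h1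
      simpa [hg] using this.symm
    exact hi₀ (ValBase.aeval_jqModC_eq_zero κ h2)
  · have hlt := Polynomial.ofFn_natDegree_lt (n := dedekindPsi M + 1) (Nat.le_add_left 1 _) g
    rw [Polynomial.aeval_eq_sum_range' hlt, Finset.sum_range, ← hrel]
    refine Finset.sum_congr rfl fun i _ => ?_
    rw [Polynomial.ofFn_coeff_eq_val_of_lt g i.2, IntermediateField.smul_def, smul_eq_mul]

/-- **(UB).** Over a field `κ` of characteristic `ℓ`, the degree of `κ(J(q^d) : d ∣ M)` over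
`κ(J)` is at most `ψ(M)`. -/
theorem relrank_le_psi (κ : Type u) [Field κ] (ℓ : ℕ) [Fact ℓ.Prime] [CharP κ ℓ] (M : ℕ)
    [NeZero M] :
    relrank κ⟮jqModC κ⟯ (modularFunctionFieldFullC κ M) ≤ (dedekindPsi M : Cardinal.{u}) := by
  classical
  have halg : ∀ x ∈ divisorExpansionsC κ M, IsAlgebraic ↥(κ⟮jqModC κ⟯) x := fun x hx =>
    isAlgebraic_of_mem_divisorExpansionsC κ ℓ M hx
  have hle : κ⟮jqModC κ⟯ ≤ modularFunctionFieldFullC κ M :=
    adjoin_simple_le_iff.mpr (jqModC_mem_full κ M)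
  have hE : extendScalars hle = adjoin ↥(κ⟮jqModC κ⟯) (divisorExpansionsC κ M) :=
    extendScalars_adjoin hle
  rw [relrank_eq_rank_of_le hle, hE, ← rank_eq_rank_subalgebra,
    adjoin_toSubalgebra_of_isAlgebraic halg, ← Subalgebra.rank_toSubmodule,
    Algebra.adjoin_eq_span]
  obtain ⟨b, hbsub, hbspan, hbli⟩ := exists_linearIndependent ↥(κ⟮jqModC κ⟯)
    ((Submonoid.closure (divisorExpansionsC κ M) : Submonoid (LaurentSeries κ)) :
      Set (LaurentSeries κ))
  rw [← hbspan, rank_span_set hbli]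
  by_contra hcon
  rw [not_le] at hcon
  have h1 : ((dedekindPsi M + 1 : ℕ) : Cardinal.{u}) ≤ Cardinal.mk b := by
    rw [Nat.cast_succ]
    exact Cardinal.add_one_le_of_lt hcon
  have h' : Cardinal.lift.{u} (Cardinal.mk (Fin (dedekindPsi M + 1))) ≤
      Cardinal.lift.{0} (Cardinal.mk b) := by
    simpa using h1
  obtain ⟨f⟩ := Cardinal.lift_mk_le'.mp h'
  have hs : ∀ i, ((f i : LaurentSeries κ)) ∈ Submonoid.closure (divisorExpansionsC κ M) :=
    fun i => hbsub (f i).2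
  choose e he using fun i => Mono.exists_eq_mono (NeZero.ne M) (hs i)
  have hli := hbli.comp f f.injective
  obtain ⟨c, ⟨i₀, hi₀⟩, hrel⟩ := exists_rel_mono κ ℓ M (Nat.lt_succ_self _) e
  rw [Fintype.linearIndependent_iff] at hli
  have h2 := hli (fun i => ⟨aeval (jqModC κ) (c i), aeval_jqModC_mem κ (c i)⟩) ?_ i₀
  · have h3 : aeval (jqModC κ) (c i₀) = 0 := congrArg Subtype.val h2
    exact hi₀ (ValBase.aeval_jqModC_eq_zero κ h3)
  · rw [← hrel]
    refine Finset.sum_congr rfl fun i _ => ?_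
    rw [IntermediateField.smul_def, smul_eq_mul, ← he i]
    rfl

/-! ### The relation for elements of the multiplicative monoid generated by the `j(q^d)` -/

/-- every element of the multiplicative monoid generated by the `j(q^d)`, `d ∣ M`, in `ℤ((q))` is
a monomial -/
theorem exists_eq_mono_int {M : ℕ} (hM : M ≠ 0) {x : LaurentSeries ℤ}
    (hx : x ∈ Submonoid.closure
      {x : LaurentSeries ℤ | ∃ (d : ℕ) (_ : NeZero d), d ∣ M ∧ x = qExpand ℤ d (jqModC ℤ)}) :
    ∃ e : ℕ → ℕ, x = Mono.mono ℤ M e := by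
  induction hx using Submonoid.closure_induction with
  | mem x hx =>
    obtain ⟨d, hd0, hdM, rfl⟩ := hx
    refine ⟨Pi.single d 1, ?_⟩
    rw [Mono.mono_single ℤ (Nat.mem_divisors.mpr ⟨hdM, hM⟩), Mono.Jd_eq]
  | one => exact ⟨0, (Mono.mono_zero ℤ M).symm⟩
  | mul x y _ _ hx hy =>
    obtain ⟨e, rfl⟩ := hx
    obtain ⟨e', rfl⟩ := hy
    exact ⟨e + e', (Mono.mono_add ℤ M e e').symm⟩

/-- **(UB), relation form for products of the `j(q^d)`.** -/
theorem exists_rel (κ : Type*) [Field κ] (ℓ : ℕ) [Fact ℓ.Prime] [CharP κ ℓ] (M : ℕ) [NeZero M]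
    {n : ℕ} (hn : dedekindPsi M < n) (g : Fin n → LaurentSeries ℤ)
    (hg : ∀ i, g i ∈ Submonoid.closure
      {x : LaurentSeries ℤ | ∃ (d : ℕ) (_ : NeZero d), d ∣ M ∧ x = qExpand ℤ d (jqModC ℤ)}) :
    ∃ c : Fin n → κ[X], c ≠ 0 ∧
      ∑ i, aeval (jqModC κ) (c i) * coeffMap (Int.castRingHom κ) (g i) = 0 := by
  choose e he using fun i => exists_eq_mono_int (NeZero.ne M) (hg i)
  obtain ⟨c, ⟨i₀, hi₀⟩, hrel⟩ := exists_rel_mono κ ℓ M hn e
  refine ⟨c, fun h0 => hi₀ (by rw [h0]; rfl), ?_⟩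
  rw [← hrel]
  refine Finset.sum_congr rfl fun i _ => ?_
  rw [he i, Mono.coeffMap_mono]

/-- in characteristic `ℓ`, the field `κ(J(q^d) : d ∣ M)` is algebraic over `κ(J)` -/
theorem isAlgebraic_of_mem_full (κ : Type*) [Field κ] (ℓ : ℕ) [Fact ℓ.Prime] [CharP κ ℓ]
    (M : ℕ) [NeZero M] {x : LaurentSeries κ} (hx : x ∈ modularFunctionFieldFullC κ M) :
    IsAlgebraic ↥(κ⟮jqModC κ⟯) x := by
  have halg : ∀ x ∈ divisorExpansionsC κ M, IsAlgebraic ↥(κ⟮jqModC κ⟯) x := fun x hx =>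
    isAlgebraic_of_mem_divisorExpansionsC κ ℓ M hx
  have hle : κ⟮jqModC κ⟯ ≤ modularFunctionFieldFullC κ M :=
    adjoin_simple_le_iff.mpr (jqModC_mem_full κ M)
  have hE : extendScalars hle = adjoin ↥(κ⟮jqModC κ⟯) (divisorExpansionsC κ M) :=
    extendScalars_adjoin hle
  have hx' : x ∈ adjoin ↥(κ⟮jqModC κ⟯) (divisorExpansionsC κ M) := by
    rw [← hE]
    exact hx
  have h1 : Algebra.IsAlgebraic ↥(κ⟮jqModC κ⟯)
      ↥(adjoin ↥(κ⟮jqModC κ⟯) (divisorExpansionsC κ M)) :=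
    IntermediateField.isAlgebraic_adjoin fun x hx => (halg x hx).isIntegral
  have h2 := h1.isAlgebraic ⟨x, hx'⟩
  exact (isAlgebraic_iff (S := adjoin ↥(κ⟮jqModC κ⟯) (divisorExpansionsC κ M))).mp h2

/-- `exists_rel_mono` with the conclusion in the form `c ≠ 0` -/
theorem exists_rel_mono' (κ : Type*) [Field κ] (ℓ : ℕ) [Fact ℓ.Prime] [CharP κ ℓ] (M : ℕ)
    [NeZero M] {n : ℕ} (hn : dedekindPsi M < n) (e : Fin n → ℕ → ℕ) :
    ∃ c : Fin n → κ[X], c ≠ 0 ∧
      ∑ i, aeval (jqModC κ) (c i) * Mono.mono κ M (e i) = 0 := by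
  obtain ⟨c, ⟨i₀, hi₀⟩, hrel⟩ := exists_rel_mono κ ℓ M hn e
  exact ⟨c, fun h0 => hi₀ (by rw [h0]; rfl), hrel⟩

/-- the monomials lie in the multiplicative monoid generated by the `j(q^d)`, `d ∣ M` -/
theorem mono_mem_closure (M : ℕ) (e : ℕ → ℕ) :
    Mono.mono ℤ M e ∈ Submonoid.closure
      {x : LaurentSeries ℤ | ∃ (d : ℕ) (_ : NeZero d), d ∣ M ∧ x = qExpand ℤ d (jqModC ℤ)} := by
  refine prod_mem fun d hd => pow_mem (Submonoid.subset_closure ?_) _
  have hd0 : d ≠ 0 := (Nat.pos_of_mem_divisors hd).ne'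
  have : NeZero d := ⟨hd0⟩
  exact ⟨d, ⟨hd0⟩, Nat.dvd_of_mem_divisors hd, Mono.Jd_eq ℤ d⟩

end Fermat.Agent.S28.Upper0

end
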