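/-
S28 (Igusa), shared definitions: the `q`-series `Δ` and `E₄` over an arbitrary commutative ring
(`j` is the frozen `ModularCurve.jqModC`), the substitution `q ↦ ξ q` (`tw`), the Euler derivation
`θ = q d/dq` (`theta`), their compatibilities with coefficient maps (`ModularCurve.coeffMap`) and
with `q ↦ q ^ a` (`ModularCurve.qExpand`), and the abstract interface `ValData` of the Gauss
valuation ring of `ℚ((q))` at `ℓ`.  Definitional glue only.
-/
import Mathlib
import Fermat.Prelude.Def_ModularCurve_X0ModL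

set_option autoImplicit false

noncomputable section

open ModularCurve HahnSeries

namespace Fermat.Agent.S28

variable {R S : Type*} [CommRing R] [CommRing S]

/-! ### `Δ` and `E₄` over any ring -/

/-- The `q`-expansion of `Δ` with coefficients in `R`: `q * ∏ (1 - qⁿ)^24`. -/
def Del (R : Type*) [CommRing R] : LaurentSeries R :=
  HahnSeries.single (1 : ℤ) (1 : R) *
    HahnSeries.ofPowerSeries ℤ R (dedekindEtaUnit.map (Int.castRingHom R))

/-- The `q`-expansion of `E₄` with coefficients in `R`. -/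
def E4l (R : Type*) [CommRing R] : LaurentSeries R :=
  HahnSeries.ofPowerSeries ℤ R (eisenstein4.map (Int.castRingHom R))

theorem map_map_intCast (f : R →+* S) (P : PowerSeries ℤ) :
    (P.map (Int.castRingHom R)).map f = P.map (Int.castRingHom S) := by
  ext n
  simp

@[simp]
theorem coeffMap_Del (f : R →+* S) : coeffMap f (Del R) = Del S := by
  rw [Del, map_mul, coeffMap_single, map_one, ModularCurve.coeffMap_ofPowerSeries,
    map_map_intCast, Del]

@[simp]
theorem coeffMap_E4l (f : R →+* S) : coeffMap f (E4l R) = E4l S := by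
  rw [E4l, ModularCurve.coeffMap_ofPowerSeries, map_map_intCast, E4l]

/-- `j * Δ = E₄³`, by definition. -/
theorem jqModC_mul_Del (R : Type*) [CommRing R] : jqModC R * Del R = E4l R ^ 3 := by
  have h1 : (HahnSeries.single (-1 : ℤ) (1 : R)) * (HahnSeries.single (1 : ℤ) (1 : R)) = 1 := by
    rw [HahnSeries.single_mul_single]; simp
  have h2 : (jNum.map (Int.castRingHom R)) * (dedekindEtaUnit.map (Int.castRingHom R)) =
      (eisenstein4.map (Int.castRingHom R)) ^ 3 := by
    rw [← map_mul, ← map_pow, jNum, mul_assoc, mul_comm dedekindEtaUnitInv,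
      dedekindEtaUnit_mul_inv, mul_one]
  calc jqModC R * Del R
      = (HahnSeries.single (-1 : ℤ) (1 : R) * HahnSeries.single (1 : ℤ) (1 : R)) *
          (HahnSeries.ofPowerSeries ℤ R (jNum.map (Int.castRingHom R)) *
            HahnSeries.ofPowerSeries ℤ R (dedekindEtaUnit.map (Int.castRingHom R))) := by
        rw [jqModC, Del]; ring
    _ = E4l R ^ 3 := by rw [h1, one_mul, ← map_mul, h2, map_pow, E4l]

/-! ### The substitution `q ↦ ξ q` -/

/-- The substitution `q ↦ ξ q` on Laurent series (`ξ` a unit): the coefficient of `q ^ k` is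
multiplied by `ξ ^ k`. -/
def tw (ξ : Rˣ) : LaurentSeries R →+* LaurentSeries R where
  toFun x := ⟨fun k => ((ξ ^ k : Rˣ) : R) * x.coeff k, x.isPWO_support.mono (fun k hk => by
    simp only [Function.mem_support, ne_eq] at hk
    intro h0
    exact hk (by rw [show x.coeff k = 0 from h0, mul_zero]))⟩
  map_one' := by
    ext k
    by_cases hk : k = 0
    · subst hk; simp
    · simp [HahnSeries.coeff_one, hk]
  map_mul' x y := by
    ext k
    simp only [HahnSeries.coeff_mul, Finset.mul_sum]
    refine Finset.sum_congr ?_ fun ij hij => ?_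
    · ext ij
      simp only [Finset.mem_antidiagonal, HahnSeries.mem_support, ne_eq,
        Units.mul_right_eq_zero]
    · rw [Finset.mem_antidiagonal] at hij
      rw [← hij.2.2, zpow_add, Units.val_mul]
      ring
  map_zero' := by
    ext k
    simp
  map_add' x y := by
    ext k
    simp [mul_add]

@[simp]
theorem tw_coeff (ξ : Rˣ) (x : LaurentSeries R) (k : ℤ) :
    (tw ξ x).coeff k = ((ξ ^ k : Rˣ) : R) * x.coeff k := rfl

theorem tw_one (x : LaurentSeries R) : tw (1 : Rˣ) x = x := by
  ext k; simp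

theorem tw_mul (ξ η : Rˣ) (x : LaurentSeries R) : tw (ξ * η) x = tw ξ (tw η x) := by
  ext k
  simp only [tw_coeff, mul_zpow, Units.val_mul]
  ring

theorem tw_injective (ξ : Rˣ) : Function.Injective (tw ξ) := by
  intro x y h
  have := congrArg (tw ξ⁻¹) h
  rwa [← tw_mul, ← tw_mul, inv_mul_cancel, tw_one, tw_one] at this

theorem coeffMap_tw (f : R →+* S) (ξ : Rˣ) (x : LaurentSeries R) :
    coeffMap f (tw ξ x) = tw (Units.map (f : R →* S) ξ) (coeffMap f x) := by
  ext k
  simp only [coeffMap_coeff, tw_coeff, map_mul]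
  congr 1
  rw [← map_zpow]
  rfl

/-- `q ↦ ξ q` followed by `q ↦ q ^ a` is `q ↦ q ^ a` followed by `q ↦ ξ ^ a q`... on coefficients:
`qExpand a (tw (ξ ^ a) x) = tw ξ (qExpand a x)`. -/
theorem tw_qExpand (a : ℕ) [NeZero a] (ξ : Rˣ) (x : LaurentSeries R) :
    tw ξ (qExpand R a x) = qExpand R a (tw (ξ ^ a) x) := by
  ext k
  by_cases hk : (a : ℤ) ∣ k
  · obtain ⟨m, rfl⟩ := hk
    rw [tw_coeff, qExpand_coeff_mul, qExpand_coeff_mul, tw_coeff]
    congr 2
    rw [zpow_mul, zpow_natCast]
  · rw [tw_coeff, qExpand_coeff_of_not_dvd a _ hk, qExpand_coeff_of_not_dvd a _ hk, mul_zero]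

/-! ### The Euler derivation `θ = q d/dq` -/

/-- `θ = q d/dq` on Laurent series: the coefficient of `q ^ k` is multiplied by `k`. -/
def theta : LaurentSeries R →+ LaurentSeries R where
  toFun x := ⟨fun k => (k : R) * x.coeff k, x.isPWO_support.mono (fun k hk => by
    simp only [Function.mem_support, ne_eq] at hk
    intro h0
    exact hk (by rw [show x.coeff k = 0 from h0, mul_zero]))⟩
  map_zero' := by
    ext k
    simp
  map_add' x y := by
    ext k
    simp [mul_add]

@[simp]
theorem theta_coeff (x : LaurentSeries R) (k : ℤ) : (theta x).coeff k = (k : R) * x.coeff k := rfl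

theorem coeffMap_theta (f : R →+* S) (x : LaurentSeries R) :
    coeffMap f (theta x) = theta (coeffMap f x) := by
  ext k
  simp

theorem theta_tw (ξ : Rˣ) (x : LaurentSeries R) : theta (tw ξ x) = tw ξ (theta x) := by
  ext k
  simp only [theta_coeff, tw_coeff]
  ring

theorem theta_qExpand (a : ℕ) [NeZero a] (x : LaurentSeries R) :
    theta (qExpand R a x) = (a : LaurentSeries R) * qExpand R a (theta x) := by
  have hC : ((a : ℕ) : LaurentSeries R) = HahnSeries.C (a : R) := by
    simp
  ext k
  rw [hC, HahnSeries.C_mul_eq_smul, HahnSeries.coeff_smul, smul_eq_mul]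
  by_cases hk : (a : ℤ) ∣ k
  · obtain ⟨m, rfl⟩ := hk
    rw [theta_coeff, qExpand_coeff_mul, qExpand_coeff_mul, theta_coeff]
    push_cast
    ring
  · rw [theta_coeff, qExpand_coeff_of_not_dvd a _ hk, qExpand_coeff_of_not_dvd a _ hk,
      mul_zero, mul_zero]

/-- Leibniz rule for `θ`. -/
theorem theta_mul (x y : LaurentSeries R) : theta (x * y) = theta x * y + x * theta y := by
  ext k
  have hx : (theta x).support ⊆ x.support := fun i hi => by
    simp only [HahnSeries.mem_support, theta_coeff, ne_eq] at hi ⊢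
    intro h0
    exact hi (by rw [h0, mul_zero])
  have hy : (theta y).support ⊆ y.support := fun i hi => by
    simp only [HahnSeries.mem_support, theta_coeff, ne_eq] at hi ⊢
    intro h0
    exact hi (by rw [h0, mul_zero])
  rw [HahnSeries.coeff_add, theta_coeff, HahnSeries.coeff_mul,
    HahnSeries.coeff_mul_left' (x := theta x) (y := y) x.isPWO_support hx,
    HahnSeries.coeff_mul_right' (x := x) (y := theta y) y.isPWO_support hy,
    Finset.mul_sum, ← Finset.sum_add_distrib]
  refine Finset.sum_congr rfl fun ij hij => ?_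
  rw [Finset.mem_antidiagonal] at hij
  rw [theta_coeff, theta_coeff, ← hij.2.2]
  push_cast
  ring

theorem theta_one : theta (1 : LaurentSeries R) = 0 := by
  ext k
  by_cases hk : k = 0
  · subst hk; simp
  · simp [HahnSeries.coeff_one, hk]

theorem theta_C (r : R) : theta (HahnSeries.C r) = 0 := by
  ext k
  by_cases hk : k = 0
  · subst hk; simp
  · rw [theta_coeff, HahnSeries.C_apply, HahnSeries.coeff_single_of_ne hk, mul_zero,
      HahnSeries.coeff_zero]

theorem theta_pow (x : LaurentSeries R) (n : ℕ) :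
    theta (x ^ (n + 1)) = ((n + 1 : ℕ) : LaurentSeries R) * x ^ n * theta x := by
  induction n with
  | zero => simp
  | succ n ih =>
    rw [pow_succ, theta_mul, ih]
    push_cast
    ring

/-! ### Divisor expansions, the level-`p` polynomial, the weight polynomial -/

/-- `j(q^d)` with coefficients in `R` (junk value `1` for `d = 0`). -/
def jn (R : Type*) [CommRing R] (d : ℕ) : LaurentSeries R :=
  if h : d = 0 then 1 else
    haveI : NeZero d := ⟨h⟩
    qExpand R d (jqModC R)

theorem jn_eq (R : Type*) [CommRing R] (d : ℕ) [NeZero d] : jn R d = qExpand R d (jqModC R) := by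
  rw [jn, dif_neg (NeZero.ne d)]

theorem coeffMap_jn (f : R →+* S) (d : ℕ) : coeffMap f (jn R d) = jn S d := by
  by_cases h : d = 0
  · rw [jn, jn, dif_pos h, dif_pos h, map_one]
  · haveI : NeZero d := ⟨h⟩
    rw [jn_eq, jn_eq, ModularCurve.coeffMap_qExpand, coeffMap_jqModC]

/-- The level-`p` polynomial in the variable `u = q^{1/p}`:
`(X - j(u^{p²})) * ∏_{b < p} (X - j(ζ^b u))`. -/
def Gpoly (p : ℕ) [NeZero p] (ζ : Rˣ) : Polynomial (LaurentSeries R) :=
  (Polynomial.X - Polynomial.C (qExpand R (p ^ 2) (jqModC R))) *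
    ∏ b ∈ Finset.range p, (Polynomial.X - Polynomial.C (tw (ζ ^ b) (jqModC R)))

/-- `w(T) = T^4 (T - 1728)^3`, so that `(θ j)^6 = w(j) Δ`. -/
def wpoly (R : Type*) [CommRing R] : Polynomial R :=
  Polynomial.X ^ 4 * (Polynomial.X - Polynomial.C 1728) ^ 3

/-! ### The Gauss valuation ring of `ℚ((q))` at `ℓ`: abstract interface -/

/-- Interface of the Gauss valuation ring `Λ ⊆ ℚ((q))` at `ℓ` (fractions `a / b` of integral Laurent
series with `b` nonzero mod `ℓ`) with its residue map to `𝔽_ℓ((q))`. -/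
structure ValData (ℓ : ℕ) where
  /-- the valuation ring -/
  Lam : Subring (LaurentSeries ℚ)
  /-- the residue map -/
  red : Lam →+* LaurentSeries (ZMod ℓ)
  exists_of_red_eq_zero : ∀ x : Lam, red x = 0 → ∃ y : Lam, x = (ℓ : Lam) * y
  int_mem : ∀ a : LaurentSeries ℤ, coeffMap (Int.castRingHom ℚ) a ∈ Lam
  red_int : ∀ a : LaurentSeries ℤ,
    red ⟨coeffMap (Int.castRingHom ℚ) a, int_mem a⟩ = coeffMap (Int.castRingHom (ZMod ℓ)) a
  inv_mem : ∀ x : Lam, red x ≠ 0 → (x : LaurentSeries ℚ)⁻¹ ∈ Lam

/-! ### The Igusa independence statement over `𝔽_ℓ` -/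

/-- (IG): there are `ψ(N)` monomials in the `j(q^d)`, `d ∣ N`, over `𝔽_ℓ` that are linearly
independent over `𝔽_ℓ[j]` (inside `𝔽_ℓ((q))`). -/
def IG (ℓ : ℕ) (N : ℕ) : Prop :=
  ∃ e : Fin (ModularCurve.dedekindPsi N) → ℕ → ℕ,
    ∀ c : Fin (ModularCurve.dedekindPsi N) → Polynomial (ZMod ℓ),
      (∑ i, Polynomial.aeval (jqModC (ZMod ℓ)) (c i) *
        ∏ d ∈ N.divisors, jn (ZMod ℓ) d ^ e i d) = 0 → ∀ i, c i = 0

end Fermat.Agent.S28

end
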