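/-
S28 (Igusa), piece VAL-DVR: the localisation `Λ` of `ℤ_(ℓ)((q))` at the prime `(ℓ)`, realised as a
subring of `ℚ((q))`, with its residue map to `𝔽_ℓ((q))`.

* `redHom : ℤ_(ℓ) →+* ZMod ℓ`, `ι : ℤ_(ℓ)((q)) →+* ℚ((q))`, `red : ℤ_(ℓ)((q)) →+* 𝔽_ℓ((q))`;
* `Lam ℓ : Subring (LaurentSeries ℚ)` = `{a / b : red b ≠ 0}`, `res : Lam ℓ →+* LaurentSeries (ZMod ℓ)`;
* `res_eq_zero_iff` (kernel `= ℓ Λ`), `inv_mem` (units), `exists_zpow_mul` (every nonzero element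
  of `Φ = Frac ℤ_(ℓ)((q))` is `ℓ ^ m` times a unit of `Λ`), `full_le_Phi` (the function field of
  `X₀(N)` lies in `Φ`), `valSubring` (the induced valuation subring of the function field).
-/
import Mathlib
import Fermat.Prelude.Def_ModularCurve_IgusaScheme
import Fermat.Prelude.Def_ModularCurve_X0ModL

set_option autoImplicit false

noncomputable section

namespace Fermat.Agent.S28.Lam

open ModularCurve

variable (ℓ : ℕ) [Fact ℓ.Prime]

set_option quotPrecheck false in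
local notation "ℤℓ" => ↥(GaloisRep.ratLocalizedAt ℓ)

/-! ### The local ring `ℤ_(ℓ)` -/

theorem den_ne_zero (x : ℤℓ) : (((x : ℚ).den : ℕ) : ZMod ℓ) ≠ 0 := by
  intro h
  rw [ZMod.natCast_eq_zero_iff] at h
  have hx : (x : ℚ).den.Coprime ℓ := x.2
  have h1 : ℓ ∣ Nat.gcd (x : ℚ).den ℓ := Nat.dvd_gcd h dvd_rfl
  rw [hx] at h1
  exact (Fact.out : ℓ.Prime).one_lt.ne' (Nat.dvd_one.mp h1)

/-- Reduction modulo `ℓ` on `ℤ_(ℓ)`. -/
def redHom : ℤℓ →+* ZMod ℓ where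
  toFun x := ((x : ℚ) : ZMod ℓ)
  map_one' := by simp
  map_zero' := by simp
  map_add' x y := by
    show (((x + y : ℤℓ) : ℚ) : ZMod ℓ) = _
    rw [Subring.coe_add]
    exact Rat.cast_add_of_ne_zero (den_ne_zero ℓ x) (den_ne_zero ℓ y)
  map_mul' x y := by
    show (((x * y : ℤℓ) : ℚ) : ZMod ℓ) = _
    rw [Subring.coe_mul]
    exact Rat.cast_mul_of_ne_zero (den_ne_zero ℓ x) (den_ne_zero ℓ y)

theorem redHom_apply (x : ℤℓ) : redHom ℓ x = ((x : ℚ) : ZMod ℓ) := rfl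

theorem redHom_natCast_self : redHom ℓ (ℓ : ℤℓ) = 0 := by
  rw [map_natCast]; exact ZMod.natCast_self ℓ

theorem prime_ne_zero : (ℓ : ℤℓ) ≠ 0 := by
  intro h
  have := congrArg (Subtype.val) h
  simp at this
  exact (Fact.out : ℓ.Prime).ne_zero this

omit [Fact ℓ.Prime] in
/-- an element of `ℚ` whose denominator is prime to `ℓ` -/
theorem mem_of_den_dvd {q : ℚ} {d : ℕ} (hd : d.Coprime ℓ) (h : q.den ∣ d) :
    q ∈ GaloisRep.ratLocalizedAt ℓ :=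
  Nat.Coprime.coprime_dvd_left h hd

theorem redHom_eq_zero_iff (c : ℤℓ) : redHom ℓ c = 0 ↔ ∃ c' : ℤℓ, c = (ℓ : ℤℓ) * c' := by
  constructor
  · intro h
    rw [redHom_apply, Rat.cast_def, div_eq_zero_iff] at h
    rcases h with h | h
    · rw [ZMod.intCast_zmod_eq_zero_iff_dvd] at h
      obtain ⟨k, hk⟩ := h
      have hq : (c : ℚ) = (ℓ : ℚ) * ((k : ℚ) / ((c : ℚ).den : ℚ)) := by
        have hden : (((c : ℚ).den : ℕ) : ℚ) ≠ 0 := by exact_mod_cast (c : ℚ).den_ne_zero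
        have h1 : (c : ℚ) = ((c : ℚ).num : ℚ) / ((c : ℚ).den : ℚ) := (Rat.num_div_den _).symm
        calc (c : ℚ) = ((c : ℚ).num : ℚ) / ((c : ℚ).den : ℚ) := h1
          _ = (((ℓ : ℤ) * k : ℤ) : ℚ) / ((c : ℚ).den : ℚ) := by rw [hk]
          _ = (ℓ : ℚ) * ((k : ℚ) / ((c : ℚ).den : ℚ)) := by push_cast; ring
      have hmem : ((k : ℚ) / ((c : ℚ).den : ℚ)) ∈ GaloisRep.ratLocalizedAt ℓ := by
        refine mem_of_den_dvd ℓ c.2 ?_
        have := Rat.den_dvd k ((c : ℚ).den : ℤ)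
        rw [Rat.divInt_eq_div] at this
        exact_mod_cast this
      exact ⟨⟨_, hmem⟩, Subtype.ext (by simpa using hq)⟩
    · exact absurd h (den_ne_zero ℓ c)
  · rintro ⟨c', rfl⟩
    rw [map_mul, redHom_natCast_self, zero_mul]

theorem padicValRat_nonneg (c : ℤℓ) : 0 ≤ padicValRat ℓ (c : ℚ) := by
  have hc : (c : ℚ).den.Coprime ℓ := c.2
  rw [padicValRat]
  have : padicValNat ℓ (c : ℚ).den = 0 := by
    rw [padicValNat.eq_zero_iff]
    right; right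
    intro hdvd
    have h1 : ℓ ∣ Nat.gcd (c : ℚ).den ℓ := Nat.dvd_gcd hdvd dvd_rfl
    rw [hc] at h1
    exact (Fact.out : ℓ.Prime).one_lt.ne' (Nat.dvd_one.mp h1)
  rw [this]
  simp

/-- finite multiplicity of `ℓ` in a nonzero element of `ℤ_(ℓ)` -/
theorem le_of_eq_pow_mul {c c' : ℤℓ} (hc : c ≠ 0) {m : ℕ} (h : c = (ℓ : ℤℓ) ^ m * c') :
    m ≤ (padicValRat ℓ (c : ℚ)).toNat := by
  have hc' : c' ≠ 0 := by rintro rfl; exact hc (by rw [h, mul_zero])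
  have hq : (c : ℚ) = (ℓ : ℚ) ^ m * (c' : ℚ) := by
    have := congrArg (Subtype.val) h
    simpa using this
  have hℓ : (ℓ : ℚ) ≠ 0 := by exact_mod_cast (Fact.out : ℓ.Prime).ne_zero
  have hc'q : (c' : ℚ) ≠ 0 := fun h0 => hc' (Subtype.ext h0)
  have hval : padicValRat ℓ (c : ℚ) = m + padicValRat ℓ (c' : ℚ) := by
    rw [hq, padicValRat.mul (pow_ne_zero _ hℓ) hc'q, padicValRat.pow, padicValRat.self
      (Fact.out : ℓ.Prime).one_lt, mul_one]
  have := padicValRat_nonneg ℓ c'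
  omega

/-! ### Laurent series over `ℤ_(ℓ)` -/

/-- `ℤ_(ℓ)((q)) → ℚ((q))` -/
def ι : LaurentSeries ℤℓ →+* LaurentSeries ℚ := coeffMap (algebraMap ℤℓ ℚ)

/-- coefficientwise reduction `ℤ_(ℓ)((q)) → 𝔽_ℓ((q))` -/
def red : LaurentSeries ℤℓ →+* LaurentSeries (ZMod ℓ) := coeffMap (redHom ℓ)

omit [Fact ℓ.Prime] in
@[simp] theorem ι_coeff (a : LaurentSeries ℤℓ) (k : ℤ) : (ι ℓ a).coeff k = (a.coeff k : ℚ) := rfl

@[simp] theorem red_coeff (a : LaurentSeries ℤℓ) (k : ℤ) :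
    (red ℓ a).coeff k = redHom ℓ (a.coeff k) := rfl

omit [Fact ℓ.Prime] in
theorem ι_injective : Function.Injective (ι ℓ) := by
  intro a b h
  ext k
  have := congrArg (fun x => HahnSeries.coeff x k) h
  simpa using this

omit [Fact ℓ.Prime] in
theorem ι_eq_zero_iff {a : LaurentSeries ℤℓ} : ι ℓ a = 0 ↔ a = 0 :=
  map_eq_zero_iff (ι ℓ) (ι_injective ℓ)

omit [Fact ℓ.Prime] in
theorem coeff_natCast_mul {R : Type*} [CommRing R] (n : ℕ) (a : LaurentSeries R) (k : ℤ) :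
    ((n : LaurentSeries R) * a).coeff k = (n : R) * a.coeff k := by
  rw [← nsmul_eq_mul, HahnSeries.coeff_nsmul, Pi.smul_apply, nsmul_eq_mul]

omit [Fact ℓ.Prime] in
theorem coeff_natCast_pow_mul {R : Type*} [CommRing R] (n m : ℕ) (a : LaurentSeries R) (k : ℤ) :
    ((n : LaurentSeries R) ^ m * a).coeff k = (n : R) ^ m * a.coeff k := by
  have : ((n : LaurentSeries R) ^ m) = ((n ^ m : ℕ) : LaurentSeries R) := by push_cast; rfl
  rw [this, coeff_natCast_mul]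
  push_cast; rfl

theorem red_natCast_self : red ℓ (ℓ : LaurentSeries ℤℓ) = 0 := by
  ext k
  have h : ((ℓ : LaurentSeries ℤℓ)).coeff k = ((ℓ : LaurentSeries ℤℓ) * 1).coeff k := by
    rw [mul_one]
  rw [red_coeff, h, coeff_natCast_mul, map_mul, redHom_natCast_self, zero_mul]
  rfl

/-- division by `ℓ` on `ℤ_(ℓ)`, junk value `0` when not divisible -/
def divℓ (c : ℤℓ) : ℤℓ := by
  classical
  exact if h : redHom ℓ c = 0 then ((redHom_eq_zero_iff ℓ c).mp h).choose else 0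

theorem divℓ_spec {c : ℤℓ} (h : redHom ℓ c = 0) : c = (ℓ : ℤℓ) * divℓ ℓ c := by
  classical
  rw [divℓ, dif_pos h]
  exact ((redHom_eq_zero_iff ℓ c).mp h).choose_spec

theorem divℓ_zero : divℓ ℓ 0 = 0 := by
  have h := divℓ_spec ℓ (c := 0) (map_zero _)
  rcases mul_eq_zero.mp h.symm with h | h
  · exact absurd h (prime_ne_zero ℓ)
  · exact h

theorem red_eq_zero_iff (a : LaurentSeries ℤℓ) :
    red ℓ a = 0 ↔ ∃ a' : LaurentSeries ℤℓ, a = (ℓ : LaurentSeries ℤℓ) * a' := by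
  constructor
  · intro h
    refine ⟨a.map (⟨divℓ ℓ, divℓ_zero ℓ⟩ : ZeroHom ℤℓ ℤℓ), HahnSeries.ext (funext fun k => ?_)⟩
    rw [coeff_natCast_mul, HahnSeries.map_coeff]
    have hk : redHom ℓ (a.coeff k) = 0 := by
      have := congrArg (fun x => HahnSeries.coeff x k) h
      simpa using this
    exact divℓ_spec ℓ hk
  · rintro ⟨a', rfl⟩
    rw [map_mul, red_natCast_self, zero_mul]

/-- **Content.** A nonzero Laurent series over `ℤ_(ℓ)` is `ℓ ^ m` times a series which is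
nonzero modulo `ℓ`. -/
theorem exists_pow_mul {a : LaurentSeries ℤℓ} (ha : a ≠ 0) :
    ∃ (m : ℕ) (a₀ : LaurentSeries ℤℓ), a = (ℓ : LaurentSeries ℤℓ) ^ m * a₀ ∧ red ℓ a₀ ≠ 0 := by
  classical
  obtain ⟨k, hk⟩ : ∃ k, a.coeff k ≠ 0 := by
    by_contra hcon
    push Not at hcon
    exact ha (HahnSeries.ext (funext hcon))
  set B := (padicValRat ℓ (a.coeff k : ℚ)).toNat with hB
  let P : ℕ → Prop := fun m => ∃ a' : LaurentSeries ℤℓ, a = (ℓ : LaurentSeries ℤℓ) ^ m * a'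
  have hP0 : P 0 := ⟨a, by simp⟩
  have hbound : ∀ m, P m → m ≤ B := by
    rintro m ⟨a', ha'⟩
    refine le_of_eq_pow_mul ℓ hk (c' := a'.coeff k) ?_
    conv_lhs => rw [ha']
    exact coeff_natCast_pow_mul ℓ m a' k
  set m := Nat.findGreatest P B with hm
  have hPm : P m := Nat.findGreatest_spec (P := P) (Nat.zero_le B) hP0
  obtain ⟨a₀, ha₀⟩ := hPm
  refine ⟨m, a₀, ha₀, fun hred => ?_⟩
  obtain ⟨a', ha'⟩ := (red_eq_zero_iff ℓ a₀).mp hred
  have hP1 : P (m + 1) := ⟨a', by rw [ha₀, ha', pow_succ, mul_assoc]⟩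
  have h1 : m + 1 ≤ B := hbound _ hP1
  have := Nat.le_findGreatest (P := P) h1 hP1
  omega

/-! ### The ring `Λ` and its residue map -/

set_option linter.dupNamespace false in
/-- `Λ`: the localisation of `ℤ_(ℓ)((q))` at the prime `(ℓ)`, inside `ℚ((q))`. -/
def Lam : Subring (LaurentSeries ℚ) where
  carrier := {x | ∃ a b : LaurentSeries ℤℓ, red ℓ b ≠ 0 ∧ x * ι ℓ b = ι ℓ a}
  mul_mem' := by
    rintro x y ⟨a, b, hb, h⟩ ⟨a', b', hb', h'⟩
    refine ⟨a * a', b * b', ?_, ?_⟩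
    · rw [map_mul]; exact mul_ne_zero hb hb'
    · rw [map_mul, map_mul, ← h, ← h']; ring
  one_mem' := ⟨1, 1, by rw [map_one]; exact one_ne_zero, by simp⟩
  add_mem' := by
    rintro x y ⟨a, b, hb, h⟩ ⟨a', b', hb', h'⟩
    refine ⟨a * b' + a' * b, b * b', ?_, ?_⟩
    · rw [map_mul]; exact mul_ne_zero hb hb'
    · rw [map_add, map_mul, map_mul, map_mul, ← h, ← h']; ring
  zero_mem' := ⟨0, 1, by rw [map_one]; exact one_ne_zero, by simp⟩
  neg_mem' := by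
    rintro x ⟨a, b, hb, h⟩
    exact ⟨-a, b, hb, by rw [map_neg, ← h]; ring⟩

theorem mem_Lam {x : LaurentSeries ℚ} :
    x ∈ Lam ℓ ↔ ∃ a b : LaurentSeries ℤℓ, red ℓ b ≠ 0 ∧ x * ι ℓ b = ι ℓ a := Iff.rfl

theorem red_ne_zero_imp_ι_ne_zero {b : LaurentSeries ℤℓ} (hb : red ℓ b ≠ 0) : ι ℓ b ≠ 0 := by
  intro h
  rw [ι_eq_zero_iff] at h
  exact hb (by rw [h, map_zero])

/-- a numerator of an element of `Λ` -/
def num (x : Lam ℓ) : LaurentSeries ℤℓ := x.2.choose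

/-- a denominator of an element of `Λ` -/
def den (x : Lam ℓ) : LaurentSeries ℤℓ := x.2.choose_spec.choose

theorem red_den_ne_zero (x : Lam ℓ) : red ℓ (den ℓ x) ≠ 0 := x.2.choose_spec.choose_spec.1

theorem mul_den (x : Lam ℓ) : (x : LaurentSeries ℚ) * ι ℓ (den ℓ x) = ι ℓ (num ℓ x) :=
  x.2.choose_spec.choose_spec.2

/-- the residue map as a function -/
def resFun (x : Lam ℓ) : LaurentSeries (ZMod ℓ) := red ℓ (num ℓ x) / red ℓ (den ℓ x)

theorem resFun_eq (x : Lam ℓ) {a b : LaurentSeries ℤℓ} (hb : red ℓ b ≠ 0)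
    (h : (x : LaurentSeries ℚ) * ι ℓ b = ι ℓ a) : resFun ℓ x = red ℓ a / red ℓ b := by
  have h' := mul_den ℓ x
  have hb' := red_den_ne_zero ℓ x
  have key : a * den ℓ x = num ℓ x * b := by
    apply ι_injective ℓ
    rw [map_mul, map_mul, ← h, ← h']
    ring
  have key' := congrArg (red ℓ) key
  rw [map_mul, map_mul] at key'
  rw [resFun, div_eq_div_iff hb' hb, ← key']

/-- The residue map `Λ → 𝔽_ℓ((q))`. -/
def res : Lam ℓ →+* LaurentSeries (ZMod ℓ) where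
  toFun := resFun ℓ
  map_one' := by
    have h : red ℓ 1 ≠ 0 := by rw [map_one]; exact one_ne_zero
    rw [resFun_eq ℓ (1 : Lam ℓ) (a := 1) (b := 1) h (by simp), map_one, div_one]
  map_zero' := by
    have h : red ℓ 1 ≠ 0 := by rw [map_one]; exact one_ne_zero
    rw [resFun_eq ℓ (0 : Lam ℓ) (a := 0) (b := 1) h (by simp), map_zero, zero_div]
  map_mul' x y := by
    have hx := mul_den ℓ x
    have hy := mul_den ℓ y
    have hbx := red_den_ne_zero ℓ x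
    have hby := red_den_ne_zero ℓ y
    rw [resFun_eq ℓ (x * y) (a := num ℓ x * num ℓ y) (b := den ℓ x * den ℓ y)
      (by rw [map_mul]; exact mul_ne_zero hbx hby)
      (by rw [map_mul, map_mul, ← hx, ← hy, Subring.coe_mul]; ring),
      resFun, resFun, map_mul, map_mul, div_mul_div_comm]
  map_add' x y := by
    have hx := mul_den ℓ x
    have hy := mul_den ℓ y
    have hbx := red_den_ne_zero ℓ x
    have hby := red_den_ne_zero ℓ y
    rw [resFun_eq ℓ (x + y) (a := num ℓ x * den ℓ y + num ℓ y * den ℓ x)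
      (b := den ℓ x * den ℓ y) (by rw [map_mul]; exact mul_ne_zero hbx hby)
      (by rw [map_add, map_mul, map_mul, map_mul, ← hx, ← hy, Subring.coe_add]; ring),
      resFun, resFun, map_add, map_mul, map_mul, map_mul, div_add_div _ _ hbx hby]
    ring

/-- Computing `res` from any presentation `x = a / b`. -/
theorem res_eq (x : Lam ℓ) {a b : LaurentSeries ℤℓ} (hb : red ℓ b ≠ 0)
    (h : (x : LaurentSeries ℚ) * ι ℓ b = ι ℓ a) : res ℓ x = red ℓ a / red ℓ b :=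
  resFun_eq ℓ x hb h

theorem res_mul_red (x : Lam ℓ) {a b : LaurentSeries ℤℓ} (hb : red ℓ b ≠ 0)
    (h : (x : LaurentSeries ℚ) * ι ℓ b = ι ℓ a) : res ℓ x * red ℓ b = red ℓ a := by
  rw [res_eq ℓ x hb h, div_mul_cancel₀ _ hb]

theorem ι_mem (a : LaurentSeries ℤℓ) : ι ℓ a ∈ Lam ℓ :=
  ⟨a, 1, by rw [map_one]; exact one_ne_zero, by simp⟩

@[simp] theorem res_ι (a : LaurentSeries ℤℓ) : res ℓ ⟨ι ℓ a, ι_mem ℓ a⟩ = red ℓ a := by
  rw [res_eq ℓ ⟨ι ℓ a, ι_mem ℓ a⟩ (a := a) (b := 1) (by rw [map_one]; exact one_ne_zero)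
    (by simp), map_one, div_one]

/-- **(L1)** the kernel of the residue map is `ℓ Λ`. -/
theorem res_eq_zero_iff (x : Lam ℓ) : res ℓ x = 0 ↔ ∃ y : Lam ℓ, x = (ℓ : Lam ℓ) * y := by
  constructor
  · intro h
    have hx := mul_den ℓ x
    have hb := red_den_ne_zero ℓ x
    have h0 : red ℓ (num ℓ x) = 0 := by
      have := res_mul_red ℓ x hb hx
      rw [h, zero_mul] at this
      exact this.symm
    obtain ⟨a', ha'⟩ := (red_eq_zero_iff ℓ _).mp h0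
    have hιb := red_ne_zero_imp_ι_ne_zero ℓ hb
    have hy : ι ℓ a' / ι ℓ (den ℓ x) ∈ Lam ℓ :=
      ⟨a', den ℓ x, hb, div_mul_cancel₀ _ hιb⟩
    refine ⟨⟨_, hy⟩, Subtype.ext ?_⟩
    have hℓ : ι ℓ (ℓ : LaurentSeries ℤℓ) = (ℓ : LaurentSeries ℚ) := map_natCast _ _
    rw [Subring.coe_mul, Subring.coe_natCast]
    rw [eq_div_iff hιb |>.mpr hx, ha', map_mul, hℓ, mul_div_assoc]
  · rintro ⟨y, rfl⟩
    have hℓ : res ℓ (ℓ : Lam ℓ) = 0 := by
      rw [map_natCast, ← red_natCast_self ℓ, map_natCast]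
    rw [map_mul, hℓ, zero_mul]

/-- **(L2)** an element of `Λ` with nonzero residue is a unit of `Λ`. -/
theorem inv_mem (x : Lam ℓ) (hx : res ℓ x ≠ 0) : (x : LaurentSeries ℚ)⁻¹ ∈ Lam ℓ := by
  have h := mul_den ℓ x
  have hb := red_den_ne_zero ℓ x
  have ha : red ℓ (num ℓ x) ≠ 0 := by
    intro h0
    apply hx
    have := res_mul_red ℓ x hb h
    rw [h0] at this
    exact (mul_eq_zero.mp this).resolve_right hb
  have hιa := red_ne_zero_imp_ι_ne_zero ℓ ha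
  have hx0 : (x : LaurentSeries ℚ) ≠ 0 := by
    intro h0
    rw [h0, zero_mul] at h
    exact hιa h.symm
  refine ⟨den ℓ x, num ℓ x, ha, ?_⟩
  rw [← h]
  field_simp

/-! ### The field `Φ = Frac ℤ_(ℓ)((q))` -/

omit [Fact ℓ.Prime] in
theorem natCast_ne_zero_laurent {n : ℕ} (hn : n ≠ 0) : (n : LaurentSeries ℚ) ≠ 0 := by
  rw [← map_natCast (algebraMap ℚ (LaurentSeries ℚ))]
  exact (map_ne_zero _).mpr (Nat.cast_ne_zero.mpr hn)

omit [Fact ℓ.Prime] in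
theorem ι_mul_ne_zero {b b' : LaurentSeries ℤℓ} (hb : b ≠ 0) (hb' : b' ≠ 0) : b * b' ≠ 0 := by
  intro h
  have := congrArg (ι ℓ) h
  rw [map_mul, map_zero] at this
  rcases mul_eq_zero.mp this with h1 | h1
  · exact hb ((ι_eq_zero_iff ℓ).mp h1)
  · exact hb' ((ι_eq_zero_iff ℓ).mp h1)

/-- `Φ`: the fraction field of `ℤ_(ℓ)((q))` inside `ℚ((q))`. -/
def Phi : Subfield (LaurentSeries ℚ) where
  carrier := {x | ∃ a b : LaurentSeries ℤℓ, b ≠ 0 ∧ x * ι ℓ b = ι ℓ a}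
  mul_mem' := by
    rintro x y ⟨a, b, hb, h⟩ ⟨a', b', hb', h'⟩
    refine ⟨a * a', b * b', ι_mul_ne_zero ℓ hb hb', ?_⟩
    rw [map_mul, map_mul, ← h, ← h']; ring
  one_mem' := ⟨1, 1, one_ne_zero, by simp⟩
  add_mem' := by
    rintro x y ⟨a, b, hb, h⟩ ⟨a', b', hb', h'⟩
    refine ⟨a * b' + a' * b, b * b', ι_mul_ne_zero ℓ hb hb', ?_⟩
    rw [map_add, map_mul, map_mul, map_mul, ← h, ← h']; ring
  zero_mem' := ⟨0, 1, one_ne_zero, by simp⟩
  neg_mem' := by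
    rintro x ⟨a, b, hb, h⟩
    exact ⟨-a, b, hb, by rw [map_neg, ← h]; ring⟩
  inv_mem' := by
    rintro x ⟨a, b, hb, h⟩
    by_cases hx : x = 0
    · subst hx
      exact ⟨0, 1, one_ne_zero, by simp⟩
    · have hιb : ι ℓ b ≠ 0 := fun h0 => hb ((ι_eq_zero_iff ℓ).mp h0)
      have ha : a ≠ 0 := by
        rintro rfl
        rw [map_zero] at h
        rcases mul_eq_zero.mp h with h1 | h1
        · exact hx h1
        · exact hιb h1
      refine ⟨b, a, ha, ?_⟩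
      rw [← h]
      field_simp

omit [Fact ℓ.Prime] in
theorem mem_Phi {x : LaurentSeries ℚ} :
    x ∈ Phi ℓ ↔ ∃ a b : LaurentSeries ℤℓ, b ≠ 0 ∧ x * ι ℓ b = ι ℓ a := Iff.rfl

omit [Fact ℓ.Prime] in
theorem ι_mem_Phi (a : LaurentSeries ℤℓ) : ι ℓ a ∈ Phi ℓ := ⟨a, 1, one_ne_zero, by simp⟩

theorem Lam_le_Phi {x : LaurentSeries ℚ} (hx : x ∈ Lam ℓ) : x ∈ Phi ℓ := by
  obtain ⟨a, b, hb, h⟩ := hx
  exact ⟨a, b, fun h0 => hb (by rw [h0, map_zero]), h⟩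

omit [Fact ℓ.Prime] in
theorem algebraMap_mem_Phi (c : ℚ) : algebraMap ℚ (LaurentSeries ℚ) c ∈ Phi ℓ := by
  refine ⟨(c.num : LaurentSeries ℤℓ), (c.den : LaurentSeries ℤℓ), ?_, ?_⟩
  · intro h
    have := congrArg (ι ℓ) h
    rw [map_natCast, map_zero] at this
    exact natCast_ne_zero_laurent c.den_ne_zero this
  · rw [map_natCast, map_intCast]
    have h1 : ((c.den : ℕ) : LaurentSeries ℚ) = algebraMap ℚ (LaurentSeries ℚ) (c.den : ℚ) := by
      rw [map_natCast]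
    have h2 : ((c.num : ℤ) : LaurentSeries ℚ) = algebraMap ℚ (LaurentSeries ℚ) (c.num : ℚ) := by
      rw [map_intCast]
    rw [h1, h2, ← map_mul, Rat.mul_den_eq_num]

/-- **(L3)** every nonzero element of `Φ` is `ℓ ^ m` times a unit of `Λ`. -/
theorem exists_zpow_mul {x : LaurentSeries ℚ} (hx : x ∈ Phi ℓ) (hx0 : x ≠ 0) :
    ∃ (m : ℤ) (u : Lam ℓ), res ℓ u ≠ 0 ∧ x = (ℓ : LaurentSeries ℚ) ^ m * (u : LaurentSeries ℚ) := by
  obtain ⟨a, b, hb, h⟩ := hx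
  have hιb : ι ℓ b ≠ 0 := fun h0 => hb ((ι_eq_zero_iff ℓ).mp h0)
  have ha : a ≠ 0 := by
    rintro rfl
    rw [map_zero] at h
    rcases mul_eq_zero.mp h with h1 | h1
    · exact hx0 h1
    · exact hιb h1
  obtain ⟨m, a₀, ha₀, hra⟩ := exists_pow_mul ℓ ha
  obtain ⟨n, b₀, hb₀, hrb⟩ := exists_pow_mul ℓ hb
  have hιb₀ := red_ne_zero_imp_ι_ne_zero ℓ hrb
  have hu : ι ℓ a₀ / ι ℓ b₀ ∈ Lam ℓ := ⟨a₀, b₀, hrb, div_mul_cancel₀ _ hιb₀⟩
  have hℓ : (ℓ : LaurentSeries ℚ) ≠ 0 := natCast_ne_zero_laurent (Fact.out : ℓ.Prime).ne_zero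
  have hιℓ : ι ℓ (ℓ : LaurentSeries ℤℓ) = (ℓ : LaurentSeries ℚ) := map_natCast _ _
  refine ⟨(m : ℤ) - n, ⟨_, hu⟩, ?_, ?_⟩
  · rw [res_eq ℓ ⟨_, hu⟩ hrb (div_mul_cancel₀ _ hιb₀)]
    exact div_ne_zero hra hrb
  · have hx : x = ι ℓ a / ι ℓ b := by rw [eq_div_iff hιb, h]
    rw [hx, ha₀, hb₀, map_mul, map_mul, map_pow, map_pow, hιℓ, zpow_sub₀ hℓ, zpow_natCast,
      zpow_natCast]
    field_simp

/-! ### The function field of `X₀(N)` lies in `Φ` -/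

omit [Fact ℓ.Prime] in
theorem qExpand_jq_eq_ι (d : ℕ) [NeZero d] :
    qExpand ℚ d jq = ι ℓ (qExpand ℤℓ d (jqModC ℤℓ)) := by
  rw [ι, coeffMap_qExpand, coeffMap_jqModC, jqModC_rat]

omit [Fact ℓ.Prime] in
/-- **(L4)** `F = ℚ(j(q^d) : d ∣ N) ⊆ Φ`. -/
theorem full_le_Phi (N : ℕ) [NeZero N] {x : LaurentSeries ℚ}
    (hx : x ∈ modularFunctionFieldFull N) : x ∈ Phi ℓ := by
  have hle : modularFunctionFieldFull N ≤
      (Phi ℓ).toIntermediateField (fun c => algebraMap_mem_Phi ℓ c) := by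
    rw [modularFunctionFieldFull, IntermediateField.adjoin_le_iff]
    rintro y ⟨d, hd, -, rfl⟩
    show qExpand ℚ d jq ∈ Phi ℓ
    rw [qExpand_jq_eq_ι ℓ d]
    exact ι_mem_Phi ℓ _
  exact hle hx

/-! ### The valuation subring `V = F ∩ Λ` of the function field -/

section FunctionField

open ModularCurve.IgusaScheme

variable (N : ℕ) [NeZero N]

set_option quotPrecheck false in
local notation "F" => ↥(modularFunctionFieldFull N)

theorem natCast_mem_Lam (n : ℕ) : (n : LaurentSeries ℚ) ∈ Lam ℓ := natCast_mem (Lam ℓ) n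

theorem zpow_natCast_mul_mem {m : ℤ} (hm : 0 ≤ m) {u : LaurentSeries ℚ} (hu : u ∈ Lam ℓ) :
    (ℓ : LaurentSeries ℚ) ^ m * u ∈ Lam ℓ := by
  lift m to ℕ using hm
  rw [zpow_natCast]
  exact (Lam ℓ).mul_mem (pow_mem (natCast_mem_Lam ℓ ℓ) m) hu

/-- `V = F ∩ Λ`, a valuation subring of the function field `F` of `X₀(N)`. -/
def valSubring : ValuationSubring F where
  carrier := {x | (x : LaurentSeries ℚ) ∈ Lam ℓ}
  mul_mem' := fun ha hb => (Lam ℓ).mul_mem ha hb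
  one_mem' := (Lam ℓ).one_mem
  add_mem' := fun ha hb => (Lam ℓ).add_mem ha hb
  zero_mem' := (Lam ℓ).zero_mem
  neg_mem' := fun ha => (Lam ℓ).neg_mem ha
  mem_or_inv_mem' := fun x => by
    by_cases hx : x = 0
    · left
      rw [hx]
      exact (Lam ℓ).zero_mem
    · have hx0 : (x : LaurentSeries ℚ) ≠ 0 := fun h => hx (Subtype.ext h)
      obtain ⟨m, u, hu, hxu⟩ := exists_zpow_mul ℓ (full_le_Phi ℓ N x.2) hx0
      rcases le_or_gt 0 m with hm | hm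
      · left
        show (x : LaurentSeries ℚ) ∈ Lam ℓ
        rw [hxu]
        exact zpow_natCast_mul_mem ℓ hm u.2
      · right
        show ((x⁻¹ : F) : LaurentSeries ℚ) ∈ Lam ℓ
        have e : ((x⁻¹ : F) : LaurentSeries ℚ) =
            (ℓ : LaurentSeries ℚ) ^ (-m) * (u : LaurentSeries ℚ)⁻¹ := by
          rw [show ((x⁻¹ : F) : LaurentSeries ℚ) = (x : LaurentSeries ℚ)⁻¹ from rfl, hxu,
            mul_inv, zpow_neg]
        rw [e]
        exact zpow_natCast_mul_mem ℓ (by omega) (inv_mem ℓ u hu)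

theorem mem_valSubring_iff {x : F} : x ∈ valSubring ℓ N ↔ (x : LaurentSeries ℚ) ∈ Lam ℓ := Iff.rfl

/-- the inclusion `V → Λ` -/
def toLam : valSubring ℓ N →+* Lam ℓ where
  toFun x := ⟨((x : F) : LaurentSeries ℚ), x.2⟩
  map_one' := rfl
  map_zero' := rfl
  map_mul' _ _ := rfl
  map_add' _ _ := rfl

/-- The residue map `V → 𝔽_ℓ((q))`. -/
def resV : valSubring ℓ N →+* LaurentSeries (ZMod ℓ) := (res ℓ).comp (toLam ℓ N)

theorem resV_apply (x : valSubring ℓ N) :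
    resV ℓ N x = res ℓ ⟨((x : F) : LaurentSeries ℚ), x.2⟩ := rfl

theorem resV_natCast_self : resV ℓ N (ℓ : valSubring ℓ N) = 0 := by
  rw [map_natCast, ← red_natCast_self ℓ, map_natCast]

/-- the kernel of the residue map on `V` is `ℓ V` -/
theorem resV_eq_zero_iff (x : valSubring ℓ N) :
    resV ℓ N x = 0 ↔ ∃ y : valSubring ℓ N, x = (ℓ : valSubring ℓ N) * y := by
  constructor
  · intro h
    obtain ⟨y, hy⟩ := (res_eq_zero_iff ℓ _).mp h
    have hy' : ((x : F) : LaurentSeries ℚ) = (ℓ : LaurentSeries ℚ) * (y : LaurentSeries ℚ) := by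
      have := congrArg (Subtype.val) hy
      rw [Subring.coe_mul, Subring.coe_natCast] at this
      exact this
    have hℓ : (ℓ : LaurentSeries ℚ) ≠ 0 := natCast_ne_zero_laurent (Fact.out : ℓ.Prime).ne_zero
    have hℓF : (ℓ : F) ≠ 0 := by
      intro h0
      apply hℓ
      have := congrArg (Subtype.val) h0
      simpa using this
    have hmem : ((x : F) / (ℓ : F)) ∈ valSubring ℓ N := by
      show (((x : F) / (ℓ : F) : F) : LaurentSeries ℚ) ∈ Lam ℓ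
      have e : (((x : F) / (ℓ : F) : F) : LaurentSeries ℚ) = (y : LaurentSeries ℚ) := by
        show ((x : F) : LaurentSeries ℚ) / ((ℓ : F) : LaurentSeries ℚ) = _
        rw [hy']
        have : ((ℓ : F) : LaurentSeries ℚ) = (ℓ : LaurentSeries ℚ) := by simp
        rw [this, mul_div_cancel_left₀ _ hℓ]
      rw [e]
      exact y.2
    refine ⟨⟨_, hmem⟩, Subtype.ext ?_⟩
    show (x : F) = (ℓ : F) * ((x : F) / (ℓ : F))
    rw [mul_div_cancel₀ _ hℓF]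
  · rintro ⟨y, rfl⟩
    rw [map_mul, resV_natCast_self, zero_mul]

/-- `V` is a discrete valuation ring with uniformiser `ℓ`: every nonzero element of `F` is
`ℓ ^ m` times an element of `V` with nonzero residue. -/
theorem exists_zpow_mul_V {x : F} (hx : x ≠ 0) :
    ∃ (m : ℤ) (u : valSubring ℓ N), resV ℓ N u ≠ 0 ∧ x = (ℓ : F) ^ m * (u : F) := by
  have hx0 : (x : LaurentSeries ℚ) ≠ 0 := fun h => hx (Subtype.ext h)
  obtain ⟨m, u, hu, hxu⟩ := exists_zpow_mul ℓ (full_le_Phi ℓ N x.2) hx0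
  have hℓ : (ℓ : LaurentSeries ℚ) ≠ 0 := natCast_ne_zero_laurent (Fact.out : ℓ.Prime).ne_zero
  have hcast : ((ℓ : F) : LaurentSeries ℚ) = (ℓ : LaurentSeries ℚ) := by simp
  have e : ((x * ((ℓ : F) ^ m)⁻¹ : F) : LaurentSeries ℚ) = (u : LaurentSeries ℚ) := by
    show (x : LaurentSeries ℚ) * (((ℓ : F) ^ m : F) : LaurentSeries ℚ)⁻¹ = _
    have : (((ℓ : F) ^ m : F) : LaurentSeries ℚ) = (ℓ : LaurentSeries ℚ) ^ m := by
      rw [← hcast]
      exact map_zpow₀ (algebraMap F (LaurentSeries ℚ)) _ _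
    rw [this, hxu, mul_comm, ← mul_assoc, inv_mul_cancel₀ (zpow_ne_zero _ hℓ), one_mul]
  have hmem : (x * ((ℓ : F) ^ m)⁻¹) ∈ valSubring ℓ N := by
    show ((x * ((ℓ : F) ^ m)⁻¹ : F) : LaurentSeries ℚ) ∈ Lam ℓ
    rw [e]; exact u.2
  refine ⟨m, ⟨_, hmem⟩, ?_, ?_⟩
  · rw [resV_apply]
    have : (⟨((⟨x * ((ℓ : F) ^ m)⁻¹, hmem⟩ : valSubring ℓ N) : F), hmem⟩ : Lam ℓ) = u :=
      Subtype.ext e
    rw [this]
    exact hu
  · have hℓF : (ℓ : F) ≠ 0 := by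
      intro h0
      apply hℓ
      rw [← hcast, h0]
      rfl
    show x = (ℓ : F) ^ m * (x * ((ℓ : F) ^ m)⁻¹)
    rw [mul_comm x, ← mul_assoc, mul_inv_cancel₀ (zpow_ne_zero _ hℓF), one_mul]

/-- a unit of `V` is an element with nonzero residue -/
theorem inv_mem_valSubring (u : valSubring ℓ N) (hu : resV ℓ N u ≠ 0) :
    ((u : F)⁻¹) ∈ valSubring ℓ N :=
  inv_mem ℓ ⟨_, u.2⟩ hu

/-! ### The charts of the Igusa model lie in `V` -/

theorem algebraMap_mem_valSubring (c : ℤℓ) : algebraMap ℤℓ F c ∈ valSubring ℓ N := by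
  show ((algebraMap ℤℓ F c : F) : LaurentSeries ℚ) ∈ Lam ℓ
  have e0 : ((algebraMap ℤℓ F c : F) : LaurentSeries ℚ) =
      algebraMap ℚ (LaurentSeries ℚ) (c : ℚ) := by
    rw [IsScalarTower.algebraMap_apply ℤℓ ℚ F, eq_ratCast (algebraMap ℚ F),
      eq_ratCast (algebraMap ℚ (LaurentSeries ℚ))]
    rfl
  have e : ((algebraMap ℤℓ F c : F) : LaurentSeries ℚ) = ι ℓ (HahnSeries.single 0 c) := by
    rw [e0, algebraMap_apply_eq_single, ι, coeffMap_single]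
    rfl
  rw [e]
  exact ι_mem ℓ _

omit [Fact ℓ.Prime] in
/-- `jq = j(q) ∈ ι(ℤ_(ℓ)((q)))` -/
theorem jq_eq_ι : jq = ι ℓ (jqModC ℤℓ) := by
  rw [ι, coeffMap_jqModC, jqModC_rat]

theorem red_jqModC : red ℓ (jqModC ℤℓ) = jqModC (ZMod ℓ) := by
  rw [red, coeffMap_jqModC]

theorem jFull_mem : jFull N ∈ valSubring ℓ N := by
  show jq ∈ Lam ℓ
  rw [jq_eq_ι ℓ]
  exact ι_mem ℓ _

theorem resV_jFull : resV ℓ N ⟨jFull N, jFull_mem ℓ N⟩ = jqModC (ZMod ℓ) := by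
  rw [resV_apply]
  have : (⟨((⟨jFull N, jFull_mem ℓ N⟩ : valSubring ℓ N) : F), jFull_mem ℓ N⟩ : Lam ℓ) =
      ⟨ι ℓ (jqModC ℤℓ), ι_mem ℓ _⟩ := Subtype.ext (jq_eq_ι ℓ)
  rw [this, res_ι, red_jqModC]

theorem jFull_inv_mem : (jFull N)⁻¹ ∈ valSubring ℓ N := by
  refine inv_mem_valSubring ℓ N ⟨jFull N, jFull_mem ℓ N⟩ ?_
  rw [resV_jFull]
  exact jqModC_ne_zero_of_nontrivial (ZMod ℓ)

/-- `j(q^d) ∈ V` for `d ∣ N`, with residue `J(q^d)` -/
theorem qExpand_jq_mem_Lam (d : ℕ) [NeZero d] : qExpand ℚ d jq ∈ Lam ℓ := by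
  rw [qExpand_jq_eq_ι ℓ d]
  exact ι_mem ℓ _

theorem res_qExpand_jq (d : ℕ) [NeZero d] :
    res ℓ ⟨qExpand ℚ d jq, qExpand_jq_mem_Lam ℓ d⟩ = qExpand (ZMod ℓ) d (jqModC (ZMod ℓ)) := by
  have : (⟨qExpand ℚ d jq, qExpand_jq_mem_Lam ℓ d⟩ : Lam ℓ) =
      ⟨ι ℓ (qExpand ℤℓ d (jqModC ℤℓ)), ι_mem ℓ _⟩ := Subtype.ext (qExpand_jq_eq_ι ℓ d)
  rw [this, res_ι, red, coeffMap_qExpand, coeffMap_jqModC]

/-- **(L5)** a chart algebra `chartAlg N ℓ S` (the integral closure of `ℤ_(ℓ)[S]` in `F`) lies in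
`V` as soon as `S ⊆ V`. -/
theorem chartAlg_le (S : Set F) (hS : ∀ s ∈ S, s ∈ valSubring ℓ N) {x : F}
    (hx : x ∈ chartAlg N ℓ S) : x ∈ valSubring ℓ N := by
  have hadj : ∀ y ∈ Algebra.adjoin ℤℓ S, y ∈ valSubring ℓ N := by
    intro y hy
    induction hy using Algebra.adjoin_induction with
    | mem y hy => exact hS y hy
    | algebraMap c => exact algebraMap_mem_valSubring ℓ N c
    | add y z _ _ hy hz => exact (valSubring ℓ N).add_mem _ _ hy hz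
    | mul y z _ _ hy hz => exact (valSubring ℓ N).mul_mem _ _ hy hz
  let ψ : Algebra.adjoin ℤℓ S →+* valSubring ℓ N :=
    (algebraMap (Algebra.adjoin ℤℓ S) F).codRestrict (valSubring ℓ N).toSubring
      (fun a => hadj a a.2)
  have hψ : (algebraMap (valSubring ℓ N) F).comp ψ = algebraMap (Algebra.adjoin ℤℓ S) F := rfl
  obtain ⟨p, hmonic, hp⟩ := (mem_chartAlg_iff N ℓ).mp hx
  have hint : IsIntegral (valSubring ℓ N) x := by
    refine ⟨p.map ψ, hmonic.map ψ, ?_⟩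
    rw [Polynomial.eval₂_map, hψ]
    exact hp
  obtain ⟨y, hy⟩ := IsIntegrallyClosed.isIntegral_iff.mp hint
  rw [← hy]
  exact y.2

theorem chartAlgFin_le {x : F} (hx : x ∈ chartAlgFin N ℓ) : x ∈ valSubring ℓ N :=
  chartAlg_le ℓ N _ (by rintro s rfl; exact jFull_mem ℓ N) hx

theorem chartAlgInf_le {x : F} (hx : x ∈ chartAlgInf N ℓ) : x ∈ valSubring ℓ N :=
  chartAlg_le ℓ N _ (by rintro s rfl; exact jFull_inv_mem ℓ N) hx

theorem chartAlgMid_le {x : F} (hx : x ∈ chartAlgMid N ℓ) : x ∈ valSubring ℓ N :=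
  chartAlg_le ℓ N _ (by
    rintro s (rfl | rfl)
    · exact jFull_mem ℓ N
    · exact jFull_inv_mem ℓ N) hx

/-- The reduction map `ρ_S : chartAlg N ℓ S → 𝔽_ℓ((q))` of a chart algebra contained in `V`. -/
def rho (S : Set F) (hS : ∀ s ∈ S, s ∈ valSubring ℓ N) :
    chartAlg N ℓ S →+* LaurentSeries (ZMod ℓ) :=
  (resV ℓ N).comp
    ((chartAlg N ℓ S).toSubring.subtype.codRestrict (valSubring ℓ N).toSubring
      (fun a => chartAlg_le ℓ N S hS a.2))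

theorem rho_apply (S : Set F) (hS : ∀ s ∈ S, s ∈ valSubring ℓ N) (a : chartAlg N ℓ S) :
    rho ℓ N S hS a = resV ℓ N ⟨(a : F), chartAlg_le ℓ N S hS a.2⟩ := rfl

/-- `ρ_S a = 0` iff `a = ℓ b` for some `b ∈ V`. (That `b` lies again in the chart algebra is the
content of VAL-KER.) -/
theorem rho_eq_zero_iff (S : Set F) (hS : ∀ s ∈ S, s ∈ valSubring ℓ N) (a : chartAlg N ℓ S) :
    rho ℓ N S hS a = 0 ↔ ∃ b : F, b ∈ valSubring ℓ N ∧ (a : F) = (ℓ : F) * b := by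
  rw [rho_apply, resV_eq_zero_iff]
  constructor
  · rintro ⟨y, hy⟩
    exact ⟨y, y.2, by simpa using congrArg Subtype.val hy⟩
  · rintro ⟨b, hb, hab⟩
    exact ⟨⟨b, hb⟩, Subtype.ext (by simpa using hab)⟩

/-- `ρ` for the chart `Spec ℤ_(ℓ)[j]^~` -/
def rhoFin : chartAlgFin N ℓ →+* LaurentSeries (ZMod ℓ) :=
  rho ℓ N _ (by rintro s rfl; exact jFull_mem ℓ N)

/-- `ρ` for the chart `Spec ℤ_(ℓ)[1/j]^~` -/
def rhoInf : chartAlgInf N ℓ →+* LaurentSeries (ZMod ℓ) :=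
  rho ℓ N _ (by rintro s rfl; exact jFull_inv_mem ℓ N)

/-- `ρ` for the overlap chart `Spec ℤ_(ℓ)[j, 1/j]^~` -/
def rhoMid : chartAlgMid N ℓ →+* LaurentSeries (ZMod ℓ) :=
  rho ℓ N _ (by
    rintro s (rfl | rfl)
    · exact jFull_mem ℓ N
    · exact jFull_inv_mem ℓ N)

end FunctionField

end Fermat.Agent.S28.Lam
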