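import Mathlib
import Fermat.Prelude.Def_GaloisRep_Flat
import Fermat.Prelude.Def_ModularCurve_LaurentCoeff

/-!
# S28, piece TENSOR: `A ⊗_{ℤ_(ℓ)} K` is a domain

`ℤℓ = GaloisRep.ratLocalizedAt ℓ`, `A` a `ℤℓ`-algebra with a ring homomorphism
`ρ : A → 𝔽_ℓ((q))` whose kernel is contained in `ℓ A`, `K` a field of characteristic `ℓ`
(with any `ℤℓ`-algebra structure).  Then `A ⊗[ℤℓ] K` embeds into `K((q))`, hence is a domain
(`isDomain_tensor`).
-/

set_option autoImplicit false

namespace Fermat.Agent.S28.Tensor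

open scoped TensorProduct

variable (ℓ : ℕ)

/-- Ring homomorphisms out of `ℤ_(ℓ)` are unique. -/
theorem ratLocalizedAt_ringHom_ext {S : Type*} [Ring S]
    (f g : ↥(GaloisRep.ratLocalizedAt ℓ) →+* S) : f = g := by
  ext x
  -- the denominator `d` of `x`, as an element of `ℤ_(ℓ)`, and its inverse
  have hd0 : ((x : ℚ).den : ℚ) ≠ 0 := by exact_mod_cast (x : ℚ).den_nz
  let u : ↥(GaloisRep.ratLocalizedAt ℓ) := ⟨((x : ℚ).den : ℚ)⁻¹, by
    show (((x : ℚ).den : ℚ)⁻¹).den.Coprime ℓ
    have h : (((x : ℚ).den : ℚ)⁻¹).den = (x : ℚ).den := by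
      rw [Rat.inv_natCast_den]
      simp [(x : ℚ).den_nz]
    rw [h]
    exact x.2⟩
  have hdu : ((x : ℚ).den : ↥(GaloisRep.ratLocalizedAt ℓ)) * u = 1 := by
    apply Subtype.ext
    simp only [Subring.coe_mul, Subring.coe_natCast, Subring.coe_one, u]
    exact mul_inv_cancel₀ hd0
  have hud : u * ((x : ℚ).den : ↥(GaloisRep.ratLocalizedAt ℓ)) = 1 := by
    rw [mul_comm]; exact hdu
  have hxd : x * ((x : ℚ).den : ↥(GaloisRep.ratLocalizedAt ℓ)) =
      ((x : ℚ).num : ↥(GaloisRep.ratLocalizedAt ℓ)) := by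
    apply Subtype.ext
    simp only [Subring.coe_mul, Subring.coe_natCast, Subring.coe_intCast]
    exact Rat.mul_den_eq_num _
  have key : ∀ h : ↥(GaloisRep.ratLocalizedAt ℓ) →+* S,
      h x = ((x : ℚ).num : S) * h u := by
    intro h
    have h1 : h x * ((x : ℚ).den : S) = ((x : ℚ).num : S) := by
      have := congrArg h hxd
      rwa [map_mul, map_natCast, map_intCast] at this
    have h2 : ((x : ℚ).den : S) * h u = 1 := by
      have := congrArg h hdu
      rwa [map_mul, map_natCast, map_one] at this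
    calc h x = h x * (((x : ℚ).den : S) * h u) := by rw [h2, mul_one]
      _ = (h x * ((x : ℚ).den : S)) * h u := by rw [mul_assoc]
      _ = ((x : ℚ).num : S) * h u := by rw [h1]
  have hu : f u = g u := by
    have h1 : ((x : ℚ).den : S) * f u = 1 := by
      have := congrArg f hdu
      rwa [map_mul, map_natCast, map_one] at this
    have h2 : g u * ((x : ℚ).den : S) = 1 := by
      have := congrArg g hud
      rwa [map_mul, map_natCast, map_one] at this
    calc f u = (g u * ((x : ℚ).den : S)) * f u := by rw [h2, one_mul]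
      _ = g u * (((x : ℚ).den : S) * f u) := by rw [mul_assoc]
      _ = g u := by rw [h1, mul_one]
  rw [key f, key g, hu]

variable [Fact ℓ.Prime]

/-- **TENSOR.** If `ρ : A → 𝔽_ℓ((q))` is a ring homomorphism with `ker ρ ⊆ ℓ A`, then
`A ⊗[ℤ_(ℓ)] K` is a domain for every field `K` of characteristic `ℓ`. -/
theorem isDomain_tensor (A : Type*) [CommRing A] [Algebra ↥(GaloisRep.ratLocalizedAt ℓ) A]
    (K : Type*) [Field K] [CharP K ℓ] [Algebra ↥(GaloisRep.ratLocalizedAt ℓ) K]
    (ρ : A →+* LaurentSeries (ZMod ℓ))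
    (hρ : ∀ a : A, ρ a = 0 → ∃ b : A, a = (ℓ : A) * b) :
    IsDomain (TensorProduct ↥(GaloisRep.ratLocalizedAt ℓ) A K) := by
  classical
  let _ : Algebra (ZMod ℓ) K := ZMod.algebra K ℓ
  -- `K((q))` as a `ℤ_(ℓ)`-algebra through `K`
  let _ : Algebra ↥(GaloisRep.ratLocalizedAt ℓ) (LaurentSeries K) :=
    ((HahnSeries.C : K →+* LaurentSeries K).comp
      (algebraMap ↥(GaloisRep.ratLocalizedAt ℓ) K)).toAlgebra
  -- the two maps into `K((q))`
  let fA₀ : A →+* LaurentSeries K := (ModularCurve.coeffMap (algebraMap (ZMod ℓ) K)).comp ρ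
  let fA : A →ₐ[↥(GaloisRep.ratLocalizedAt ℓ)] LaurentSeries K :=
    { fA₀ with
      commutes' := fun r => by
        have h := ratLocalizedAt_ringHom_ext ℓ
          (fA₀.comp (algebraMap ↥(GaloisRep.ratLocalizedAt ℓ) A))
          (algebraMap ↥(GaloisRep.ratLocalizedAt ℓ) (LaurentSeries K))
        exact congrArg (fun φ => φ r) h }
  let gK : K →ₐ[↥(GaloisRep.ratLocalizedAt ℓ)] LaurentSeries K :=
    { (HahnSeries.C : K →+* LaurentSeries K) with
      commutes' := fun r => rfl }
  let Φ : TensorProduct ↥(GaloisRep.ratLocalizedAt ℓ) A K →ₐ[↥(GaloisRep.ratLocalizedAt ℓ)]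
      LaurentSeries K :=
    Algebra.TensorProduct.productMap fA gK
  have hΦ : ∀ (a : A) (x : K), Φ (a ⊗ₜ x) = fA₀ a * HahnSeries.C x := by
    intro a x
    simp only [Φ, Algebra.TensorProduct.productMap_apply_tmul]
    rfl
  -- an `𝔽_ℓ`-basis of `K`
  let b := Module.Basis.ofVectorSpace (ZMod ℓ) K
  -- every tensor is a combination of the `a ⊗ b i`
  let Ψ : (Module.Basis.ofVectorSpaceIndex (ZMod ℓ) K →₀ A) →+
      TensorProduct ↥(GaloisRep.ratLocalizedAt ℓ) A K :=
    Finsupp.liftAddHom (fun i =>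
      ((TensorProduct.mk ↥(GaloisRep.ratLocalizedAt ℓ) A K).flip (b i)).toAddMonoidHom)
  have hΨ : ∀ c, Ψ c = c.sum (fun i a => a ⊗ₜ[↥(GaloisRep.ratLocalizedAt ℓ)] b i) :=
    fun c => rfl
  have hΨs : ∀ i a, Ψ (Finsupp.single i a) = a ⊗ₜ[↥(GaloisRep.ratLocalizedAt ℓ)] b i := by
    intro i a
    rw [hΨ, Finsupp.sum_single_index]
    exact TensorProduct.zero_tmul _ _
  have hval : ∀ t : ZMod ℓ, algebraMap (ZMod ℓ) K t = ((t.val : ℕ) : K) := by
    intro t
    conv_lhs => rw [← ZMod.natCast_zmod_val t]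
    exact map_natCast _ _
  have hsurj : ∀ z, ∃ c, Ψ c = z := by
    intro z
    induction z using TensorProduct.induction_on with
    | zero => exact ⟨0, map_zero _⟩
    | tmul a x =>
      have hx : x ∈ Submodule.span (ZMod ℓ) (Set.range b) := by
        rw [b.span_eq]; trivial
      induction hx using Submodule.span_induction with
      | mem y hy =>
        obtain ⟨i, rfl⟩ := hy
        exact ⟨Finsupp.single i a, hΨs i a⟩
      | zero => exact ⟨0, by rw [map_zero, TensorProduct.tmul_zero]⟩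
      | add y z _ _ hy hz =>
        obtain ⟨c, hc⟩ := hy
        obtain ⟨d, hd⟩ := hz
        exact ⟨c + d, by rw [map_add, hc, hd, TensorProduct.tmul_add]⟩
      | smul t y _ hy =>
        obtain ⟨c, hc⟩ := hy
        refine ⟨t.val • c, ?_⟩
        have hty : t • y = t.val • y := by
          rw [Algebra.smul_def, hval, nsmul_eq_mul]
        rw [map_nsmul, hc, hty]
        exact (map_nsmul (TensorProduct.mk ↥(GaloisRep.ratLocalizedAt ℓ) A K a) t.val y).symm
    | add z w hz hw =>
      obtain ⟨c, hc⟩ := hz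
      obtain ⟨d, hd⟩ := hw
      exact ⟨c + d, by rw [map_add, hc, hd]⟩
  have hinj : Function.Injective Φ := by
    rw [injective_iff_map_eq_zero]
    intro z hz
    obtain ⟨c, rfl⟩ := hsurj z
    have hsum : Φ (Ψ c) = ∑ i ∈ c.support, fA₀ (c i) * HahnSeries.C (b i) := by
      rw [hΨ, Finsupp.sum, map_sum]
      exact Finset.sum_congr rfl (fun i _ => hΦ _ _)
    have hρc : ∀ i ∈ c.support, ρ (c i) = 0 := by
      intro i hi
      ext n
      have hcoef : ∑ j ∈ c.support, ((ρ (c j)).coeff n) • b j = 0 := by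
        have h0 := congrArg (fun s : LaurentSeries K => s.coeff n) (hsum.symm.trans hz)
        simp only [HahnSeries.coeff_sum, HahnSeries.coeff_zero] at h0
        rw [← h0]
        refine Finset.sum_congr rfl (fun j _ => ?_)
        rw [mul_comm (fA₀ (c j)), HahnSeries.C_mul_eq_smul, HahnSeries.coeff_smul,
          Algebra.smul_def, smul_eq_mul, mul_comm]
        rfl
      have h1 := linearIndependent_iff'.mp b.linearIndependent c.support
        (fun j => (ρ (c j)).coeff n) hcoef i hi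
      simpa using h1
    rw [hΨ, Finsupp.sum]
    refine Finset.sum_eq_zero (fun i hi => ?_)
    obtain ⟨a', ha'⟩ := hρ _ (hρc i hi)
    have h1 : c i = ((ℓ : ℕ) : ↥(GaloisRep.ratLocalizedAt ℓ)) • a' := by
      rw [ha', Algebra.smul_def, map_natCast]
    rw [h1, TensorProduct.smul_tmul, Algebra.smul_def, map_natCast, CharP.cast_eq_zero K ℓ,
      zero_mul, TensorProduct.tmul_zero]
  exact hinj.isDomain Φ.toRingHom

end Fermat.Agent.S28.Tensor
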