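/-
S28, piece CHART-BASE (helper14): the facts about the base rings `B_s = ℤ_(ℓ)[s] ⊆ F` of the two
frozen affine charts of the Igusa model, `s = j` and `s = 1/j`
(`F = ℚ(j(q^d) : d ∣ N) ⊆ ℚ((q))`, `ℤ_(ℓ) = GaloisRep.ratLocalizedAt ℓ`), in the shapes consumed
by the instantiation of the valuation argument (`ValAbs`):

* `hsK_fin`, `hsK_inf` : `s ∈ ℚ(j)`;
* `hnormal_fin`, `hnormal_inf` : `B_s` is integrally closed in `ℚ(j)`
  (an element of `ℚ(j)` integral over `B_s` lies in `B_s`);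
* `hsat_fin`, `hsat_inf` : saturation, `x ∈ F ∩ Λ` and `ℓ x ∈ B_s` imply `x ∈ B_s`
  (`Λ = Lam.Lam ℓ` the Gauss valuation ring of `ℚ((q))`);
* `aeval_jFull_injective`, `aeval_jFull_inv_injective` : `j` and `1/j` are transcendental over
  `ℤ_(ℓ)` inside `F`.
-/
import Mathlib
import Fermat.Prelude.Def_ModularCurve_IgusaScheme
import Fermat.Agent.S28.Lam
import Fermat.Agent.S28.ValBase
import Fermat.Agent.S28.Tensor

set_option autoImplicit false

namespace Fermat.Agent.S28.ChartBase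

open ModularCurve ModularCurve.IgusaScheme Polynomial
open scoped IntermediateField

variable (ℓ : ℕ) [Fact ℓ.Prime]

set_option quotPrecheck false in
local notation "ℤℓ" => ↥(GaloisRep.ratLocalizedAt ℓ)

/-! ### `ℤ_(ℓ)` is a valuation ring -/

theorem mem_of_padicValRat_nonneg (x : ℚ) (h : 0 ≤ padicValRat ℓ x) :
    x ∈ GaloisRep.ratLocalizedAt ℓ := by
  have hℓ : ℓ.Prime := Fact.out
  show Nat.Coprime x.den ℓ
  rw [Nat.coprime_comm, hℓ.coprime_iff_not_dvd]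
  intro hd
  have h1 : 1 ≤ padicValNat ℓ x.den := one_le_padicValNat_of_dvd x.den_nz hd
  have h2 : padicValInt ℓ x.num = 0 := by
    apply padicValInt.eq_zero_of_not_dvd
    intro hn
    have h3 : ℓ ∣ x.num.natAbs := Int.natCast_dvd.mp hn
    have h4 : ℓ ∣ Nat.gcd x.num.natAbs x.den := Nat.dvd_gcd h3 hd
    rw [x.reduced] at h4
    exact hℓ.one_lt.ne' (Nat.dvd_one.mp h4)
  have h5 : padicValRat ℓ x = padicValInt ℓ x.num - padicValNat ℓ x.den := rfl
  rw [h5, h2] at h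
  omega

theorem dvd_total (a b : ℤℓ) : a ∣ b ∨ b ∣ a := by
  by_cases ha : a = 0
  · right; rw [ha]; exact dvd_zero b
  by_cases hb : b = 0
  · left; rw [hb]; exact dvd_zero a
  have ha' : (a : ℚ) ≠ 0 := fun h => ha (Subtype.ext h)
  have hb' : (b : ℚ) ≠ 0 := fun h => hb (Subtype.ext h)
  rcases le_total (padicValRat ℓ (a : ℚ)) (padicValRat ℓ (b : ℚ)) with h | h
  · left
    have hc : (b : ℚ) / (a : ℚ) ∈ GaloisRep.ratLocalizedAt ℓ := by
      apply mem_of_padicValRat_nonneg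
      rw [padicValRat.div hb' ha']
      omega
    refine ⟨⟨_, hc⟩, Subtype.ext ?_⟩
    rw [Subring.coe_mul]
    field_simp
  · right
    have hc : (a : ℚ) / (b : ℚ) ∈ GaloisRep.ratLocalizedAt ℓ := by
      apply mem_of_padicValRat_nonneg
      rw [padicValRat.div ha' hb']
      omega
    refine ⟨⟨_, hc⟩, Subtype.ext ?_⟩
    rw [Subring.coe_mul]
    field_simp

/-- `ℤ_(ℓ)` is a valuation ring -/
theorem valuationRing : ValuationRing ℤℓ :=
  ValuationRing.iff_dvd_total.mpr ⟨dvd_total ℓ⟩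

/-- `ℤ_(ℓ)` is integrally closed -/
theorem isIntegrallyClosed : IsIntegrallyClosed ℤℓ :=
  haveI := valuationRing ℓ
  inferInstance

/-- `ℤ_(ℓ)[X]` is integrally closed -/
theorem isIntegrallyClosed_polynomial : IsIntegrallyClosed ℤℓ[X] :=
  haveI := isIntegrallyClosed ℓ
  inferInstance

/-! ### Normality of `R[s]` for a transcendental generator `s` -/

/-- An integrally closed domain `R`, embedded in a field `L` by `g`: an element of the fraction
field of `g R` (given as `G y`, with `G` the extension of `g` to `Frac R`) which is a root of a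
monic polynomial over `R` lies in `g R`. -/
theorem exists_eq_of_monic {R : Type*} [CommRing R] [IsDomain R] [IsIntegrallyClosed R]
    {L : Type*} [Field L] (g : R →+* L) (hg : Function.Injective g) (y : FractionRing R)
    (q : R[X]) (hq : q.Monic) (hqx : q.eval₂ g (IsFractionRing.lift hg y) = 0) :
    ∃ r : R, g r = IsFractionRing.lift hg y := by
  have hcomp : (IsFractionRing.lift hg).comp (algebraMap R (FractionRing R)) = g := by
    ext r
    exact IsFractionRing.lift_algebraMap hg r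
  have hy : IsIntegral R y := by
    refine ⟨q, hq, ?_⟩
    apply (IsFractionRing.lift hg).injective
    rw [hom_eval₂, hcomp, map_zero]
    exact hqx
  obtain ⟨r, hr⟩ := IsIntegrallyClosed.isIntegral_iff.mp hy
  exact ⟨r, by rw [← hr, IsFractionRing.lift_algebraMap]⟩

/-- **Normality**, generic form: `L` a field of characteristic zero which is a `ℤ_(ℓ)`-algebra,
`s ∈ L` transcendental over `ℤ_(ℓ)`.  An element of `ℚ(s)` integral over `ℤ_(ℓ)[s]` lies in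
`ℤ_(ℓ)[s]`. -/
theorem mem_adjoin_of_isIntegral {L : Type*} [Field L] [Algebra ℚ L] [Algebra ℤℓ L] (s : L)
    (hinj : Function.Injective (aeval (R := ℤℓ) s)) (x : L) (hx : x ∈ ℚ⟮s⟯)
    (hint : IsIntegral ↥(Algebra.adjoin ℤℓ {s}) x) : x ∈ Algebra.adjoin ℤℓ {s} := by
  have := isIntegrallyClosed_polynomial ℓ
  let g : ℤℓ[X] →+* L := (aeval (R := ℤℓ) s).toRingHom
  have hg : Function.Injective g := hinj
  let G : FractionRing ℤℓ[X] →+* L := IsFractionRing.lift hg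
  -- `ℚ(s)` is contained in the image of the fraction field of `ℤ_(ℓ)[X]`
  let T : IntermediateField ℚ L := G.fieldRange.toIntermediateField
    (fun c => by rw [eq_ratCast]; exact SubfieldClass.ratCast_mem _ c)
  have hsT : s ∈ T := by
    refine ⟨algebraMap ℤℓ[X] (FractionRing ℤℓ[X]) X, ?_⟩
    show IsFractionRing.lift hg (algebraMap ℤℓ[X] (FractionRing ℤℓ[X]) X) = s
    rw [IsFractionRing.lift_algebraMap]
    exact aeval_X s
  have hxT : x ∈ T := (IntermediateField.adjoin_simple_le_iff.mpr hsT) hx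
  obtain ⟨y, hy⟩ := hxT
  have hy' : IsFractionRing.lift hg y = x := hy
  -- lift the integral equation to `ℤ_(ℓ)[X]`
  obtain ⟨p, hp, hpx⟩ := hint
  have hl : p.map (algebraMap ↥(Algebra.adjoin ℤℓ {s}) L) ∈ Polynomial.lifts g := by
    rw [lifts_iff_coeff_lifts]
    intro n
    rw [coeff_map]
    have h : ∀ z ∈ Algebra.adjoin ℤℓ {s}, z ∈ (aeval (R := ℤℓ) s).range := fun z hz => by
      rwa [Algebra.adjoin_singleton_eq_range_aeval] at hz
    exact h _ (p.coeff n).2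
  obtain ⟨q, hq, -, hqm⟩ := lifts_and_natDegree_eq_and_monic hl (hp.map _)
  have hqx : q.eval₂ g (IsFractionRing.lift hg y) = 0 := by
    rw [hy', eval₂_eq_eval_map, hq, eval_map]
    exact hpx
  obtain ⟨r, hr⟩ := exists_eq_of_monic g hg y q hqm hqx
  rw [Algebra.adjoin_singleton_eq_range_aeval]
  exact ⟨r, hr.trans hy'⟩

/-! ### The function field `F` -/

variable (N : ℕ) [NeZero N]

set_option quotPrecheck false in
local notation "F" => ↥(modularFunctionFieldFull N)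

local notation "M" => LaurentSeries ℚ

/-- the inclusion `F → ℚ((q))` as a plain ring homomorphism -/
def incl : F →+* M where
  toFun x := (x : M)
  map_one' := rfl
  map_mul' _ _ := rfl
  map_zero' := rfl
  map_add' _ _ := rfl

omit [Fact ℓ.Prime] [NeZero N] in
/-- the `q`-expansion of a polynomial expression `P(s)`, `P ∈ ℤ_(ℓ)[X]`, when `s` is the image of
a series `t` over `ℤ_(ℓ)` -/
theorem coe_aeval (s : F) (t : LaurentSeries ℤℓ) (hst : (s : M) = Lam.ι ℓ t) (P : ℤℓ[X]) :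
    ((aeval s P : F) : M) = Lam.ι ℓ (aeval t P) := by
  have h1 : ((aeval s P : F) : M) = incl N (eval₂ (algebraMap ℤℓ F) s P) := rfl
  rw [h1, hom_eval₂, aeval_def, hom_eval₂]
  have h2 : incl N s = Lam.ι ℓ t := hst
  rw [h2, Tensor.ratLocalizedAt_ringHom_ext ℓ
    ((incl N).comp (algebraMap ℤℓ F))
    ((Lam.ι ℓ).comp (algebraMap ℤℓ (LaurentSeries ℤℓ)))]

omit [NeZero N] in
theorem natCast_ne_zero_F : ((ℓ : ℕ) : F) ≠ 0 := by
  have hℓ : (ℓ : ℕ) ≠ 0 := (Fact.out : ℓ.Prime).ne_zero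
  exact_mod_cast hℓ

omit [Fact ℓ.Prime] [NeZero N] in
/-- transcendence over `ℤ_(ℓ)`, generic form -/
theorem aeval_injective_gen (s : F) (t : LaurentSeries ℤℓ) (hst : (s : M) = Lam.ι ℓ t)
    (ht : ∀ P : ℤℓ[X], aeval t P = 0 → P = 0) : Function.Injective (aeval (R := ℤℓ) s) := by
  rw [injective_iff_map_eq_zero]
  intro P hP
  apply ht
  apply Lam.ι_injective ℓ
  rw [← coe_aeval ℓ N s t hst P, hP, map_zero]
  rfl

omit [NeZero N] in
/-- **Saturation**, generic form: `s ∈ F` is the image of a series `t` over `ℤ_(ℓ)` for which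
Gauss' lemma holds.  If `x ∈ F ∩ Λ` and `ℓ x ∈ ℤ_(ℓ)[s]`, then `x ∈ ℤ_(ℓ)[s]`. -/
theorem hsat_gen (s : F) (t : LaurentSeries ℤℓ) (hst : (s : M) = Lam.ι ℓ t)
    (hG : ∀ P : ℤℓ[X], Lam.red ℓ (aeval t P) = 0 → P.map (Lam.redHom ℓ) = 0)
    (x : F) (hx : (x : M) ∈ Lam.Lam ℓ) (hℓx : (ℓ : F) * x ∈ Algebra.adjoin ℤℓ {s}) :
    x ∈ Algebra.adjoin ℤℓ {s} := by
  rw [Algebra.adjoin_singleton_eq_range_aeval] at hℓx ⊢
  obtain ⟨P, hP⟩ := hℓx
  have hP' : aeval s P = (ℓ : F) * x := hP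
  -- the `q`-expansion of `ℓ x`
  have h1 : ((ℓ : ℕ) : M) * (x : M) = Lam.ι ℓ (aeval t P) := by
    rw [← coe_aeval ℓ N s t hst P, hP']
    push_cast
    rfl
  -- its residue vanishes
  have h2 : Lam.red ℓ (aeval t P) = 0 := by
    have h3 : (⟨Lam.ι ℓ (aeval t P), Lam.ι_mem ℓ _⟩ : Lam.Lam ℓ) =
        (ℓ : Lam.Lam ℓ) * ⟨(x : M), hx⟩ := by
      apply Subtype.ext
      rw [Subring.coe_mul, Subring.coe_natCast]
      exact h1.symm
    rw [← Lam.res_ι, h3]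
    exact (Lam.res_eq_zero_iff ℓ _).mpr ⟨_, rfl⟩
  obtain ⟨P', hP'2⟩ := ValBase.exists_eq_C_mul_of_map_eq_zero (Lam.redHom ℓ) (ℓ : ℤℓ)
    (fun c hc => (Lam.redHom_eq_zero_iff ℓ c).mp hc) P (hG P h2)
  refine ⟨P', ?_⟩
  have h4 : (ℓ : F) * aeval s P' = (ℓ : F) * x := by
    rw [← hP', hP'2, map_mul, aeval_C, map_natCast]
  exact mul_left_cancel₀ (natCast_ne_zero_F ℓ N) h4

/-! ### The two charts: `s = j` and `s = 1/j` -/

omit [Fact ℓ.Prime] in
/-- the `q`-expansion of `j`, over `ℤ_(ℓ)` -/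
theorem coe_jFull : ((jFull N : F) : M) = Lam.ι ℓ (jqModC ℤℓ) :=
  Lam.jq_eq_ι ℓ

omit [Fact ℓ.Prime] in
/-- the `q`-expansion of `1/j`, over `ℤ_(ℓ)` -/
theorem coe_jFull_inv : (((jFull N)⁻¹ : F) : M) = Lam.ι ℓ (ValBase.jqInvC ℤℓ) := by
  have h1 : (((jFull N)⁻¹ : F) : M) = (jq : M)⁻¹ := rfl
  have h2 : Lam.ι ℓ (ValBase.jqInvC ℤℓ) = ValBase.jqInvC ℚ := ValBase.coeffMap_jqInvC _
  rw [h1, h2]
  exact inv_eq_of_mul_eq_one_right (ValBase.jqModC_mul_jqInvC ℚ)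

omit [Fact ℓ.Prime] in
/-- `j` is transcendental over `ℤ_(ℓ)` in `F` -/
theorem aeval_jFull_injective : Function.Injective (aeval (R := ℤℓ) (jFull N)) :=
  aeval_injective_gen ℓ N _ _ (coe_jFull ℓ N) (fun _ h => ValBase.aeval_jqModC_eq_zero ℤℓ h)

omit [Fact ℓ.Prime] in
/-- `1/j` is transcendental over `ℤ_(ℓ)` in `F` -/
theorem aeval_jFull_inv_injective : Function.Injective (aeval (R := ℤℓ) (jFull N)⁻¹) :=
  aeval_injective_gen ℓ N _ _ (coe_jFull_inv ℓ N) (fun _ h => ValBase.aeval_jqInvC_eq_zero ℤℓ h)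

theorem hsK_fin : jFull N ∈ ℚ⟮jFull N⟯ := IntermediateField.mem_adjoin_simple_self ℚ _

theorem hsK_inf : (jFull N)⁻¹ ∈ ℚ⟮jFull N⟯ :=
  inv_mem (IntermediateField.mem_adjoin_simple_self ℚ _)

/-- **Normality of `ℤ_(ℓ)[j]`**: an element of `ℚ(j)` integral over `ℤ_(ℓ)[j]` lies in
`ℤ_(ℓ)[j]`. -/
theorem hnormal_fin : ∀ x : F, x ∈ ℚ⟮jFull N⟯ → IsIntegral ↥(Algebra.adjoin ℤℓ {jFull N}) x →
    x ∈ Algebra.adjoin ℤℓ {jFull N} :=
  fun x hx hint => mem_adjoin_of_isIntegral ℓ (jFull N) (aeval_jFull_injective ℓ N) x hx hint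

/-- **Normality of `ℤ_(ℓ)[1/j]`**: an element of `ℚ(j)` integral over `ℤ_(ℓ)[1/j]` lies in
`ℤ_(ℓ)[1/j]`. -/
theorem hnormal_inf : ∀ x : F, x ∈ ℚ⟮jFull N⟯ → IsIntegral ↥(Algebra.adjoin ℤℓ {(jFull N)⁻¹}) x →
    x ∈ Algebra.adjoin ℤℓ {(jFull N)⁻¹} := by
  intro x hx hint
  refine mem_adjoin_of_isIntegral ℓ (jFull N)⁻¹ (aeval_jFull_inv_injective ℓ N) x ?_ hint
  have hle : ℚ⟮jFull N⟯ ≤ ℚ⟮(jFull N)⁻¹⟯ := by
    rw [IntermediateField.adjoin_simple_le_iff]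
    have h := inv_mem (IntermediateField.mem_adjoin_simple_self ℚ (jFull N)⁻¹)
    rwa [inv_inv] at h
  exact hle hx

/-- **Saturation of `ℤ_(ℓ)[j]`**: `x ∈ F ∩ Λ` and `ℓ x ∈ ℤ_(ℓ)[j]` imply `x ∈ ℤ_(ℓ)[j]`. -/
theorem hsat_fin : ∀ x : F, (x : M) ∈ Lam.Lam ℓ → (ℓ : F) * x ∈ Algebra.adjoin ℤℓ {jFull N} →
    x ∈ Algebra.adjoin ℤℓ {jFull N} :=
  hsat_gen ℓ N _ _ (coe_jFull ℓ N)
    (fun P h => ValBase.map_eq_zero_of_coeffMap_aeval_jqModC (Lam.redHom ℓ) P h)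

/-- **Saturation of `ℤ_(ℓ)[1/j]`**: `x ∈ F ∩ Λ` and `ℓ x ∈ ℤ_(ℓ)[1/j]` imply
`x ∈ ℤ_(ℓ)[1/j]`. -/
theorem hsat_inf : ∀ x : F, (x : M) ∈ Lam.Lam ℓ → (ℓ : F) * x ∈ Algebra.adjoin ℤℓ {(jFull N)⁻¹} →
    x ∈ Algebra.adjoin ℤℓ {(jFull N)⁻¹} :=
  hsat_gen ℓ N _ _ (coe_jFull_inv ℓ N)
    (fun P h => ValBase.map_eq_zero_of_coeffMap_aeval_jqInvC (Lam.redHom ℓ) P h)

end Fermat.Agent.S28.ChartBase
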