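/-
S28 (Igusa), piece RES-K0 + adapters for `Lam.lean` (helper11).

* `res_mem_adjoin`, `resV_mem_adjoin`: the residue of an element of `ℚ(j) ∩ Λ` lies in `𝔽_ℓ(J)`;
* `hscale`, `hker`, `hind`: the hypotheses of the abstract valuation argument (`ValAbs.lean`) for
  the valuation subring `V = F ∩ Λ` of the function field of `X₀(N)`, in their literal shape.
-/
import Mathlib
import Fermat.Agent.S28.Lam
import Fermat.Agent.S28.ValBase

set_option autoImplicit false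

noncomputable section

namespace Fermat.Agent.S28.LamExtra

open ModularCurve Polynomial

variable (ℓ : ℕ) [Fact ℓ.Prime]

set_option quotPrecheck false in
local notation "ℤℓ" => ↥(GaloisRep.ratLocalizedAt ℓ)

/-! ### Polynomials in `j` over `ℤ_(ℓ)` -/

/-- evaluation of a polynomial over `ℤ_(ℓ)` at `j`, inside `ℚ((q))` -/
def ev : ℤℓ[X] →+* LaurentSeries ℚ := (Lam.ι ℓ).comp (aeval (jqModC ℤℓ)).toRingHom

omit [Fact ℓ.Prime] in
theorem ev_apply (P : ℤℓ[X]) : ev ℓ P = Lam.ι ℓ (aeval (jqModC ℤℓ) P) := rfl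

omit [Fact ℓ.Prime] in
theorem ev_ne_zero {P : ℤℓ[X]} (hP : P ≠ 0) : ev ℓ P ≠ 0 := by
  intro h
  rw [ev_apply, Lam.ι_eq_zero_iff] at h
  exact hP (ValBase.aeval_jqModC_eq_zero _ h)

omit [Fact ℓ.Prime] in
theorem ev_C_mul (c : ℤℓ) (P : ℤℓ[X]) :
    ev ℓ (C c * P) = algebraMap ℚ (LaurentSeries ℚ) (c : ℚ) * ev ℓ P := by
  rw [map_mul]
  congr 1
  rw [ev_apply, aeval_C, Lam.ι, ← RingHom.comp_apply, ValBase.coeffMap_comp_algebraMap]
  rfl

omit [Fact ℓ.Prime] in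
theorem ev_X : ev ℓ X = jq := by
  rw [ev_apply, aeval_X, ← Lam.jq_eq_ι]

/-- the reduction of `P(j)` modulo `ℓ` is `P̄(J)` -/
theorem red_aeval (P : ℤℓ[X]) :
    Lam.red ℓ (aeval (jqModC ℤℓ) P) = aeval (jqModC (ZMod ℓ)) (P.map (Lam.redHom ℓ)) := by
  rw [Lam.red, ValBase.coeffMap_aeval, coeffMap_jqModC]

/-- **Content** for polynomials over `ℤ_(ℓ)`. -/
theorem exists_pow_mul_poly {Q : ℤℓ[X]} (hQ : Q ≠ 0) :
    ∃ (m : ℕ) (Q' : ℤℓ[X]), Q'.map (Lam.redHom ℓ) ≠ 0 ∧ Q = C ((ℓ : ℤℓ) ^ m) * Q' := by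
  classical
  obtain ⟨i, hi⟩ : ∃ i, Q.coeff i ≠ 0 := by
    by_contra h
    push Not at h
    exact hQ (Polynomial.ext fun i => by rw [h i, coeff_zero])
  set n := (padicValRat ℓ ((Q.coeff i : ℤℓ) : ℚ)).toNat with hn
  let P : ℕ → Prop := fun m => C ((ℓ : ℤℓ) ^ m) ∣ Q
  have hbound : ∀ m : ℕ, P m → m ≤ n := by
    intro m hm
    obtain ⟨c', hc'⟩ := (C_dvd_iff_dvd_coeff _ _).mp hm i
    exact Lam.le_of_eq_pow_mul ℓ hi hc'
  have hP0 : P 0 := by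
    show C ((ℓ : ℤℓ) ^ 0) ∣ Q
    rw [pow_zero, C_1]
    exact one_dvd Q
  have hspec : P (Nat.findGreatest P n) := Nat.findGreatest_spec (P := P) (Nat.zero_le n) hP0
  obtain ⟨Q', hQ'⟩ := hspec
  refine ⟨Nat.findGreatest P n, Q', ?_, hQ'⟩
  intro h0
  obtain ⟨Q'', hQ''⟩ := ValBase.exists_eq_C_mul_of_map_eq_zero (Lam.redHom ℓ) (ℓ : ℤℓ)
    (fun c hc => (Lam.redHom_eq_zero_iff ℓ c).mp hc) Q' h0
  have hsucc : P (Nat.findGreatest P n + 1) :=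
    ⟨Q'', by rw [hQ', hQ'', pow_succ, C_mul, mul_assoc]⟩
  have h1 := Nat.le_findGreatest (P := P) (hbound _ hsucc) hsucc
  omega

/-! ### `ℚ(j)` as quotients of polynomials over `ℤ_(ℓ)` -/

/-- `ℚ(j) ⊆ ℚ((q))`, as the set of quotients `P(j) / Q(j)` with `P, Q ∈ ℤ_(ℓ)[X]` -/
def K1 : Subfield (LaurentSeries ℚ) where
  carrier := {x | ∃ P Q : ℤℓ[X], Q ≠ 0 ∧ x * ev ℓ Q = ev ℓ P}
  mul_mem' := by
    rintro x y ⟨a, b, hb, h⟩ ⟨a', b', hb', h'⟩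
    refine ⟨a * a', b * b', mul_ne_zero hb hb', ?_⟩
    rw [map_mul, map_mul, ← h, ← h']; ring
  one_mem' := ⟨1, 1, one_ne_zero, by simp⟩
  add_mem' := by
    rintro x y ⟨a, b, hb, h⟩ ⟨a', b', hb', h'⟩
    refine ⟨a * b' + a' * b, b * b', mul_ne_zero hb hb', ?_⟩
    rw [map_add, map_mul, map_mul, map_mul, ← h, ← h']; ring
  zero_mem' := ⟨0, 1, one_ne_zero, by simp⟩
  neg_mem' := by
    rintro x ⟨a, b, hb, h⟩
    exact ⟨-a, b, hb, by rw [map_neg, ← h]; ring⟩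
  inv_mem' := by
    rintro x ⟨a, b, hb, h⟩
    by_cases hx : x = 0
    · subst hx
      exact ⟨0, 1, one_ne_zero, by simp⟩
    · have hιb : ev ℓ b ≠ 0 := ev_ne_zero ℓ hb
      have ha : a ≠ 0 := by
        rintro rfl
        rw [map_zero] at h
        rcases mul_eq_zero.mp h with h1 | h1
        · exact hx h1
        · exact hιb h1
      refine ⟨b, a, ha, ?_⟩
      rw [← h]
      field_simp

omit [Fact ℓ.Prime] in
theorem mem_K1 {x : LaurentSeries ℚ} :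
    x ∈ K1 ℓ ↔ ∃ P Q : ℤℓ[X], Q ≠ 0 ∧ x * ev ℓ Q = ev ℓ P := Iff.rfl

omit [Fact ℓ.Prime] in
theorem algebraMap_mem_K1 (c : ℚ) : algebraMap ℚ (LaurentSeries ℚ) c ∈ K1 ℓ := by
  refine ⟨C (c.num : ℤℓ), C (c.den : ℤℓ), ?_, ?_⟩
  · intro h
    have h1 : ((c.den : ℕ) : ℤℓ) = 0 := C_eq_zero.mp h
    have h2 := congrArg (Subtype.val) h1
    have h3 : ((c.den : ℕ) : ℚ) = 0 := by simp at h2
    exact c.den_ne_zero (by exact_mod_cast h3)
  · have e1 := ev_C_mul ℓ (c.den : ℤℓ) 1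
    have e2 := ev_C_mul ℓ (c.num : ℤℓ) 1
    rw [mul_one, map_one, mul_one] at e1 e2
    rw [e1, e2, ← map_mul]
    congr 1
    have h1 : (((c.den : ℕ) : ℤℓ) : ℚ) = (c.den : ℚ) := by simp
    have h2 : (((c.num : ℤ) : ℤℓ) : ℚ) = (c.num : ℚ) := by simp
    rw [h1, h2, Rat.mul_den_eq_num]

omit [Fact ℓ.Prime] in
theorem jq_mem_K1 : jq ∈ K1 ℓ := ⟨X, 1, one_ne_zero, by rw [map_one, mul_one, ev_X]⟩

omit [Fact ℓ.Prime] in
/-- every element of `ℚ(j)` is a quotient of polynomials in `j` over `ℤ_(ℓ)` -/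
theorem adjoin_le_K1 {x : LaurentSeries ℚ} (hx : x ∈ IntermediateField.adjoin ℚ {jq}) :
    x ∈ K1 ℓ := by
  have hle : IntermediateField.adjoin ℚ {jq} ≤
      (K1 ℓ).toIntermediateField (fun c => algebraMap_mem_K1 ℓ c) := by
    rw [IntermediateField.adjoin_le_iff]
    rintro y rfl
    exact jq_mem_K1 ℓ
  exact hle hx

/-! ### The residue field of `ℚ(j) ∩ Λ` -/

theorem res_natCast_self : Lam.res ℓ (ℓ : Lam.Lam ℓ) = 0 := by
  rw [map_natCast, ← Lam.red_natCast_self ℓ, map_natCast]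

theorem aeval_mem_adjoin (R : (ZMod ℓ)[X]) :
    aeval (jqModC (ZMod ℓ)) R ∈ IntermediateField.adjoin (ZMod ℓ) {jqModC (ZMod ℓ)} :=
  IntermediateField.algebra_adjoin_le_adjoin _ _ (aeval_mem_adjoin_singleton _ _)

/-- removing a power of `ℓ` from the denominator of an element of `Λ` -/
theorem exists_ev_eq (x : Lam.Lam ℓ) (Q' : ℤℓ[X]) :
    ∀ (m : ℕ) (P : ℤℓ[X]), (x : LaurentSeries ℚ) * ev ℓ (C ((ℓ : ℤℓ) ^ m) * Q') = ev ℓ P →
      ∃ P' : ℤℓ[X], (x : LaurentSeries ℚ) * ev ℓ Q' = ev ℓ P' := by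
  intro m
  induction m with
  | zero =>
    intro P h
    rw [pow_zero, C_1, one_mul] at h
    exact ⟨P, h⟩
  | succ m ih =>
    intro P h
    have hℓ : (ℓ : LaurentSeries ℚ) ≠ 0 :=
      Lam.natCast_ne_zero_laurent (Fact.out : ℓ.Prime).ne_zero
    have hcast : algebraMap ℚ (LaurentSeries ℚ) (((ℓ : ℤℓ) : ℚ)) = (ℓ : LaurentSeries ℚ) := by
      have : (((ℓ : ℕ) : ℤℓ) : ℚ) = (ℓ : ℚ) := by simp
      rw [this, map_natCast]
    -- the identity inside `Λ`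
    have hmem : ∀ R : ℤℓ[X], ev ℓ R ∈ Lam.Lam ℓ := fun R => Lam.ι_mem ℓ _
    have hΛ : x * ((ℓ : Lam.Lam ℓ) * ⟨ev ℓ (C ((ℓ : ℤℓ) ^ m) * Q'), hmem _⟩) = ⟨ev ℓ P, hmem _⟩ := by
      apply Subtype.ext
      rw [Subring.coe_mul, Subring.coe_mul, Subring.coe_natCast]
      show (x : LaurentSeries ℚ) * ((ℓ : LaurentSeries ℚ) * ev ℓ (C ((ℓ : ℤℓ) ^ m) * Q')) = ev ℓ P
      rw [← h, ← hcast, ← ev_C_mul, ← mul_assoc, ← C_mul, ← pow_succ']
    have hres := congrArg (Lam.res ℓ) hΛ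
    rw [map_mul, map_mul, res_natCast_self, zero_mul, mul_zero] at hres
    have hP0 : Lam.red ℓ (aeval (jqModC ℤℓ) P) = 0 := by
      rw [← Lam.res_ι ℓ (aeval (jqModC ℤℓ) P)]
      exact hres.symm
    have hPmap : P.map (Lam.redHom ℓ) = 0 :=
      ValBase.map_eq_zero_of_coeffMap_aeval_jqModC (Lam.redHom ℓ) P hP0
    obtain ⟨P₁, hP₁⟩ := ValBase.exists_eq_C_mul_of_map_eq_zero (Lam.redHom ℓ) (ℓ : ℤℓ)
      (fun c hc => (Lam.redHom_eq_zero_iff ℓ c).mp hc) P hPmap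
    refine ih P₁ ?_
    have h2 : (ℓ : LaurentSeries ℚ) * ((x : LaurentSeries ℚ) * ev ℓ (C ((ℓ : ℤℓ) ^ m) * Q')) =
        (ℓ : LaurentSeries ℚ) * ev ℓ P₁ := by
      calc (ℓ : LaurentSeries ℚ) * ((x : LaurentSeries ℚ) * ev ℓ (C ((ℓ : ℤℓ) ^ m) * Q'))
          = (x : LaurentSeries ℚ) * ((ℓ : LaurentSeries ℚ) * ev ℓ (C ((ℓ : ℤℓ) ^ m) * Q')) := by
            ring
        _ = (x : LaurentSeries ℚ) * ev ℓ (C ((ℓ : ℤℓ) ^ (m + 1)) * Q') := by
            rw [← hcast, ← ev_C_mul, ← mul_assoc, ← C_mul, ← pow_succ']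
        _ = ev ℓ P := h
        _ = (ℓ : LaurentSeries ℚ) * ev ℓ P₁ := by rw [hP₁, ev_C_mul, hcast]
    exact mul_left_cancel₀ hℓ h2

/-- **(RES-K0)** the residue of an element of `ℚ(j) ∩ Λ` lies in `𝔽_ℓ(J)`. -/
theorem res_mem_adjoin (x : Lam.Lam ℓ)
    (hx : (x : LaurentSeries ℚ) ∈ IntermediateField.adjoin ℚ {jq}) :
    Lam.res ℓ x ∈ IntermediateField.adjoin (ZMod ℓ) {jqModC (ZMod ℓ)} := by
  obtain ⟨P, Q, hQ, h⟩ := adjoin_le_K1 ℓ hx
  obtain ⟨m, Q', hQ', rfl⟩ := exists_pow_mul_poly ℓ hQ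
  obtain ⟨P', hP'⟩ := exists_ev_eq ℓ x Q' m P h
  have hb : Lam.red ℓ (aeval (jqModC ℤℓ) Q') ≠ 0 := by
    rw [red_aeval]
    exact fun h0 => hQ' (ValBase.aeval_jqModC_eq_zero _ h0)
  have hP'' : (x : LaurentSeries ℚ) * Lam.ι ℓ (aeval (jqModC ℤℓ) Q') =
      Lam.ι ℓ (aeval (jqModC ℤℓ) P') := hP'
  rw [Lam.res_eq ℓ x hb hP'', red_aeval, red_aeval]
  exact div_mem (aeval_mem_adjoin ℓ _) (aeval_mem_adjoin ℓ _)

/-! ### Series with integer coefficients -/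

omit [Fact ℓ.Prime] in
theorem coeffMap_int_eq_ι (g : LaurentSeries ℤ) :
    coeffMap (Int.castRingHom ℚ) g = Lam.ι ℓ (coeffMap (Int.castRingHom ℤℓ) g) := by
  rw [Lam.ι, coeffMap_coeffMap]
  exact coeffMap_congr (RingHom.ext_int _ _) g

/-- **(Λ-INT)** a series with integer coefficients lies in `Λ` ... -/
theorem coeffMap_int_mem (g : LaurentSeries ℤ) : coeffMap (Int.castRingHom ℚ) g ∈ Lam.Lam ℓ := by
  rw [coeffMap_int_eq_ι ℓ g]
  exact Lam.ι_mem ℓ _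

/-- ... and its residue is its reduction modulo `ℓ`. -/
theorem res_coeffMap_int (g : LaurentSeries ℤ) :
    Lam.res ℓ ⟨coeffMap (Int.castRingHom ℚ) g, coeffMap_int_mem ℓ g⟩ =
      coeffMap (Int.castRingHom (ZMod ℓ)) g := by
  have e : (⟨coeffMap (Int.castRingHom ℚ) g, coeffMap_int_mem ℓ g⟩ : Lam.Lam ℓ) =
      ⟨Lam.ι ℓ (coeffMap (Int.castRingHom ℤℓ) g), Lam.ι_mem ℓ _⟩ :=
    Subtype.ext (coeffMap_int_eq_ι ℓ g)
  rw [e, Lam.res_ι, Lam.red, coeffMap_coeffMap]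
  exact coeffMap_congr (RingHom.ext_int _ _) g

/-- **(Λ-INT)**, existential form. -/
theorem exists_res_coeffMap_int (g : LaurentSeries ℤ) :
    ∃ h : coeffMap (Int.castRingHom ℚ) g ∈ Lam.Lam ℓ,
      Lam.res ℓ ⟨_, h⟩ = coeffMap (Int.castRingHom (ZMod ℓ)) g :=
  ⟨coeffMap_int_mem ℓ g, res_coeffMap_int ℓ g⟩

/-- `hΛker`: an element of `Λ` with zero residue is divisible by `ℓ` in `Λ`. -/
theorem hΛker (x : Lam.Lam ℓ) (hx : Lam.res ℓ x = 0) :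
    (x : LaurentSeries ℚ) / (ℓ : LaurentSeries ℚ) ∈ Lam.Lam ℓ := by
  obtain ⟨y, rfl⟩ := (Lam.res_eq_zero_iff ℓ x).mp hx
  have hℓ : (ℓ : LaurentSeries ℚ) ≠ 0 := Lam.natCast_ne_zero_laurent (Fact.out : ℓ.Prime).ne_zero
  rw [Subring.coe_mul, Subring.coe_natCast, mul_div_cancel_left₀ _ hℓ]
  exact y.2

/-- the residue of an element of `ℚ(j) ∩ Λ` is a quotient of polynomials in `J` -/
theorem res_mem_ratfun (x : Lam.Lam ℓ)
    (hx : (x : LaurentSeries ℚ) ∈ IntermediateField.adjoin ℚ {jq}) :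
    ∃ P Q : (ZMod ℓ)[X], Q ≠ 0 ∧
      Lam.res ℓ x * aeval (jqModC (ZMod ℓ)) Q = aeval (jqModC (ZMod ℓ)) P := by
  obtain ⟨P, Q, hQ, h⟩ := adjoin_le_K1 ℓ hx
  obtain ⟨m, Q', hQ', rfl⟩ := exists_pow_mul_poly ℓ hQ
  obtain ⟨P', hP'⟩ := exists_ev_eq ℓ x Q' m P h
  have hb : Lam.red ℓ (aeval (jqModC ℤℓ) Q') ≠ 0 := by
    rw [red_aeval]
    exact fun h0 => hQ' (ValBase.aeval_jqModC_eq_zero _ h0)
  have hP'' : (x : LaurentSeries ℚ) * Lam.ι ℓ (aeval (jqModC ℤℓ) Q') =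
      Lam.ι ℓ (aeval (jqModC ℤℓ) P') := hP'
  refine ⟨P'.map (Lam.redHom ℓ), Q'.map (Lam.redHom ℓ), hQ', ?_⟩
  rw [← red_aeval, ← red_aeval]
  exact Lam.res_mul_red ℓ x hb hP''

/-- membership in a simple extension inside an intermediate field, tested in the big field -/
theorem mem_adjoin_val_iff {K L : Type*} [Field K] [Field L] [Algebra K L]
    (S : IntermediateField K L) (a x : S) :
    x ∈ IntermediateField.adjoin K {a} ↔ (x : L) ∈ IntermediateField.adjoin K {(a : L)} := by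
  have hmap : (IntermediateField.adjoin K {a}).map S.val = IntermediateField.adjoin K {(a : L)} := by
    rw [IntermediateField.adjoin_map, Set.image_singleton]
    rfl
  constructor
  · intro hx
    rw [← hmap]
    exact ⟨x, hx, rfl⟩
  · intro hx
    rw [← hmap] at hx
    obtain ⟨y, hy, hyx⟩ := hx
    have : y = x := Subtype.ext hyx
    rw [← this]
    exact hy

/-! ### The function field -/

section FunctionField

open ModularCurve.IgusaScheme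

variable (N : ℕ) [NeZero N]

set_option quotPrecheck false in
local notation "F" => ↥(modularFunctionFieldFull N)

omit [Fact ℓ.Prime] in
/-- `ℚ(j) ⊆ F` is the preimage of `ℚ(j) ⊆ ℚ((q))` (for any `ℚ`-algebra structure on `F`) -/
theorem mem_adjoin_iff (inst : Algebra ℚ F) {x : F} :
    x ∈ @IntermediateField.adjoin ℚ _ F _ inst {jFull N} ↔
      (x : LaurentSeries ℚ) ∈ IntermediateField.adjoin ℚ {jq} := by
  have hsub : ∀ i₁ i₂ : Algebra ℚ F, x ∈ @IntermediateField.adjoin ℚ _ F _ i₁ {jFull N} ↔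
      x ∈ @IntermediateField.adjoin ℚ _ F _ i₂ {jFull N} := by
    intro i₁ i₂
    cases Subsingleton.elim i₁ i₂
    rfl
  rw [hsub inst _, mem_adjoin_val_iff (modularFunctionFieldFull N) (jFull N) x]
  rfl

omit [Fact ℓ.Prime] in
/-- `ℚ(j) ⊆ F` maps into `ℚ(j) ⊆ ℚ((q))` -/
theorem coe_mem_adjoin {x : F} (hx : x ∈ IntermediateField.adjoin ℚ {jFull N}) :
    (x : LaurentSeries ℚ) ∈ IntermediateField.adjoin ℚ {jq} :=
  (mem_adjoin_iff N _).mp hx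

/-- **(RES-K0)** on the function field: the residue of an element of `ℚ(j) ∩ V` lies in
`𝔽_ℓ(J)`. -/
theorem resV_mem_adjoin (x : Lam.valSubring ℓ N)
    (hx : (x : F) ∈ IntermediateField.adjoin ℚ {jFull N}) :
    Lam.resV ℓ N x ∈ IntermediateField.adjoin (ZMod ℓ) {jqModC (ZMod ℓ)} := by
  rw [Lam.resV_apply]
  exact res_mem_adjoin ℓ _ (coe_mem_adjoin N hx)

omit [NeZero N] in
theorem natCast_ne_zero : (ℓ : F) ≠ 0 := by
  intro h0
  apply Lam.natCast_ne_zero_laurent (Fact.out : ℓ.Prime).ne_zero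
  have := congrArg (Subtype.val) h0
  simpa using this

theorem natCast_mem_V : (ℓ : F) ∈ Lam.valSubring ℓ N := _root_.natCast_mem _ ℓ

theorem resV_natCast : Lam.resV ℓ N ⟨(ℓ : F), natCast_mem_V ℓ N⟩ = 0 :=
  Lam.resV_natCast_self ℓ N

/-- `hscale` of `ValAbs`: every nonzero element of `F` is a power of `ℓ` times a unit of `V`. -/
theorem hscale (a : F) (ha : a ≠ 0) :
    ∃ m : ℤ, ∃ u : Lam.valSubring ℓ N, (u : F) = (ℓ : F) ^ m * a ∧ Lam.resV ℓ N u ≠ 0 := by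
  obtain ⟨m, u, hu, hau⟩ := Lam.exists_zpow_mul_V ℓ N ha
  refine ⟨-m, u, ?_, hu⟩
  rw [hau, ← mul_assoc, ← zpow_add₀ (natCast_ne_zero ℓ N), neg_add_cancel, zpow_zero, one_mul]

/-- `hker` of `ValAbs`: an element of `V` with zero residue is divisible by `ℓ` in `V`. -/
theorem hker (v : Lam.valSubring ℓ N) (hv : Lam.resV ℓ N v = 0) :
    (v : F) / (ℓ : F) ∈ Lam.valSubring ℓ N := by
  obtain ⟨y, rfl⟩ := (Lam.resV_eq_zero_iff ℓ N v).mp hv
  have e : (((ℓ : Lam.valSubring ℓ N) * y : Lam.valSubring ℓ N) : F) / (ℓ : F) = (y : F) := by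
    show ((ℓ : F) * (y : F)) / (ℓ : F) = (y : F)
    rw [mul_div_cancel_left₀ _ (natCast_ne_zero ℓ N)]
  rw [e]
  exact y.2

/-- `hind` of `ValAbs`: a family of elements of `V` whose residues are linearly independent over
`𝔽_ℓ(J)` has residues independent over the residues of `ℚ(j) ∩ V`. -/
theorem hind {ι : Type*} [Fintype ι] (f : ι → Lam.valSubring ℓ N)
    (hli : LinearIndependent ↥(IntermediateField.adjoin (ZMod ℓ) {jqModC (ZMod ℓ)})
      (fun i => Lam.resV ℓ N (f i)))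
    (c : ι → Lam.valSubring ℓ N)
    (hc : ∀ i, ((c i : Lam.valSubring ℓ N) : F) ∈ IntermediateField.adjoin ℚ {jFull N})
    (h : ∑ i, Lam.resV ℓ N (c i) * Lam.resV ℓ N (f i) = 0) : ∀ i, Lam.resV ℓ N (c i) = 0 := by
  intro i
  have h1 := Fintype.linearIndependent_iff.mp hli
    (fun i => ⟨Lam.resV ℓ N (c i), resV_mem_adjoin ℓ N (c i) (hc i)⟩) h i
  exact congrArg Subtype.val h1

/-! ### The same hypotheses in the shape of `ValKer.exists_rho_of` -/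

/-- `hΛscale`: every nonzero element of the function field is a power of `ℓ` times a unit of
`Λ`. -/
theorem hΛscale (x : LaurentSeries ℚ) (hx : x ∈ modularFunctionFieldFull N) (hx0 : x ≠ 0) :
    ∃ (m : ℤ) (u : Lam.Lam ℓ), Lam.res ℓ u ≠ 0 ∧
      x = (ℓ : LaurentSeries ℚ) ^ m * (u : LaurentSeries ℚ) :=
  Lam.exists_zpow_mul ℓ (Lam.full_le_Phi ℓ N hx) hx0

/-- `hΛint`: elements integral over `ℤ_(ℓ)[s]`, `s ∈ V`, lie in `Λ`. -/
theorem hΛint (s : F) (hs : s ∈ Lam.valSubring ℓ N) (x : F)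
    (hx : IsIntegral ↥(Algebra.adjoin ↥(GaloisRep.ratLocalizedAt ℓ) {s}) x) :
    (x : LaurentSeries ℚ) ∈ Lam.Lam ℓ :=
  Lam.chartAlg_le ℓ N {s} (by rintro t rfl; exact hs) (x := x) hx

theorem hΛint_fin (x : F)
    (hx : IsIntegral ↥(Algebra.adjoin ↥(GaloisRep.ratLocalizedAt ℓ) {jFull N}) x) :
    (x : LaurentSeries ℚ) ∈ Lam.Lam ℓ :=
  hΛint ℓ N _ (Lam.jFull_mem ℓ N) x hx

theorem hΛint_inf (x : F)
    (hx : IsIntegral ↥(Algebra.adjoin ↥(GaloisRep.ratLocalizedAt ℓ) {(jFull N)⁻¹}) x) :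
    (x : LaurentSeries ℚ) ∈ Lam.Lam ℓ :=
  hΛint ℓ N _ (Lam.jFull_inv_mem ℓ N) x hx

/-- `hind` in the shape of `ValKer.exists_rho_of`: `F`-valued families with separate membership
proofs. -/
theorem hind_F {ι : Type*} [Fintype ι] (f : ι → F)
    (hfΛ : ∀ i, ((f i : F) : LaurentSeries ℚ) ∈ Lam.Lam ℓ)
    (hli : LinearIndependent ↥(IntermediateField.adjoin (ZMod ℓ) {jqModC (ZMod ℓ)})
      (fun i => Lam.res ℓ ⟨((f i : F) : LaurentSeries ℚ), hfΛ i⟩))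
    (c : ι → F) (hc : ∀ i, ((c i : F) : LaurentSeries ℚ) ∈ Lam.Lam ℓ)
    (hcK : ∀ i, c i ∈ IntermediateField.adjoin ℚ {jFull N})
    (h : ∑ i, Lam.res ℓ ⟨((c i : F) : LaurentSeries ℚ), hc i⟩ *
      Lam.res ℓ ⟨((f i : F) : LaurentSeries ℚ), hfΛ i⟩ = 0) :
    ∀ i, Lam.res ℓ ⟨((c i : F) : LaurentSeries ℚ), hc i⟩ = 0 := by
  intro i
  have h1 := Fintype.linearIndependent_iff.mp hli
    (fun i => ⟨Lam.res ℓ ⟨((c i : F) : LaurentSeries ℚ), hc i⟩,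
      res_mem_adjoin ℓ _ (coe_mem_adjoin N (hcK i))⟩) h i
  exact congrArg Subtype.val h1

end FunctionField

end Fermat.Agent.S28.LamExtra

end
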