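/-
S28, piece MONO, second file (helper28): the monomials of `Mono` inside `Λ` and `V = F ∩ Λ`
(helper11's `Lam`), and the residue-independence input of BASIS / VAL-KER in its final form.

* `mono_rat_mem_Lam`, `res_mono` : the monomial `∏_{d ∣ N} j(q^d) ^ e d ∈ ℚ((q))` lies in `Λ` and
  its residue is the same monomial over `ZMod ℓ`.
* `monoF`, `monoV`, `resV_monoV` : the same for the function field `F` and `V = F ∩ Λ`.
* `exists_residue_independent` : from the degree bound `ψ(N) ≤ [F_N : κ(J)]` over any field `κ`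
  containing `ZMod ℓ`, a family of `ψ(N)` elements of `V` (monomials) whose residues are linearly
  independent over `(ZMod ℓ)(J)`.
-/
import Mathlib
import Fermat.Agent.S28.Lam
import Fermat.Agent.S28.Mono

set_option autoImplicit false

noncomputable section

namespace Fermat.Agent.S28.MonoLam

open ModularCurve ModularCurve.IgusaScheme IntermediateField
open Fermat.Agent.S28

universe u

variable (ℓ : ℕ) [Fact ℓ.Prime]

set_option quotPrecheck false in
local notation "ℤℓ" => ↥(GaloisRep.ratLocalizedAt ℓ)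

omit [Fact ℓ.Prime] in
theorem mono_rat_eq_ι (N : ℕ) (e : ℕ → ℕ) :
    Mono.mono ℚ N e = Lam.ι ℓ (Mono.mono ℤℓ N e) :=
  (Mono.coeffMap_mono (algebraMap ℤℓ ℚ) N e).symm

/-- the monomial `∏_{d ∣ N} j(q^d) ^ e d` lies in `Λ` -/
theorem mono_rat_mem_Lam (N : ℕ) (e : ℕ → ℕ) : Mono.mono ℚ N e ∈ Lam.Lam ℓ := by
  rw [mono_rat_eq_ι ℓ]
  exact Lam.ι_mem ℓ _

/-- the residue of a monomial is the same monomial over `ZMod ℓ` -/
theorem res_mono (N : ℕ) (e : ℕ → ℕ) :
    Lam.res ℓ ⟨Mono.mono ℚ N e, mono_rat_mem_Lam ℓ N e⟩ = Mono.mono (ZMod ℓ) N e := by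
  have h : (⟨Mono.mono ℚ N e, mono_rat_mem_Lam ℓ N e⟩ : Lam.Lam ℓ) =
      ⟨Lam.ι ℓ (Mono.mono ℤℓ N e), Lam.ι_mem ℓ _⟩ := Subtype.ext (mono_rat_eq_ι ℓ N e)
  rw [h, Lam.res_ι, Lam.red, Mono.coeffMap_mono]

variable (N : ℕ) [NeZero N]

/-- the monomial `∏_{d ∣ N} j(q^d) ^ e d` as an element of the function field `F` of `X₀(N)` -/
def monoF (e : ℕ → ℕ) : ↥(modularFunctionFieldFull N) :=
  ⟨Mono.mono ℚ N e, Mono.mono_mem_full ℚ N e⟩

omit [NeZero N] in
@[simp] theorem coe_monoF (e : ℕ → ℕ) : ((monoF N e : ↥(modularFunctionFieldFull N)) :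
    LaurentSeries ℚ) = Mono.mono ℚ N e := rfl

theorem monoF_mem (e : ℕ → ℕ) : monoF N e ∈ Lam.valSubring ℓ N :=
  mono_rat_mem_Lam ℓ N e

/-- the monomial as an element of `V = F ∩ Λ` -/
def monoV (e : ℕ → ℕ) : Lam.valSubring ℓ N := ⟨monoF N e, monoF_mem ℓ N e⟩

theorem resV_monoV (e : ℕ → ℕ) : Lam.resV ℓ N (monoV ℓ N e) = Mono.mono (ZMod ℓ) N e := by
  rw [Lam.resV_apply]
  exact res_mono ℓ N e

/-- **Residue independence.** From the degree bound `ψ(N) ≤ [F_N : κ(J)]` over a field `κ`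
containing `ZMod ℓ`: `ψ(N)` monomials in `V = F ∩ Λ` whose residues are linearly independent over
`(ZMod ℓ)(J)`. -/
theorem exists_residue_independent {κ : Type u} [Field κ] [Algebra (ZMod ℓ) κ]
    (h : (dedekindPsi N : Cardinal.{u}) ≤
      relrank κ⟮jqModC κ⟯ (modularFunctionFieldFullC κ N)) :
    ∃ e : Fin (dedekindPsi N) → ℕ → ℕ,
      LinearIndependent ↥((ZMod ℓ)⟮jqModC (ZMod ℓ)⟯)
        (fun i => Lam.resV ℓ N (monoV ℓ N (e i))) := by
  obtain ⟨e, he⟩ := Mono.exists_indep_monomials (ZMod ℓ) N h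
  refine ⟨e, ?_⟩
  simp only [resV_monoV]
  exact he

/-- the same, forgetting that the elements are monomials -/
theorem exists_residue_independent' {κ : Type u} [Field κ] [Algebra (ZMod ℓ) κ]
    (h : (dedekindPsi N : Cardinal.{u}) ≤
      relrank κ⟮jqModC κ⟯ (modularFunctionFieldFullC κ N)) :
    ∃ f : Fin (dedekindPsi N) → Lam.valSubring ℓ N,
      LinearIndependent ↥((ZMod ℓ)⟮jqModC (ZMod ℓ)⟯) (fun i => Lam.resV ℓ N (f i)) := by
  obtain ⟨e, he⟩ := exists_residue_independent ℓ N h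
  exact ⟨fun i => monoV ℓ N (e i), he⟩

end Fermat.Agent.S28.MonoLam
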