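/-
S28 (Igusa), piece SCHEME (helper24): the base change of the Igusa scheme to a field `K` is
integral as soon as the base changes of its two affine charts are spectra of domains and the base
change of the overlap is nonempty.
-/
import Mathlib
import Fermat.Prelude.Def_ModularCurve_IgusaScheme

set_option autoImplicit false

open AlgebraicGeometry CategoryTheory CategoryTheory.Limits ModularCurve ModularCurve.IgusaScheme
open scoped TensorProduct

noncomputable section

namespace Fermat.Agent.S28.Scheme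

variable (N : ℕ) [NeZero N] (ℓ : ℕ) [Fact ℓ.Prime]

/-- the cover of the Igusa scheme by its two affine charts -/
def cover2 : (ModularCurve.IgusaScheme N ℓ).OpenCover where
  I₀ := Bool
  X b := match b with
    | true => XFin N ℓ
    | false => XInf N ℓ
  f b := match b with
    | true => ιFin N ℓ
    | false => ιInf N ℓ
  mem₀ := by
    rw [Scheme.ofArrows_mem_precoverage_iff]
    refine ⟨fun x => ?_, fun b => ?_⟩
    · rcases mem_range_ιFin_or_mem_range_ιInf N ℓ x with h | h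
      · exact ⟨true, h⟩
      · exact ⟨false, h⟩
    · cases b
      · exact isOpenImmersion_ιInf N ℓ
      · exact isOpenImmersion_ιFin N ℓ

variable (K : Type) [Field K] [Algebra ↥(GaloisRep.ratLocalizedAt ℓ) K]

/-- the structure morphism of `Spec K` -/
abbrev gK : Spec (CommRingCat.of K) ⟶ Spec (CommRingCat.of ↥(GaloisRep.ratLocalizedAt ℓ)) :=
  Spec.map (CommRingCat.ofHom (algebraMap ↥(GaloisRep.ratLocalizedAt ℓ) K))

/-- the induced cover of the base change -/
def coverK : (pullback (igusaTo N ℓ) (gK ℓ K)).OpenCover :=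
  Scheme.Pullback.openCoverOfLeft (cover2 N ℓ) (igusaTo N ℓ) (gK ℓ K)

/-- the first chart of the base change -/
def isoFin : (coverK N ℓ K).X true ≅
    Spec (CommRingCat.of (↥(chartAlgFin N ℓ) ⊗[↥(GaloisRep.ratLocalizedAt ℓ)] K)) :=
  pullback.congrHom (ιFin_igusaTo N ℓ) rfl ≪≫
    pullbackSpecIso ↥(GaloisRep.ratLocalizedAt ℓ) ↥(chartAlgFin N ℓ) K

/-- the second chart of the base change -/
def isoInf : (coverK N ℓ K).X false ≅
    Spec (CommRingCat.of (↥(chartAlgInf N ℓ) ⊗[↥(GaloisRep.ratLocalizedAt ℓ)] K)) :=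
  pullback.congrHom (ιInf_igusaTo N ℓ) rfl ≪≫
    pullbackSpecIso ↥(GaloisRep.ratLocalizedAt ℓ) ↥(chartAlgInf N ℓ) K

/-- the chart morphisms of `coverK` -/
theorem coverK_f (b : Bool) : (coverK N ℓ K).f b =
    pullback.map ((cover2 N ℓ).f b ≫ igusaTo N ℓ) (gK ℓ K) (igusaTo N ℓ) (gK ℓ K)
      ((cover2 N ℓ).f b) (𝟙 _) (𝟙 _) (by simp) (by simp) := rfl

set_option backward.isDefEq.respectTransparency false in
/-- a morphism to the Igusa scheme factoring through the first chart: its base change lands in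
the first chart of the base change -/
theorem range_subset_fin {T : Scheme.{0}} (h : T ⟶ ModularCurve.IgusaScheme N ℓ)
    (h' : T ⟶ XFin N ℓ) (e : h = h' ≫ ιFin N ℓ)
    (z : ↥(pullback (h ≫ igusaTo N ℓ) (gK ℓ K))) :
    (pullback.map (h ≫ igusaTo N ℓ) (gK ℓ K) (igusaTo N ℓ) (gK ℓ K) h (𝟙 _) (𝟙 _)
      (by simp) (by simp)).base z ∈ Set.range ((coverK N ℓ K).f true).base := by
  subst e
  have key : pullback.map ((h' ≫ ιFin N ℓ) ≫ igusaTo N ℓ) (gK ℓ K) (igusaTo N ℓ) (gK ℓ K)
      (h' ≫ ιFin N ℓ) (𝟙 _) (𝟙 _) (by simp) (by simp) =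
      pullback.map ((h' ≫ ιFin N ℓ) ≫ igusaTo N ℓ) (gK ℓ K)
        (ιFin N ℓ ≫ igusaTo N ℓ) (gK ℓ K) h' (𝟙 _) (𝟙 _) (by simp) (by simp) ≫
        (coverK N ℓ K).f true := by
    rw [coverK_f]
    apply pullback.hom_ext <;> simp [pullback.map, cover2]
  rw [key]
  exact ⟨_, rfl⟩

set_option backward.isDefEq.respectTransparency false in
/-- the same for the second chart -/
theorem range_subset_inf {T : Scheme.{0}} (h : T ⟶ ModularCurve.IgusaScheme N ℓ)
    (h' : T ⟶ XInf N ℓ) (e : h = h' ≫ ιInf N ℓ)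
    (z : ↥(pullback (h ≫ igusaTo N ℓ) (gK ℓ K))) :
    (pullback.map (h ≫ igusaTo N ℓ) (gK ℓ K) (igusaTo N ℓ) (gK ℓ K) h (𝟙 _) (𝟙 _)
      (by simp) (by simp)).base z ∈ Set.range ((coverK N ℓ K).f false).base := by
  subst e
  have key : pullback.map ((h' ≫ ιInf N ℓ) ≫ igusaTo N ℓ) (gK ℓ K) (igusaTo N ℓ) (gK ℓ K)
      (h' ≫ ιInf N ℓ) (𝟙 _) (𝟙 _) (by simp) (by simp) =
      pullback.map ((h' ≫ ιInf N ℓ) ≫ igusaTo N ℓ) (gK ℓ K)
        (ιInf N ℓ ≫ igusaTo N ℓ) (gK ℓ K) h' (𝟙 _) (𝟙 _) (by simp) (by simp) ≫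
        (coverK N ℓ K).f false := by
    rw [coverK_f]
    apply pullback.hom_ext <;> simp [pullback.map, cover2]
  rw [key]
  exact ⟨_, rfl⟩

/-- the structure morphism of the overlap -/
theorem mid_toBase : (fFin N ℓ ≫ ιFin N ℓ) ≫ igusaTo N ℓ =
    Spec.map (CommRingCat.ofHom (algebraMap ↥(GaloisRep.ratLocalizedAt ℓ) ↥(chartAlgMid N ℓ))) := by
  rw [Category.assoc, ιFin_igusaTo, ← Spec.map_comp, ← CommRingCat.ofHom_comp]
  rfl

/-- the base change of the overlap -/
def isoMid : pullback ((fFin N ℓ ≫ ιFin N ℓ) ≫ igusaTo N ℓ) (gK ℓ K) ≅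
    Spec (CommRingCat.of (↥(chartAlgMid N ℓ) ⊗[↥(GaloisRep.ratLocalizedAt ℓ)] K)) :=
  pullback.congrHom (mid_toBase N ℓ) rfl ≪≫
    pullbackSpecIso ↥(GaloisRep.ratLocalizedAt ℓ) ↥(chartAlgMid N ℓ) K

/-- **SCHEME**: the base change of the Igusa scheme to `K` is integral if the base changes of
the two charts are spectra of domains and the base change of the overlap is nonempty. -/
theorem isIntegral_pullback
    (hFin : IsDomain (↥(chartAlgFin N ℓ) ⊗[↥(GaloisRep.ratLocalizedAt ℓ)] K))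
    (hInf : IsDomain (↥(chartAlgInf N ℓ) ⊗[↥(GaloisRep.ratLocalizedAt ℓ)] K))
    (hMid : Nontrivial (↥(chartAlgMid N ℓ) ⊗[↥(GaloisRep.ratLocalizedAt ℓ)] K)) :
    IsIntegral ↑(pullback (igusaTo N ℓ)
      (Spec.map (CommRingCat.ofHom (algebraMap ↥(GaloisRep.ratLocalizedAt ℓ) K)))) := by
  -- the charts are reduced and irreducible
  have hredX : ∀ b, IsReduced ((coverK N ℓ K).X b) := by
    intro b
    cases b
    · exact isReduced_of_isOpenImmersion (isoInf N ℓ K).hom
    · exact isReduced_of_isOpenImmersion (isoFin N ℓ K).hom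
  have hirrX : ∀ b, IrreducibleSpace ((coverK N ℓ K).X b) := by
    intro b
    cases b
    · have : IrreducibleSpace
          ↥(Spec (CommRingCat.of (↥(chartAlgInf N ℓ) ⊗[↥(GaloisRep.ratLocalizedAt ℓ)] K))) :=
        inferInstanceAs (IrreducibleSpace (PrimeSpectrum _))
      exact (isoInf N ℓ K).hom.homeomorph.symm.irreducibleSpace_iff.mp this
    · have : IrreducibleSpace
          ↥(Spec (CommRingCat.of (↥(chartAlgFin N ℓ) ⊗[↥(GaloisRep.ratLocalizedAt ℓ)] K))) :=
        inferInstanceAs (IrreducibleSpace (PrimeSpectrum _))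
      exact (isoFin N ℓ K).hom.homeomorph.symm.irreducibleSpace_iff.mp this
  have hred : IsReduced (pullback (igusaTo N ℓ) (gK ℓ K)) :=
    IsReduced.of_openCover _ (coverK N ℓ K)
  -- a point of the base change of the overlap
  have hneMid : Nonempty ↥(pullback ((fFin N ℓ ≫ ιFin N ℓ) ≫ igusaTo N ℓ) (gK ℓ K)) := by
    have : Nonempty
        ↥(Spec (CommRingCat.of (↥(chartAlgMid N ℓ) ⊗[↥(GaloisRep.ratLocalizedAt ℓ)] K))) :=
      inferInstanceAs (Nonempty (PrimeSpectrum _))
    exact this.map (isoMid N ℓ K).inv.base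
  obtain ⟨z⟩ := hneMid
  set w := (pullback.map ((fFin N ℓ ≫ ιFin N ℓ) ≫ igusaTo N ℓ) (gK ℓ K) (igusaTo N ℓ) (gK ℓ K)
      (fFin N ℓ ≫ ιFin N ℓ) (𝟙 _) (𝟙 _) (by simp) (by simp)).base z with hw
  have hw1 : w ∈ Set.range ((coverK N ℓ K).f true).base :=
    range_subset_fin N ℓ K (fFin N ℓ ≫ ιFin N ℓ) (fFin N ℓ) rfl z
  have hw2 : w ∈ Set.range ((coverK N ℓ K).f false).base :=
    range_subset_inf N ℓ K (fFin N ℓ ≫ ιFin N ℓ) (fInf N ℓ) (glue_condition N ℓ) z
  -- irreducibility
  have hpre : PreirreducibleSpace ↥(pullback (igusaTo N ℓ) (gK ℓ K)) := by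
    refine PreirreducibleSpace.of_isOpenCover
      (U := fun b => ((coverK N ℓ K).f b).opensRange) ?_
      (coverK N ℓ K).isOpenCover_opensRange ?_
    · intro b b' _ hdis
      have hb : ∀ c : Bool, w ∈ ((coverK N ℓ K).f c).opensRange := by
        intro c
        cases c
        · exact hw2
        · exact hw1
      exact (Set.disjoint_left.mp
        ((TopologicalSpace.Opens.coe_disjoint).mpr hdis) (hb b) (hb b'))
    · intro b
      refine Subtype.preirreducibleSpace ?_
      have h1 := (IrreducibleSpace.isIrreducible_univ ↥((coverK N ℓ K).X b)).image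
        ((coverK N ℓ K).f b).base ((coverK N ℓ K).f b).continuous.continuousOn
      rw [Set.image_univ] at h1
      exact h1.isPreirreducible
  have hirr : IrreducibleSpace ↥(pullback (igusaTo N ℓ) (gK ℓ K)) :=
    { toPreirreducibleSpace := hpre, toNonempty := ⟨w⟩ }
  exact isIntegral_of_irreducibleSpace_of_isReduced _

end Fermat.Agent.S28.Scheme
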