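import Mathlib
import Fermat.Prelude.Def_GaloisRep_Flat
import Fermat.Prelude.Def_ModularCurve_LaurentCoeff

/-!
# S28, complement to TENSOR: nontriviality of `A ⊗ K` without a kernel hypothesis, and the
general-base form

The domain statement over `ℤ_(ℓ)` itself is `Fermat.Agent.S28.Tensor.isDomain_tensor`
(file `Tensor.lean`).  This file adds what that one does not state:

* `nontrivial_tensorProduct`: `A ⊗_{ℤ_(ℓ)} K` is nontrivial as soon as `A` has SOME ring
  homomorphism to `𝔽_ℓ((q))` (no hypothesis on its kernel);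
* the general-base forms `compare_injective`, `isDomain_of_compat`, `nontrivial_of_compat`
  (`R` any commutative ring, under the compatibility `Compat` of the two `R`-structures on
  `K((q))`), with the explicit comparison map `compare : A ⊗[R] K →+* K((q))`,
  `a ⊗ k ↦ ρ(a) · k` (`compare_tmul`).
-/

set_option autoImplicit false

noncomputable section

namespace Fermat.Agent.S28.TensorNT

open scoped TensorProduct

section General

variable {R A K : Type*} [CommRing R] [CommRing A] [Algebra R A] [Field K] [Algebra R K]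
variable (ℓ : ℕ) [Fact ℓ.Prime] [CharP K ℓ]

/-- The coefficient embedding `𝔽_ℓ → K`. -/
def coeffHom : ZMod ℓ →+* K := ZMod.castHom (dvd_refl ℓ) K

/-- `ρ` followed by the coefficientwise embedding `𝔽_ℓ((q)) → K((q))`. -/
def toLaurent (ρ : A →+* LaurentSeries (ZMod ℓ)) : A →+* LaurentSeries K :=
  (ModularCurve.coeffMap (coeffHom (K := K) ℓ)).comp ρ

theorem toLaurent_coeff (ρ : A →+* LaurentSeries (ZMod ℓ)) (a : A) (n : ℤ) :
    (toLaurent (K := K) ℓ ρ a).coeff n = coeffHom (K := K) ℓ ((ρ a).coeff n) := rfl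

/-- The compatibility hypothesis of the general form: the two `R`-structures on
`K((q))` (through `A` and `ρ`, resp. through `K` and constants) agree. -/
def Compat (ρ : A →+* LaurentSeries (ZMod ℓ)) : Prop :=
  ∀ r : R, toLaurent (K := K) ℓ ρ (algebraMap R A r) = HahnSeries.C (algebraMap R K r)

/-- A copy of `K((q))` which carries only its field structure and the `R`-algebra structure
through the constants (this avoids the competing scalar actions on Hahn series). -/
def Tgt (K : Type*) [Field K] : Type _ := LaurentSeries K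

instance instFieldTgt : Field (Tgt K) := inferInstanceAs (Field (LaurentSeries K))

instance instAlgebraTgt : Algebra R (Tgt K) :=
  RingHom.toAlgebra
    (((HahnSeries.C : K →+* LaurentSeries K).comp (algebraMap R K) : R →+* LaurentSeries K) :
      R →+* Tgt K)

variable {ℓ}

/-- The comparison map as an algebra homomorphism to the copy `Tgt K`. -/
def compareAlg (ρ : A →+* LaurentSeries (ZMod ℓ)) (hc : Compat (R := R) (K := K) ℓ ρ) :
    A ⊗[R] K →ₐ[R] Tgt K :=
  Algebra.TensorProduct.lift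
    ({ (toLaurent (K := K) ℓ ρ : A →+* Tgt K) with
       commutes' := fun r => hc r } : A →ₐ[R] Tgt K)
    ({ ((HahnSeries.C : K →+* LaurentSeries K) : K →+* Tgt K) with
       commutes' := fun _ => rfl } : K →ₐ[R] Tgt K)
    (fun _ _ => Commute.all _ _)

/-- The comparison map `A ⊗[R] K → K((q))`, `a ⊗ k ↦ ρ(a) · k`. -/
def compare (ρ : A →+* LaurentSeries (ZMod ℓ)) (hc : Compat (R := R) (K := K) ℓ ρ) :
    A ⊗[R] K →+* LaurentSeries K :=
  (compareAlg ρ hc : A ⊗[R] K →+* Tgt K)

theorem compare_tmul (ρ : A →+* LaurentSeries (ZMod ℓ)) (hc : Compat (R := R) (K := K) ℓ ρ)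
    (a : A) (k : K) :
    compare ρ hc (a ⊗ₜ[R] k) = toLaurent (K := K) ℓ ρ a * HahnSeries.C k := by
  have h := Algebra.TensorProduct.lift_tmul (R := R) (S := R) (C := Tgt K)
    ({ (toLaurent (K := K) ℓ ρ : A →+* Tgt K) with
       commutes' := fun r => hc r } : A →ₐ[R] Tgt K)
    ({ ((HahnSeries.C : K →+* LaurentSeries K) : K →+* Tgt K) with
       commutes' := fun _ => rfl } : K →ₐ[R] Tgt K)
    (fun _ _ => Commute.all _ _) a k
  exact h

theorem compare_tmul_coeff (ρ : A →+* LaurentSeries (ZMod ℓ))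
    (hc : Compat (R := R) (K := K) ℓ ρ) (a : A) (k : K) (n : ℤ) :
    (compare ρ hc (a ⊗ₜ[R] k)).coeff n = coeffHom (K := K) ℓ ((ρ a).coeff n) * k := by
  rw [compare_tmul, HahnSeries.C_apply, HahnSeries.coeff_mul_single_zero, toLaurent_coeff]

/-- Scalars of `𝔽_ℓ` move across the tensor product (through their natural-number lifts). -/
theorem tmul_coeffHom_mul (c : ZMod ℓ) (a : A) (x : K) :
    a ⊗ₜ[R] (coeffHom (K := K) ℓ c * x) = (((c.val : ℕ) : A) * a) ⊗ₜ[R] x := by
  have : NeZero ℓ := ⟨(Fact.out : ℓ.Prime).ne_zero⟩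
  have h1 : coeffHom (K := K) ℓ c = ((c.val : ℕ) : K) := by
    conv_lhs => rw [← ZMod.natCast_zmod_val c]
    exact map_natCast _ _
  have h2 : ((c.val : ℕ) : K) * x = ((c.val : ℕ) : R) • x := by
    rw [Algebra.smul_def, map_natCast]
  have h3 : ((c.val : ℕ) : A) * a = ((c.val : ℕ) : R) • a := by
    rw [Algebra.smul_def, map_natCast]
  rw [h1, h2, h3, TensorProduct.smul_tmul]

/-- **Key step.** If `ker ρ ⊆ ℓ • A`, the comparison map is injective. -/
theorem compare_injective (ρ : A →+* LaurentSeries (ZMod ℓ))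
    (hc : Compat (R := R) (K := K) ℓ ρ)
    (hρ : ∀ a : A, ρ a = 0 → ∃ b : A, a = (ℓ : A) * b) :
    Function.Injective (compare ρ hc) := by
  let : Algebra (ZMod ℓ) K := ZMod.algebra K ℓ
  let b := Module.Basis.ofVectorSpace (ZMod ℓ) K
  have hsmul : ∀ (c : ZMod ℓ) (x : K), c • x = coeffHom (K := K) ℓ c * x := fun _ _ => rfl
  -- Step 1: every tensor is a finite sum `∑ aᵢ ⊗ bᵢ` over the `𝔽_ℓ`-basis `b` of `K`.
  have hrep : ∀ t : A ⊗[R] K, ∃ f : _ →₀ A, t = f.sum (fun i a => a ⊗ₜ[R] (b i : K)) := by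
    intro t
    induction t using TensorProduct.induction_on with
    | zero => exact ⟨0, by simp⟩
    | tmul a k =>
      refine ⟨(b.repr k).mapRange (fun c => ((c.val : ℕ) : A) * a) (by simp), ?_⟩
      rw [Finsupp.sum_mapRange_index (by intro i; simp)]
      conv_lhs => rw [← b.linearCombination_repr k, Finsupp.linearCombination_apply]
      rw [Finsupp.sum, TensorProduct.tmul_sum, Finsupp.sum]
      refine Finset.sum_congr rfl fun i _ => ?_
      rw [hsmul, tmul_coeffHom_mul]
    | add x y hx hy =>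
      obtain ⟨f, rfl⟩ := hx
      obtain ⟨g, rfl⟩ := hy
      exact ⟨f + g, (Finsupp.sum_add_index' (by intro i; simp)
        (by intro i a a'; simp [TensorProduct.add_tmul])).symm⟩
  -- Step 2: coefficientwise linear independence.
  rw [injective_iff_map_eq_zero]
  intro t ht
  obtain ⟨f, rfl⟩ := hrep t
  rw [Finsupp.sum] at ht ⊢
  have hzero : ∀ i ∈ f.support, ρ (f i) = 0 := by
    intro i hi
    ext n
    have hn := congrArg (fun z : LaurentSeries K => z.coeff n) ht
    simp only [map_sum, HahnSeries.coeff_sum, compare_tmul_coeff, HahnSeries.coeff_zero] at hn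
    have := linearIndependent_iff'.mp b.linearIndependent f.support
      (fun j => (ρ (f j)).coeff n) (by simpa [hsmul] using hn) i hi
    simpa using this
  -- Step 3: each summand dies, since `ℓ = 0` in `K`.
  refine Finset.sum_eq_zero fun i hi => ?_
  obtain ⟨a', ha'⟩ := hρ (f i) (hzero i hi)
  rw [ha']
  have h3 : (ℓ : A) * a' = ((ℓ : ℕ) : R) • a' := by rw [Algebra.smul_def, map_natCast]
  rw [h3, TensorProduct.smul_tmul, Algebra.smul_def, map_natCast, CharP.cast_eq_zero, zero_mul,
    TensorProduct.tmul_zero]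

/-- General form (TG): `A ⊗[R] K` is a domain. -/
theorem isDomain_of_compat (ρ : A →+* LaurentSeries (ZMod ℓ))
    (hc : Compat (R := R) (K := K) ℓ ρ)
    (hρ : ∀ a : A, ρ a = 0 → ∃ b : A, a = (ℓ : A) * b) :
    IsDomain (A ⊗[R] K) :=
  (compare_injective ρ hc hρ).isDomain (compare ρ hc)

/-- General form: `A ⊗[R] K` is nontrivial as soon as the comparison map exists. -/
theorem nontrivial_of_compat (ρ : A →+* LaurentSeries (ZMod ℓ))
    (hc : Compat (R := R) (K := K) ℓ ρ) :
    Nontrivial (A ⊗[R] K) :=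
  (compare ρ hc).domain_nontrivial

end General

section RatLocalized

variable (ℓ : ℕ) [Fact ℓ.Prime]

/-- Ring homomorphisms from `ℤ_(ℓ)` to a field of characteristic `ℓ` are unique. -/
theorem ringHom_ext_ratLocalizedAt {S : Type*} [Field S] [CharP S ℓ]
    (f g : ↥(GaloisRep.ratLocalizedAt ℓ) →+* S) : f = g := by
  ext r
  have hcop : (r : ℚ).den.Coprime ℓ := r.2
  have hd : (((r : ℚ).den : ℕ) : S) ≠ 0 := by
    intro h0
    have hdvd : ℓ ∣ (r : ℚ).den := (CharP.cast_eq_zero_iff S ℓ _).mp h0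
    have h1 : ℓ ∣ 1 := by
      have := Nat.dvd_gcd hdvd (dvd_refl ℓ)
      rwa [hcop] at this
    exact (Fact.out : ℓ.Prime).one_lt.ne' (Nat.dvd_one.mp h1)
  have hr : r * (((r : ℚ).den : ℕ) : ↥(GaloisRep.ratLocalizedAt ℓ))
      = (((r : ℚ).num : ℤ) : ↥(GaloisRep.ratLocalizedAt ℓ)) := by
    apply Subtype.ext
    push_cast
    exact Rat.mul_den_eq_num _
  have hf := congrArg f hr
  have hg := congrArg g hr
  rw [map_mul, map_natCast, map_intCast] at hf hg
  exact mul_right_cancel₀ hd (hf.trans hg.symm)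

variable (A : Type*) [CommRing A] [Algebra ↥(GaloisRep.ratLocalizedAt ℓ) A]
variable (K : Type*) [Field K] [CharP K ℓ] [Algebra ↥(GaloisRep.ratLocalizedAt ℓ) K]

/-- Over `ℤ_(ℓ)` the compatibility hypothesis is automatic. -/
theorem compat_ratLocalizedAt (ρ : A →+* LaurentSeries (ZMod ℓ)) :
    Compat (R := ↥(GaloisRep.ratLocalizedAt ℓ)) (K := K) ℓ ρ := by
  have : CharP (LaurentSeries K) ℓ :=
    charP_of_injective_ringHom (f := (HahnSeries.C : K →+* LaurentSeries K))
      HahnSeries.C_injective ℓ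
  intro r
  exact RingHom.congr_fun (ringHom_ext_ratLocalizedAt ℓ
    ((toLaurent (K := K) ℓ ρ).comp (algebraMap ↥(GaloisRep.ratLocalizedAt ℓ) A))
    ((HahnSeries.C : K →+* LaurentSeries K).comp (algebraMap ↥(GaloisRep.ratLocalizedAt ℓ) K))) r

/-- **(TN)** `A ⊗_{ℤ_(ℓ)} K` is nontrivial as soon as `A` has a ring homomorphism to
`𝔽_ℓ((q))`. -/
theorem nontrivial_tensorProduct (ℓ : ℕ) [Fact ℓ.Prime] (A : Type*) [CommRing A]
    [Algebra ↥(GaloisRep.ratLocalizedAt ℓ) A] (K : Type*) [Field K] [CharP K ℓ]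
    [Algebra ↥(GaloisRep.ratLocalizedAt ℓ) K] (ρ : A →+* LaurentSeries (ZMod ℓ)) :
    Nontrivial (TensorProduct ↥(GaloisRep.ratLocalizedAt ℓ) A K) :=
  nontrivial_of_compat ρ (compat_ratLocalizedAt ℓ A K ρ)

end RatLocalized

end Fermat.Agent.S28.TensorNT

end
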