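/-
S28 (Igusa), glue piece DEG0, type-level form: the landed S24 degree bound on the FIELD
`F = ↥(ModularCurve.modularFunctionFieldFull N)` itself (the ambient field of the frozen chart
algebras), over any subfield containing `jFull N`.

* `card_le_of_subfield`: a family of elements of `F`, linearly independent over a subfield `K₀`
  containing `jFull N`, has at most `dedekindPsi N` members;
* `finrank_subfield_le`: `F` is finite-dimensional over such a `K₀`, of dimension `≤ dedekindPsi N`;
* `finiteDimensional_full`, `finrank_full_le`, `finrank_full_le'`: the same for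
  `ℚ⟮jFull N⟯ : IntermediateField ℚ F` (and `finiteDimensional_toSubfield`, `finrank_toSubfield_le`
  for its underlying `Subfield F`).
-/
import Fermat.Agent.S28.Deg0
import Fermat.Prelude.Def_ModularCurve_IgusaScheme

set_option autoImplicit false

open ModularCurve ModularCurve.IgusaScheme
open scoped IntermediateField

namespace Fermat.Agent.S28.Deg0Full

/-- elements of `ℚ(jq) ⊆ LaurentSeries ℚ` lie in `F`, and there in every subfield containing
`jFull N` -/
theorem mem_of_mem_adjoin (N : ℕ) [NeZero N] (K₀ : Subfield ↥(modularFunctionFieldFull N))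
    (hj : jFull N ∈ K₀) {x : LaurentSeries ℚ} (hx : x ∈ IntermediateField.adjoin ℚ {jq}) :
    ∃ h : x ∈ modularFunctionFieldFull N, (⟨x, h⟩ : ↥(modularFunctionFieldFull N)) ∈ K₀ := by
  -- the image of `K₀` in `LaurentSeries ℚ`, as an intermediate field
  let K₁ : IntermediateField ℚ (LaurentSeries ℚ) :=
    (K₀.map (SubringClass.subtype (modularFunctionFieldFull N))).toIntermediateField (fun q => by
      refine ⟨((q : ℚ) : ↥(modularFunctionFieldFull N)), SubfieldClass.ratCast_mem K₀ q, ?_⟩
      rw [map_ratCast, eq_ratCast])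
  have hle : IntermediateField.adjoin ℚ {jq} ≤ K₁ := by
    rw [IntermediateField.adjoin_le_iff]
    intro y hy
    rw [Set.mem_singleton_iff] at hy
    subst hy
    exact ⟨jFull N, hj, rfl⟩
  obtain ⟨y, hy, hyx⟩ := hle hx
  have hyx' : ((y : ↥(modularFunctionFieldFull N)) : LaurentSeries ℚ) = x := hyx
  subst hyx'
  exact ⟨y.2, hy⟩

/-- A family of elements of `F`, linearly independent over a subfield containing `jFull N`, has
at most `dedekindPsi N` members. -/
theorem card_le_of_subfield (N : ℕ) [NeZero N] (K₀ : Subfield ↥(modularFunctionFieldFull N))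
    (hj : jFull N ∈ K₀) {n : ℕ} (f : Fin n → ↥(modularFunctionFieldFull N))
    (hli : LinearIndependent ↥K₀ f) : n ≤ dedekindPsi N := by
  refine Deg0.card_le N (fun i => ((f i : ↥(modularFunctionFieldFull N)) : LaurentSeries ℚ))
    (fun i => (f i).2) ?_
  rw [Fintype.linearIndependent_iff]
  intro g hg i
  rw [Fintype.linearIndependent_iff] at hli
  choose h1 h2 using fun i => mem_of_mem_adjoin N K₀ hj (g i).2
  have key := hli (fun i => (⟨⟨(g i : LaurentSeries ℚ), h1 i⟩, h2 i⟩ : ↥K₀)) ?_ i
  · have e : ((g i : ↥(IntermediateField.adjoin ℚ {jq})) : LaurentSeries ℚ) = 0 :=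
      congrArg (fun x : ↥K₀ => ((x : ↥(modularFunctionFieldFull N)) : LaurentSeries ℚ)) key
    exact Subtype.ext e
  · apply Subtype.ext
    rw [ZeroMemClass.coe_zero, ← hg]
    simp only [AddSubmonoidClass.coe_finsetSum]
    refine Finset.sum_congr rfl fun i _ => ?_
    rfl

/-- `F` is finite-dimensional of dimension at most `dedekindPsi N` over every subfield
containing `jFull N`. -/
theorem finrank_subfield_le (N : ℕ) [NeZero N] (K₀ : Subfield ↥(modularFunctionFieldFull N))
    (hj : jFull N ∈ K₀) :
    FiniteDimensional ↥K₀ ↥(modularFunctionFieldFull N) ∧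
      Module.finrank ↥K₀ ↥(modularFunctionFieldFull N) ≤ dedekindPsi N := by
  have hrank : Module.rank ↥K₀ ↥(modularFunctionFieldFull N) ≤ (dedekindPsi N : Cardinal) := by
    apply rank_le
    intro s hs
    have e := Fintype.equivFin (↥s)
    have hli : LinearIndependent ↥K₀
        (fun i : Fin (Fintype.card ↥s) => ((e.symm i : ↥s) : ↥(modularFunctionFieldFull N))) :=
      hs.comp _ e.symm.injective
    have := card_le_of_subfield N K₀ hj _ hli
    simpa using this
  have hfin : FiniteDimensional ↥K₀ ↥(modularFunctionFieldFull N) :=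
    Module.rank_lt_aleph0_iff.mp (lt_of_le_of_lt hrank Cardinal.natCast_lt_aleph0)
  exact ⟨hfin, Module.finrank_le_of_rank_le hrank⟩

/-! ### The forms for `ℚ⟮jFull N⟯` -/

theorem finiteDimensional_toSubfield (N : ℕ) [NeZero N] :
    FiniteDimensional ↥(ℚ⟮jFull N⟯).toSubfield ↥(modularFunctionFieldFull N) :=
  (finrank_subfield_le N (ℚ⟮jFull N⟯).toSubfield
    (IntermediateField.mem_adjoin_simple_self ℚ (jFull N))).1

theorem finrank_toSubfield_le (N : ℕ) [NeZero N] :
    Module.finrank ↥(ℚ⟮jFull N⟯).toSubfield ↥(modularFunctionFieldFull N) ≤ dedekindPsi N :=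
  (finrank_subfield_le N (ℚ⟮jFull N⟯).toSubfield
    (IntermediateField.mem_adjoin_simple_self ℚ (jFull N))).2

theorem finiteDimensional_full (N : ℕ) [NeZero N] :
    FiniteDimensional ↥ℚ⟮jFull N⟯ ↥(modularFunctionFieldFull N) :=
  finiteDimensional_toSubfield N

theorem finrank_full_le' (N : ℕ) [NeZero N] :
    Module.finrank ↥ℚ⟮jFull N⟯ ↥(modularFunctionFieldFull N) ≤ dedekindPsi N :=
  finrank_toSubfield_le N

/-- `[F : ℚ(j)] ≤ ψ(N)` on the frozen field `F = ↥(modularFunctionFieldFull N)`. -/
theorem finrank_full_le (N : ℕ) [NeZero N] :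
    FiniteDimensional ↥ℚ⟮jFull N⟯ ↥(modularFunctionFieldFull N) ∧
      Module.finrank ↥ℚ⟮jFull N⟯ ↥(modularFunctionFieldFull N) ≤ dedekindPsi N :=
  ⟨finiteDimensional_full N, finrank_full_le' N⟩

end Fermat.Agent.S28.Deg0Full
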