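/-
S28, abstract valuation-ring algebra (helper8), Mathlib only.

* `isIntegral_coeff_minpoly` : Gauss lemma in subring form: the coefficients of the minimal
  polynomial over a subfield `K₀` of an element integral over a subring `R ≤ K₀` are integral
  over `R`.
-/
import Mathlib

set_option autoImplicit false

namespace Fermat.Agent.S28.ValAbs

open Polynomial

variable {F : Type*} [Field F]

/-- **Gauss lemma, subring form.** If `b` is integral over a subring `R` of a subfield `K₀`, the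
coefficients of the minimal polynomial of `b` over `K₀` are integral over `R`. -/
theorem isIntegral_coeff_minpoly (K₀ : Subfield F) (R : Subring F) (hRK : R ≤ K₀.toSubring)
    {b : F} (hb : IsIntegral R b) (i : ℕ) :
    IsIntegral R (((minpoly K₀ b).coeff i : K₀) : F) := by
  -- `R` as a subring of `K₀`
  let R' : Subring K₀ := R.comap K₀.subtype
  let φ : R →+* R' :=
    { toFun := fun x => ⟨⟨x.1, hRK x.2⟩, x.2⟩
      map_one' := rfl
      map_mul' := fun _ _ => rfl
      map_zero' := rfl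
      map_add' := fun _ _ => rfl }
  let ψ : R' →+* R :=
    { toFun := fun x => ⟨x.1.1, x.2⟩
      map_one' := rfl
      map_mul' := fun _ _ => rfl
      map_zero' := rfl
      map_add' := fun _ _ => rfl }
  obtain ⟨f, hf, hfb⟩ := hb
  have hbK : IsIntegral K₀ b := by
    refine ⟨f.map ((algebraMap R' K₀).comp φ), hf.map _, ?_⟩
    rw [eval₂_map]
    exact hfb
  have hd : minpoly K₀ b ∣ (f.map φ).map (algebraMap R' K₀) := by
    apply minpoly.dvd
    rw [aeval_def, eval₂_map, eval₂_map]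
    exact hfb
  have hl := integralClosure.mem_lifts_of_monic_of_dvd_map K₀ (hf.map φ) (minpoly.monic hbK) hd
  rw [lifts_iff_coeff_lifts] at hl
  obtain ⟨c, hc⟩ := hl i
  have hci : IsIntegral R' ((minpoly K₀ b).coeff i) := by
    rw [← hc]
    exact c.2
  exact hci.map_of_comp_eq ψ K₀.subtype (by ext; rfl)

/-- an element integral over a subring of a subfield `K₀` is integral over `K₀` -/
theorem isIntegral_subfield (K₀ : Subfield F) (R : Subring F) (hRK : R ≤ K₀.toSubring)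
    {b : F} (hb : IsIntegral R b) : IsIntegral K₀ b := by
  let φ : R →+* K₀ :=
    { toFun := fun x => ⟨x.1, hRK x.2⟩
      map_one' := rfl
      map_mul' := fun _ _ => rfl
      map_zero' := rfl
      map_add' := fun _ _ => rfl }
  exact hb.map_of_comp_eq φ (RingHom.id F) (by ext; rfl)

/-- a root of a monic polynomial over a subfield `K₀` all of whose coefficients lie in a subring
`B` is integral over `B` -/
theorem isIntegral_of_coeff_mem (K₀ : Subfield F) (B : Subring F) {g : K₀[X]} (hg : g.Monic)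
    (hcoeff : ∀ i, ((g.coeff i : K₀) : F) ∈ B) {b : F} (hb : aeval b g = 0) :
    IsIntegral B b := by
  have hlifts : g.map (algebraMap K₀ F) ∈ Polynomial.lifts (algebraMap B F) :=
    (Polynomial.lifts_iff_coeff_lifts _).mpr fun i => ⟨⟨_, hcoeff i⟩, by
      rw [coeff_map]
      rfl⟩
  obtain ⟨q, hq, -, hqm⟩ := Polynomial.lifts_and_natDegree_eq_and_monic hlifts (hg.map _)
  refine ⟨q, hqm, ?_⟩
  rw [Polynomial.eval₂_eq_eval_map, hq, Polynomial.eval_map]
  exact hb

/-- **(KER), abstract form.** `K₀ ⊆ F` fields, `B ⊆ K₀` a subring integrally closed in `K₀`,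
`V ⊇ B` a subring of `F` such that `O = K₀ ∩ V` is integrally closed in `K₀` and
`B[1/l] ∩ V = B` (in the one-step form `x ∈ B, x / l ∈ V ⟹ x / l ∈ B`).  If `b` is integral over
`O` and `l * b` is integral over `B`, then `b` is integral over `B`. -/
theorem isIntegral_of_isIntegral_mul (K₀ : Subfield F) (B V : Subring F)
    (hBK : B ≤ K₀.toSubring) (hBV : B ≤ V)
    (hBcl : ∀ x : F, x ∈ K₀ → IsIntegral B x → x ∈ B)
    (hOcl : ∀ x : F, x ∈ K₀ → IsIntegral ↥(K₀.toSubring ⊓ V) x → x ∈ V)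
    {l : F} (hlB : l ∈ B) (hl0 : l ≠ 0) (hBl : ∀ x ∈ B, x / l ∈ V → x / l ∈ B)
    {b : F} (hbV : IsIntegral ↥(K₀.toSubring ⊓ V) b) (hlb : IsIntegral B (l * b)) :
    IsIntegral B b := by
  have hbK : IsIntegral K₀ b := isIntegral_subfield K₀ _ inf_le_left hbV
  -- descending induction on the power of `l`
  have hdesc : ∀ k : ℕ, ∀ c : F, c ∈ V → c * l ^ k ∈ B → c ∈ B := by
    intro k
    induction k with
    | zero =>
      intro c _ hc
      simpa using hc
    | succ k ih =>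
      intro c hcV hc
      have h1 : c * l ∈ B := by
        refine ih (c * l) (V.mul_mem hcV (hBV hlB)) ?_
        rw [mul_assoc, ← pow_succ']
        exact hc
      have h2 := hBl (c * l) h1 (by rw [mul_div_assoc, div_self hl0, mul_one]; exact hcV)
      rwa [mul_div_assoc, div_self hl0, mul_one] at h2
  let lK : K₀ := ⟨l, hBK hlB⟩
  have hlK0 : lK ≠ 0 := fun h => hl0 (congrArg Subtype.val h)
  have hsm : lK • b = l * b := Algebra.smul_def lK b
  have hmin : minpoly K₀ (l * b) = (minpoly K₀ b).scaleRoots lK := by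
    rw [← hsm]
    exact IsIntegrallyClosed.minpoly_smul hlK0 hbK
  refine isIntegral_of_coeff_mem K₀ B (minpoly.monic hbK) (fun i => ?_) (minpoly.aeval K₀ b)
  -- the `i`-th coefficient lies in `V` ...
  have hV : (((minpoly K₀ b).coeff i : K₀) : F) ∈ V :=
    hOcl _ ((minpoly K₀ b).coeff i).2
      (isIntegral_coeff_minpoly K₀ _ inf_le_left hbV i)
  -- ... and its product with a power of `l` lies in `B`
  have hB : (((minpoly K₀ (l * b)).coeff i : K₀) : F) ∈ B :=
    hBcl _ ((minpoly K₀ (l * b)).coeff i).2 (isIntegral_coeff_minpoly K₀ B hBK hlb i)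
  rw [hmin, coeff_scaleRoots] at hB
  exact hdesc _ _ hV (by simpa using hB)

/-! ### The basis argument -/

section basis

variable (K₀ : Subfield F) (V : Subring F) {k : Type*} [Field k] (ρ : V →+* k) {l : F}

/-- scaling a finite family of elements of `K₀`, not all zero, by a power of `l` so that all
members lie in `V` and one of them has nonzero residue -/
theorem exists_scale (hl0 : l ≠ 0) (hlV : l ∈ V)
    (hscale : ∀ a : F, a ∈ K₀ → a ≠ 0 → ∃ m : ℤ, ∃ u : V, (u : F) = l ^ m * a ∧ ρ u ≠ 0)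
    {ι : Type*} [Fintype ι] (a : ι → F) (haK : ∀ i, a i ∈ K₀) (hne : ∃ i, a i ≠ 0) :
    ∃ M : ℤ, ∃ c : ι → V, (∀ i, (c i : F) = l ^ M * a i) ∧ (∃ i, ρ (c i) ≠ 0) ∧
      ((∃ i, a i ∉ V) → 0 < M) := by
  classical
  choose m u hu hρu using fun (i : {i : ι // a i ≠ 0}) => hscale (a i) (haK i) i.2
  obtain ⟨j₀, hj₀⟩ := hne
  obtain ⟨i₀, -, hmax⟩ := Finset.exists_max_image (Finset.univ : Finset {i : ι // a i ≠ 0}) m
    ⟨⟨j₀, hj₀⟩, Finset.mem_univ _⟩
  have hmax' : ∀ i, m i ≤ m i₀ := fun i => hmax i (Finset.mem_univ _)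
  have hpowV : ∀ n : ℕ, l ^ n ∈ V := fun n => V.pow_mem hlV n
  have hzpowV : ∀ z : ℤ, 0 ≤ z → l ^ z ∈ V := by
    intro z hz
    obtain ⟨n, rfl⟩ := Int.eq_ofNat_of_zero_le hz
    rw [zpow_natCast]
    exact hpowV n
  refine ⟨m i₀, fun i => if h : a i = 0 then 0 else
    ⟨l ^ (m i₀ - m ⟨i, h⟩) * (u ⟨i, h⟩ : F),
      V.mul_mem (hzpowV _ (sub_nonneg.mpr (hmax' _))) (u ⟨i, h⟩).2⟩, ?_, ?_, ?_⟩
  · intro i
    by_cases h : a i = 0
    · simp [h]
    · simp only [h, dif_neg, not_false_eq_true]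
      rw [hu ⟨i, h⟩, ← mul_assoc, ← zpow_add₀ hl0, sub_add_cancel]
  · refine ⟨i₀.1, ?_⟩
    have h : ¬ a i₀.1 = 0 := i₀.2
    simp only [h, dif_neg, not_false_eq_true]
    have e : (⟨l ^ (m i₀ - m ⟨i₀.1, h⟩) * (u ⟨i₀.1, h⟩ : F),
        V.mul_mem (hzpowV _ (sub_nonneg.mpr (hmax' _))) (u ⟨i₀.1, h⟩).2⟩ : V) = u i₀ := by
      apply Subtype.ext
      change l ^ (m i₀ - m i₀) * (u i₀ : F) = (u i₀ : F)
      rw [sub_self, zpow_zero, one_mul]
    rw [e]
    exact hρu i₀
  · rintro ⟨i, hi⟩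
    have h : a i ≠ 0 := by
      rintro h0
      rw [h0] at hi
      exact hi V.zero_mem
    refine lt_of_lt_of_le ?_ (hmax' ⟨i, h⟩)
    by_contra hcon
    rw [not_lt] at hcon
    apply hi
    have e : a i = l ^ (-m ⟨i, h⟩) * (u ⟨i, h⟩ : F) := by
      rw [hu ⟨i, h⟩, ← mul_assoc, ← zpow_add₀ hl0, neg_add_cancel, zpow_zero, one_mul]
    rw [e]
    exact V.mul_mem (hzpowV _ (neg_nonneg.mpr hcon)) (u ⟨i, h⟩).2

variable {K₀ V ρ}

/-- **(BASIS), abstract form.** `K₀ ⊆ F` fields with `F` finite over `K₀`, `V` a subring of `F`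
with a ring homomorphism `ρ` to a field killing `l ∈ K₀ ∩ V`, such that every nonzero element of
`K₀` can be scaled by a power of `l` into `V` with nonzero residue.  If `f` is a family of
`[F : K₀]` elements of `V` whose residues are linearly independent over the residues of
`K₀ ∩ V`, then every element of `V` is a combination of the `f i` with coefficients in
`K₀ ∩ V`. -/
theorem exists_coeffs [FiniteDimensional K₀ F] (hlK : l ∈ K₀) (hl0 : l ≠ 0) (hlV : l ∈ V)
    (hρl : ρ ⟨l, hlV⟩ = 0)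
    (hscale : ∀ a : F, a ∈ K₀ → a ≠ 0 → ∃ m : ℤ, ∃ u : V, (u : F) = l ^ m * a ∧ ρ u ≠ 0)
    {ι : Type*} [Fintype ι] (hcard' : Module.finrank K₀ F ≤ Fintype.card ι) (f : ι → V)
    (hind : ∀ c : ι → V, (∀ i, (c i : F) ∈ K₀) → ∑ i, ρ (c i) * ρ (f i) = 0 → ∀ i, ρ (c i) = 0)
    (b : V) : ∃ c : ι → V, (∀ i, (c i : F) ∈ K₀) ∧ (b : F) = ∑ i, (c i : F) * (f i : F) := by
  classical
  -- the `f i` are linearly independent over `K₀`
  have hli : LinearIndependent K₀ (fun i => (f i : F)) := by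
    rw [Fintype.linearIndependent_iff]
    intro g hg
    by_contra hcon
    rw [not_forall] at hcon
    obtain ⟨j, hj⟩ := hcon
    obtain ⟨M, c, hc, ⟨i, hi⟩, -⟩ := exists_scale K₀ V ρ hl0 hlV hscale (fun i => (g i : F))
      (fun i => (g i).2) ⟨j, fun h => hj (Subtype.ext h)⟩
    have hcK : ∀ i, (c i : F) ∈ K₀ := by
      intro i
      rw [hc i]
      exact K₀.mul_mem (K₀.zpow_mem hlK M) (g i).2
    have hsumF : ∑ i, (c i : F) * (f i : F) = 0 := by
      have e : ∑ i, (c i : F) * (f i : F) = l ^ M * ∑ i, g i • (f i : F) := by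
        rw [Finset.mul_sum]
        refine Finset.sum_congr rfl fun i _ => ?_
        rw [hc i, Algebra.smul_def, mul_assoc]
        rfl
      rw [e, hg, mul_zero]
    have hsum : ∑ i, c i * f i = 0 := Subtype.ext (by push_cast; exact hsumF)
    have h0 := congrArg ρ hsum
    rw [map_sum, map_zero] at h0
    simp_rw [map_mul] at h0
    exact hi (hind c hcK h0 i)
  have hcard : Fintype.card ι = Module.finrank K₀ F :=
    le_antisymm hli.fintype_card_le_finrank hcard'
  have hne : Nonempty ι := Fintype.card_pos_iff.mp (by rw [hcard]; exact Module.finrank_pos)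
  let bas := basisOfLinearIndependentOfCardEqFinrank hli hcard
  have hbas : ∀ i, bas i = (f i : F) := fun i => by
    simp [bas]
  have hb := bas.sum_repr (b : F)
  obtain ⟨a, ha⟩ : ∃ a : ι → F, a = fun i => ((bas.repr (b : F) i : K₀) : F) := ⟨_, rfl⟩
  have haK : ∀ i, a i ∈ K₀ := fun i => by
    rw [ha]
    exact (bas.repr (b : F) i).2
  have hbsum : (b : F) = ∑ i, a i * (f i : F) := by
    rw [← hb]
    refine Finset.sum_congr rfl fun i _ => ?_
    rw [hbas, Algebra.smul_def, ha]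
    rfl
  by_cases hall : ∀ i, a i ∈ V
  · exact ⟨fun i => ⟨a i, hall i⟩, haK, hbsum⟩
  · exfalso
    rw [not_forall] at hall
    obtain ⟨j, hj⟩ := hall
    have hne : ∃ i, a i ≠ 0 := ⟨j, fun h => hj (h ▸ V.zero_mem)⟩
    obtain ⟨M, c, hc, ⟨i, hi⟩, hM⟩ := exists_scale K₀ V ρ hl0 hlV hscale a haK hne
    have hMpos := hM ⟨j, hj⟩
    obtain ⟨n, hn⟩ := Int.eq_ofNat_of_zero_le hMpos.le
    have hn1 : n ≠ 0 := by
      rintro rfl
      rw [hn] at hMpos
      exact lt_irrefl _ hMpos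
    have hcK : ∀ i, (c i : F) ∈ K₀ := by
      intro i
      rw [hc i]
      exact K₀.mul_mem (K₀.zpow_mem hlK M) (haK i)
    have hsumF : ∑ i, (c i : F) * (f i : F) = l ^ n * (b : F) := by
      rw [hbsum, Finset.mul_sum]
      refine Finset.sum_congr rfl fun i _ => ?_
      rw [hc i, hn, zpow_natCast, mul_assoc]
    have hsum : ∑ i, c i * f i = (⟨l, hlV⟩ : V) ^ n * b := Subtype.ext (by push_cast; exact hsumF)
    have h0 := congrArg ρ hsum
    rw [map_sum, map_mul, map_pow, hρl, zero_pow hn1, zero_mul] at h0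
    simp_rw [map_mul] at h0
    exact hi (hind c hcK h0 i)

/-- a subring `V` which is a finite module over `O = K₀ ∩ V` is integral over `O` -/
theorem isIntegral_inf_of_coeffs {ι : Type*} [Fintype ι] (f : ι → V)
    (h : ∀ b : V, ∃ c : ι → V, (∀ i, (c i : F) ∈ K₀) ∧ (b : F) = ∑ i, (c i : F) * (f i : F))
    {b : F} (hb : b ∈ V) : IsIntegral ↥(K₀.toSubring ⊓ V) b := by
  classical
  let S : Subalgebra ↥(K₀.toSubring ⊓ V) F :=
    { V.toSubsemiring with algebraMap_mem' := fun r => r.2.2 }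
  refine IsIntegral.of_mem_of_fg S ?_ b hb
  refine ⟨Finset.univ.image (fun i => (f i : F)), ?_⟩
  apply le_antisymm
  · rw [Submodule.span_le]
    intro x hx
    simp only [Finset.coe_image, Finset.coe_univ, Set.image_univ, Set.mem_range] at hx
    obtain ⟨i, rfl⟩ := hx
    exact (f i).2
  · intro x hx
    obtain ⟨c, hcK, hxc⟩ := h ⟨x, hx⟩
    have hx' : x = ∑ i, (c i : F) * (f i : F) := hxc
    rw [hx']
    refine Submodule.sum_mem _ fun i _ => ?_
    have e : (c i : F) * (f i : F) =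
        (⟨(c i : F), ⟨hcK i, (c i).2⟩⟩ : ↥(K₀.toSubring ⊓ V)) • (f i : F) := rfl
    rw [e]
    exact Submodule.smul_mem _ _ (Submodule.subset_span (by simp))

/-- `O = K₀ ∩ V` is integrally closed in `K₀` -/
theorem mem_of_isIntegral_inf (hlK : l ∈ K₀) (hl0 : l ≠ 0) (hlV : l ∈ V) (hρl : ρ ⟨l, hlV⟩ = 0)
    (hscale : ∀ a : F, a ∈ K₀ → a ≠ 0 → ∃ m : ℤ, ∃ u : V, (u : F) = l ^ m * a ∧ ρ u ≠ 0)
    {x : F} (hxK : x ∈ K₀) (hx : IsIntegral ↥(K₀.toSubring ⊓ V) x) : x ∈ V := by
  by_contra hxV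
  have hx0 : x ≠ 0 := fun h => hxV (h ▸ V.zero_mem)
  obtain ⟨m, u, hu, hρu⟩ := hscale x hxK hx0
  have hm : 0 < m := by
    by_contra hcon
    rw [not_lt] at hcon
    apply hxV
    have e : x = l ^ (-m) * (u : F) := by
      rw [hu, ← mul_assoc, ← zpow_add₀ hl0, neg_add_cancel, zpow_zero, one_mul]
    rw [e]
    obtain ⟨n, hn⟩ := Int.eq_ofNat_of_zero_le (neg_nonneg.mpr hcon)
    rw [hn, zpow_natCast]
    exact V.mul_mem (V.pow_mem hlV n) u.2
  obtain ⟨n, rfl⟩ := Int.eq_ofNat_of_zero_le hm.le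
  have hn0 : n ≠ 0 := by
    rintro rfl
    exact lt_irrefl _ hm
  rw [zpow_natCast] at hu
  obtain ⟨p, hp, hpx⟩ := hx
  let s : ↥(K₀.toSubring ⊓ V) := ⟨l ^ n, ⟨K₀.pow_mem hlK n, V.pow_mem hlV n⟩⟩
  let incl : ↥(K₀.toSubring ⊓ V) →+* V := Subring.inclusion inf_le_right
  have h1 : eval₂ (algebraMap ↥(K₀.toSubring ⊓ V) F) (u : F) (scaleRoots p s) = 0 := by
    have h := scaleRoots_eval₂_mul (p := p) (algebraMap ↥(K₀.toSubring ⊓ V) F) x s
    rw [hpx, mul_zero] at h
    rw [hu]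
    exact h
  have h2 : eval₂ incl u (scaleRoots p s) = 0 := by
    apply Subtype.ext
    have h := Polynomial.hom_eval₂ (scaleRoots p s) incl V.subtype u
    rw [show V.subtype (eval₂ incl u (scaleRoots p s)) =
      ((eval₂ incl u (scaleRoots p s) : V) : F) from rfl] at h
    rw [h]
    exact h1
  have h3 : eval₂ (ρ.comp incl) (ρ u) (scaleRoots p s) = 0 := by
    rw [← Polynomial.hom_eval₂, h2, map_zero]
  have hs0 : (ρ.comp incl) s = 0 := by
    have e : incl s = (⟨l, hlV⟩ : V) ^ n := Subtype.ext (by simp [incl, s])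
    rw [RingHom.comp_apply, e, map_pow, hρl, zero_pow hn0]
  rw [Polynomial.eval₂_eq_eval_map, map_scaleRoots _ _ _ (by rw [hp.leadingCoeff, map_one]; exact one_ne_zero),
    hs0, scaleRoots_zero, (hp.map _).leadingCoeff, one_smul, eval_pow, eval_X] at h3
  exact pow_ne_zero _ hρu h3

/-- **(KER) + (BASIS), abstract form.**  `K₀ ⊆ F` fields with `F` finite over `K₀`; `B ⊆ K₀` a
subring integrally closed in `K₀`; `V ⊇ B` a subring of `F` with a ring homomorphism `ρ` to a
field such that `ρ l = 0` and `ρ v = 0 → v / l ∈ V` (`l ∈ B`, `l ≠ 0`); every nonzero element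
of `K₀` can be scaled by a power of `l` into `V` with nonzero residue; `ρ` restricted to `B` has
kernel `l B`; and there are `[F : K₀]` elements of `V` whose residues are linearly independent
over the residues of `K₀ ∩ V`.  Then every element `a` of `V` integral over `B` with `ρ a = 0`
is `l` times an element integral over `B`. -/
theorem isIntegral_div_of_residue_eq_zero [FiniteDimensional K₀ F] (B : Subring F)
    (hBK : B ≤ K₀.toSubring) (hBV : B ≤ V)
    (hBcl : ∀ x : F, x ∈ K₀ → IsIntegral B x → x ∈ B)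
    (hlB : l ∈ B) (hl0 : l ≠ 0) (hρl : ρ ⟨l, hBV hlB⟩ = 0)
    (hker : ∀ v : V, ρ v = 0 → (v : F) / l ∈ V)
    (hBker : ∀ x : V, (x : F) ∈ B → ρ x = 0 → (x : F) / l ∈ B)
    (hscale : ∀ a : F, a ∈ K₀ → a ≠ 0 → ∃ m : ℤ, ∃ u : V, (u : F) = l ^ m * a ∧ ρ u ≠ 0)
    {ι : Type*} [Fintype ι] (hcard : Module.finrank K₀ F ≤ Fintype.card ι) (f : ι → V)
    (hind : ∀ c : ι → V, (∀ i, (c i : F) ∈ K₀) → ∑ i, ρ (c i) * ρ (f i) = 0 → ∀ i, ρ (c i) = 0)
    {a : F} (haV : a ∈ V) (ha : IsIntegral B a) (hρa : ρ ⟨a, haV⟩ = 0) :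
    IsIntegral B (a / l) := by
  have hlK : l ∈ K₀ := hBK hlB
  have hlV : l ∈ V := hBV hlB
  have hbV : a / l ∈ V := hker ⟨a, haV⟩ hρa
  have hcoef := exists_coeffs hlK hl0 hlV hρl hscale hcard f hind
  have hint : IsIntegral ↥(K₀.toSubring ⊓ V) (a / l) := isIntegral_inf_of_coeffs f hcoef hbV
  have hBl : ∀ x ∈ B, x / l ∈ V → x / l ∈ B := by
    intro x hx hxl
    refine hBker ⟨x, hBV hx⟩ hx ?_
    have e : (⟨x, hBV hx⟩ : V) = ⟨l, hlV⟩ * ⟨x / l, hxl⟩ := by
      apply Subtype.ext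
      change x = l * (x / l)
      field_simp
    rw [e, map_mul, hρl, zero_mul]
  refine isIntegral_of_isIntegral_mul K₀ B V hBK hBV hBcl
    (fun x hxK hx => mem_of_isIntegral_inf hlK hl0 hlV hρl hscale hxK hx) hlB hl0 hBl hint ?_
  have e : l * (a / l) = a := by field_simp
  rw [e]
  exact ha

/-- integrality over a subring passes to any larger subring -/
theorem isIntegral_mono {R S : Subring F} (h : R ≤ S) {x : F} (hx : IsIntegral R x) :
    IsIntegral S x :=
  hx.map_of_comp_eq (Subring.inclusion h) (RingHom.id F) (by ext; rfl)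

/-- **(KER) + (BASIS), abstract form, for `B = C ∩ V`.**  `K₀ ⊆ F` fields with `F` finite over
`K₀`; `C ⊆ K₀` a subring integrally closed in `K₀` in which `l` is a unit; `V` a subring of `F`
with a ring homomorphism `ρ` to a field such that `ρ l = 0` and `ρ v = 0 → v / l ∈ V`; every
nonzero element of `K₀` can be scaled by a power of `l` into `V` with nonzero residue; and there
are at least `[F : K₀]` elements of `V` whose residues are linearly independent over the residues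
of `K₀ ∩ V`.  Then every element `a` of `V`, integral over `C ∩ V`, with `ρ a = 0` is `l` times
an element integral over `C ∩ V`. -/
theorem isIntegral_div_of_residue_eq_zero_inf [FiniteDimensional K₀ F] (C : Subring F)
    (hCK : C ≤ K₀.toSubring) (hCcl : ∀ x : F, x ∈ K₀ → IsIntegral C x → x ∈ C)
    (hlC : l ∈ C) (hlinvC : l⁻¹ ∈ C) (hl0 : l ≠ 0) (hlV : l ∈ V) (hρl : ρ ⟨l, hlV⟩ = 0)
    (hker : ∀ v : V, ρ v = 0 → (v : F) / l ∈ V)
    (hscale : ∀ a : F, a ∈ K₀ → a ≠ 0 → ∃ m : ℤ, ∃ u : V, (u : F) = l ^ m * a ∧ ρ u ≠ 0)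
    {ι : Type*} [Fintype ι] (hcard : Module.finrank K₀ F ≤ Fintype.card ι) (f : ι → V)
    (hind : ∀ c : ι → V, (∀ i, (c i : F) ∈ K₀) → ∑ i, ρ (c i) * ρ (f i) = 0 → ∀ i, ρ (c i) = 0)
    {a : F} (haV : a ∈ V) (ha : IsIntegral ↥(C ⊓ V) a) (hρa : ρ ⟨a, haV⟩ = 0) :
    IsIntegral ↥(C ⊓ V) (a / l) := by
  have hlK : l ∈ K₀ := hCK hlC
  refine isIntegral_div_of_residue_eq_zero (C ⊓ V) (le_trans inf_le_left hCK) inf_le_right ?_
    ⟨hlC, hlV⟩ hl0 hρl hker ?_ hscale hcard f hind haV ha hρa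
  · intro x hxK hx
    refine ⟨hCcl x hxK (isIntegral_mono inf_le_left hx), ?_⟩
    refine mem_of_isIntegral_inf hlK hl0 hlV hρl hscale hxK (isIntegral_mono ?_ hx)
    exact inf_le_inf_right V hCK
  · intro x hxB hρx
    refine ⟨?_, hker x hρx⟩
    rw [div_eq_mul_inv]
    exact C.mul_mem hxB.1 hlinvC

end basis

end Fermat.Agent.S28.ValAbs
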