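/-
S28 (Igusa), piece VAL-INST: instantiation of the abstract kernel lemma `ValAbs` on the frozen
charts `chartAlg N ℓ {s}` (`s = j` or `s = j⁻¹`).  Everything about the valuation ring `Λ`, the
degree, normality of `ℤ_(ℓ)[s]` and the residue independence enters through hypotheses.
-/
import Mathlib
import Fermat.Prelude.Def_ModularCurve_IgusaScheme
import Fermat.Prelude.Def_ModularCurve_X0ModL
import Fermat.Agent.S28.ValAbs

set_option autoImplicit false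
set_option linter.unusedSectionVars false

noncomputable section

namespace Fermat.Agent.S28.ValKer

open ModularCurve ModularCurve.IgusaScheme Polynomial
open scoped IntermediateField

variable (N : ℕ) [NeZero N] (ℓ : ℕ) [Fact ℓ.Prime]

set_option quotPrecheck false in
local notation "ℤℓ" => ↥(GaloisRep.ratLocalizedAt ℓ)
set_option quotPrecheck false in
local notation "F" => ↥(modularFunctionFieldFull N)
local notation "M" => LaurentSeries ℚ

/-- the preimage of a subring `Λ` of `ℚ((q))` in the function field -/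
def VSub (Λ : Subring M) : Subring F := Λ.comap (algebraMap F M)

theorem mem_VSub (Λ : Subring M) (x : F) : x ∈ VSub N Λ ↔ (x : M) ∈ Λ := Iff.rfl

/-- the residue map restricted to the function field -/
def rhoV (Λ : Subring M) (res : Λ →+* LaurentSeries (ZMod ℓ)) :
    VSub N Λ →+* LaurentSeries (ZMod ℓ) :=
  res.comp (((algebraMap F M).comp (VSub N Λ).subtype).codRestrict Λ (fun x => x.2))

theorem rhoV_apply (Λ : Subring M) (res : Λ →+* LaurentSeries (ZMod ℓ)) (x : VSub N Λ) :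
    rhoV N ℓ Λ res x = res ⟨((x : F) : M), x.2⟩ := rfl

/-- the subfield `ℚ(j)` of the function field, as a `Subfield` -/
def K0 : Subfield F := (ℚ⟮jFull N⟯).toSubfield

theorem mem_K0 (x : F) : x ∈ K0 N ↔ x ∈ ℚ⟮jFull N⟯ := Iff.rfl

/-- the base ring `ℤ_(ℓ)[s]`, as a `Subring` -/
def BSub (s : F) : Subring F := (Algebra.adjoin ℤℓ {s}).toSubring

theorem mem_BSub (s x : F) : x ∈ BSub N ℓ s ↔ x ∈ Algebra.adjoin ℤℓ {s} := Iff.rfl

theorem isIntegral_BSub_iff (s x : F) :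
    IsIntegral ↥(BSub N ℓ s) x ↔ IsIntegral ↥(Algebra.adjoin ℤℓ {s}) x := Iff.rfl

theorem algebraMap_mem_K0 (r : ℤℓ) : algebraMap ℤℓ F r ∈ K0 N := by
  rw [IsScalarTower.algebraMap_apply ℤℓ ℚ F]
  exact (ℚ⟮jFull N⟯).algebraMap_mem _

theorem BSub_le_K0 (s : F) (hs : s ∈ ℚ⟮jFull N⟯) : BSub N ℓ s ≤ (K0 N).toSubring := by
  intro x hx
  rw [mem_BSub] at hx
  induction hx using Algebra.adjoin_induction with
  | mem y hy =>
    rw [Set.mem_singleton_iff] at hy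
    subst hy
    exact hs
  | algebraMap r => exact algebraMap_mem_K0 N ℓ r
  | add y z _ _ hy hz => exact (K0 N).toSubring.add_mem hy hz
  | mul y z _ _ hy hz => exact (K0 N).toSubring.mul_mem hy hz

theorem natCast_mem_BSub (s : F) : (ℓ : F) ∈ BSub N ℓ s := by
  rw [mem_BSub]
  have h := (Algebra.adjoin ℤℓ {s}).algebraMap_mem (ℓ : ℤℓ)
  rwa [map_natCast] at h

theorem natCast_ne_zero : (ℓ : F) ≠ 0 := by
  have h : (ℓ : ℚ) ≠ 0 := Nat.cast_ne_zero.mpr (Fact.out : ℓ.Prime).ne_zero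
  exact_mod_cast h

/-- **VAL-INST, generic glue.**  The frozen chart `chartAlg N ℓ {s}` (for `s ∈ ℚ(j)`) maps to
`𝔽_ℓ((q))` by a ring homomorphism whose kernel is generated by `ℓ`, provided:
* `(Λ, res)` is a subring of `ℚ((q))` with a residue map whose kernel is `ℓ Λ`, every nonzero
  element of the function field is `ℓ^m` times an element of `Λ` of nonzero residue, and `Λ`
  contains the chart;
* `[F : ℚ(j)] ≤ ψ(N)`;
* `ℤ_(ℓ)[s]` is integrally closed in `ℚ(j)` and saturated in `Λ`;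
* there are `ψ(N)` elements of `F ∩ Λ` whose residues are independent over the residues of
  `ℚ(j) ∩ Λ`. -/
theorem exists_rho_of (Λ : Subring M) (res : Λ →+* LaurentSeries (ZMod ℓ)) (s : F)
    (hΛker : ∀ x : Λ, res x = 0 → (x : M) / (ℓ : M) ∈ Λ)
    (hΛscale : ∀ x : M, x ∈ modularFunctionFieldFull N → x ≠ 0 →
      ∃ (m : ℤ) (u : Λ), res u ≠ 0 ∧ x = (ℓ : M) ^ m * (u : M))
    (hΛint : ∀ x : F, IsIntegral ↥(Algebra.adjoin ℤℓ {s}) x → (x : M) ∈ Λ)
    (hfin : FiniteDimensional ↥ℚ⟮jFull N⟯ F)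
    (hdeg : Module.finrank ↥ℚ⟮jFull N⟯ F ≤ dedekindPsi N)
    (hsK : s ∈ ℚ⟮jFull N⟯)
    (hnormal : ∀ x : F, x ∈ ℚ⟮jFull N⟯ → IsIntegral ↥(Algebra.adjoin ℤℓ {s}) x →
      x ∈ Algebra.adjoin ℤℓ {s})
    (hsat : ∀ x : F, (x : M) ∈ Λ → (ℓ : F) * x ∈ Algebra.adjoin ℤℓ {s} →
      x ∈ Algebra.adjoin ℤℓ {s})
    (f : Fin (dedekindPsi N) → F) (hfΛ : ∀ i, (f i : M) ∈ Λ)
    (hind : ∀ (c : Fin (dedekindPsi N) → F) (hc : ∀ i, (c i : M) ∈ Λ),
      (∀ i, c i ∈ ℚ⟮jFull N⟯) → ∑ i, res ⟨(c i : M), hc i⟩ * res ⟨(f i : M), hfΛ i⟩ = 0 →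
      ∀ i, res ⟨(c i : M), hc i⟩ = 0) :
    ∃ ρ : ↥(chartAlg N ℓ {s}) →+* LaurentSeries (ZMod ℓ),
      ∀ a, ρ a = 0 → ∃ b, a = (ℓ : ↥(chartAlg N ℓ {s})) * b := by
  classical
  have : FiniteDimensional ↥(K0 N) F := hfin
  have hl0 : (ℓ : F) ≠ 0 := natCast_ne_zero N ℓ
  have hlM0 : (ℓ : M) ≠ 0 := by
    have h : (ℓ : ℚ) ≠ 0 := Nat.cast_ne_zero.mpr (Fact.out : ℓ.Prime).ne_zero
    intro h0
    apply h
    have h1 : algebraMap ℚ M (ℓ : ℚ) = 0 := by rw [map_natCast]; exact h0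
    exact (map_eq_zero _).mp h1
  have hBV : BSub N ℓ s ≤ VSub N Λ := fun x hx =>
    hΛint x (isIntegral_algebraMap (x := (⟨x, hx⟩ : ↥(Algebra.adjoin ℤℓ {s}))))
  have hlB : (ℓ : F) ∈ BSub N ℓ s := natCast_mem_BSub N ℓ s
  have hresl : ∀ h : ((ℓ : F) : M) ∈ Λ, res ⟨((ℓ : F) : M), h⟩ = 0 := by
    intro h
    have e : (⟨((ℓ : F) : M), h⟩ : Λ) = (ℓ : Λ) := Subtype.ext (by push_cast; rfl)
    rw [e, map_natCast]
    have e2 : ((ℓ : ℕ) : LaurentSeries (ZMod ℓ)) = HahnSeries.C ((ℓ : ℕ) : ZMod ℓ) := by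
      rw [map_natCast]
    rw [e2, ZMod.natCast_self, map_zero]
  have hker : ∀ v : VSub N Λ, rhoV N ℓ Λ res v = 0 → (v : F) / (ℓ : F) ∈ VSub N Λ := by
    intro v hv
    rw [mem_VSub]
    have h := hΛker ⟨((v : F) : M), v.2⟩ hv
    have e : (((v : F) / (ℓ : F) : F) : M) = ((v : F) : M) / (ℓ : M) := by push_cast; rfl
    rw [e]
    exact h
  -- the chart maps to `Λ`
  let ι₀ : ↥(chartAlg N ℓ {s}) →+* Λ :=
    ((algebraMap F M).comp (algebraMap ↥(chartAlg N ℓ {s}) F)).codRestrict Λ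
      (fun a => hΛint a a.2)
  refine ⟨res.comp ι₀, ?_⟩
  intro a ha
  have haV : (a : F) ∈ VSub N Λ := hΛint a a.2
  have hρa : rhoV N ℓ Λ res ⟨(a : F), haV⟩ = 0 := ha
  have key := ValAbs.isIntegral_div_of_residue_eq_zero (K₀ := K0 N) (V := VSub N Λ)
    (ρ := rhoV N ℓ Λ res) (l := (ℓ : F)) (BSub N ℓ s) (BSub_le_K0 N ℓ s hsK) hBV
    (fun x hxK hx => hnormal x hxK hx) hlB hl0 (hresl _) hker ?_ ?_
    (ι := Fin (dedekindPsi N)) (by rw [Fintype.card_fin]; exact hdeg) (fun i => ⟨f i, hfΛ i⟩)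
    (fun c hcK h => hind (fun i => (c i : F)) (fun i => (c i).2) hcK h) haV a.2 hρa
  · refine ⟨⟨(a : F) / (ℓ : F), key⟩, ?_⟩
    apply Subtype.ext
    have e : ((ℓ : ↥(chartAlg N ℓ {s})) : F) = (ℓ : F) := by push_cast; rfl
    rw [Subalgebra.coe_mul, e]
    change (a : F) = (ℓ : F) * ((a : F) / (ℓ : F))
    field_simp
  · -- saturation
    intro x hxB hρx
    rw [mem_BSub]
    refine hsat _ (hker x hρx) ?_
    have e : (ℓ : F) * ((x : F) / (ℓ : F)) = (x : F) := by field_simp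
    rw [e]
    exact hxB
  · -- scaling
    intro a haK ha0
    have haM0 : ((a : F) : M) ≠ 0 := by
      intro h
      apply ha0
      exact_mod_cast h
    obtain ⟨m, u, hu, hau⟩ := hΛscale (a : M) a.2 haM0
    have huM : (((ℓ : F) ^ (-m) * a : F) : M) = (u : M) := by
      have e : (((ℓ : F) ^ (-m) * a : F) : M) = (ℓ : M) ^ (-m) * (a : M) := by push_cast; rfl
      rw [e, hau, ← mul_assoc, ← zpow_add₀ hlM0, neg_add_cancel, zpow_zero, one_mul]
    have huV : (ℓ : F) ^ (-m) * a ∈ VSub N Λ := by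
      rw [mem_VSub, huM]
      exact u.2
    refine ⟨-m, ⟨(ℓ : F) ^ (-m) * a, huV⟩, rfl, ?_⟩
    have e : rhoV N ℓ Λ res ⟨(ℓ : F) ^ (-m) * a, huV⟩ = res u := by
      rw [rhoV_apply]
      congr 1
      exact Subtype.ext huM
    rw [e]
    exact hu

/-- clearing denominators: independence over `k[J]` implies independence over the fractions -/
theorem eq_zero_of_poly_indep {k L : Type*} [Field k] [Field L] [Algebra k L] (J : L)
    (hJ : Transcendental k J) {ι : Type*} [Fintype ι] (r : ι → L)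
    (hr : ∀ c : ι → k[X], ∑ i, aeval J (c i) * r i = 0 → ∀ i, c i = 0)
    (x : ι → L) (hx : ∀ i, ∃ P Q : k[X], Q ≠ 0 ∧ x i * aeval J Q = aeval J P)
    (h : ∑ i, x i * r i = 0) : ∀ i, x i = 0 := by
  classical
  choose P Q hQ hPQ using hx
  have hc := hr (fun i => P i * ∏ k ∈ Finset.univ.erase i, Q k) ?_
  · intro i
    have hP : P i = 0 := by
      rcases mul_eq_zero.mp (hc i) with h | h
      · exact h
      · exact absurd h (Finset.prod_ne_zero_iff.mpr fun k _ => hQ k)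
    have h2 := hPQ i
    rw [hP, map_zero] at h2
    rcases mul_eq_zero.mp h2 with h | h
    · exact h
    · exact absurd ((transcendental_iff.mp hJ) _ h) (hQ i)
  · have e : ∀ i, aeval J (P i * ∏ k ∈ Finset.univ.erase i, Q k) * r i =
        (x i * r i) * ∏ k, aeval J (Q k) := by
      intro i
      rw [map_mul, ← hPQ i, map_prod,
        ← Finset.mul_prod_erase Finset.univ (fun k => aeval J (Q k)) (Finset.mem_univ i)]
      ring
    simp_rw [e]
    rw [← Finset.sum_mul, h, zero_mul]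

/-- integral monomials in the `j(q^d)`, `d ∣ N`, lie in the function field -/
theorem coeffMap_mem_full (g : LaurentSeries ℤ)
    (hg : g ∈ Submonoid.closure
      {x | ∃ (d : ℕ) (_ : NeZero d), d ∣ N ∧ x = qExpand ℤ d (jqModC ℤ)}) :
    coeffMap (Int.castRingHom ℚ) g ∈ modularFunctionFieldFull N := by
  induction hg using Submonoid.closure_induction with
  | mem x hx =>
    obtain ⟨d, hd, hdN, rfl⟩ := hx
    rw [coeffMap_qExpand, coeffMap_jqModC, jqModC_rat]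
    exact jqd_mem_full N hdN
  | one => rw [map_one]; exact one_mem _
  | mul x y _ _ hx hy => rw [map_mul]; exact mul_mem hx hy

theorem coe_mem_adjoin_jq (x : F) (hx : x ∈ ℚ⟮jFull N⟯) : (x : M) ∈ ℚ⟮jq⟯ := by
  induction hx using IntermediateField.adjoin_induction with
  | mem y hy =>
    rw [Set.mem_singleton_iff] at hy
    subst hy
    exact IntermediateField.mem_adjoin_simple_self ℚ jq
  | algebraMap r =>
    rw [eq_ratCast]
    have e : (((r : ℚ) : F) : M) = ((r : ℚ) : M) := rfl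
    rw [e]
    exact SubfieldClass.ratCast_mem _ r
  | add y z _ _ hy hz => exact add_mem hy hz
  | inv y _ hy => exact inv_mem hy
  | mul y z _ _ hy hz => exact mul_mem hy hz

/-- **VAL-INST.**  As `exists_rho_of`, with the residue independence supplied in the consumer
form of the degree induction: `ψ(N)` integral monomials in the `j(q^d)` whose reductions are
independent over `𝔽_ℓ[J]`. -/
theorem exists_rho_of_indep (Λ : Subring M) (res : Λ →+* LaurentSeries (ZMod ℓ)) (s : F)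
    (hΛker : ∀ x : Λ, res x = 0 → (x : M) / (ℓ : M) ∈ Λ)
    (hΛscale : ∀ x : M, x ∈ modularFunctionFieldFull N → x ≠ 0 →
      ∃ (m : ℤ) (u : Λ), res u ≠ 0 ∧ x = (ℓ : M) ^ m * (u : M))
    (hΛint : ∀ x : F, IsIntegral ↥(Algebra.adjoin ℤℓ {s}) x → (x : M) ∈ Λ)
    (hfin : FiniteDimensional ↥ℚ⟮jFull N⟯ F)
    (hdeg : Module.finrank ↥ℚ⟮jFull N⟯ F ≤ dedekindPsi N)
    (hsK : s ∈ ℚ⟮jFull N⟯)
    (hnormal : ∀ x : F, x ∈ ℚ⟮jFull N⟯ → IsIntegral ↥(Algebra.adjoin ℤℓ {s}) x →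
      x ∈ Algebra.adjoin ℤℓ {s})
    (hsat : ∀ x : F, (x : M) ∈ Λ → (ℓ : F) * x ∈ Algebra.adjoin ℤℓ {s} →
      x ∈ Algebra.adjoin ℤℓ {s})
    (hΛZ : ∀ g : LaurentSeries ℤ, ∃ h : coeffMap (Int.castRingHom ℚ) g ∈ Λ,
      res ⟨_, h⟩ = coeffMap (Int.castRingHom (ZMod ℓ)) g)
    (hresK : ∀ x : Λ, (x : M) ∈ ℚ⟮jq⟯ → ∃ P Q : (ZMod ℓ)[X], Q ≠ 0 ∧
      res x * aeval (jqModC (ZMod ℓ)) Q = aeval (jqModC (ZMod ℓ)) P)
    (htr : Transcendental (ZMod ℓ) (jqModC (ZMod ℓ)))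
    (g : Fin (dedekindPsi N) → LaurentSeries ℤ)
    (hg : ∀ i, g i ∈ Submonoid.closure
      {x | ∃ (d : ℕ) (_ : NeZero d), d ∣ N ∧ x = qExpand ℤ d (jqModC ℤ)})
    (hgind : ∀ c : Fin (dedekindPsi N) → (ZMod ℓ)[X],
      ∑ i, aeval (jqModC (ZMod ℓ)) (c i) * coeffMap (Int.castRingHom (ZMod ℓ)) (g i) = 0 →
        ∀ i, c i = 0) :
    ∃ ρ : ↥(chartAlg N ℓ {s}) →+* LaurentSeries (ZMod ℓ),
      ∀ a, ρ a = 0 → ∃ b, a = (ℓ : ↥(chartAlg N ℓ {s})) * b := by
  have hfΛ : ∀ i, coeffMap (Int.castRingHom ℚ) (g i) ∈ Λ := fun i => (hΛZ (g i)).1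
  have hfres : ∀ i, res ⟨_, hfΛ i⟩ = coeffMap (Int.castRingHom (ZMod ℓ)) (g i) :=
    fun i => (hΛZ (g i)).2
  refine exists_rho_of N ℓ Λ res s hΛker hΛscale hΛint hfin hdeg hsK hnormal hsat
    (fun i => ⟨coeffMap (Int.castRingHom ℚ) (g i), coeffMap_mem_full N (g i) (hg i)⟩) hfΛ ?_
  intro c hc hcK hsum
  refine eq_zero_of_poly_indep (jqModC (ZMod ℓ)) htr
    (fun i => coeffMap (Int.castRingHom (ZMod ℓ)) (g i)) hgind
    (fun i => res ⟨(c i : M), hc i⟩)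
    (fun i => hresK ⟨(c i : M), hc i⟩ (coe_mem_adjoin_jq N (c i) (hcK i))) ?_
  rw [← hsum]
  refine Finset.sum_congr rfl fun i _ => ?_
  rw [← hfres i]

end Fermat.Agent.S28.ValKer
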