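/-
S28 (Igusa), piece VAL-INST: `ValKer.exists_rho_of` for the concrete valuation ring `Λ = Lam ℓ`
and its residue map, with the degree bound `[F : ℚ(j)] ≤ ψ(N)` discharged.  What remains as
hypotheses: normality and saturation of `ℤ_(ℓ)[s]`, the residue field of `ℚ(j) ∩ Λ`, and the
residue-independent family.
-/
import Mathlib
import Fermat.Agent.S28.ValKer
import Fermat.Agent.S28.Lam
import Fermat.Agent.S28.Deg0Full

set_option autoImplicit false
set_option linter.unusedSectionVars false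

noncomputable section

namespace Fermat.Agent.S28.ValKerLam

open ModularCurve ModularCurve.IgusaScheme Polynomial
open scoped IntermediateField

variable (N : ℕ) [NeZero N] (ℓ : ℕ) [Fact ℓ.Prime]

set_option quotPrecheck false in
local notation "ℤℓ" => ↥(GaloisRep.ratLocalizedAt ℓ)
set_option quotPrecheck false in
local notation "F" => ↥(modularFunctionFieldFull N)
local notation "M" => LaurentSeries ℚ

/-- the kernel of `res` in the division form -/
theorem div_mem_of_res_eq_zero (x : Lam.Lam ℓ) (hx : Lam.res ℓ x = 0) :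
    (x : M) / (ℓ : M) ∈ Lam.Lam ℓ := by
  obtain ⟨y, hy⟩ := (Lam.res_eq_zero_iff ℓ x).mp hx
  have hl0 : (ℓ : M) ≠ 0 := Lam.natCast_ne_zero_laurent (Fact.out : ℓ.Prime).ne_zero
  have e : (x : M) = (ℓ : M) * (y : M) := by
    have h := congrArg (Subtype.val : Lam.Lam ℓ → M) hy
    simpa using h
  have e2 : (x : M) / (ℓ : M) = (y : M) := by
    rw [e]
    field_simp
  rw [e2]
  exact y.2

/-- **VAL-INST for `Λ = Lam ℓ`.** -/
theorem exists_rho (s : F) (hsV : s ∈ Lam.valSubring ℓ N) (hsK : s ∈ ℚ⟮jFull N⟯)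
    (hnormal : ∀ x : F, x ∈ ℚ⟮jFull N⟯ → IsIntegral ↥(Algebra.adjoin ℤℓ {s}) x →
      x ∈ Algebra.adjoin ℤℓ {s})
    (hsat : ∀ x : F, (x : M) ∈ Lam.Lam ℓ → (ℓ : F) * x ∈ Algebra.adjoin ℤℓ {s} →
      x ∈ Algebra.adjoin ℤℓ {s})
    (hresK : ∀ x : Lam.Lam ℓ, (x : M) ∈ ℚ⟮jq⟯ →
      Lam.res ℓ x ∈ (ZMod ℓ)⟮jqModC (ZMod ℓ)⟯)
    (f : Fin (dedekindPsi N) → Lam.valSubring ℓ N)
    (hli : LinearIndependent ↥((ZMod ℓ)⟮jqModC (ZMod ℓ)⟯) (fun i => Lam.resV ℓ N (f i))) :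
    ∃ ρ : ↥(chartAlg N ℓ {s}) →+* LaurentSeries (ZMod ℓ),
      ∀ a, ρ a = 0 → ∃ b, a = (ℓ : ↥(chartAlg N ℓ {s})) * b := by
  refine ValKer.exists_rho_of N ℓ (Lam.Lam ℓ) (Lam.res ℓ) s
    (div_mem_of_res_eq_zero ℓ)
    (fun x hx hx0 => Lam.exists_zpow_mul ℓ (Lam.full_le_Phi ℓ N hx) hx0)
    (fun x hx => Lam.chartAlg_le ℓ N {s} (by rintro t rfl; exact hsV) hx)
    (Deg0Full.finiteDimensional_full N) (Deg0Full.finrank_full_le' N) hsK hnormal hsat
    (fun i => (f i : F)) (fun i => (f i).2) ?_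
  intro c hc hcK hsum
  have h := Fintype.linearIndependent_iff.mp hli
    (fun i => ⟨Lam.res ℓ ⟨(c i : M), hc i⟩,
      hresK ⟨(c i : M), hc i⟩ (ValKer.coe_mem_adjoin_jq N (c i) (hcK i))⟩) hsum
  intro i
  have hi := h i
  exact congrArg Subtype.val hi

end Fermat.Agent.S28.ValKerLam
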