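import Mathlib
import Fermat.Prelude.Def_ModularCurve_X0ModL
import Fermat.Agent.S28.ValBase
import Fermat.Agent.S28.A0Theta

/-!
# S28, piece (A0): the pole-order step

If `A(J(x)) = J(x^p) · B(J(x))` with `B ≠ 0` and `deg A ≤ p`, then `B` is constant and
`J(x^p) = R(J(x))` for a monic polynomial `R` of degree `p`.

(Compare the coefficients of `x^(-(p + deg B))`: `J` has a simple pole with leading
coefficient `1`.)
-/

set_option autoImplicit false

open Polynomial ModularCurve

namespace Fermat.Agent.S28.A0Pole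

variable {κ : Type*} [Field κ]

/-- The lowest possible coefficient of a product of two Laurent series. -/
theorem coeff_mul_lowest {x y : LaurentSeries κ} {a b : ℤ} (hx : ∀ k < a, x.coeff k = 0)
    (hy : ∀ k < b, y.coeff k = 0) : (x * y).coeff (a + b) = x.coeff a * y.coeff b := by
  have hs : (Set.Ici a).IsPWO := (bddBelow_Ici (a := a)).isWF.isPWO
  have ht : (Set.Ici b).IsPWO := (bddBelow_Ici (a := b)).isWF.isPWO
  have hxs : x.support ⊆ Set.Ici a := fun k hk => by
    rw [Set.mem_Ici]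
    by_contra hlt
    exact hk (hx k (not_le.mp hlt))
  have hyt : y.support ⊆ Set.Ici b := fun k hk => by
    rw [Set.mem_Ici]
    by_contra hlt
    exact hk (hy k (not_le.mp hlt))
  rw [A0Theta.coeff_mul_of_subset hs ht hxs hyt, Finset.sum_eq_single (a, b)]
  · intro ij hij hne
    rw [Finset.mem_antidiagonal] at hij
    obtain ⟨h1, h2, h3⟩ := hij
    rw [Set.mem_Ici] at h1 h2
    exfalso
    apply hne
    ext
    · show ij.1 = a
      omega
    · show ij.2 = b
      omega
  · intro h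
    exfalso
    apply h
    rw [Finset.mem_antidiagonal]
    exact ⟨Set.mem_Ici.mpr le_rfl, Set.mem_Ici.mpr le_rfl, rfl⟩

/-- Coefficients of `P(J)` below `-(deg P)` vanish. -/
theorem coeff_aeval_of_lt (P : κ[X]) {k : ℤ} (hk : k < -(P.natDegree : ℤ)) :
    (aeval (jqModC κ) P).coeff k = 0 := by
  rw [aeval_eq_sum_range, HahnSeries.coeff_sum]
  refine Finset.sum_eq_zero fun i hi => ?_
  have hi' : i ≤ P.natDegree := Nat.lt_succ_iff.mp (Finset.mem_range.mp hi)
  rw [Algebra.smul_def, algebraMap_laurentSeries_eq_single, HahnSeries.coeff_single_zero_mul,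
    coeff_jqModC_pow_of_lt κ (by omega), mul_zero]

/-- `J(x^p)` has a pole of order `p` with leading coefficient `1`. -/
theorem coeff_qExpand_neg (p : ℕ) [NeZero p] :
    (qExpand κ p (jqModC κ)).coeff (-(p : ℤ)) = 1 := by
  have h1 : (-(p : ℤ)) = (p : ℤ) * (-1) := by ring
  rw [h1, qExpand_coeff_mul]
  simpa using coeff_jqModC_pow_self κ 1

theorem coeff_qExpand_of_lt (p : ℕ) [NeZero p] {k : ℤ} (hk : k < -(p : ℤ)) :
    (qExpand κ p (jqModC κ)).coeff k = 0 := by
  by_cases hdvd : (p : ℤ) ∣ k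
  · obtain ⟨m, rfl⟩ := hdvd
    rw [qExpand_coeff_mul]
    have hp : (0 : ℤ) < p := by exact_mod_cast Nat.pos_of_ne_zero (NeZero.ne p)
    exact coeff_jqModC_of_lt κ (by nlinarith)
  · exact qExpand_coeff_of_not_dvd p _ hdvd

/-- **The pole-order step.** -/
theorem exists_monic (κ : Type*) [Field κ] (p : ℕ) [NeZero p] (A B : κ[X]) (hB : B ≠ 0)
    (hA : A.natDegree ≤ p)
    (h : aeval (jqModC κ) A = qExpand κ p (jqModC κ) * aeval (jqModC κ) B) :
    ∃ R : κ[X], R.Monic ∧ R.natDegree = p ∧ aeval (jqModC κ) R = qExpand κ p (jqModC κ) := by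
  -- the coefficient of `x^(-(p + deg B))`
  have hlow : (qExpand κ p (jqModC κ) * aeval (jqModC κ) B).coeff
      (-(p : ℤ) + -(B.natDegree : ℤ)) = B.leadingCoeff := by
    rw [coeff_mul_lowest (fun k hk => coeff_qExpand_of_lt p hk)
      (fun k hk => coeff_aeval_of_lt B hk), coeff_qExpand_neg, one_mul,
      ValBase.coeff_aeval_jqModC κ B B.natDegree le_rfl]
    rfl
  have hlc : B.leadingCoeff ≠ 0 := leadingCoeff_ne_zero.mpr hB
  have hB0 : B.natDegree = 0 := by
    by_contra hne
    have hlt : A.natDegree < p + B.natDegree := by omega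
    have h1 : (aeval (jqModC κ) A).coeff (-((p + B.natDegree : ℕ) : ℤ)) = 0 := by
      rw [ValBase.coeff_aeval_jqModC κ A (p + B.natDegree) hlt.le]
      exact coeff_eq_zero_of_natDegree_lt hlt
    rw [h, show (-((p + B.natDegree : ℕ) : ℤ)) = -(p : ℤ) + -(B.natDegree : ℤ) by push_cast; ring,
      hlow] at h1
    exact hlc h1
  obtain ⟨b, hb⟩ : ∃ b : κ, B = C b := ⟨B.coeff 0, eq_C_of_natDegree_eq_zero hB0⟩
  have hb0 : b ≠ 0 := by
    rintro rfl
    exact hB (by rw [hb, C_0])
  have hAp : A.coeff p = b := by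
    have h1 := ValBase.coeff_aeval_jqModC κ A p hA
    rw [h, show (-(p : ℤ)) = -(p : ℤ) + -(B.natDegree : ℤ) by rw [hB0]; simp, hlow, hb,
      leadingCoeff_C] at h1
    exact h1.symm
  refine ⟨C b⁻¹ * A, ?_, ?_, ?_⟩
  · have hdeg : (C b⁻¹ * A).natDegree = p := by
      refine le_antisymm ((natDegree_C_mul_le _ _).trans hA) (le_natDegree_of_ne_zero ?_)
      rw [coeff_C_mul, hAp, inv_mul_cancel₀ hb0]
      exact one_ne_zero
    rw [Monic, leadingCoeff, hdeg, coeff_C_mul, hAp, inv_mul_cancel₀ hb0]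
  · refine le_antisymm ((natDegree_C_mul_le _ _).trans hA) (le_natDegree_of_ne_zero ?_)
    rw [coeff_C_mul, hAp, inv_mul_cancel₀ hb0]
    exact one_ne_zero
  · rw [map_mul, aeval_C, h, hb, aeval_C, mul_comm (qExpand κ p (jqModC κ)), ← mul_assoc,
      ← map_mul, inv_mul_cancel₀ hb0, map_one, one_mul]

end Fermat.Agent.S28.A0Pole
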