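/-
S28, piece A0-POLY, degree half (helper17): elementary Lüroth lower bound.

If `J(x^p) ∈ κ(J)`, write `J(x^p) = P(J)/Q(J)` in lowest terms.  The level-`p` modular equation
with the root `J(x^{p²}) = P(J(x^p))/Q(J(x^p))` split off gives a monic polynomial `G` of degree
`p` over `κ(J(x^p))` vanishing at `J`; the elementary bound `natDegree_le_of_root`
(`deg P ≤ deg G` for every nonzero `G` over `κ(Y)` vanishing at `J`, when `Y·Q(J) = P(J)` with
`P, Q` coprime and `J` transcendental — no `RatFunc`, no Gauss lemma) yields `deg P ≤ p`.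
Together with `A0Pole.exists_monic` this is `exists_monic_of_mem`.
-/
import Mathlib
import Fermat.Prelude.Def_ModularCurve_X0ModL
import Fermat.Agent.S28.LevelData
import Fermat.Agent.S28.A0Pole

set_option autoImplicit false

noncomputable section

namespace Fermat.Agent.S28.A0Lur

open ModularCurve Polynomial IntermediateField

/-- CORE: if `Y·Q(J) = P(J)` with `P, Q` coprime and `J` transcendental, then any nontrivial
relation `Σ_k h_k(J) Y^k = 0` has some nonzero `h_k` with `deg P ≤ deg h_k`. -/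
theorem core {κ L : Type*} [Field κ] [Field L] [Algebra κ L] {J Y : L}
    (hJ : Transcendental κ J) (P Q : κ[X]) (hPQ : IsCoprime P Q)
    (hrel : Y * aeval J Q = aeval J P) (W : κ[X][X]) (hW : W ≠ 0)
    (h0 : W.eval₂ (aeval J).toRingHom Y = 0) :
    ∃ k, W.coeff k ≠ 0 ∧ P.natDegree ≤ (W.coeff k).natDegree := by
  classical
  have hex : ∃ k, W.coeff k ≠ 0 := ⟨W.natDegree, by
    rw [Polynomial.coeff_natDegree]; exact Polynomial.leadingCoeff_ne_zero.mpr hW⟩
  by_cases hP : P = 0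
  · obtain ⟨k, hk⟩ := hex
    exact ⟨k, hk, by rw [hP, Polynomial.natDegree_zero]; exact Nat.zero_le _⟩
  set e := W.natDegree with he
  set f : ℕ → κ[X] := fun k => W.coeff k * P ^ k * Q ^ (e - k) with hf
  have hS : ∑ k ∈ Finset.range (e + 1), f k = 0 := by
    have h1 : aeval J (∑ k ∈ Finset.range (e + 1), f k) = 0 := by
      rw [map_sum]
      have h2 : ∀ k ∈ Finset.range (e + 1),
          aeval J (f k) = (aeval J Q) ^ e * ((aeval J).toRingHom (W.coeff k) * Y ^ k) := by
        intro k hk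
        have hke : k ≤ e := Nat.lt_succ_iff.mp (Finset.mem_range.mp hk)
        simp only [hf, map_mul, map_pow]
        rw [← hrel]
        have h3 : (aeval J Q) ^ e = (aeval J Q) ^ k * (aeval J Q) ^ (e - k) := by
          rw [← pow_add, Nat.add_sub_cancel' hke]
        rw [h3, mul_pow]
        simp only [AlgHom.toRingHom_eq_coe, RingHom.coe_coe]
        ring
      rw [Finset.sum_congr rfl h2, ← Finset.mul_sum, ← Polynomial.eval₂_eq_sum_range, h0,
        mul_zero]
    exact (transcendental_iff.mp hJ) _ h1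
  -- minimal index
  set k₀ := Nat.find hex with hk₀
  have hk₀ne : W.coeff k₀ ≠ 0 := Nat.find_spec hex
  have hk₀e : k₀ ≤ e := by
    by_contra hlt
    exact hk₀ne (Polynomial.coeff_eq_zero_of_natDegree_lt (not_le.mp hlt))
  have hmem : k₀ ∈ Finset.range (e + 1) := Finset.mem_range.mpr (Nat.lt_succ_of_le hk₀e)
  have hsplit : f k₀ = - ∑ k ∈ (Finset.range (e + 1)).erase k₀, f k := by
    have := Finset.add_sum_erase (Finset.range (e + 1)) f hmem
    rw [hS] at this
    exact eq_neg_of_add_eq_zero_left this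
  have hdvd : P ^ (k₀ + 1) ∣ f k₀ := by
    rw [hsplit]
    refine (dvd_neg).mpr (Finset.dvd_sum ?_)
    intro k hk
    have hkne : k ≠ k₀ := (Finset.mem_erase.mp hk).1
    rcases lt_or_gt_of_ne hkne with hlt | hgt
    · have : W.coeff k = 0 := by
        by_contra hne
        exact Nat.find_min hex hlt hne
      simp [hf, this]
    · have h1 : P ^ (k₀ + 1) ∣ P ^ k := pow_dvd_pow P hgt
      exact Dvd.dvd.mul_right (Dvd.dvd.mul_left h1 _) _
  have hdvd2 : P ∣ W.coeff k₀ * Q ^ (e - k₀) := by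
    have h1 : P ^ k₀ * P ∣ P ^ k₀ * (W.coeff k₀ * Q ^ (e - k₀)) := by
      have h2 : f k₀ = P ^ k₀ * (W.coeff k₀ * Q ^ (e - k₀)) := by simp only [hf]; ring
      rw [← h2, ← pow_succ]
      exact hdvd
    exact (mul_dvd_mul_iff_left (pow_ne_zero _ hP)).mp h1
  have hdvd3 : P ∣ W.coeff k₀ := (hPQ.pow_right).dvd_of_dvd_mul_right hdvd2
  exact ⟨k₀, hk₀ne, Polynomial.natDegree_le_of_dvd hdvd3 hk₀ne⟩

/-- Every element of `κ(Y)` is a quotient of polynomial values with nonzero denominator. -/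
theorem exists_frac {κ L : Type*} [Field κ] [Field L] [Algebra κ L] {Y c : L}
    (hc : c ∈ κ⟮Y⟯) : ∃ u v : κ[X], aeval Y v ≠ 0 ∧ c * aeval Y v = aeval Y u := by
  obtain ⟨r, s, hrs⟩ := (IntermediateField.mem_adjoin_simple_iff κ c).mp hc
  by_cases hs : aeval Y s = 0
  · refine ⟨0, 1, by simp, ?_⟩
    rw [hrs, hs, div_zero, zero_mul, map_zero]
  · exact ⟨r, s, hs, by rw [hrs, div_mul_cancel₀ _ hs]⟩

/-- **Lüroth lower bound, elementary form.**  If `Y·Q(J) = P(J)` with `P, Q` coprime and `J`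
transcendental over `κ`, every nonzero polynomial over `κ(Y)` vanishing at `J` has degree at
least `deg P`. -/
theorem natDegree_le_of_root {κ L : Type*} [Field κ] [Field L] [Algebra κ L] {J Y : L}
    (hJ : Transcendental κ J) (P Q : κ[X]) (hPQ : IsCoprime P Q)
    (hrel : Y * aeval J Q = aeval J P) (G : L[X]) (hG0 : G ≠ 0)
    (hGc : ∀ i, G.coeff i ∈ κ⟮Y⟯) (hGJ : G.eval J = 0) :
    P.natDegree ≤ G.natDegree := by
  classical
  set d := G.natDegree with hd
  choose u v hv huv using fun i => exists_frac (hGc i)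
  set V : κ[X] := ∏ i ∈ Finset.range (d + 1), v i with hV
  set w : ℕ → κ[X] := fun i => u i * ∏ j ∈ (Finset.range (d + 1)).erase i, v j with hw
  have hVne : aeval Y V ≠ 0 := by
    rw [hV, map_prod]
    exact Finset.prod_ne_zero_iff.mpr (fun i _ => hv i)
  have hwi : ∀ i ∈ Finset.range (d + 1), G.coeff i * aeval Y V = aeval Y (w i) := by
    intro i hi
    have h1 : V = v i * ∏ j ∈ (Finset.range (d + 1)).erase i, v j :=
      (Finset.mul_prod_erase _ _ hi).symm
    rw [h1, map_mul, ← mul_assoc, huv i]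
    simp only [hw, map_mul]
  set W : κ[X][X] := ∑ i ∈ Finset.range (d + 1), (w i).map (C : κ →+* κ[X]) * C (X ^ i) with hWdef
  have hcomp : ((aeval J).toRingHom.comp (C : κ →+* κ[X])) = algebraMap κ L := by
    ext c
    simp
  have hev : W.eval₂ (aeval J).toRingHom Y = 0 := by
    rw [hWdef, Polynomial.eval₂_finsetSum]
    have h1 : ∀ i ∈ Finset.range (d + 1),
        ((w i).map (C : κ →+* κ[X]) * C (X ^ i)).eval₂ (aeval J).toRingHom Y
          = aeval Y V * (G.coeff i * J ^ i) := by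
      intro i hi
      rw [Polynomial.eval₂_mul, Polynomial.eval₂_map, hcomp, Polynomial.eval₂_C,
        ← Polynomial.aeval_def, ← hwi i hi]
      simp only [AlgHom.toRingHom_eq_coe, RingHom.coe_coe, map_pow, aeval_X]
      ring
    rw [Finset.sum_congr rfl h1, ← Finset.mul_sum, ← Polynomial.eval_eq_sum_range, hGJ, mul_zero]
  have hWcoeff : ∀ k, W.coeff k = ∑ i ∈ Finset.range (d + 1), C ((w i).coeff k) * X ^ i := by
    intro k
    rw [hWdef, Polynomial.finsetSum_coeff]
    refine Finset.sum_congr rfl (fun i _ => ?_)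
    rw [Polynomial.coeff_mul_C, Polynomial.coeff_map]
  have hWdeg : ∀ k, (W.coeff k).natDegree ≤ d := by
    intro k
    rw [hWcoeff]
    refine Polynomial.natDegree_sum_le_of_forall_le _ _ (fun i hi => ?_)
    exact (Polynomial.natDegree_C_mul_X_pow_le _ _).trans
      (Nat.lt_succ_iff.mp (Finset.mem_range.mp hi))
  have hWne : W ≠ 0 := by
    have hdm : d ∈ Finset.range (d + 1) := Finset.self_mem_range_succ d
    have hlc : G.coeff d ≠ 0 := by
      rw [hd, Polynomial.coeff_natDegree]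
      exact Polynomial.leadingCoeff_ne_zero.mpr hG0
    have hwd : w d ≠ 0 := by
      intro h
      have := hwi d hdm
      rw [h, map_zero] at this
      exact mul_ne_zero hlc hVne this
    obtain ⟨k, hk⟩ : ∃ k, (w d).coeff k ≠ 0 := ⟨(w d).natDegree, by
      rw [Polynomial.coeff_natDegree]; exact Polynomial.leadingCoeff_ne_zero.mpr hwd⟩
    intro hW0
    have h1 : (W.coeff k).coeff d = (w d).coeff k := by
      rw [hWcoeff, Polynomial.finsetSum_coeff]
      rw [Finset.sum_eq_single d]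
      · rw [Polynomial.coeff_C_mul_X_pow, if_pos rfl]
      · intro i _ hid
        rw [Polynomial.coeff_C_mul_X_pow, if_neg (Ne.symm hid)]
      · intro h; exact absurd hdm h
    rw [hW0, Polynomial.coeff_zero, Polynomial.coeff_zero] at h1
    exact hk h1.symm
  obtain ⟨k, -, hk⟩ := core hJ P Q hPQ hrel W hWne hev
  exact hk.trans (hWdeg k)

/-- **(DEG-HALF) of A0-POLY**: if `J(x^p) ∈ κ(J)`, the level-`p` modular equation (with the root
`J(x^{p²})` split off, cofactor `G` monic of degree `p` vanishing at `J`) forces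
`J(x^p) = A(J)/B(J)` with `deg A ≤ p`. -/
theorem exists_num_denom (κ : Type*) [Field κ] (p : ℕ) [NeZero p] [NeZero (p ^ 2)]
    (hPhi : ∃ (a : κ[X]) (Φ : κ[X][X]) (G : (LaurentSeries κ)[X]), a ≠ 0 ∧ G.Monic ∧
        G.natDegree = p ∧ G.eval (jqModC κ) = 0 ∧
        Φ.map (aeval (qExpand κ p (jqModC κ))).toRingHom
          = C (aeval (qExpand κ p (jqModC κ)) a) *
            ((X - C (qExpand κ (p ^ 2) (jqModC κ))) * G))
    (hmem : qExpand κ p (jqModC κ) ∈ IntermediateField.adjoin κ {jqModC κ}) :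
    ∃ A B : κ[X], B ≠ 0 ∧ A.natDegree ≤ p ∧
      aeval (jqModC κ) A = qExpand κ p (jqModC κ) * aeval (jqModC κ) B := by
  classical
  obtain ⟨a, Φ, G, ha, hGm, hGd, hGJ, hΦ⟩ := hPhi
  have hJ : Transcendental κ (jqModC κ) := LevelData.transcendental_jqModC κ
  have hY : Transcendental κ (qExpand κ p (jqModC κ)) :=
    LevelData.transcendental_qExpand_jqModC κ p
  -- Step A: a coprime fraction
  obtain ⟨r, s, hs, hrs⟩ := exists_frac hmem
  have hs0 : s ≠ 0 := fun h => hs (by rw [h, map_zero])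
  obtain ⟨P, hP⟩ : EuclideanDomain.gcd r s ∣ r := EuclideanDomain.gcd_dvd_left r s
  obtain ⟨Q, hQ⟩ : EuclideanDomain.gcd r s ∣ s := EuclideanDomain.gcd_dvd_right r s
  obtain ⟨x, y, hxy⟩ : ∃ x y, EuclideanDomain.gcd r s = r * x + s * y :=
    ⟨_, _, EuclideanDomain.gcd_eq_gcd_ab r s⟩
  generalize EuclideanDomain.gcd r s = g at hP hQ hxy
  have hg0 : g ≠ 0 := fun h => hs0 (by rw [hQ, h, zero_mul])
  have hQ0 : Q ≠ 0 := fun h => hs0 (by rw [hQ, h, mul_zero])
  have hPQ : IsCoprime P Q := by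
    refine ⟨x, y, ?_⟩
    have h1 : g * (x * P + y * Q) = g * 1 := by
      rw [mul_one]
      conv_rhs => rw [hxy, hP, hQ]
      ring
    exact mul_left_cancel₀ hg0 h1
  have hgJ : aeval (jqModC κ) g ≠ 0 := fun h => hg0 (transcendental_iff.mp hJ g h)
  have hrel : qExpand κ p (jqModC κ) * aeval (jqModC κ) Q = aeval (jqModC κ) P := by
    have h1 : aeval (jqModC κ) g * (qExpand κ p (jqModC κ) * aeval (jqModC κ) Q)
        = aeval (jqModC κ) g * aeval (jqModC κ) P := by
      rw [← map_mul, ← hP, ← hrs, hQ, map_mul]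
      ring
    exact mul_left_cancel₀ hgJ h1
  -- Step B: the same relation one level up
  have hσY : qExpandAlgHomC κ p (qExpand κ p (jqModC κ)) = qExpand κ (p ^ 2) (jqModC κ) := by
    rw [qExpandAlgHomC_apply, qExpand_qExpand]
    exact qExpand_congr (by ring) _
  have hrelZ : qExpand κ (p ^ 2) (jqModC κ) * aeval (qExpand κ p (jqModC κ)) Q
      = aeval (qExpand κ p (jqModC κ)) P := by
    have h1 := congrArg (qExpandAlgHomC κ p) hrel
    rw [map_mul, ← Polynomial.aeval_algHom_apply, ← Polynomial.aeval_algHom_apply, hσY] at h1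
    exact h1
  -- Step C: `G` has coefficients in `κ(Y)`
  have hQY : aeval (qExpand κ p (jqModC κ)) Q ≠ 0 := fun h => hQ0 (transcendental_iff.mp hY Q h)
  have haY : aeval (qExpand κ p (jqModC κ)) a ≠ 0 := fun h => ha (transcendental_iff.mp hY a h)
  have hmem' : ∀ c : κ[X], aeval (qExpand κ p (jqModC κ)) c ∈ κ⟮qExpand κ p (jqModC κ)⟯ :=
    fun c => IntermediateField.algebra_adjoin_le_adjoin κ _ (aeval_mem_adjoin_singleton κ _)
  have hZE : qExpand κ (p ^ 2) (jqModC κ) ∈ κ⟮qExpand κ p (jqModC κ)⟯ := by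
    have h1 : qExpand κ (p ^ 2) (jqModC κ)
        = aeval (qExpand κ p (jqModC κ)) P / aeval (qExpand κ p (jqModC κ)) Q := by
      rw [eq_div_iff hQY]; exact hrelZ
    rw [h1]
    exact div_mem (hmem' P) (hmem' Q)
  have hA : C (aeval (qExpand κ p (jqModC κ)) a)⁻¹ *
      Φ.map (aeval (qExpand κ p (jqModC κ))).toRingHom
        = (X - C (qExpand κ (p ^ 2) (jqModC κ))) * G := by
    rw [hΦ, ← mul_assoc, ← C_mul, inv_mul_cancel₀ haY, C_1, one_mul]
  obtain ⟨A₀, hA₀⟩ : ∃ A₀ : (↥κ⟮qExpand κ p (jqModC κ)⟯)[X],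
      A₀.map (algebraMap ↥κ⟮qExpand κ p (jqModC κ)⟯ (LaurentSeries κ))
        = C (aeval (qExpand κ p (jqModC κ)) a)⁻¹ *
          Φ.map (aeval (qExpand κ p (jqModC κ))).toRingHom := by
    have h1 : C (aeval (qExpand κ p (jqModC κ)) a)⁻¹ *
        Φ.map (aeval (qExpand κ p (jqModC κ))).toRingHom
          ∈ Polynomial.lifts (algebraMap ↥κ⟮qExpand κ p (jqModC κ)⟯ (LaurentSeries κ)) := by
      rw [Polynomial.lifts_iff_coeff_lifts]
      intro n
      rw [coeff_C_mul, coeff_map]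
      exact ⟨⟨_, mul_mem (inv_mem (hmem' a)) (hmem' _)⟩, rfl⟩
    exact (Polynomial.mem_lifts _).mp h1
  have hB₀ : (X - C (⟨qExpand κ (p ^ 2) (jqModC κ), hZE⟩ : ↥κ⟮qExpand κ p (jqModC κ)⟯)).map
      (algebraMap ↥κ⟮qExpand κ p (jqModC κ)⟯ (LaurentSeries κ))
        = X - C (qExpand κ (p ^ 2) (jqModC κ)) := by
    rw [Polynomial.map_sub, Polynomial.map_X, Polynomial.map_C]
    rfl
  have hGmap : (A₀ /ₘ (X - C (⟨qExpand κ (p ^ 2) (jqModC κ), hZE⟩ :
      ↥κ⟮qExpand κ p (jqModC κ)⟯))).map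
        (algebraMap ↥κ⟮qExpand κ p (jqModC κ)⟯ (LaurentSeries κ)) = G := by
    rw [Polynomial.map_divByMonic _ (monic_X_sub_C _), hA₀, hA, hB₀]
    exact Polynomial.mul_divByMonic_cancel_left G (monic_X_sub_C _)
  have hGc : ∀ i, G.coeff i ∈ κ⟮qExpand κ p (jqModC κ)⟯ := by
    intro i
    rw [← hGmap, coeff_map]
    exact SetLike.coe_mem _
  have hdeg := natDegree_le_of_root hJ P Q hPQ hrel G hGm.ne_zero hGc hGJ
  exact ⟨P, Q, hQ0, hdeg.trans_eq hGd, hrel.symm⟩

/-- **A0-POLY**: if `J(x^p) ∈ κ(J)` then `J(x^p) = R(J)` with `R` monic of degree `p`. -/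
theorem exists_monic_of_mem (κ : Type*) [Field κ] (p : ℕ) [NeZero p] [NeZero (p ^ 2)]
    (hPhi : ∃ (a : κ[X]) (Φ : κ[X][X]) (G : (LaurentSeries κ)[X]), a ≠ 0 ∧ G.Monic ∧
        G.natDegree = p ∧ G.eval (jqModC κ) = 0 ∧
        Φ.map (aeval (qExpand κ p (jqModC κ))).toRingHom
          = C (aeval (qExpand κ p (jqModC κ)) a) *
            ((X - C (qExpand κ (p ^ 2) (jqModC κ))) * G))
    (hmem : qExpand κ p (jqModC κ) ∈ IntermediateField.adjoin κ {jqModC κ}) :
    ∃ R : κ[X], R.Monic ∧ R.natDegree = p ∧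
      aeval (jqModC κ) R = qExpand κ p (jqModC κ) := by
  obtain ⟨A, B, hB, hA, h⟩ := exists_num_denom κ p hPhi hmem
  exact A0Pole.exists_monic κ p A B hB hA h

end Fermat.Agent.S28.A0Lur

end
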