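/-
S28 (Igusa), generic Laurent-series substitutions over a field `κ`:
* `Ex n` : the `κ`-algebra hom `q ↦ q ^ n` (`n : ℕ+`), a wrapper of the Prelude's `qExpand`;
* `twist η` : the `κ`-algebra hom `q ↦ η q` (`η : κˣ`).
-/
import Mathlib
import Fermat.Prelude.Def_ModularCurve_X0ModL

set_option autoImplicit false

noncomputable section

open HahnSeries ModularCurve

namespace Fermat.Agent.S28.Twist

variable {κ : Type*} [Field κ]

/-! ### The substitution `q ↦ q ^ n` -/

/-- The substitution `q ↦ q ^ n` on Laurent series, as a `κ`-algebra hom indexed by `ℕ+`. -/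
def Ex (n : ℕ+) : LaurentSeries κ →ₐ[κ] LaurentSeries κ :=
  haveI : NeZero (n : ℕ) := ⟨n.ne_zero⟩
  qExpandAlgHomC κ (n : ℕ)

theorem Ex_apply (n : ℕ+) (f : LaurentSeries κ) :
    Ex n f = (haveI : NeZero (n : ℕ) := ⟨n.ne_zero⟩; qExpand κ (n : ℕ) f) := rfl

theorem Ex_eq_qExpand (n : ℕ) [NeZero n] (f : LaurentSeries κ) :
    Ex (⟨n, Nat.pos_of_ne_zero (NeZero.ne n)⟩ : ℕ+) f = qExpand κ n f := rfl

@[simp]
theorem Ex_coeff_mul (n : ℕ+) (f : LaurentSeries κ) (k : ℤ) :
    (Ex n f).coeff (((n : ℕ) : ℤ) * k) = f.coeff k := by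
  have : NeZero (n : ℕ) := ⟨n.ne_zero⟩
  exact qExpand_coeff_mul (n : ℕ) f k

theorem Ex_coeff_of_not_dvd (n : ℕ+) (f : LaurentSeries κ) {k : ℤ}
    (hk : ¬ (((n : ℕ) : ℤ)) ∣ k) : (Ex n f).coeff k = 0 := by
  have : NeZero (n : ℕ) := ⟨n.ne_zero⟩
  exact qExpand_coeff_of_not_dvd (n : ℕ) f hk

theorem Ex_injective (n : ℕ+) : Function.Injective (Ex (κ := κ) n) := by
  have : NeZero (n : ℕ) := ⟨n.ne_zero⟩
  exact qExpand_injective (n : ℕ)

theorem Ex_Ex (m n : ℕ+) (f : LaurentSeries κ) : Ex m (Ex n f) = Ex (m * n) f := by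
  have : NeZero (n : ℕ) := ⟨n.ne_zero⟩
  have : NeZero (m : ℕ) := ⟨m.ne_zero⟩
  have : NeZero ((m : ℕ) * (n : ℕ)) := ⟨Nat.mul_ne_zero m.ne_zero n.ne_zero⟩
  show qExpand κ (m : ℕ) (qExpand κ (n : ℕ) f) = _
  rw [qExpand_qExpand]
  rfl

@[simp]
theorem Ex_one (f : LaurentSeries κ) : Ex 1 f = f := by
  show qExpand κ 1 f = f
  exact qExpand_one_apply f

theorem Ex_mem_range_of_dvd {m n : ℕ+} (h : m ∣ n) (f : LaurentSeries κ) :
    Ex n f ∈ Set.range (Ex (κ := κ) m) := by
  obtain ⟨c, rfl⟩ := h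
  exact ⟨Ex c f, Ex_Ex m c f⟩

/-- An element of the range of `Ex n` has no coefficient at exponents not divisible by `n`. -/
theorem coeff_eq_zero_of_mem_range_Ex {n : ℕ+} {g : LaurentSeries κ}
    (hg : g ∈ Set.range (Ex (κ := κ) n)) {k : ℤ} (hk : ¬ (((n : ℕ) : ℤ)) ∣ k) : g.coeff k = 0 := by
  obtain ⟨f, rfl⟩ := hg
  exact Ex_coeff_of_not_dvd n f hk

/-! ### The substitution `q ↦ η q` -/

/-- The substitution `q ↦ η q` on Laurent series (`η` a unit): the coefficient of `q ^ k` is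
multiplied by `η ^ k`. -/
def twistRingHom (η : κˣ) : LaurentSeries κ →+* LaurentSeries κ where
  toFun x := ⟨fun k => ((η ^ k : κˣ) : κ) * x.coeff k, x.isPWO_support.mono (fun k hk => by
    simp only [Function.mem_support, ne_eq, mul_eq_zero, not_or] at hk
    exact hk.2)⟩
  map_one' := by
    ext k
    by_cases hk : k = 0
    · subst hk; simp
    · simp [HahnSeries.coeff_one, hk]
  map_mul' x y := by
    ext k
    simp only [HahnSeries.coeff_mul, Finset.mul_sum]
    refine Finset.sum_congr ?_ fun ij hij => ?_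
    · ext ij
      simp only [Finset.mem_antidiagonal, HahnSeries.mem_support, ne_eq, mul_eq_zero, not_or,
        Units.ne_zero, not_false_eq_true, true_and]
    · rw [Finset.mem_antidiagonal] at hij
      rw [← hij.2.2, zpow_add, Units.val_mul]
      ring
  map_zero' := by
    ext k
    simp
  map_add' x y := by
    ext k
    simp [mul_add]

/-- The substitution `q ↦ η q` as a `κ`-algebra hom. -/
def twist (η : κˣ) : LaurentSeries κ →ₐ[κ] LaurentSeries κ where
  __ := twistRingHom η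
  commutes' c := by
    show twistRingHom η (algebraMap κ (LaurentSeries κ) c) = algebraMap κ (LaurentSeries κ) c
    rw [algebraMap_laurentSeries_eq_single]
    ext m
    show ((η ^ m : κˣ) : κ) * (HahnSeries.single (0 : ℤ) c).coeff m = _
    rcases eq_or_ne m 0 with rfl | hm
    · simp
    · simp [HahnSeries.coeff_single_of_ne hm]

@[simp]
theorem twist_coeff (η : κˣ) (x : LaurentSeries κ) (k : ℤ) :
    (twist η x).coeff k = ((η ^ k : κˣ) : κ) * x.coeff k := rfl

@[simp]
theorem twist_one (x : LaurentSeries κ) : twist (1 : κˣ) x = x := by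
  ext k
  simp

theorem twist_twist (η θ : κˣ) (x : LaurentSeries κ) :
    twist η (twist θ x) = twist (η * θ) x := by
  ext k
  simp only [twist_coeff, mul_zpow, Units.val_mul]
  ring

theorem twist_injective (η : κˣ) : Function.Injective (twist (κ := κ) η) := by
  intro x y h
  have := congrArg (twist η⁻¹) h
  simpa [twist_twist] using this

/-- `(f(q^n))(η q) = (f(η^n q))(q^n)`. -/
theorem twist_Ex (η : κˣ) (n : ℕ+) (f : LaurentSeries κ) :
    twist η (Ex n f) = Ex n (twist (η ^ (n : ℕ)) f) := by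
  ext k
  by_cases hk : (((n : ℕ) : ℤ)) ∣ k
  · obtain ⟨m, rfl⟩ := hk
    rw [twist_coeff, Ex_coeff_mul, Ex_coeff_mul, twist_coeff]
    congr 2
    rw [zpow_mul, zpow_natCast]
  · rw [twist_coeff, Ex_coeff_of_not_dvd n f hk, Ex_coeff_of_not_dvd n _ hk, mul_zero]

/-- If `η ^ n = 1` then the twist by `η` fixes the range of `Ex n`. -/
theorem twist_Ex_of_pow_eq_one {η : κˣ} {n : ℕ+} (h : η ^ (n : ℕ) = 1) (f : LaurentSeries κ) :
    twist η (Ex n f) = Ex n f := by
  rw [twist_Ex, h, twist_one]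

theorem twist_eq_self_of_mem_range {η : κˣ} {n : ℕ+} (h : η ^ (n : ℕ) = 1)
    {g : LaurentSeries κ} (hg : g ∈ Set.range (Ex (κ := κ) n)) : twist η g = g := by
  obtain ⟨f, rfl⟩ := hg
  exact twist_Ex_of_pow_eq_one h f

end Fermat.Agent.S28.Twist

end
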