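/-
S28 (Igusa), piece CONJ/KEY: for `p ∤ M` the series `J(q^p)` does not lie in the field
`κ(J(q^d) : d ∣ M)` of Laurent series over an algebraically closed field `κ`.
-/
import Mathlib
import Fermat.Prelude.Def_ModularCurve_X0ModL
import Fermat.Agent.S28.Twist

set_option autoImplicit false

noncomputable section

open Polynomial ModularCurve IntermediateField
open Fermat.Agent.S28.Twist

namespace Fermat.Agent.S28.Conj

variable {κ : Type*} [Field κ]

/-! ### Transcendence of `J` -/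

theorem coeff_smul_laurent (c : κ) (x : LaurentSeries κ) (k : ℤ) :
    (@HSMul.hSMul κ (LaurentSeries κ) (LaurentSeries κ)
      (@instHSMul κ (LaurentSeries κ) Algebra.toSMul) c x).coeff k = c * x.coeff k := by
  rw [Algebra.smul_def, algebraMap_laurentSeries_eq_single, HahnSeries.coeff_single_mul, sub_zero]

/-- `J = q⁻¹ + …` is transcendental over the constants. -/
theorem aeval_jq_ne_zero {P : κ[X]} (hP : P ≠ 0) : aeval (jqModC κ) P ≠ 0 := by
  intro h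
  have hc : (aeval (jqModC κ) P).coeff (-(P.natDegree : ℤ)) = P.leadingCoeff := by
    rw [aeval_eq_sum_range]
    have hsum : ∀ (s : Finset ℕ) (f : ℕ → LaurentSeries κ) (k : ℤ),
        (∑ i ∈ s, f i).coeff k = ∑ i ∈ s, (f i).coeff k := by
      intro s f k
      exact map_sum (HahnSeries.coeff.addMonoidHom k) f s
    rw [hsum, Finset.sum_eq_single P.natDegree]
    · refine (coeff_smul_laurent (P.coeff P.natDegree) (jqModC κ ^ P.natDegree) _).trans ?_
      rw [coeff_jqModC_pow_self, mul_one]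
      rfl
    · intro i hi hne
      have hlt : i < P.natDegree := lt_of_le_of_ne (Nat.lt_succ_iff.mp (Finset.mem_range.mp hi)) hne
      refine (coeff_smul_laurent (P.coeff i) (jqModC κ ^ i) _).trans ?_
      rw [coeff_jqModC_pow_of_lt κ (neg_lt_neg (by exact_mod_cast hlt)), mul_zero]
    · intro hn
      exact absurd (Finset.mem_range.mpr (Nat.lt_succ_self _)) hn
  rw [h, HahnSeries.coeff_zero] at hc
  exact hP (leadingCoeff_eq_zero.mp hc.symm)

/-- The image of `J` under an injective `κ`-algebra hom is transcendental. -/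
theorem aeval_map_jq_ne_zero {A : Type*} [CommRing A] [Algebra κ A]
    (T : LaurentSeries κ →ₐ[κ] A) (hT : Function.Injective T) {P : κ[X]} (hP : P ≠ 0) :
    aeval (T (jqModC κ)) P ≠ 0 := by
  rw [aeval_algHom_apply]
  intro h
  exact aeval_jq_ne_zero hP (hT (by rw [h, map_zero]))

/-! ### Two `κ`-algebra homs agreeing at `x` agree on `κ⟮x⟯` -/

theorem algHom_eq_of_mem_adjoin_simple {E E' : Type*} [Field E] [Field E'] [Algebra κ E]
    [Algebra κ E'] (f g : E →ₐ[κ] E') {x c : E} (h : f x = g x) (hc : c ∈ κ⟮x⟯) : f c = g c := by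
  obtain ⟨r, s, rfl⟩ := (mem_adjoin_simple_iff κ c).mp hc
  rw [map_div₀, map_div₀, ← aeval_algHom_apply, ← aeval_algHom_apply, ← aeval_algHom_apply,
    ← aeval_algHom_apply, h]

/-! ### Two-variable evaluation -/

/-- Evaluation of a two-variable polynomial `Φ(X, Y)` (inner variable `X`) at `X = x`, `Y = y`. -/
def E2 {A : Type*} [CommRing A] (f : κ →+* A) (x y : A) (Φ : κ[X][X]) : A :=
  eval₂ (eval₂RingHom f x) y Φ

theorem comp_eval₂RingHom {A B : Type*} [CommRing A] [CommRing B] (f : κ →+* A) (ψ : A →+* B)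
    (x : A) : ψ.comp (eval₂RingHom f x) = eval₂RingHom (ψ.comp f) (ψ x) := by
  refine Polynomial.ringHom_ext (fun a => ?_) ?_
  · simp
  · simp

theorem E2_hom {A B : Type*} [CommRing A] [CommRing B] (f : κ →+* A) (ψ : A →+* B) (x y : A)
    (Φ : κ[X][X]) : ψ (E2 f x y Φ) = E2 (ψ.comp f) (ψ x) (ψ y) Φ := by
  unfold E2
  rw [hom_eval₂, comp_eval₂RingHom]

theorem map_map_eval₂RingHom {A B : Type*} [CommRing A] [CommRing B] (f : κ →+* A) (ψ : A →+* B)
    (x : A) (Φ : κ[X][X]) :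
    (Φ.map (eval₂RingHom f x)).map ψ = Φ.map (eval₂RingHom (ψ.comp f) (ψ x)) := by
  rw [Polynomial.map_map, comp_eval₂RingHom]

theorem E2_eq_eval_map {A : Type*} [CommRing A] (f : κ →+* A) (x y : A) (Φ : κ[X][X]) :
    E2 f x y Φ = eval y (Φ.map (eval₂RingHom f x)) := by
  unfold E2
  rw [eval_map]

theorem aeval_toRingHom_eq {A : Type*} [CommRing A] [Algebra κ A] (x : A) :
    (aeval x : κ[X] →ₐ[κ] A).toRingHom = eval₂RingHom (algebraMap κ A) x := by
  refine Polynomial.ringHom_ext (fun a => ?_) ?_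
  · simp
  · simp

/-! ### The modular equation of level `r` -/

/-- The level-`r` modular equation: `Φ(J(x^r), X) = a(J(x^r)) (X - J(x^{r²})) ∏_b (X - J(ζ^b x))`
with `ζ^r = 1`. -/
def PhiHyp (κ : Type*) [Field κ] (r : ℕ+) : Prop :=
  ∃ (ζ : κˣ) (a : κ[X]) (Φ : κ[X][X]), ζ ^ (r : ℕ) = 1 ∧ a ≠ 0 ∧
    Φ.map (eval₂RingHom (algebraMap κ (LaurentSeries κ)) (Ex r (jqModC κ))) =
      C (aeval (Ex r (jqModC κ)) a) *
        ((X - C (Ex (r * r) (jqModC κ))) *
          ∏ b ∈ Finset.range (r : ℕ), (X - C (twist (ζ ^ b) (jqModC κ))))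

section Phi

variable {r : ℕ+} {ζ : κˣ} {a : κ[X]} {Φ : κ[X][X]}

/-- The modular equation transported by a `κ`-algebra endomorphism `T` of `κ((q))`. -/
theorem phi_map (ha : a ≠ 0)
    (hΦ : Φ.map (eval₂RingHom (algebraMap κ (LaurentSeries κ)) (Ex r (jqModC κ))) =
      C (aeval (Ex r (jqModC κ)) a) *
        ((X - C (Ex (r * r) (jqModC κ))) *
          ∏ b ∈ Finset.range (r : ℕ), (X - C (twist (ζ ^ b) (jqModC κ)))))
    {B : Type*} [CommRing B] [IsDomain B] (σ : LaurentSeries κ →+* B) :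
    σ (aeval (Ex r (jqModC κ)) a) ≠ 0 ∧
    Φ.map (eval₂RingHom (σ.comp (algebraMap κ (LaurentSeries κ))) (σ (Ex r (jqModC κ)))) =
      C (σ (aeval (Ex r (jqModC κ)) a)) *
        ((X - C (σ (Ex (r * r) (jqModC κ)))) *
          ∏ b ∈ Finset.range (r : ℕ), (X - C (σ (twist (ζ ^ b) (jqModC κ))))) := by
  refine ⟨?_, ?_⟩
  · rw [Ne, map_eq_zero_iff σ σ.injective]
    exact aeval_map_jq_ne_zero (Ex r) (Ex_injective r) ha
  · rw [← map_map_eval₂RingHom, hΦ]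
    simp [Polynomial.map_prod]

/-- Nonvanishing of the specialised modular polynomial. -/
theorem phi_map_ne_zero (ha : a ≠ 0)
    (hΦ : Φ.map (eval₂RingHom (algebraMap κ (LaurentSeries κ)) (Ex r (jqModC κ))) =
      C (aeval (Ex r (jqModC κ)) a) *
        ((X - C (Ex (r * r) (jqModC κ))) *
          ∏ b ∈ Finset.range (r : ℕ), (X - C (twist (ζ ^ b) (jqModC κ)))))
    {B : Type*} [CommRing B] [IsDomain B] (σ : LaurentSeries κ →+* B) :
    Φ.map (eval₂RingHom (σ.comp (algebraMap κ (LaurentSeries κ))) (σ (Ex r (jqModC κ)))) ≠ 0 := by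
  obtain ⟨h1, h2⟩ := phi_map ha hΦ σ
  rw [h2]
  refine mul_ne_zero (by simpa using h1) (mul_ne_zero (X_sub_C_ne_zero _) ?_)
  exact Finset.prod_ne_zero_iff.mpr fun b _ => X_sub_C_ne_zero _

/-- `J(x^{r²})` is a root of the specialised modular polynomial. -/
theorem phi_root (ha : a ≠ 0)
    (hΦ : Φ.map (eval₂RingHom (algebraMap κ (LaurentSeries κ)) (Ex r (jqModC κ))) =
      C (aeval (Ex r (jqModC κ)) a) *
        ((X - C (Ex (r * r) (jqModC κ))) *
          ∏ b ∈ Finset.range (r : ℕ), (X - C (twist (ζ ^ b) (jqModC κ)))))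
    {B : Type*} [CommRing B] [IsDomain B] (σ : LaurentSeries κ →+* B) :
    E2 (σ.comp (algebraMap κ (LaurentSeries κ))) (σ (Ex r (jqModC κ)))
      (σ (Ex (r * r) (jqModC κ))) Φ = 0 := by
  rw [E2_eq_eval_map, (phi_map ha hΦ σ).2]
  simp

/-- All roots of the specialised modular polynomial. -/
theorem phi_roots (ha : a ≠ 0)
    (hΦ : Φ.map (eval₂RingHom (algebraMap κ (LaurentSeries κ)) (Ex r (jqModC κ))) =
      C (aeval (Ex r (jqModC κ)) a) *
        ((X - C (Ex (r * r) (jqModC κ))) *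
          ∏ b ∈ Finset.range (r : ℕ), (X - C (twist (ζ ^ b) (jqModC κ)))))
    {B : Type*} [CommRing B] [IsDomain B] (σ : LaurentSeries κ →+* B) {ω : B}
    (hω : E2 (σ.comp (algebraMap κ (LaurentSeries κ))) (σ (Ex r (jqModC κ))) ω Φ = 0) :
    ω = σ (Ex (r * r) (jqModC κ)) ∨
      ∃ b ∈ Finset.range (r : ℕ), ω = σ (twist (ζ ^ b) (jqModC κ)) := by
  obtain ⟨h1, h2⟩ := phi_map ha hΦ σ
  rw [E2_eq_eval_map, h2] at hω
  simp only [eval_mul, eval_C, eval_sub, eval_X, eval_prod, mul_eq_zero, h1, false_or] at hω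
  rcases hω with h | h
  · exact Or.inl (sub_eq_zero.mp h)
  · obtain ⟨b, hb, hb0⟩ := Finset.prod_eq_zero_iff.mp h
    exact Or.inr ⟨b, hb, sub_eq_zero.mp hb0⟩

end Phi

/-! ### Arithmetic helpers -/

theorem pnat_mul_induction {P : ℕ+ → Prop} (h1 : P 1)
    (hstep : ∀ d r : ℕ+, (r : ℕ).Prime → P d → P (d * r)) : ∀ d, P d := by
  intro d
  induction d using PNat.strongInductionOn with
  | _ d ih =>
    by_cases hd : d = 1
    · rw [hd]; exact h1
    · obtain ⟨r, hr, k, rfl⟩ := PNat.exists_prime_and_dvd hd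
      rw [mul_comm]
      refine hstep k r hr (ih k ?_)
      rw [← PNat.coe_lt_coe, PNat.mul_coe]
      have h2 : 2 ≤ (r : ℕ) := Nat.Prime.two_le hr
      have hk : 0 < (k : ℕ) := k.pos
      nlinarith

theorem exists_unit_pow_eq [IsAlgClosed κ] (u : κˣ) (n : ℕ+) : ∃ θ : κˣ, θ ^ (n : ℕ) = u := by
  obtain ⟨z, hz⟩ := IsAlgClosed.exists_pow_nat_eq (u : κ) n.pos
  have hz0 : z ≠ 0 := by
    rintro rfl
    rw [zero_pow n.ne_zero] at hz
    exact u.ne_zero hz.symm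
  exact ⟨Units.mk0 z hz0, Units.ext (by simpa using hz)⟩

/-- Integrality propagates along a two-variable algebraic relation. -/
theorem isIntegral_of_E2 {F E : Type*} [Field F] [Field E] [Algebra F E] (f : κ →+* F)
    (c : κ →+* E) (hf : (algebraMap F E).comp f = c) {x y : E} (hx : IsIntegral F x)
    (Φ : κ[X][X]) (hne : Φ.map (eval₂RingHom c x) ≠ 0) (h0 : E2 c x y Φ = 0) :
    IsIntegral F y := by
  have hxA : x ∈ algebraicClosure F E := mem_algebraicClosure_iff'.mpr hx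
  set fA : κ →+* ↥(algebraicClosure F E) := (algebraMap F ↥(algebraicClosure F E)).comp f with hfA
  have hcomp : (algebraMap ↥(algebraicClosure F E) E).comp fA = c := by
    rw [← hf]
    rfl
  have hP : (Φ.map (eval₂RingHom fA ⟨x, hxA⟩)).map (algebraMap ↥(algebraicClosure F E) E) =
      Φ.map (eval₂RingHom c x) := by
    rw [map_map_eval₂RingHom, hcomp]
    rfl
  have hP0 : Φ.map (eval₂RingHom fA ⟨x, hxA⟩) ≠ 0 := by
    intro h
    rw [h, Polynomial.map_zero] at hP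
    exact hne hP.symm
  have halg : IsAlgebraic ↥(algebraicClosure F E) y := by
    refine ⟨_, hP0, ?_⟩
    rw [aeval_def, ← eval_map, hP, ← E2_eq_eval_map]
    exact h0
  exact (halg.restrictScalars F).isIntegral

/-! ### The tower in the variable `u`, `q = u ^ (p M)` -/

section Key

variable (κ) (p M : ℕ+)

/-- The base field `κ(J(u^{pM})) = κ(J(q))`. -/
def k0 : IntermediateField κ (LaurentSeries κ) := κ⟮Ex (p * M) (jqModC κ)⟯

/-- `J(u^{pMd}) = J(q^d)`. -/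
def xd (d : ℕ+) : LaurentSeries κ := Ex (p * M * d) (jqModC κ)

/-- The generators `J(q^d)`, `d ∣ M`. -/
def Sset : Set (LaurentSeries κ) := {x | ∃ d : ℕ+, d ∣ M ∧ x = xd κ p M d}

/-- The field `κ(J(q^d) : d ∣ M)` over the base `κ(J(q))`. -/
abbrev K1 : IntermediateField ↥(k0 κ p M) (LaurentSeries κ) := adjoin ↥(k0 κ p M) (Sset κ p M)

variable {κ}

theorem gen_mem_k0 : Ex (p * M) (jqModC κ) ∈ k0 κ p M := mem_adjoin_simple_self κ _

theorem xd_one : xd κ p M 1 = Ex (p * M) (jqModC κ) := by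
  unfold xd
  rw [mul_one]

theorem xd_mem_K1 {d : ℕ+} (hd : d ∣ M) : xd κ p M d ∈ K1 κ p M :=
  subset_adjoin _ _ ⟨d, hd, rfl⟩

theorem k0_le_fieldRange : k0 κ p M ≤ (Ex (κ := κ) p).fieldRange := by
  unfold k0
  rw [adjoin_simple_le_iff]
  exact ⟨Ex M (jqModC κ), Ex_Ex p M _⟩

theorem algebraMap_comp_k0 :
    (algebraMap ↥(k0 κ p M) (LaurentSeries κ)).comp (algebraMap κ ↥(k0 κ p M)) =
      algebraMap κ (LaurentSeries κ) := by
  ext a
  rfl

/-- The relation between `J(q^d)` and `J(q^{dr})` coming from the level-`r` modular equation. -/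
theorem xd_rel {r : ℕ+} {ζ : κˣ} {a : κ[X]} {Φ : κ[X][X]} (ha : a ≠ 0)
    (hΦ : Φ.map (eval₂RingHom (algebraMap κ (LaurentSeries κ)) (Ex r (jqModC κ))) =
      C (aeval (Ex r (jqModC κ)) a) *
        ((X - C (Ex (r * r) (jqModC κ))) *
          ∏ b ∈ Finset.range (r : ℕ), (X - C (twist (ζ ^ b) (jqModC κ)))))
    {d m : ℕ+} (hm : d * r * m = M) :
    Φ.map (eval₂RingHom (algebraMap κ (LaurentSeries κ)) (xd κ p M d)) ≠ 0 ∧
    E2 (algebraMap κ (LaurentSeries κ)) (xd κ p M d) (xd κ p M (d * r)) Φ = 0 := by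
  have hix : p * (d * m) * d * r = p * M * d := by
    rw [← hm]
    apply PNat.eq
    simp only [PNat.mul_coe]
    ring
  have hiy : p * (d * m) * d * (r * r) = p * M * (d * r) := by
    rw [← hm]
    apply PNat.eq
    simp only [PNat.mul_coe]
    ring
  have hx : Ex (p * (d * m) * d) (Ex r (jqModC κ)) = xd κ p M d := by
    rw [Ex_Ex, hix]
    rfl
  have hy : Ex (p * (d * m) * d) (Ex (r * r) (jqModC κ)) = xd κ p M (d * r) := by
    rw [Ex_Ex, hiy]
    rfl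
  have h1 := phi_map_ne_zero ha hΦ ((Ex (κ := κ) (p * (d * m) * d)).toRingHom)
  have h2 := phi_root ha hΦ ((Ex (κ := κ) (p * (d * m) * d)).toRingHom)
  rw [AlgHom.toRingHom_eq_coe, AlgHom.comp_algebraMap] at h1 h2
  rw [RingHom.coe_coe, hx] at h1 h2
  rw [hy] at h2
  exact ⟨h1, h2⟩

/-- Every `J(q^d)`, `d ∣ M`, is integral over `κ(J(q))`. -/
theorem isIntegral_xd (hΦ : ∀ r : ℕ+, (r : ℕ).Prime → r ∣ M → PhiHyp κ r) :
    ∀ d m : ℕ+, d * m = M → IsIntegral ↥(k0 κ p M) (xd κ p M d) := by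
  intro d
  induction d using pnat_mul_induction with
  | h1 =>
    intro m _
    rw [xd_one]
    exact isIntegral_algebraMap (x := (⟨_, gen_mem_k0 p M⟩ : ↥(k0 κ p M)))
  | hstep d r hr ih =>
    intro m hm
    have hrM : r ∣ M := ⟨d * m, by rw [← hm]; apply PNat.eq; simp only [PNat.mul_coe]; ring⟩
    obtain ⟨ζ, a, Φ, -, ha, hΦr⟩ := hΦ r hr hrM
    have hd : IsIntegral ↥(k0 κ p M) (xd κ p M d) := ih (r * m) (by rw [← mul_assoc]; exact hm)
    obtain ⟨h1, h2⟩ := xd_rel p M ha hΦr hm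
    exact isIntegral_of_E2 (algebraMap κ ↥(k0 κ p M)) (algebraMap κ (LaurentSeries κ))
      (algebraMap_comp_k0 p M) hd Φ h1 h2

/-- `J(q^p) ∉ κ(J(q))`, transported to the variable `u`. -/
theorem xd_p_not_mem_k0 (hA0 : Ex p (jqModC κ) ∉ κ⟮jqModC κ⟯) : xd κ p M p ∉ k0 κ p M := by
  intro h
  have hk : k0 κ p M = (κ⟮jqModC κ⟯).map (Ex (p * M)) := by
    unfold k0
    rw [adjoin_map, Set.image_singleton]
  rw [hk] at h
  obtain ⟨x, hx, hxy⟩ := (IntermediateField.mem_map _).mp h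
  have hxy' : Ex (p * M) x = Ex (p * M) (Ex p (jqModC κ)) := by
    rw [hxy, Ex_Ex]
    rfl
  exact hA0 (Ex_injective _ hxy' ▸ hx)

/-- `J(u^M) = J(q^{1/p})` is a conjugate of `J(q^p)` over `κ(J(q))`. -/
theorem aeval_minpoly_eq_zero [IsAlgClosed κ] (hΦp : PhiHyp κ p)
    (hA0 : Ex p (jqModC κ) ∉ κ⟮jqModC κ⟯) :
    aeval (Ex M (jqModC κ)) (minpoly ↥(k0 κ p M) (xd κ p M p)) = 0 := by
  obtain ⟨ζ, a, Φ, hζ, ha, hΦ⟩ := hΦp
  -- the modular equation at `x = u^M`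
  have hX1 : Ex M (Ex p (jqModC κ)) = Ex (p * M) (jqModC κ) := by rw [Ex_Ex, mul_comm]
  have hiy : M * (p * p) = p * M * p := by
    apply PNat.eq
    simp only [PNat.mul_coe]
    ring
  have hyy : Ex M (Ex (p * p) (jqModC κ)) = xd κ p M p := by
    rw [Ex_Ex, hiy]
    rfl
  obtain ⟨ha0, hQ⟩ := phi_map ha hΦ ((Ex (κ := κ) M).toRingHom)
  have ha1 : aeval (Ex (p * M) (jqModC κ)) a ≠ 0 := by
    rw [← hX1, aeval_algHom_apply]
    exact ha0
  rw [AlgHom.toRingHom_eq_coe, AlgHom.comp_algebraMap] at hQ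
  simp only [RingHom.coe_coe] at hQ
  rw [← aeval_algHom_apply, hX1, hyy] at hQ
  -- the polynomial over `k0`
  set Q0 : (↥(k0 κ p M))[X] :=
    Φ.map (eval₂RingHom (algebraMap κ ↥(k0 κ p M)) ⟨Ex (p * M) (jqModC κ), gen_mem_k0 p M⟩)
    with hQ0def
  have hQ0 : Q0.map (algebraMap ↥(k0 κ p M) (LaurentSeries κ)) =
      C (aeval (Ex (p * M) (jqModC κ)) a) * ((X - C (xd κ p M p)) *
        ∏ b ∈ Finset.range (p : ℕ), (X - C (Ex M (twist (ζ ^ b) (jqModC κ))))) := by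
    rw [hQ0def, map_map_eval₂RingHom, algebraMap_comp_k0, ← hQ]
    rfl
  have hprod_ne : (∏ b ∈ Finset.range (p : ℕ),
      (X - C (Ex M (twist (ζ ^ b) (jqModC κ)))) : (LaurentSeries κ)[X]) ≠ 0 :=
    Finset.prod_ne_zero_iff.mpr fun b _ => X_sub_C_ne_zero _
  have hCne : (C (aeval (Ex (p * M) (jqModC κ)) a) : (LaurentSeries κ)[X]) ≠ 0 :=
    C_ne_zero.mpr ha1
  have hQ0ne : Q0 ≠ 0 := by
    intro h
    rw [h, Polynomial.map_zero] at hQ0
    exact mul_ne_zero hCne (mul_ne_zero (X_sub_C_ne_zero _) hprod_ne) hQ0.symm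
  have hQ0y : aeval (xd κ p M p) Q0 = 0 := by
    rw [aeval_def, ← eval_map, hQ0]
    simp
  have hint : IsIntegral ↥(k0 κ p M) (xd κ p M p) :=
    IsAlgebraic.isIntegral (⟨Q0, hQ0ne, hQ0y⟩ : IsAlgebraic ↥(k0 κ p M) (xd κ p M p))
  have hdvd : minpoly ↥(k0 κ p M) (xd κ p M p) ∣ Q0 := minpoly.dvd _ _ hQ0y
  set mL : (LaurentSeries κ)[X] :=
    (minpoly ↥(k0 κ p M) (xd κ p M p)).map (algebraMap ↥(k0 κ p M) (LaurentSeries κ)) with hmL
  have hmL_dvd : mL ∣ C (aeval (Ex (p * M) (jqModC κ)) a) * ((X - C (xd κ p M p)) *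
      ∏ b ∈ Finset.range (p : ℕ), (X - C (Ex M (twist (ζ ^ b) (jqModC κ))))) := by
    rw [← hQ0]
    exact Polynomial.map_dvd _ hdvd
  have hroot : (X - C (xd κ p M p)) ∣ mL := by
    rw [dvd_iff_isRoot, IsRoot.def, hmL, eval_map, ← aeval_def]
    exact minpoly.aeval _ _
  obtain ⟨m', hm'⟩ := hroot
  have hmL_ne : mL ≠ 0 := by
    rw [hmL, Ne, Polynomial.map_eq_zero]
    exact minpoly.ne_zero hint
  have hm'_ne : m' ≠ 0 := by
    rintro rfl
    rw [mul_zero] at hm'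
    exact hmL_ne hm'
  have hdeg : 2 ≤ mL.natDegree := by
    rw [hmL, natDegree_map]
    refine (minpoly.two_le_natDegree_iff hint).mpr ?_
    rintro ⟨⟨c, hc⟩, hcy⟩
    refine xd_p_not_mem_k0 p M hA0 ?_
    rw [← hcy]
    exact hc
  have hdeg' : 1 ≤ m'.natDegree := by
    rw [hm', natDegree_mul (X_sub_C_ne_zero _) hm'_ne, natDegree_X_sub_C] at hdeg
    omega
  have hm'_dvd : m' ∣ C (aeval (Ex (p * M) (jqModC κ)) a) *
      ∏ b ∈ Finset.range (p : ℕ), (X - C (Ex M (twist (ζ ^ b) (jqModC κ)))) := by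
    rw [hm', mul_left_comm] at hmL_dvd
    exact (mul_dvd_mul_iff_left (X_sub_C_ne_zero _)).mp hmL_dvd
  have hsplit : Splits (C (aeval (Ex (p * M) (jqModC κ)) a) *
      ∏ b ∈ Finset.range (p : ℕ), (X - C (Ex M (twist (ζ ^ b) (jqModC κ))))) :=
    Splits.C_mul (Splits.prod fun b _ => Splits.X_sub_C _) _
  have hm'split : Splits m' := hsplit.of_dvd (mul_ne_zero hCne hprod_ne) hm'_dvd
  have hdeg0 : m'.degree ≠ 0 := (natDegree_pos_iff_degree_pos.mp hdeg').ne'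
  obtain ⟨w, hw⟩ := hm'split.exists_eval_eq_zero hdeg0
  have hw' := eval_eq_zero_of_dvd_of_eval_eq_zero hm'_dvd hw
  simp only [eval_mul, eval_C, eval_prod, eval_sub, eval_X, mul_eq_zero, ha1, false_or] at hw'
  obtain ⟨b, -, hb0⟩ := Finset.prod_eq_zero_iff.mp hw'
  have hwb : w = Ex M (twist (ζ ^ b) (jqModC κ)) := sub_eq_zero.mp hb0
  have hroot_b : eval (Ex M (twist (ζ ^ b) (jqModC κ))) mL = 0 := by
    rw [hm', eval_mul, ← hwb, hw, mul_zero]
  -- the twist moving this root to `J(u^M)`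
  obtain ⟨θ, hθ⟩ := exists_unit_pow_eq ((ζ ^ b)⁻¹) M
  have hρz : twist θ (Ex M (twist (ζ ^ b) (jqModC κ))) = Ex M (jqModC κ) := by
    rw [twist_Ex, hθ, twist_twist, inv_mul_cancel, twist_one]
  have hθ1 : θ ^ ((p * M : ℕ+) : ℕ) = 1 := by
    rw [PNat.mul_coe, mul_comm, pow_mul, hθ, inv_pow, ← pow_mul, mul_comm, pow_mul, hζ, one_pow,
      inv_one]
  have hρk0 : ∀ c ∈ k0 κ p M, twist θ c = c := fun c hc =>
    algHom_eq_of_mem_adjoin_simple (twist θ) (AlgHom.id κ _)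
      (twist_Ex_of_pow_eq_one hθ1 (jqModC κ)) hc
  have hρm : mL.map ((twist θ : LaurentSeries κ →ₐ[κ] LaurentSeries κ) :
      LaurentSeries κ →+* LaurentSeries κ) = mL := by
    rw [hmL, Polynomial.map_map]
    congr 1
    ext ⟨c, hc⟩ : 1
    exact hρk0 c hc
  rw [aeval_def, ← eval_map, ← hmL, ← hρz, ← hρm, eval_map]
  have := eval₂_at_apply (p := mL) ((twist θ : LaurentSeries κ →ₐ[κ] LaurentSeries κ) :
      LaurentSeries κ →+* LaurentSeries κ) (Ex M (twist (ζ ^ b) (jqModC κ)))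
  rw [RingHom.coe_coe] at this
  rw [this, hroot_b, map_zero]

/-! ### Embeddings of `κ(J(q^d) : d ∣ M)` over `κ(J(q))` -/

section Psi

variable (Ψ : ↥(K1 κ p M) →ₐ[↥(k0 κ p M)] AlgebraicClosure (LaurentSeries κ))

theorem psi_const {c : LaurentSeries κ} (hc : c ∈ k0 κ p M) (hc' : c ∈ K1 κ p M) :
    Ψ ⟨c, hc'⟩ = algebraMap (LaurentSeries κ) (AlgebraicClosure (LaurentSeries κ)) c := by
  have h : (⟨c, hc'⟩ : ↥(K1 κ p M)) = algebraMap ↥(k0 κ p M) ↥(K1 κ p M) ⟨c, hc⟩ := rfl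
  rw [h, Ψ.commutes]
  rfl

theorem psi_E2 {x y : LaurentSeries κ} (hx : x ∈ K1 κ p M) (hy : y ∈ K1 κ p M) (Φ : κ[X][X])
    (h : E2 (algebraMap κ (LaurentSeries κ)) x y Φ = 0) :
    E2 ((algebraMap (LaurentSeries κ) (AlgebraicClosure (LaurentSeries κ))).comp
      (algebraMap κ (LaurentSeries κ))) (Ψ ⟨x, hx⟩) (Ψ ⟨y, hy⟩) Φ = 0 := by
  set fK : κ →+* ↥(K1 κ p M) :=
    (algebraMap ↥(k0 κ p M) ↥(K1 κ p M)).comp (algebraMap κ ↥(k0 κ p M)) with hfK
  have h1 : (algebraMap ↥(K1 κ p M) (LaurentSeries κ)).comp fK =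
      algebraMap κ (LaurentSeries κ) := by
    ext a
    rfl
  have h2 : E2 fK ⟨x, hx⟩ ⟨y, hy⟩ Φ = 0 := by
    apply (algebraMap ↥(K1 κ p M) (LaurentSeries κ)).injective
    rw [E2_hom, h1, map_zero]
    exact h
  have h3 : (Ψ : ↥(K1 κ p M) →+* AlgebraicClosure (LaurentSeries κ)).comp fK =
      (algebraMap (LaurentSeries κ) (AlgebraicClosure (LaurentSeries κ))).comp
        (algebraMap κ (LaurentSeries κ)) := by
    ext a
    show Ψ (algebraMap ↥(k0 κ p M) ↥(K1 κ p M) (algebraMap κ ↥(k0 κ p M) a)) = _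
    rw [Ψ.commutes]
    rfl
  have h4 := congrArg (Ψ : ↥(K1 κ p M) →+* AlgebraicClosure (LaurentSeries κ)) h2
  rw [E2_hom, h3, map_zero] at h4
  exact h4

end Psi

/-- The shape of the conjugates of `J(q^d)` over `κ(J(q))`, where `M = d m`: the series
`J(η q^{a/e})` with `a e = d`, written in the variable `u`. -/
def Good (κ : Type*) [Field κ] (p d m : ℕ+) (g : LaurentSeries κ) : Prop :=
  ∃ (a e : ℕ+) (η : κˣ), a * e = d ∧ g = Ex (p * (a * m) * a) (twist η (jqModC κ))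

theorem Good.mem_range {p d m : ℕ+} {g : LaurentSeries κ} (h : Good κ p d m g) :
    g ∈ Set.range (Ex (κ := κ) p) := by
  obtain ⟨a, e, η, -, rfl⟩ := h
  exact ⟨Ex (a * m * a) (twist η (jqModC κ)), by rw [Ex_Ex, ← mul_assoc]⟩

/-- Any embedding over `κ(J(q))` maps `J(q^d)` to a series of the shape `Good`. -/
theorem psi_xd [IsAlgClosed κ] (hΦ : ∀ r : ℕ+, (r : ℕ).Prime → r ∣ M → PhiHyp κ r)
    (Ψ : ↥(K1 κ p M) →ₐ[↥(k0 κ p M)] AlgebraicClosure (LaurentSeries κ)) :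
    ∀ d m : ℕ+, d * m = M → ∀ hd : xd κ p M d ∈ K1 κ p M,
      ∃ g, Good κ p d m g ∧
        Ψ ⟨xd κ p M d, hd⟩ =
          algebraMap (LaurentSeries κ) (AlgebraicClosure (LaurentSeries κ)) g := by
  intro d
  induction d using pnat_mul_induction with
  | h1 =>
    intro m hm hd
    rw [one_mul] at hm
    refine ⟨xd κ p M 1, ⟨1, 1, 1, mul_one 1, ?_⟩, ?_⟩
    · unfold xd
      rw [twist_one, one_mul, hm]
    · refine psi_const p M Ψ ?_ hd
      rw [xd_one]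
      exact gen_mem_k0 p M
  | hstep d r hr ih =>
    intro m hm hd
    have hdM : d * (r * m) = M := by rw [← mul_assoc]; exact hm
    have hrM : r ∣ M := ⟨d * m, by rw [← hm]; apply PNat.eq; simp only [PNat.mul_coe]; ring⟩
    have hd' : xd κ p M d ∈ K1 κ p M := xd_mem_K1 p M ⟨r * m, hdM.symm⟩
    obtain ⟨g', ⟨a', e', η', hae, hg'⟩, hΨ'⟩ := ih (r * m) hdM hd'
    obtain ⟨ζ, a, Φ, -, ha, hΦr⟩ := hΦ r hr hrM
    obtain ⟨-, hrel⟩ := xd_rel p M ha hΦr hm
    have hω := psi_E2 p M Ψ hd' hd Φ hrel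
    rw [hΨ'] at hω
    obtain ⟨η'', hη''⟩ := exists_unit_pow_eq η' r
    -- the substitution `x ↦ η'' u^{p a' m a'}`
    set T : LaurentSeries κ →ₐ[κ] LaurentSeries κ :=
      (Ex (p * (a' * m) * a')).comp (twist η'') with hT
    have hi1 : p * (a' * m) * a' * r = p * (a' * (r * m)) * a' := by
      apply PNat.eq
      simp only [PNat.mul_coe]
      ring
    have hi2 : p * (a' * m) * a' * (r * r) = p * (a' * r * m) * (a' * r) := by
      apply PNat.eq
      simp only [PNat.mul_coe]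
      ring
    have hTx : T (Ex r (jqModC κ)) = g' := by
      rw [hT, AlgHom.comp_apply, twist_Ex, hη'', Ex_Ex, hi1, hg']
    set σ : LaurentSeries κ →+* AlgebraicClosure (LaurentSeries κ) :=
      (algebraMap (LaurentSeries κ) (AlgebraicClosure (LaurentSeries κ))).comp
        (T : LaurentSeries κ →+* LaurentSeries κ) with hσ
    have hσc : σ.comp (algebraMap κ (LaurentSeries κ)) =
        (algebraMap (LaurentSeries κ) (AlgebraicClosure (LaurentSeries κ))).comp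
          (algebraMap κ (LaurentSeries κ)) := by
      rw [hσ, RingHom.comp_assoc, AlgHom.comp_algebraMap]
    have hσx : σ (Ex r (jqModC κ)) =
        algebraMap (LaurentSeries κ) (AlgebraicClosure (LaurentSeries κ)) g' := by
      rw [← hTx]
      rfl
    rw [← hσc, ← hσx] at hω
    rcases phi_roots ha hΦr σ hω with h | ⟨b, -, h⟩
    · refine ⟨T (Ex (r * r) (jqModC κ)), ⟨a' * r, e', η'' ^ ((r * r : ℕ+) : ℕ), ?_, ?_⟩, h⟩
      · rw [← hae]
        apply PNat.eq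
        simp only [PNat.mul_coe]
        ring
      · rw [hT, AlgHom.comp_apply, twist_Ex, Ex_Ex, hi2]
    · refine ⟨T (twist (ζ ^ b) (jqModC κ)), ⟨a', e' * r, η'' * ζ ^ b, ?_, ?_⟩, h⟩
      · rw [← hae, mul_assoc]
      · rw [hT, AlgHom.comp_apply, twist_twist]

/-- **KEY** (`ℕ+` form): if `p ∤ M` then `J(q^p) ∉ κ(J(q^d) : d ∣ M)`. -/
theorem key_pnat [IsAlgClosed κ] (hpM : ¬ (p : ℕ) ∣ (M : ℕ))
    (hA0 : Ex p (jqModC κ) ∉ κ⟮jqModC κ⟯) (hΦp : PhiHyp κ p)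
    (hΦ : ∀ r : ℕ+, (r : ℕ).Prime → r ∣ M → PhiHyp κ r) :
    Ex p (jqModC κ) ∉ adjoin κ {x | ∃ d : ℕ+, d ∣ M ∧ x = Ex d (jqModC κ)} := by
  intro hmem
  -- `J(q^p)`, in the variable `u`, lies in `K1`
  have hy : xd κ p M p ∈ K1 κ p M := by
    have h1 : Ex (p * M) (Ex p (jqModC κ)) ∈
        (adjoin κ {x | ∃ d : ℕ+, d ∣ M ∧ x = Ex d (jqModC κ)}).map (Ex (p * M)) :=
      (IntermediateField.mem_map _).mpr ⟨_, hmem, rfl⟩
    rw [adjoin_map] at h1
    have h2 : adjoin κ (Ex (p * M) '' {x | ∃ d : ℕ+, d ∣ M ∧ x = Ex d (jqModC κ)}) ≤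
        (K1 κ p M).restrictScalars κ := by
      rw [adjoin_le_iff]
      rintro _ ⟨x, ⟨d, hd, rfl⟩, rfl⟩
      show Ex (p * M) (Ex d (jqModC κ)) ∈ K1 κ p M
      rw [Ex_Ex]
      exact xd_mem_K1 p M hd
    have h3 := h2 h1
    rw [Ex_Ex] at h3
    exact h3
  have hK : ∀ s ∈ Sset κ p M, IsIntegral ↥(k0 κ p M) s ∧
      ((minpoly ↥(k0 κ p M) s).map
        (algebraMap ↥(k0 κ p M) (AlgebraicClosure (LaurentSeries κ)))).Splits := by
    rintro _ ⟨d, ⟨m, hm⟩, rfl⟩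
    exact ⟨isIntegral_xd p M hΦ d m hm.symm, IsAlgClosed.splits _⟩
  have hz : aeval (algebraMap (LaurentSeries κ) (AlgebraicClosure (LaurentSeries κ))
      (Ex M (jqModC κ))) (minpoly ↥(k0 κ p M) (xd κ p M p)) = 0 := by
    rw [aeval_algebraMap_apply, aeval_minpoly_eq_zero p M hΦp hA0, map_zero]
  obtain ⟨Ψ, hΨ⟩ := exists_algHom_adjoin_of_splits_of_aeval hK hy hz
  -- the image of `Ψ` consists of series in `u^p`
  set W : Subfield (AlgebraicClosure (LaurentSeries κ)) :=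
    ((algebraMap (LaurentSeries κ) (AlgebraicClosure (LaurentSeries κ))).comp
      ((Ex p : LaurentSeries κ →ₐ[κ] LaurentSeries κ) :
        LaurentSeries κ →+* LaurentSeries κ)).fieldRange with hW
  have hWmem : ∀ g ∈ Set.range (Ex (κ := κ) p),
      algebraMap (LaurentSeries κ) (AlgebraicClosure (LaurentSeries κ)) g ∈ W := by
    rintro _ ⟨f, rfl⟩
    exact ⟨f, rfl⟩
  have hall : ∀ x (hx : x ∈ K1 κ p M), Ψ ⟨x, hx⟩ ∈ W := by
    intro x hx
    induction hx using IntermediateField.adjoin_induction with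
    | mem x hx =>
      obtain ⟨d, ⟨m, hm⟩, rfl⟩ := hx
      obtain ⟨g, hg, hΨg⟩ := psi_xd p M hΦ Ψ d m hm.symm (xd_mem_K1 p M ⟨m, hm⟩)
      rw [hΨg]
      exact hWmem g hg.mem_range
    | algebraMap x =>
      have h1 := psi_const p M Ψ x.2 (IntermediateField.algebraMap_mem _ x)
      have h2 : Ψ ⟨algebraMap ↥(k0 κ p M) (LaurentSeries κ) x,
          IntermediateField.algebraMap_mem _ x⟩ =
          algebraMap (LaurentSeries κ) (AlgebraicClosure (LaurentSeries κ)) (x : LaurentSeries κ) :=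
        h1
      rw [h2]
      obtain ⟨f, hf⟩ := k0_le_fieldRange p M x.2
      exact hWmem _ ⟨f, hf⟩
    | add x y hx hy ihx ihy =>
      have h : (⟨x + y, add_mem hx hy⟩ : ↥(K1 κ p M)) = ⟨x, hx⟩ + ⟨y, hy⟩ := rfl
      rw [h, map_add]
      exact W.add_mem ihx ihy
    | inv x hx ihx =>
      have h : (⟨x⁻¹, inv_mem hx⟩ : ↥(K1 κ p M)) = (⟨x, hx⟩ : ↥(K1 κ p M))⁻¹ := rfl
      rw [h, map_inv₀]
      exact W.inv_mem ihx
    | mul x y hx hy ihx ihy =>
      have h : (⟨x * y, mul_mem hx hy⟩ : ↥(K1 κ p M)) = ⟨x, hx⟩ * ⟨y, hy⟩ := rfl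
      rw [h, map_mul]
      exact W.mul_mem ihx ihy
  have hzW := hall _ hy
  rw [hΨ] at hzW
  obtain ⟨f, hf⟩ := hzW
  have hzf : Ex p f = Ex M (jqModC κ) :=
    (algebraMap (LaurentSeries κ) (AlgebraicClosure (LaurentSeries κ))).injective hf
  have hcoef : (Ex M (jqModC κ)).coeff (((M : ℕ) : ℤ) * (-1)) = 1 := by
    rw [Ex_coeff_mul, coeff_jqModC_neg_one]
  have h0 : (Ex M (jqModC κ)).coeff (((M : ℕ) : ℤ) * (-1)) = 0 := by
    refine coeff_eq_zero_of_mem_range_Ex ⟨f, hzf⟩ ?_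
    rw [mul_neg_one, dvd_neg, Int.natCast_dvd_natCast]
    exact hpM
  rw [hcoef] at h0
  exact one_ne_zero h0

end Key

/-! ### The statement in the Prelude's vocabulary -/

/-- From the shape of the modular equation produced by PHI (abstract twist family `T` with the
coefficient law, cf. `LevelData.levelData_of_phi`) to `PhiHyp`. -/
theorem phiHyp_of_modular_eq (p : ℕ) [NeZero p] (ζ : κˣ) (hζ : ζ ^ p = 1)
    (T : κˣ → LaurentSeries κ →+* LaurentSeries κ)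
    (hT : ∀ (ξ : κˣ) (f : LaurentSeries κ) (k : ℤ),
      (T ξ f).coeff k = ((ξ ^ k : κˣ) : κ) * f.coeff k)
    (hΦ : ∃ (a : κ[X]) (Φ : κ[X][X]), a ≠ 0 ∧
      Φ.map (aeval (qExpand κ p (jqModC κ))).toRingHom
        = C (aeval (qExpand κ p (jqModC κ)) a) *
          ((X - C (qExpand κ (p ^ 2) (jqModC κ))) *
            ∏ b ∈ Finset.range p, (X - C (T (ζ ^ b) (jqModC κ))))) :
    PhiHyp κ ⟨p, Nat.pos_of_ne_zero (NeZero.ne p)⟩ := by
  obtain ⟨a, Φ, ha, hΦ⟩ := hΦ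
  refine ⟨ζ, a, Φ, hζ, ha, ?_⟩
  set P : ℕ+ := ⟨p, Nat.pos_of_ne_zero (NeZero.ne p)⟩ with hP
  have h1 : Ex P (jqModC κ) = qExpand κ p (jqModC κ) := rfl
  have h2 : Ex (P * P) (jqModC κ) = qExpand κ (p ^ 2) (jqModC κ) := by
    have : NeZero (p * p) := ⟨Nat.mul_ne_zero (NeZero.ne p) (NeZero.ne p)⟩
    exact qExpand_congr (R := κ) (by ring : p * p = p ^ 2) (jqModC κ)
  have h3 : ∀ b, twist (ζ ^ b) (jqModC κ) = T (ζ ^ b) (jqModC κ) := by
    intro b
    ext k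
    rw [twist_coeff, hT]
  rw [h1, h2, ← aeval_toRingHom_eq, hΦ]
  simp only [h3]
  rfl

/-- **KEY**: for `p ∤ M`, the series `J(q^p)` does not lie in `κ(J(q^d) : d ∣ M)`, given (A0) for
`p` and the modular equations of level `p` and of the prime divisors of `M`. -/
theorem key (κ : Type*) [Field κ] [IsAlgClosed κ] (p M : ℕ) [NeZero p] [NeZero M]
    (hpM : ¬ p ∣ M)
    (hA0 : qExpand κ p (jqModC κ) ∉ IntermediateField.adjoin κ {jqModC κ})
    (hΦp : PhiHyp κ ⟨p, Nat.pos_of_ne_zero (NeZero.ne p)⟩)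
    (hΦ : ∀ r : ℕ+, (r : ℕ).Prime → (r : ℕ) ∣ M → PhiHyp κ r) :
    qExpand κ p (jqModC κ) ∉ modularFunctionFieldFullC κ M := by
  intro hmem
  refine key_pnat (κ := κ) ⟨p, Nat.pos_of_ne_zero (NeZero.ne p)⟩
    ⟨M, Nat.pos_of_ne_zero (NeZero.ne M)⟩ hpM hA0 hΦp
    (fun r hr hrM => hΦ r hr (PNat.dvd_iff.mp hrM)) ?_
  refine adjoin.mono κ _ _ ?_ hmem
  rintro x ⟨d, hd, hdM, rfl⟩
  exact ⟨⟨d, Nat.pos_of_ne_zero (NeZero.ne d)⟩, PNat.dvd_iff.mpr hdM, rfl⟩

/-- **KEY** with the modular equations in the shape produced by PHI. -/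
theorem key_of_modular_eq (κ : Type*) [Field κ] [IsAlgClosed κ]
    (T : κˣ → LaurentSeries κ →+* LaurentSeries κ)
    (hT : ∀ (ξ : κˣ) (f : LaurentSeries κ) (k : ℤ),
      (T ξ f).coeff k = ((ξ ^ k : κˣ) : κ) * f.coeff k)
    (p M : ℕ) [NeZero p] [NeZero M] (hp : p.Prime) (hpM : ¬ p ∣ M)
    (hA0 : qExpand κ p (jqModC κ) ∉ IntermediateField.adjoin κ {jqModC κ})
    (hΦ : ∀ (r : ℕ) [NeZero r], r.Prime → r ∣ p * M →
      ∃ ζ : κˣ, IsPrimitiveRoot (ζ : κ) r ∧ ∃ (a : κ[X]) (Φ : κ[X][X]), a ≠ 0 ∧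
        Φ.map (aeval (qExpand κ r (jqModC κ))).toRingHom
          = C (aeval (qExpand κ r (jqModC κ)) a) *
            ((X - C (qExpand κ (r ^ 2) (jqModC κ))) *
              ∏ b ∈ Finset.range r, (X - C (T (ζ ^ b) (jqModC κ))))) :
    qExpand κ p (jqModC κ) ∉ modularFunctionFieldFullC κ M := by
  have hconv : ∀ (r : ℕ) [NeZero r], r.Prime → r ∣ p * M →
      PhiHyp κ ⟨r, Nat.pos_of_ne_zero (NeZero.ne r)⟩ := by
    intro r _ hr hrd
    obtain ⟨ζ, hζ, h⟩ := hΦ r hr hrd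
    exact phiHyp_of_modular_eq r ζ (Units.ext (by simpa using hζ.pow_eq_one)) T hT h
  refine key κ p M hpM hA0 (hconv p hp (dvd_mul_right p M)) ?_
  intro r hr hrM
  have : NeZero (r : ℕ) := ⟨r.ne_zero⟩
  exact hconv (r : ℕ) hr (hrM.mul_left p)

/-- **KEY** in the shape of the hypothesis `hKey` of `Deg.psi_le_relrank`. -/
theorem hKey_of_modular_eq (κ : Type*) [Field κ] [IsAlgClosed κ] (N : ℕ)
    (T : κˣ → LaurentSeries κ →+* LaurentSeries κ)
    (hT : ∀ (ξ : κˣ) (f : LaurentSeries κ) (k : ℤ),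
      (T ξ f).coeff k = ((ξ ^ k : κˣ) : κ) * f.coeff k)
    (hA0 : ∀ (p : ℕ) [NeZero p], p.Prime → p ∣ N →
      qExpand κ p (jqModC κ) ∉ IntermediateField.adjoin κ {jqModC κ})
    (hΦ : ∀ (r : ℕ) [NeZero r], r.Prime → r ∣ N →
      ∃ ζ : κˣ, IsPrimitiveRoot (ζ : κ) r ∧ ∃ (a : κ[X]) (Φ : κ[X][X]), a ≠ 0 ∧
        Φ.map (aeval (qExpand κ r (jqModC κ))).toRingHom
          = C (aeval (qExpand κ r (jqModC κ)) a) *
            ((X - C (qExpand κ (r ^ 2) (jqModC κ))) *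
              ∏ b ∈ Finset.range r, (X - C (T (ζ ^ b) (jqModC κ))))) :
    ∀ (p M : ℕ) [NeZero p] [NeZero M], p.Prime → p * M ∣ N → ¬ p ∣ M →
      qExpand κ p (jqModC κ) ∉ modularFunctionFieldFullC κ M := by
  intro p M _ _ hp hpMN hpM
  exact key_of_modular_eq κ T hT p M hp hpM (hA0 p hp ((dvd_mul_right p M).trans hpMN))
    (fun r _ hr hrd => hΦ r hr (hrd.trans hpMN))

end Fermat.Agent.S28.Conj

end
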