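/-
S28, piece DEG (degree induction of step (5)): general field-theory lemmas and the two
"core" degree bounds obtained from `LevelData`.
-/
import Mathlib
import Fermat.Prelude.Def_ModularCurve_X0ModL
import Fermat.Agent.S28.DegDefs

set_option autoImplicit false

noncomputable section

open ModularCurve IntermediateField Polynomial

namespace Fermat.Agent.S28.Deg

section General

variable {F E : Type*} [Field F] [Field E] [Algebra F E]

/-- The degree of the minimal polynomial of an element of `B` over `A ≤ B` is at most the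
relative rank. -/
theorem natDegree_minpoly_le_relrank (A B : IntermediateField F E) (hAB : A ≤ B) {θ : E}
    (hθ : θ ∈ B) : ((minpoly A θ).natDegree : Cardinal) ≤ relrank A B := by
  rw [relrank_eq_rank_of_le hAB]
  let x : ↥(extendScalars hAB) := ⟨θ, hθ⟩
  have hmin : minpoly A x = minpoly A θ :=
    (minpoly.algebraMap_eq (B := ↥(extendScalars hAB)) (B' := E)
      (algebraMap ↥(extendScalars hAB) E).injective x).symm
  have hli := linearIndependent_pow (K := ↥A) x
  rw [hmin] at hli
  exact Module.le_rank_iff.mpr ⟨_, hli⟩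

/-- A nonzero polynomial over `A` vanishing on a finite set `Z` has degree at least `#Z`. -/
theorem card_le_natDegree_of_aeval_eq_zero (A : IntermediateField F E) {P : Polynomial A}
    (hP : P ≠ 0) (Z : Finset E) (hZ : ∀ z ∈ Z, aeval z P = 0) : Z.card ≤ P.natDegree := by
  have hmap : P.map (algebraMap A E) ≠ 0 :=
    (Polynomial.map_ne_zero_iff (algebraMap A E).injective).mpr hP
  have hsub : Z.val ⊆ (P.map (algebraMap A E)).roots := by
    intro z hz
    rw [Polynomial.mem_roots hmap, Polynomial.IsRoot, Polynomial.eval_map, ← Polynomial.aeval_def]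
    exact hZ z (Finset.mem_val.mp hz)
  have := Polynomial.card_le_degree_of_subset_roots hsub
  rwa [Polynomial.natDegree_map] at this

/-- A ring endomorphism fixing `A` pointwise commutes with evaluation of polynomials over `A`. -/
theorem aeval_apply_of_fix (A : IntermediateField F E) (τ : E →+* E) (hτ : ∀ a ∈ A, τ a = a)
    (P : Polynomial A) (y : E) : aeval (τ y) P = τ (aeval y P) := by
  rw [Polynomial.aeval_def, Polynomial.aeval_def, Polynomial.hom_eval₂]
  congr 1
  ext a
  exact (hτ a a.2).symm

theorem aeval_iterate_of_fix (A : IntermediateField F E) (τ : E →+* E) (hτ : ∀ a ∈ A, τ a = a)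
    (P : Polynomial A) (y : E) (n : ℕ) : aeval (τ^[n] y) P = τ^[n] (aeval y P) := by
  induction n generalizing y with
  | zero => rfl
  | succ n ih =>
    rw [Function.iterate_succ_apply, Function.iterate_succ_apply, ih,
      aeval_apply_of_fix A τ hτ]

theorem iterate_map_zero (τ : E →+* E) (n : ℕ) : τ^[n] 0 = 0 := by
  induction n with
  | zero => rfl
  | succ n ih => rw [Function.iterate_succ_apply, map_zero, ih]

/-- Upper bound: adjoining a root of a monic polynomial of degree `n` over `A` gives relative
rank at most `n`. -/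
theorem relrank_adjoin_le (A : IntermediateField F E) (θ : E) {P : Polynomial A} (hP : P.Monic)
    (hroot : aeval θ P = 0) :
    relrank A (restrictScalars F (adjoin A {θ})) ≤ (P.natDegree : Cardinal) := by
  have hle : A ≤ restrictScalars F (adjoin A {θ}) := by
    intro a ha
    exact (adjoin A {θ}).algebraMap_mem ⟨a, ha⟩
  have hint : IsIntegral A θ := ⟨P, hP, by rwa [Polynomial.aeval_def] at hroot⟩
  rw [relrank_eq_rank_of_le hle]
  have h1 : extendScalars hle = adjoin A {θ} := by
    apply restrictScalars_injective F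
    rw [extendScalars_restrictScalars]
  rw [h1]
  have : FiniteDimensional A A⟮θ⟯ := adjoin.finiteDimensional hint
  rw [← Module.finrank_eq_rank, adjoin.finrank hint]
  exact_mod_cast Polynomial.natDegree_le_of_dvd (minpoly.dvd A θ hroot) hP.ne_zero

end General

section Core

variable {κ : Type*} [Field κ]

/-- Lift a monic polynomial with coefficients in `A` to a monic polynomial over `A`. -/
theorem exists_lift (A : IntermediateField κ (LaurentSeries κ))
    (G : Polynomial (LaurentSeries κ)) (hG : G.Monic) (hc : ∀ i, G.coeff i ∈ A) :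
    ∃ G' : Polynomial A, G'.map (algebraMap A (LaurentSeries κ)) = G ∧
      G'.natDegree = G.natDegree ∧ G'.Monic := by
  have hl : G ∈ Polynomial.lifts (algebraMap A (LaurentSeries κ)) := by
    rw [Polynomial.lifts_iff_coeff_lifts]
    intro n
    exact ⟨⟨G.coeff n, hc n⟩, rfl⟩
  exact Polynomial.lifts_and_natDegree_eq_and_monic hl hG

/-- STEP1 core: over a subfield `A ⊆ κ((x^p))` containing `J(x^p)`, the minimal polynomial of
`J(x)` has degree at least `p`. -/
theorem step1_core {p : ℕ} [NeZero p] (hL : LevelData κ p)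
    (A : IntermediateField κ (LaurentSeries κ))
    (hJp : qExpand κ p (jqModC κ) ∈ A) (hfix : ∀ a ∈ A, ∃ f, a = qExpand κ p f) :
    p ≤ (minpoly A (jqModC κ)).natDegree := by
  classical
  obtain ⟨τ, G, hτ, hGm, hGdeg, hGc, hGθ, hGr, hper, hinj, hne⟩ := hL
  have hcoeff : ∀ i, G.coeff i ∈ A := fun i => (adjoin_simple_le_iff.mpr hJp) (hGc i)
  obtain ⟨G', hG'map, hG'deg, hG'm⟩ := exists_lift A G hGm hcoeff
  have hτA : ∀ a ∈ A, τ a = a := by
    intro a ha
    obtain ⟨f, rfl⟩ := hfix a ha
    exact hτ f
  have haeval : ∀ y, aeval y G' = G.eval y := by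
    intro y
    rw [← hG'map, Polynomial.eval_map, Polynomial.aeval_def]
  have hint : IsIntegral A (jqModC κ) :=
    ⟨G', hG'm, by rw [← Polynomial.aeval_def, haeval]; exact hGr 0⟩
  have hm0 : minpoly A (jqModC κ) ≠ 0 := minpoly.ne_zero hint
  have hroots : ∀ b, aeval (τ^[b] (jqModC κ)) (minpoly A (jqModC κ)) = 0 := by
    intro b
    rw [aeval_iterate_of_fix A τ hτA, minpoly.aeval, iterate_map_zero]
  let Z : Finset (LaurentSeries κ) := (Finset.range p).image (fun b => τ^[b] (jqModC κ))
  have hZcard : Z.card = p := by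
    rw [Finset.card_image_of_injOn, Finset.card_range]
    intro b hb c hc h
    exact hinj b c (Finset.mem_range.mp hb) (Finset.mem_range.mp hc) h
  have := card_le_natDegree_of_aeval_eq_zero A hm0 Z (by
    intro z hz
    obtain ⟨b, -, rfl⟩ := Finset.mem_image.mp hz
    exact hroots b)
  omega

/-- STEP2 core: over a subfield `A ⊆ κ((x^p))` containing `J(x^p)` but not `J(x^{p²})`, the
minimal polynomial of `J(x^{p²})` has degree at least `p + 1`. -/
theorem step2_core {p : ℕ} [NeZero p] (hL : LevelData κ p)
    (A : IntermediateField κ (LaurentSeries κ))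
    (hJp : qExpand κ p (jqModC κ) ∈ A) (hfix : ∀ a ∈ A, ∃ f, a = qExpand κ p f)
    (hθ : qExpand κ (p ^ 2) (jqModC κ) ∉ A) :
    p + 1 ≤ (minpoly A (qExpand κ (p ^ 2) (jqModC κ))).natDegree := by
  classical
  obtain ⟨τ, G, hτ, hGm, hGdeg, hGc, hGθ, hGr, hper, hinj, hne⟩ := hL
  have hcoeff : ∀ i, G.coeff i ∈ A := fun i => (adjoin_simple_le_iff.mpr hJp) (hGc i)
  obtain ⟨G', hG'map, hG'deg, hG'm⟩ := exists_lift A G hGm hcoeff
  have hτA : ∀ a ∈ A, τ a = a := by
    intro a ha
    obtain ⟨f, rfl⟩ := hfix a ha
    exact hτ f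
  have haeval : ∀ y, aeval y G' = G.eval y := by
    intro y
    rw [← hG'map, Polynomial.eval_map, Polynomial.aeval_def]
  have hint : IsIntegral A (qExpand κ (p ^ 2) (jqModC κ)) :=
    ⟨G', hG'm, by rw [← Polynomial.aeval_def, haeval]; exact hGθ⟩
  have hm0 : minpoly A (qExpand κ (p ^ 2) (jqModC κ)) ≠ 0 := minpoly.ne_zero hint
  obtain ⟨h, hGmh⟩ : minpoly A (qExpand κ (p ^ 2) (jqModC κ)) ∣ G' :=
    minpoly.dvd A _ (by rw [haeval]; exact hGθ)
  have hh0 : h ≠ 0 := by
    rintro rfl
    rw [mul_zero] at hGmh
    exact hG'm.ne_zero hGmh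
  have hper' : ∀ c, τ^[c + p] (jqModC κ) = τ^[c] (jqModC κ) := by
    intro c
    rw [Function.iterate_add_apply, hper]
  have hp1 : 1 ≤ p := Nat.one_le_iff_ne_zero.mpr (NeZero.ne p)
  by_cases hcase : ∃ b, aeval (τ^[b] (jqModC κ)) (minpoly A (qExpand κ (p ^ 2) (jqModC κ))) = 0
  · obtain ⟨b, hb⟩ := hcase
    have hall : ∀ c, aeval (τ^[c] (jqModC κ)) (minpoly A (qExpand κ (p ^ 2) (jqModC κ))) = 0 := by
      have h1 : ∀ k, aeval (τ^[k + b] (jqModC κ))
          (minpoly A (qExpand κ (p ^ 2) (jqModC κ))) = 0 := by
        intro k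
        rw [Function.iterate_add_apply, aeval_iterate_of_fix A τ hτA, hb, iterate_map_zero]
      intro c
      have h2 : ∀ n, τ^[c + n * p] (jqModC κ) = τ^[c] (jqModC κ) := by
        intro n
        induction n with
        | zero => simp
        | succ n ih => rw [Nat.succ_mul, ← Nat.add_assoc, hper', ih]
      rw [← h2 b]
      have hbp : b * p = b * (p - 1) + b := by
        conv_lhs => rw [← Nat.sub_add_cancel hp1]
        ring
      have hcb : c + b * p = (c + b * (p - 1)) + b := by omega
      rw [hcb]
      exact h1 _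
    let Z : Finset (LaurentSeries κ) :=
      insert (qExpand κ (p ^ 2) (jqModC κ)) ((Finset.range p).image (fun b => τ^[b] (jqModC κ)))
    have hZcard : Z.card = p + 1 := by
      rw [Finset.card_insert_of_notMem, Finset.card_image_of_injOn, Finset.card_range]
      · intro b hb c hc h
        exact hinj b c (Finset.mem_range.mp hb) (Finset.mem_range.mp hc) h
      · intro hmem
        obtain ⟨b, -, hb⟩ := Finset.mem_image.mp hmem
        exact hne b hb
    have := card_le_natDegree_of_aeval_eq_zero A hm0 Z (by
      intro z hz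
      rcases Finset.mem_insert.mp hz with rfl | hz
      · exact minpoly.aeval A _
      · obtain ⟨b, -, rfl⟩ := Finset.mem_image.mp hz
        exact hall b)
    omega
  · have hcase' : ∀ b, aeval (τ^[b] (jqModC κ))
        (minpoly A (qExpand κ (p ^ 2) (jqModC κ))) ≠ 0 := fun b hb => hcase ⟨b, hb⟩
    have hhroots : ∀ b, aeval (τ^[b] (jqModC κ)) h = 0 := by
      intro b
      have h0 := hGr b
      rw [← haeval, hGmh, map_mul] at h0
      exact (mul_eq_zero.mp h0).resolve_left (hcase' b)
    let Z : Finset (LaurentSeries κ) := (Finset.range p).image (fun b => τ^[b] (jqModC κ))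
    have hZcard : Z.card = p := by
      rw [Finset.card_image_of_injOn, Finset.card_range]
      intro b hb c hc h
      exact hinj b c (Finset.mem_range.mp hb) (Finset.mem_range.mp hc) h
    have hpdeg := card_le_natDegree_of_aeval_eq_zero A hh0 Z (by
      intro z hz
      obtain ⟨b, -, rfl⟩ := Finset.mem_image.mp hz
      exact hhroots b)
    have hdeg : G'.natDegree = (minpoly A (qExpand κ (p ^ 2) (jqModC κ))).natDegree + h.natDegree := by
      rw [hGmh, Polynomial.natDegree_mul hm0 hh0]
    have hpos := minpoly.natDegree_pos hint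
    have hm1 : (minpoly A (qExpand κ (p ^ 2) (jqModC κ))).natDegree = 1 := by omega
    exfalso
    apply hθ
    obtain ⟨a, ha⟩ := minpoly.natDegree_eq_one_iff.mp hm1
    rw [← ha]
    exact a.2

end Core

end Fermat.Agent.S28.Deg

end
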