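/-
S28, piece DEG (degree induction of step (5)): the relative-rank form of STEP1 / STEP2 and
the induction `ψ(N) ≤ [κ(J(q^d) : d ∣ N) : κ(J)]`.
-/
import Mathlib
import Fermat.Prelude.Def_ModularCurve_X0ModL
import Fermat.Agent.S24.CombIndex
import Fermat.Agent.S28.DegDefs
import Fermat.Agent.S28.DegCore

set_option autoImplicit false

noncomputable section

open ModularCurve IntermediateField Polynomial

namespace Fermat.Agent.S28.Deg

section Rank

variable (κ : Type*) [Field κ]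

theorem qExpand_sq (p : ℕ) [NeZero p] (f : LaurentSeries κ) :
    qExpand κ p (qExpand κ p f) = qExpand κ (p ^ 2) f := by
  rw [qExpand_qExpand]
  exact qExpand_congr (by ring) f

theorem one_le_relrank {F E : Type*} [Field F] [Field E] [Algebra F E]
    (A B : IntermediateField F E) : (1 : Cardinal) ≤ relrank A B := by
  rw [← inf_relrank_right, relrank_eq_rank_of_le (inf_le_right : A ⊓ B ≤ B)]
  exact Cardinal.one_le_iff_pos.mpr rank_pos

variable {κ}

/-- STEP2, rank form: if `J ∈ A₀ ≤ B₀`, `J(q^p) ∈ B₀` and `J(q^p) ∉ A₀`, then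
`[B₀ : A₀] ≥ p + 1`. -/
theorem step2_gen {p : ℕ} [NeZero p] (hL : LevelData κ p)
    (A0 B0 : IntermediateField κ (LaurentSeries κ)) (hAB : A0 ≤ B0)
    (hJ : jqModC κ ∈ A0) (hJp : qExpand κ p (jqModC κ) ∈ B0)
    (hnot : qExpand κ p (jqModC κ) ∉ A0) :
    ((p + 1 : ℕ) : Cardinal) ≤ relrank A0 B0 := by
  rw [← relrank_map_map A0 B0 (qExpandAlgHomC κ p)]
  have hAB' : A0.map (qExpandAlgHomC κ p) ≤ B0.map (qExpandAlgHomC κ p) :=
    IntermediateField.map_mono _ hAB
  have hθmem : qExpand κ (p ^ 2) (jqModC κ) ∈ B0.map (qExpandAlgHomC κ p) :=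
    (IntermediateField.mem_map _).mpr ⟨qExpand κ p (jqModC κ), hJp, by
      rw [qExpandAlgHomC_apply, qExpand_sq]⟩
  refine le_trans ?_ (natDegree_minpoly_le_relrank _ _ hAB' hθmem)
  have hcore := step2_core hL (A0.map (qExpandAlgHomC κ p))
    ((IntermediateField.mem_map _).mpr ⟨jqModC κ, hJ, rfl⟩)
    (by
      intro a ha
      obtain ⟨f, -, rfl⟩ := (IntermediateField.mem_map _).mp ha
      exact ⟨f, rfl⟩)
    (by
      intro hmem
      obtain ⟨a, ha, hae⟩ := (IntermediateField.mem_map _).mp hmem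
      rw [qExpandAlgHomC_apply, ← qExpand_sq] at hae
      have : a = qExpand κ p (jqModC κ) := qExpand_injective p hae
      exact hnot (this ▸ ha))
  exact_mod_cast hcore

/-- STEP1, rank form: if `J ∈ A₀`, `σ_p(A₀) ≤ B` and `J ∈ B`, then `[B : σ_p(A₀)] ≥ p`. -/
theorem step1_gen {p : ℕ} [NeZero p] (hL : LevelData κ p)
    (A0 B : IntermediateField κ (LaurentSeries κ))
    (hJ : jqModC κ ∈ A0) (hAB : A0.map (qExpandAlgHomC κ p) ≤ B) (hJB : jqModC κ ∈ B) :
    (p : Cardinal) ≤ relrank (A0.map (qExpandAlgHomC κ p)) B := by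
  refine le_trans ?_ (natDegree_minpoly_le_relrank _ _ hAB hJB)
  have hcore := step1_core hL (A0.map (qExpandAlgHomC κ p))
    ((IntermediateField.mem_map _).mpr ⟨jqModC κ, hJ, rfl⟩)
    (by
      intro a ha
      obtain ⟨f, -, rfl⟩ := (IntermediateField.mem_map _).mp ha
      exact ⟨f, rfl⟩)
  exact_mod_cast hcore

end Rank

section Induction

variable (κ : Type*) [Field κ]

/-- The inductive step for a prime `p` not dividing `N'`. -/
theorem step_of_not_dvd (N' p : ℕ) [NeZero N'] [NeZero p] (hp : p.Prime) (hpN : ¬ p ∣ N')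
    (hL : LevelData κ p)
    (hKey : qExpand κ p (jqModC κ) ∉ modularFunctionFieldFullC κ N')
    (ih : (dedekindPsi N' : Cardinal) ≤
      relrank κ⟮jqModC κ⟯ (modularFunctionFieldFullC κ N')) :
    (dedekindPsi (N' * p) : Cardinal) ≤
      relrank κ⟮jqModC κ⟯ (modularFunctionFieldFullC κ (N' * p)) := by
  have h1 : κ⟮jqModC κ⟯ ≤ modularFunctionFieldFullC κ N' :=
    adjoin_simple_le_iff.mpr (jqModC_mem_full κ N')
  have h2 : modularFunctionFieldFullC κ N' ≤ modularFunctionFieldFullC κ (N' * p) :=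
    full_degeneracyC_le κ (Dvd.intro _ rfl)
  have h3 := step2_gen hL (modularFunctionFieldFullC κ N') (modularFunctionFieldFullC κ (N' * p))
    h2 (jqModC_mem_full κ N') (jqModCd_mem_full κ (N' * p) (Dvd.intro_left _ rfl)) hKey
  rw [← relrank_mul_relrank h1 h2,
    Fermat.Agent.S24.Comb.dedekindPsi_mul_of_not_dvd (NeZero.ne N') hp hpN, Nat.cast_mul]
  exact mul_le_mul' ih h3

/-- The inductive step for a prime `p` dividing `N'`. -/
theorem step_of_dvd (N' p : ℕ) [NeZero N'] [NeZero p] (hp : p.Prime) (hpN : p ∣ N')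
    (hL : LevelData κ p)
    (hKey : qExpand κ p (jqModC κ) ∉ κ⟮jqModC κ⟯)
    (ih : (dedekindPsi N' : Cardinal) ≤
      relrank κ⟮jqModC κ⟯ (modularFunctionFieldFullC κ N')) :
    (dedekindPsi (N' * p) : Cardinal) ≤
      relrank κ⟮jqModC κ⟯ (modularFunctionFieldFullC κ (N' * p)) := by
  -- notation
  set J := jqModC κ with hJdef
  set Jp := qExpand κ p (jqModC κ) with hJpdef
  set FN := modularFunctionFieldFullC κ (N' * p) with hFN
  set A := (modularFunctionFieldFullC κ N').map (qExpandAlgHomC κ p) with hA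
  have hJFN : J ∈ FN := jqModC_mem_full κ (N' * p)
  have hJpFN : Jp ∈ FN := jqModCd_mem_full κ (N' * p) (Dvd.intro_left _ rfl)
  -- (i) `[F_N : κ(J_p)] ≥ ψ(N') * p`
  have hAFN : A ≤ FN := full_degeneracyC_map_le κ N' p
  have hmapJ : κ⟮J⟯.map (qExpandAlgHomC κ p) = κ⟮Jp⟯ := by
    rw [adjoin_map, Set.image_singleton, qExpandAlgHomC_apply]
  have hJpA : κ⟮Jp⟯ ≤ A := by
    rw [← hmapJ]
    exact IntermediateField.map_mono _ (adjoin_simple_le_iff.mpr (jqModC_mem_full κ N'))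
  have hi1 : (dedekindPsi N' : Cardinal) ≤ relrank κ⟮Jp⟯ A := by
    rw [← hmapJ, hA, relrank_map_map]
    exact ih
  have hi2 : (p : Cardinal) ≤ relrank A FN :=
    step1_gen hL (modularFunctionFieldFullC κ N') FN (jqModC_mem_full κ N') hAFN hJFN
  have hi : ((dedekindPsi N' * p : ℕ) : Cardinal) ≤ relrank κ⟮Jp⟯ FN := by
    rw [← relrank_mul_relrank hJpA hAFN, Nat.cast_mul]
    exact mul_le_mul' hi1 hi2
  -- (ii) compare the two base fields through `K2 = κ(J, J_p)`
  obtain ⟨τ, G, hτ, hGm, hGdeg, hGc, hGθ, hGr, hper, hinj, hne⟩ := hL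
  obtain ⟨G', hG'map, hG'deg, hG'm⟩ := exists_lift κ⟮Jp⟯ G hGm hGc
  have hroot : aeval J G' = 0 := by
    rw [Polynomial.aeval_def, ← Polynomial.eval_map, hG'map]
    exact hGr 0
  set K2 : IntermediateField κ (LaurentSeries κ) := restrictScalars κ (adjoin κ⟮Jp⟯ {J}) with hK2
  have hup : relrank κ⟮Jp⟯ K2 ≤ ((p + 1 : ℕ) : Cardinal) := by
    have := relrank_adjoin_le κ⟮Jp⟯ J hG'm hroot
    rwa [hG'deg, hGdeg] at this
  have hJpK2 : κ⟮Jp⟯ ≤ K2 := by
    intro a ha
    exact (adjoin κ⟮Jp⟯ {J}).algebraMap_mem ⟨a, ha⟩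
  have hJK2' : J ∈ K2 := subset_adjoin κ⟮Jp⟯ {J} (Set.mem_singleton J)
  have hJK2 : κ⟮J⟯ ≤ K2 := adjoin_simple_le_iff.mpr hJK2'
  have hK2FN : K2 ≤ FN := by
    rw [hK2, restrictScalars_adjoin, adjoin_le_iff]
    rintro x (hx | hx)
    · exact (adjoin_simple_le_iff.mpr hJpFN) hx
    · rw [Set.mem_singleton_iff.mp hx]
      exact hJFN
  have hlow : ((p + 1 : ℕ) : Cardinal) ≤ relrank κ⟮J⟯ K2 :=
    step2_gen ⟨τ, G, hτ, hGm, hGdeg, hGc, hGθ, hGr, hper, hinj, hne⟩ κ⟮J⟯ K2 hJK2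
      (mem_adjoin_simple_self κ J) (hJpK2 (mem_adjoin_simple_self κ Jp)) hKey
  rw [Fermat.Agent.S24.Comb.dedekindPsi_mul_of_dvd (NeZero.ne N') hp hpN]
  calc ((dedekindPsi N' * p : ℕ) : Cardinal) ≤ relrank κ⟮Jp⟯ FN := hi
    _ = relrank κ⟮Jp⟯ K2 * relrank K2 FN := (relrank_mul_relrank hJpK2 hK2FN).symm
    _ ≤ relrank κ⟮J⟯ K2 * relrank K2 FN := mul_le_mul' (hup.trans hlow) le_rfl
    _ = relrank κ⟮J⟯ FN := relrank_mul_relrank hJK2 hK2FN

/-- **DEG**: `ψ(N) ≤ [κ(J(q^d) : d ∣ N) : κ(J)]`, from the level-`p` data and (KEY). -/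
theorem psi_le_relrank (N : ℕ) [NeZero N]
    (hLvl : ∀ (p : ℕ) [NeZero p], p.Prime → p ∣ N → LevelData κ p)
    (hKey : ∀ (p M : ℕ) [NeZero p] [NeZero M], p.Prime → p * M ∣ N → ¬ p ∣ M →
      qExpand κ p (jqModC κ) ∉ modularFunctionFieldFullC κ M) :
    (dedekindPsi N : Cardinal) ≤
      relrank κ⟮jqModC κ⟯ (modularFunctionFieldFullC κ N) := by
  have main : ∀ n : ℕ, ∀ N : ℕ, N = n → N ≠ 0 →
      (∀ (p : ℕ) [NeZero p], p.Prime → p ∣ N → LevelData κ p) →
      (∀ (p M : ℕ) [NeZero p] [NeZero M], p.Prime → p * M ∣ N → ¬ p ∣ M →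
        qExpand κ p (jqModC κ) ∉ modularFunctionFieldFullC κ M) →
      (dedekindPsi N : Cardinal) ≤
        relrank κ⟮jqModC κ⟯ (modularFunctionFieldFullC κ N) := by
    intro n
    induction n using Nat.strong_induction_on with
    | _ n ih =>
      intro N hNn hN0 hLvl hKey
      subst hNn
      by_cases hN1 : N = 1
      · subst hN1
        rw [dedekindPsi_one, Nat.cast_one]
        exact one_le_relrank _ _
      · have hp : (N.minFac).Prime := Nat.minFac_prime hN1
        obtain ⟨N', hN'⟩ : N.minFac ∣ N := Nat.minFac_dvd N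
        set p := N.minFac with hpdef
        have hN'0 : N' ≠ 0 := by
          rintro rfl
          exact hN0 (by rw [hN', mul_zero])
        have : NeZero p := ⟨hp.ne_zero⟩
        have : NeZero N' := ⟨hN'0⟩
        have hNeq : N = N' * p := by rw [hN', mul_comm]
        have hlt : N' < N := by
          rw [hNeq]
          exact lt_mul_of_one_lt_right (Nat.pos_of_ne_zero hN'0) hp.one_lt
        have hN'dvd : N' ∣ N := ⟨p, hNeq⟩
        have ih' := ih N' hlt N' rfl hN'0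
          (fun q _ hq hqN => hLvl q hq (hqN.trans hN'dvd))
          (fun q M _ _ hq hqM hqM' => hKey q M hq (hqM.trans hN'dvd) hqM')
        have hLp : LevelData κ p := hLvl p hp ⟨N', hN'⟩
        rw [hNeq]
        by_cases hpN' : p ∣ N'
        · refine step_of_dvd κ N' p hp hpN' hLp ?_ ih'
          intro hmem
          have h1 : κ⟮jqModC κ⟯ ≤ modularFunctionFieldFullC κ 1 :=
            adjoin_simple_le_iff.mpr (jqModC_mem_full κ 1)
          exact hKey p 1 hp (by rw [mul_one]; exact ⟨N', hN'⟩) (Nat.Prime.not_dvd_one hp)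
            (h1 hmem)
        · exact step_of_not_dvd κ N' p hp hpN' hLp
            (hKey p N' hp (by rw [hN']) hpN') ih'
  exact main N N rfl (NeZero.ne N) hLvl hKey

end Induction

end Fermat.Agent.S28.Deg

end
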