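/-
S28 (Igusa): the degree bound `ψ(N) ≤ [κ(J(q^d) : d ∣ N) : κ(J)]` over an algebraically closed
field `κ`, from (A0) and the modular equations (PHI) alone, through the landed spine
`Deg.psi_le_relrank`, `LevelData.levelData_of_phi` and KEY (`Conj.hKey_of_modular_eq`).
-/
import Mathlib
import Fermat.Agent.S28.Conj
import Fermat.Agent.S28.Deg
import Fermat.Agent.S28.LevelData

set_option autoImplicit false

open ModularCurve Polynomial IntermediateField

namespace Fermat.Agent.S28.ConjSpine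

/-- The degree lower bound from (A0) and (PHI), both for the prime divisors of `N`. -/
theorem psi_le_relrank_of_phi (κ : Type*) [Field κ] [IsAlgClosed κ] (N : ℕ) [NeZero N]
    (T : κˣ → LaurentSeries κ →+* LaurentSeries κ)
    (hT : ∀ (ξ : κˣ) (f : LaurentSeries κ) (k : ℤ),
      (T ξ f).coeff k = ((ξ ^ k : κˣ) : κ) * f.coeff k)
    (hA0 : ∀ (p : ℕ) [NeZero p], p.Prime → p ∣ N →
      qExpand κ p (jqModC κ) ∉ IntermediateField.adjoin κ {jqModC κ})
    (hΦ : ∀ (r : ℕ) [NeZero r], r.Prime → r ∣ N →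
      ∃ ζ : κˣ, IsPrimitiveRoot (ζ : κ) r ∧ ∃ (a : κ[X]) (Φ : κ[X][X]), a ≠ 0 ∧
        Φ.map (aeval (qExpand κ r (jqModC κ))).toRingHom
          = C (aeval (qExpand κ r (jqModC κ)) a) *
            ((X - C (qExpand κ (r ^ 2) (jqModC κ))) *
              ∏ b ∈ Finset.range r, (X - C (T (ζ ^ b) (jqModC κ))))) :
    (dedekindPsi N : Cardinal) ≤
      IntermediateField.relrank κ⟮jqModC κ⟯ (modularFunctionFieldFullC κ N) :=
  Deg.psi_le_relrank κ N
    (fun p _ hp hpN => by
      obtain ⟨ζ, hζ, h⟩ := hΦ p hp hpN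
      exact LevelData.levelData_of_phi κ p hp ζ hζ T hT h)
    (Conj.hKey_of_modular_eq κ N T hT hA0 hΦ)

end Fermat.Agent.S28.ConjSpine
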