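import Mathlib
import Fermat.Prelude.Def_ModularCurve_X0ModL
import Fermat.Agent.S24.CombIndex

/-!
# S28, piece IND: the degree of the mod-`ℓ` modular function field is at least `ψ(M)`

Pure field-degree bookkeeping (`IntermediateField.relrank` inside `LaurentSeries κ`).
-/

set_option autoImplicit false

namespace Fermat.Agent.S28.Ind

open ModularCurve IntermediateField Polynomial

section General

variable {κ : Type*} [Field κ] {L : Type*} [Field L] [Algebra κ L]

/-- If every nonzero polynomial over `B` vanishing at `x ∈ C` has degree at least `n`, then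
`[C : B] ≥ n`. -/
theorem natCast_le_relrank {B C : IntermediateField κ L} (h : B ≤ C) {x : L} (hx : x ∈ C) (n : ℕ)
    (hdeg : ∀ g : (↥B)[X], g ≠ 0 → aeval x g = 0 → n ≤ g.natDegree) :
    (n : Cardinal) ≤ relrank B C := by
  rw [relrank_eq_rank_of_le h]
  have hx' : x ∈ extendScalars h := hx
  let v : Fin n → ↥(extendScalars h) := fun i => ⟨x ^ (i : ℕ), pow_mem hx' _⟩
  have hv : LinearIndependent ↥B v := by
    rw [Fintype.linearIndependent_iff]
    intro c hc i
    by_contra hci
    set g : (↥B)[X] := ∑ j : Fin n, Polynomial.C (c j) * X ^ (j : ℕ) with hg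
    have hgcoeff : ∀ j : Fin n, g.coeff (j : ℕ) = c j := by
      intro j
      rw [hg, Polynomial.finsetSum_coeff]
      simp only [Polynomial.coeff_C_mul_X_pow]
      rw [Finset.sum_eq_single j]
      · simp
      · intro b _ hb
        rw [if_neg]
        intro e
        exact hb (Fin.ext e.symm)
      · intro hj
        exact absurd (Finset.mem_univ j) hj
    have hg0 : g ≠ 0 := fun h0 => hci (by rw [← hgcoeff, h0, Polynomial.coeff_zero])
    have hgx : aeval x g = 0 := by
      have hc' := congrArg (fun z : ↥(extendScalars h) => (z : L)) hc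
      simp only [AddSubmonoidClass.coe_finsetSum, ZeroMemClass.coe_zero] at hc'
      rw [hg, map_sum]
      rw [← hc']
      refine Finset.sum_congr rfl fun j _ => ?_
      rw [map_mul, aeval_C, map_pow, aeval_X]
      rfl
    have hgdeg : g.natDegree < n := by
      have hn : 0 < n := i.pos
      have : g.natDegree ≤ n - 1 := by
        rw [hg]
        refine Polynomial.natDegree_sum_le_of_forall_le _ _ fun j _ => ?_
        refine (Polynomial.natDegree_C_mul_X_pow_le _ _).trans ?_
        have := j.isLt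
        omega
      omega
    exact absurd (hdeg g hg0 hgx) (not_le.mpr hgdeg)
  have := hv.cardinal_lift_le_rank
  simpa using this

/-- `[C : B] ≥ 1`. -/
theorem one_le_relrank {B C : IntermediateField κ L} (h : B ≤ C) : (1 : Cardinal) ≤ relrank B C := by
  have := natCast_le_relrank h (one_mem C) 1 (fun g hg0 hg => by
    by_contra hlt
    have hd : g.natDegree = 0 := by omega
    rw [Polynomial.eq_C_of_natDegree_eq_zero hd, aeval_C] at hg
    have h0 : g.coeff 0 = 0 := by
      have := (algebraMap ↥B L).injective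
      exact this (by rw [hg, map_zero])
    exact hg0 (by rw [Polynomial.eq_C_of_natDegree_eq_zero hd, h0, map_zero]))
  simpa using this

/-- `B(x)`, as an intermediate field of `L / κ`. -/
noncomputable def adj (B : IntermediateField κ L) (x : L) : IntermediateField κ L :=
  (IntermediateField.adjoin ↥B {x}).restrictScalars κ

theorem le_adj (B : IntermediateField κ L) (x : L) : B ≤ adj B x := by
  intro y hy
  rw [adj, IntermediateField.mem_restrictScalars]
  exact (IntermediateField.adjoin ↥B {x}).algebraMap_mem ⟨y, hy⟩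

theorem mem_adj_self (B : IntermediateField κ L) (x : L) : x ∈ adj B x := by
  rw [adj, IntermediateField.mem_restrictScalars]
  exact IntermediateField.mem_adjoin_simple_self ↥B x

theorem adj_le {B D : IntermediateField κ L} {x : L} (hBD : B ≤ D) (hx : x ∈ D) :
    adj B x ≤ D := by
  intro y hy
  rw [adj, IntermediateField.mem_restrictScalars] at hy
  have hle : IntermediateField.adjoin ↥B {x} ≤ extendScalars hBD := by
    rw [IntermediateField.adjoin_simple_le_iff]
    exact hx
  exact hle hy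

theorem extendScalars_le_adj (B : IntermediateField κ L) (x : L) :
    extendScalars (le_adj B x) = IntermediateField.adjoin ↥B {x} := by
  ext y
  rfl

/-- If `x` is a root of a nonzero polynomial of degree `≤ n` over `B` then `[B(x) : B] ≤ n`. -/
theorem relrank_adj_le {B : IntermediateField κ L} {x : L} {n : ℕ} (g : (↥B)[X]) (hg0 : g ≠ 0)
    (hgx : aeval x g = 0) (hn : g.natDegree ≤ n) : relrank B (adj B x) ≤ (n : Cardinal) := by
  rw [relrank_eq_rank_of_le (le_adj B x), extendScalars_le_adj]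
  have hint : IsIntegral ↥B x := IsAlgebraic.isIntegral ⟨g, hg0, hgx⟩
  have hfd : FiniteDimensional ↥B ↥(IntermediateField.adjoin ↥B {x}) :=
    IntermediateField.adjoin.finiteDimensional hint
  rw [← Module.finrank_eq_rank, IntermediateField.adjoin.finrank hint]
  have h1 : (minpoly ↥B x).natDegree ≤ g.natDegree :=
    Polynomial.natDegree_le_natDegree (minpoly.degree_le_of_ne_zero ↥B x hg0 hgx)
  exact_mod_cast h1.trans hn

end General

section Main

variable (κ : Type*) [Field κ]

/-- `J(q^d)` -/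
noncomputable abbrev Jd (d : ℕ) [NeZero d] : LaurentSeries κ := qExpand κ d (jqModC κ)

/-- The three degree inputs at a prime `p` (produced from `(Φ_p)` and Kummer theory). -/
structure PrimeInput (p : ℕ) [NeZero p] : Prop where
  /-- `J` is a root of a nonzero polynomial of degree `≤ p + 1` over `κ(J(q^p))` -/
  deg_le : ∃ g : (κ⟮Jd κ p⟯)[X], g ≠ 0 ∧ g.natDegree ≤ p + 1 ∧ aeval (jqModC κ) g = 0
  /-- Kummer: `J` has degree `≥ p` over every subfield of `κ((q^p))` -/
  kummer : ∀ E : IntermediateField κ (LaurentSeries κ), E ≤ (qExpandAlgHomC κ p).fieldRange →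
    ∀ g : E[X], g ≠ 0 → aeval (jqModC κ) g = 0 → p ≤ g.natDegree
  /-- dichotomy: over a subfield `E ⊇ κ(J)` of `κ((q))` not containing `J(q^p)`, the element
  `J(q^p)` has degree `≥ p + 1` -/
  dich : ∀ E : IntermediateField κ (LaurentSeries κ), κ⟮jqModC κ⟯ ≤ E → Jd κ p ∉ E →
    ∀ g : E[X], g ≠ 0 → aeval (Jd κ p) g = 0 → p + 1 ≤ g.natDegree

variable {κ}

theorem adjoin_J_le (M : ℕ) : κ⟮jqModC κ⟯ ≤ modularFunctionFieldFullC κ M := by
  rw [IntermediateField.adjoin_simple_le_iff]
  exact jqModC_mem_full κ M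

theorem map_adjoin_J (p : ℕ) [NeZero p] :
    (κ⟮jqModC κ⟯).map (qExpandAlgHomC κ p) = κ⟮Jd κ p⟯ := by
  rw [IntermediateField.adjoin_map, Set.image_singleton, qExpandAlgHomC_apply]

/-- STEP 2: `p ∤ M'`. -/
theorem step_not_dvd {p M' : ℕ} [NeZero p] [NeZero M'] (hp : p.Prime) (hpM' : ¬ p ∣ M')
    (hin : PrimeInput κ p) (hkey : Jd κ p ∉ modularFunctionFieldFullC κ M')
    (ih : (dedekindPsi M' : Cardinal) ≤
      relrank κ⟮jqModC κ⟯ (modularFunctionFieldFullC κ M')) :
    (dedekindPsi (M' * p) : Cardinal) ≤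
      relrank κ⟮jqModC κ⟯ (modularFunctionFieldFullC κ (M' * p)) := by
  have hM'0 : M' ≠ 0 := NeZero.ne M'
  have : NeZero (M' * p) := ⟨Nat.mul_ne_zero hM'0 hp.ne_zero⟩
  have hB : κ⟮jqModC κ⟯ ≤ modularFunctionFieldFullC κ M' := adjoin_J_le M'
  have hBC : modularFunctionFieldFullC κ M' ≤ modularFunctionFieldFullC κ (M' * p) :=
    full_degeneracyC_le κ (Dvd.intro _ rfl)
  have hx : Jd κ p ∈ modularFunctionFieldFullC κ (M' * p) :=
    jqModCd_mem_full κ (M' * p) (Dvd.intro_left _ rfl)
  have h1 : ((p + 1 : ℕ) : Cardinal) ≤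
      relrank (modularFunctionFieldFullC κ M') (modularFunctionFieldFullC κ (M' * p)) :=
    natCast_le_relrank hBC hx (p + 1) (fun g hg0 hg =>
      hin.dich (modularFunctionFieldFullC κ M') hB hkey g hg0 hg)
  rw [← relrank_mul_relrank hB hBC, Fermat.Agent.S24.Comb.dedekindPsi_mul_of_not_dvd hM'0 hp hpM',
    Nat.cast_mul]
  exact mul_le_mul' ih h1

/-- STEP 1: `p ∣ M'`. -/
theorem step_dvd {p M' : ℕ} [NeZero p] [NeZero M'] (hp : p.Prime) (hpM' : p ∣ M')
    (hin : PrimeInput κ p) (hA0 : Jd κ p ∉ κ⟮jqModC κ⟯)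
    (ih : (dedekindPsi M' : Cardinal) ≤
      relrank κ⟮jqModC κ⟯ (modularFunctionFieldFullC κ M')) :
    (dedekindPsi (M' * p) : Cardinal) ≤
      relrank κ⟮jqModC κ⟯ (modularFunctionFieldFullC κ (M' * p)) := by
  have hM'0 : M' ≠ 0 := NeZero.ne M'
  -- the fields `A' = κ(J(q^p)) ⊆ B' = F_{M'}(q^p)`
  have hA'B' : κ⟮Jd κ p⟯ ≤ (modularFunctionFieldFullC κ M').map (qExpandAlgHomC κ p) := by
    rw [← map_adjoin_J p]
    exact IntermediateField.map_mono _ (adjoin_J_le M')
  have hrel : relrank κ⟮Jd κ p⟯ ((modularFunctionFieldFullC κ M').map (qExpandAlgHomC κ p)) =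
      relrank κ⟮jqModC κ⟯ (modularFunctionFieldFullC κ M') := by
    rw [← map_adjoin_J p]
    exact relrank_map_map _ _ (qExpandAlgHomC κ p)
  have hB'range : (modularFunctionFieldFullC κ M').map (qExpandAlgHomC κ p) ≤
      (qExpandAlgHomC κ p).fieldRange := by
    rintro x ⟨y, -, rfl⟩
    exact ⟨y, rfl⟩
  have hB'F : (modularFunctionFieldFullC κ M').map (qExpandAlgHomC κ p) ≤
      modularFunctionFieldFullC κ (M' * p) := full_degeneracyC_map_le κ M' p
  have hJF : jqModC κ ∈ modularFunctionFieldFullC κ (M' * p) := jqModC_mem_full κ _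
  -- `G = A'(J) ⊆ D = B'(J) ⊆ F_{M' p}`
  have hDF := adj_le hB'F hJF
  have hGD : adj κ⟮Jd κ p⟯ (jqModC κ) ≤
      adj ((modularFunctionFieldFullC κ M').map (qExpandAlgHomC κ p)) (jqModC κ) :=
    adj_le (hA'B'.trans (le_adj _ _)) (mem_adj_self _ _)
  have hk0G : κ⟮jqModC κ⟯ ≤ adj κ⟮Jd κ p⟯ (jqModC κ) := by
    rw [IntermediateField.adjoin_simple_le_iff]
    exact mem_adj_self _ _
  have hJdG : Jd κ p ∈ adj κ⟮Jd κ p⟯ (jqModC κ) :=
    le_adj _ _ (IntermediateField.mem_adjoin_simple_self κ _)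
  have h1 : (p : Cardinal) ≤
      relrank ((modularFunctionFieldFullC κ M').map (qExpandAlgHomC κ p))
        (adj ((modularFunctionFieldFullC κ M').map (qExpandAlgHomC κ p)) (jqModC κ)) :=
    natCast_le_relrank (le_adj _ _) (mem_adj_self _ _) p
      (fun g hg0 hg => hin.kummer _ hB'range g hg0 hg)
  obtain ⟨g, hg0, hgdeg, hgx⟩ := hin.deg_le
  have h2 : relrank κ⟮Jd κ p⟯ (adj κ⟮Jd κ p⟯ (jqModC κ)) ≤ ((p + 1 : ℕ) : Cardinal) :=
    relrank_adj_le g hg0 hgx hgdeg
  have h3 : ((p + 1 : ℕ) : Cardinal) ≤ relrank κ⟮jqModC κ⟯ (adj κ⟮Jd κ p⟯ (jqModC κ)) :=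
    natCast_le_relrank hk0G hJdG (p + 1) (fun g hg0 hg => hin.dich _ le_rfl hA0 g hg0 hg)
  have e1 := relrank_mul_relrank hA'B' (le_adj _ (jqModC κ))
  have e2 := relrank_mul_relrank (le_adj κ⟮Jd κ p⟯ (jqModC κ)) hGD
  have e3 := relrank_mul_relrank hk0G hGD
  have e4 := relrank_mul_relrank (hk0G.trans hGD) hDF
  rw [Fermat.Agent.S24.Comb.dedekindPsi_mul_of_dvd hM'0 hp hpM', Nat.cast_mul, ← e4, ← e3]
  refine le_trans ?_ (le_mul_of_one_le_right' (one_le_relrank hDF))
  refine le_trans ?_ (mul_le_mul' (h2.trans h3) le_rfl)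
  rw [e2, ← e1, hrel]
  exact mul_le_mul' ih h1

/-- **IND**: `[F_M : κ(J)] ≥ ψ(M)`. -/
theorem psi_le_relrank (κ : Type*) [Field κ] (M : ℕ) [NeZero M]
    (hin : ∀ (p : ℕ) [NeZero p], p.Prime → p ∣ M → PrimeInput κ p)
    (hkey : ∀ (p M' : ℕ) [NeZero p] [NeZero M'], p.Prime → ¬ p ∣ M' → M' * p ∣ M →
      Jd κ p ∉ modularFunctionFieldFullC κ M') :
    (dedekindPsi M : Cardinal) ≤
      relrank κ⟮jqModC κ⟯ (modularFunctionFieldFullC κ M) := by
  have hM : M ≠ 0 := NeZero.ne M
  clear ‹NeZero M›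
  induction M using Nat.strong_induction_on with
  | _ M ih =>
    by_cases hM1 : M = 1
    · subst hM1
      rw [dedekindPsi_one, Nat.cast_one]
      exact one_le_relrank (adjoin_J_le 1)
    · obtain ⟨p, hp, hpM⟩ := Nat.exists_prime_and_dvd hM1
      obtain ⟨M', rfl⟩ := hpM
      have hM'0 : M' ≠ 0 := fun h => hM (by rw [h, mul_zero])
      have : NeZero p := ⟨hp.ne_zero⟩
      have : NeZero M' := ⟨hM'0⟩
      have hlt : M' < p * M' := by
        have := hp.one_lt
        have hpos : 0 < M' := Nat.pos_of_ne_zero hM'0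
        nlinarith
      have ih' := ih M' hlt
        (fun q _ hq hqM' => hin q hq (Dvd.dvd.mul_left hqM' p))
        (fun q M'' _ _ hq hqM'' hdvd => hkey q M'' hq hqM'' (Dvd.dvd.mul_left hdvd p)) hM'0
      rw [mul_comm p M']
      have hinp : PrimeInput κ p := hin p hp (Dvd.intro _ rfl)
      by_cases hpM' : p ∣ M'
      · have hA0 : Jd κ p ∉ κ⟮jqModC κ⟯ := by
          have h1 : Jd κ p ∉ modularFunctionFieldFullC κ 1 :=
            hkey p 1 hp (by
              intro h
              exact hp.one_lt.ne' (Nat.dvd_one.mp h)) (by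
              rw [one_mul]
              exact Dvd.intro _ rfl)
          intro hmem
          exact h1 (adjoin_J_le 1 hmem)
        exact step_dvd hp hpM' hinp hA0 ih'
      · have hk : Jd κ p ∉ modularFunctionFieldFullC κ M' :=
          hkey p M' hp hpM' (by rw [mul_comm])
        exact step_not_dvd hp hpM' hinp hk ih'

/-- **IND, consumer form**: `ψ(M)` elements of `F_M` which are linearly independent over
`κ(J)`. -/
theorem exists_psi_linearIndependent (κ : Type*) [Field κ] (M : ℕ) [NeZero M]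
    (hin : ∀ (p : ℕ) [NeZero p], p.Prime → p ∣ M → PrimeInput κ p)
    (hkey : ∀ (p M' : ℕ) [NeZero p] [NeZero M'], p.Prime → ¬ p ∣ M' → M' * p ∣ M →
      Jd κ p ∉ modularFunctionFieldFullC κ M') :
    ∃ v : Fin (dedekindPsi M) → LaurentSeries κ,
      (∀ i, v i ∈ modularFunctionFieldFullC κ M) ∧ LinearIndependent κ⟮jqModC κ⟯ v := by
  have h := psi_le_relrank κ M hin hkey
  rw [relrank_eq_rank_of_le (adjoin_J_le M)] at h
  have hfree : Module.Free ↥κ⟮jqModC κ⟯ ↥(extendScalars (adjoin_J_le (κ := κ) M)) :=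
    Module.Free.of_divisionRing _ _
  obtain ⟨s, hs, hli⟩ := le_rank_iff_exists_linearIndependent_finset.mp h
  refine ⟨fun i => ((((s.equivFinOfCardEq hs).symm i : s) :
    ↥(extendScalars (adjoin_J_le (κ := κ) M))) : LaurentSeries κ), fun i =>
      (((s.equivFinOfCardEq hs).symm i : s) :
        ↥(extendScalars (adjoin_J_le (κ := κ) M))).2, ?_⟩
  have h1 : LinearIndependent κ⟮jqModC κ⟯
      (fun i => (((s.equivFinOfCardEq hs).symm i : s) :
        ↥(extendScalars (adjoin_J_le (κ := κ) M)))) :=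
    hli.comp _ (s.equivFinOfCardEq hs).symm.injective
  exact h1.map' (extendScalars (adjoin_J_le (κ := κ) M)).val.toLinearMap
    (LinearMap.ker_eq_bot.mpr Subtype.val_injective)

end Main

end Fermat.Agent.S28.Ind
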