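/-
S28, piece KUMMER, glue file (helper17).

`primeInput_of_levelData` : helper21's abstract level-`p` data `Deg.LevelData κ p` give helper19's
`Ind.PrimeInput κ p` (the three degree facts `deg_le`, `kummer`, `dich`), by the abstract Kummer
bounds of `Kummer.lean`.  Composed with helper24's `LevelData.levelData_of_phi*` this feeds the
induction `Ind.psi_le_relrank` directly from the level-`p` modular equation (piece (Φ)).
-/
import Mathlib
import Fermat.Prelude.Def_ModularCurve_X0ModL
import Fermat.Agent.S28.Kummer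
import Fermat.Agent.S28.DegDefs
import Fermat.Agent.S28.Ind
import Fermat.Agent.S28.LevelData

set_option autoImplicit false

noncomputable section

namespace Fermat.Agent.S28.KummerGlue

open ModularCurve Polynomial IntermediateField

variable (κ : Type*) [Field κ]

/-- A polynomial over `L` all of whose coefficients lie in the range of a field hom `i` comes
from a polynomial over the source, of the same `natDegree`. -/
theorem exists_map_eq {F L : Type*} [Field F] [Field L] (i : F →+* L) (G : L[X])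
    (hG : ∀ n, G.coeff n ∈ Set.range i) : ∃ g : F[X], g.map i = G ∧ g.natDegree = G.natDegree := by
  have h : G ∈ Polynomial.lifts i := (Polynomial.lifts_iff_coeff_lifts G).mpr hG
  obtain ⟨g, hg, hdeg⟩ := Polynomial.exists_degree_eq_of_mem_lifts h
  exact ⟨g, hg, Polynomial.natDegree_eq_natDegree hdeg⟩

/-- A monic polynomial of degree `p + 1` vanishing at `y` and at the `p` pairwise distinct
elements `r b ≠ y` is `(X - y) ∏ (X - r b)`. -/
theorem eq_prod_of_roots {L : Type*} [Field L] (G : L[X]) (p : ℕ) (hm : G.Monic)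
    (hd : G.natDegree = p + 1) (y : L) (r : ℕ → L) (hy : G.eval y = 0)
    (hr : ∀ b, G.eval (r b) = 0) (hinj : ∀ b c, b < p → c < p → r b = r c → b = c)
    (hne : ∀ b, r b ≠ y) :
    G = (X - C y) * ∏ b ∈ Finset.range p, (X - C (r b)) := by
  classical
  have hmon : (∏ b ∈ Finset.range p, (X - C (r b))).Monic :=
    monic_prod_of_monic _ _ fun b _ => monic_X_sub_C _
  have hPm : ((X - C y) * ∏ b ∈ Finset.range p, (X - C (r b))).Monic :=
    (monic_X_sub_C _).mul hmon
  have hPd : ((X - C y) * ∏ b ∈ Finset.range p, (X - C (r b))).natDegree = p + 1 := by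
    rw [Monic.natDegree_mul (monic_X_sub_C _) hmon, natDegree_X_sub_C,
      natDegree_prod_of_monic _ _ (fun b _ => monic_X_sub_C _)]
    simp [add_comm]
  -- the product divides `G`
  have hdvd1 : (∏ b ∈ Finset.range p, (X - C (r b))) ∣ G := by
    refine Finset.prod_dvd_of_coprime ?_ ?_
    · intro b hb c hc hbc
      refine Polynomial.isCoprime_X_sub_C_of_isUnit_sub ?_
      rw [isUnit_iff_ne_zero, sub_ne_zero]
      intro h
      exact hbc (hinj b c (Finset.mem_range.mp (Finset.mem_coe.mp hb))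
        (Finset.mem_range.mp (Finset.mem_coe.mp hc)) h)
    · intro b _
      exact Polynomial.dvd_iff_isRoot.mpr (hr b)
  have hdvd2 : (X - C y) ∣ G := Polynomial.dvd_iff_isRoot.mpr hy
  have hcop : IsCoprime (X - C y) (∏ b ∈ Finset.range p, (X - C (r b))) := by
    refine IsCoprime.prod_right ?_
    intro b _
    refine Polynomial.isCoprime_X_sub_C_of_isUnit_sub ?_
    rw [isUnit_iff_ne_zero, sub_ne_zero]
    exact fun h => hne b h.symm
  have hdvd : ((X - C y) * ∏ b ∈ Finset.range p, (X - C (r b))) ∣ G :=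
    hcop.mul_dvd hdvd2 hdvd1
  exact Polynomial.eq_of_monic_of_dvd_of_natDegree_le hPm hm hdvd (by rw [hd, hPd])

/-- **GLUE (interchange form)**: helper21's abstract level-`p` data give helper19's
`PrimeInput`. -/
theorem primeInput_of_levelData (p : ℕ) [NeZero p] (h : Deg.LevelData κ p) :
    Ind.PrimeInput κ p := by
  obtain ⟨τ, G, hτ, hGm, hGd, hGc, hG2, hGb, hτp, hinj, hne⟩ := h
  have hG0 : G ≠ 0 := hGm.ne_zero
  refine ⟨?_, ?_, ?_⟩
  · -- deg_le
    obtain ⟨g, hg, hdeg⟩ := exists_map_eq (algebraMap ↥(κ⟮Ind.Jd κ p⟯) (LaurentSeries κ)) G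
      (fun n => ⟨⟨G.coeff n, hGc n⟩, rfl⟩)
    refine ⟨g, ?_, ?_, ?_⟩
    · rintro rfl
      exact hG0 (by rw [← hg, Polynomial.map_zero])
    · rw [hdeg, hGd]
    · rw [Polynomial.aeval_def, ← Polynomial.eval_map, hg]
      exact hGb 0
  · -- kummer
    intro E hE g hg0 hg
    refine Kummer.natDegree_ge_of_fixed τ (algebraMap ↥E (LaurentSeries κ)) ?_ (jqModC κ)
      (fun b hb c hc h => hinj b c hb hc h) g hg0 ?_
    · intro a
      obtain ⟨f, hf⟩ := hE a.2
      show τ (a : LaurentSeries κ) = a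
      rw [← hf]
      exact hτ f
    · rwa [Polynomial.aeval_def] at hg
  · -- dich
    intro E hJE hJd g hg0 hg
    have hσinj : Function.Injective (qExpand κ p) := qExpand_injective p
    have hy : qExpand κ p (Ind.Jd κ p) = qExpand κ (p ^ 2) (jqModC κ) := by
      show qExpand κ p (qExpand κ p (jqModC κ)) = _
      rw [qExpand_qExpand]
      exact qExpand_congr (by ring) _
    have hfix : ∀ a : ↥E, τ (((qExpand κ p).comp (algebraMap ↥E (LaurentSeries κ))) a)
        = ((qExpand κ p).comp (algebraMap ↥E (LaurentSeries κ))) a := fun a => hτ _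
    have hGeq := eq_prod_of_roots G p hGm hGd (qExpand κ (p ^ 2) (jqModC κ))
      (fun b => τ^[b] (jqModC κ)) hG2 hGb hinj hne
    -- the coefficients of `G` lie in `σ(κ(J)) ⊆ σ(E)`
    have hrange : ∀ n, G.coeff n ∈
        Set.range ((qExpand κ p).comp (algebraMap ↥E (LaurentSeries κ))) := by
      intro n
      have h1 : G.coeff n ∈ κ⟮Ind.Jd κ p⟯ := hGc n
      rw [← Ind.map_adjoin_J p] at h1
      obtain ⟨e, he, hen⟩ := h1
      exact ⟨⟨e, hJE he⟩, hen⟩
    obtain ⟨P₀, hP₀, -⟩ := exists_map_eq _ G hrange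
    refine Kummer.natDegree_ge_succ_of_fixed τ
      ((qExpand κ p).comp (algebraMap ↥E (LaurentSeries κ))) hfix (jqModC κ)
      (qExpand κ (p ^ 2) (jqModC κ))
      (fun b hb c hc h => hinj b c hb hc h) hτp (fun b _ => hne b) P₀ (hP₀.trans hGeq) ?_ g hg0 ?_
    · rintro ⟨e, he⟩
      apply hJd
      have h2 : qExpand κ p (e : LaurentSeries κ) = qExpand κ p (Ind.Jd κ p) := by
        rw [hy]; exact he
      rw [← hσinj h2]
      exact e.2
    · rw [← hy, ← Polynomial.hom_eval₂, ← Polynomial.aeval_def, hg, map_zero]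

/-- **GLUE-19**: the level-`p` modular equation (piece (Φ), twist abstracted to any
coefficientwise twist family `T`) gives `Ind.PrimeInput κ p`. -/
theorem primeInput_of_phi (p : ℕ) [NeZero p] (hp : p.Prime) (ζ : κˣ)
    (hζ : IsPrimitiveRoot (ζ : κ) p)
    (T : κˣ → LaurentSeries κ →+* LaurentSeries κ)
    (hT : ∀ (ξ : κˣ) (f : LaurentSeries κ) (k : ℤ),
      (T ξ f).coeff k = ((ξ ^ k : κˣ) : κ) * f.coeff k)
    (hΦ : ∃ (a : κ[X]) (Φ : κ[X][X]), a ≠ 0 ∧
      Φ.map (aeval (qExpand κ p (jqModC κ))).toRingHom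
        = C (aeval (qExpand κ p (jqModC κ)) a) *
          ((X - C (qExpand κ (p ^ 2) (jqModC κ))) *
            ∏ b ∈ Finset.range p, (X - C (T (ζ ^ b) (jqModC κ))))) :
    Ind.PrimeInput κ p :=
  primeInput_of_levelData κ p (LevelData.levelData_of_phi κ p hp ζ hζ T hT hΦ)

/-- Variant of `primeInput_of_phi` with the coefficient law written with `zpow` in `κ`. -/
theorem primeInput_of_phi_zpow (p : ℕ) [NeZero p] (hp : p.Prime) (ζ : κˣ)
    (hζ : IsPrimitiveRoot (ζ : κ) p)
    (T : κˣ → LaurentSeries κ →+* LaurentSeries κ)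
    (hT : ∀ (ξ : κˣ) (f : LaurentSeries κ) (k : ℤ),
      (T ξ f).coeff k = (ξ : κ) ^ k * f.coeff k)
    (hΦ : ∃ (a : κ[X]) (Φ : κ[X][X]), a ≠ 0 ∧
      Φ.map (aeval (qExpand κ p (jqModC κ))).toRingHom
        = C (aeval (qExpand κ p (jqModC κ)) a) *
          ((X - C (qExpand κ (p ^ 2) (jqModC κ))) *
            ∏ b ∈ Finset.range p, (X - C (T (ζ ^ b) (jqModC κ))))) :
    Ind.PrimeInput κ p :=
  primeInput_of_levelData κ p (LevelData.levelData_of_phi_zpow κ p hp ζ hζ T hT hΦ)

/-- Variant over an algebraically closed field in which `p ≠ 0`. -/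
theorem primeInput_of_phi_algClosed [IsAlgClosed κ] (p : ℕ) [NeZero p] (hp : p.Prime)
    (hpκ : (p : κ) ≠ 0)
    (T : κˣ → LaurentSeries κ →+* LaurentSeries κ)
    (hT : ∀ (ξ : κˣ) (f : LaurentSeries κ) (k : ℤ),
      (T ξ f).coeff k = ((ξ ^ k : κˣ) : κ) * f.coeff k)
    (hΦ : ∀ ζ : κˣ, IsPrimitiveRoot (ζ : κ) p → ∃ (a : κ[X]) (Φ : κ[X][X]), a ≠ 0 ∧
      Φ.map (aeval (qExpand κ p (jqModC κ))).toRingHom
        = C (aeval (qExpand κ p (jqModC κ)) a) *
          ((X - C (qExpand κ (p ^ 2) (jqModC κ))) *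
            ∏ b ∈ Finset.range p, (X - C (T (ζ ^ b) (jqModC κ))))) :
    Ind.PrimeInput κ p :=
  primeInput_of_levelData κ p (LevelData.levelData_of_phi_algClosed κ p hp hpκ T hT hΦ)

/-- The same with my concrete `Kummer.twist` as the twist family. -/
theorem primeInput_of_phi_twist (p : ℕ) [NeZero p] (hp : p.Prime) (ζ : κˣ)
    (hζ : IsPrimitiveRoot (ζ : κ) p)
    (hΦ : ∃ (a : κ[X]) (Φ : κ[X][X]), a ≠ 0 ∧
      Φ.map (aeval (qExpand κ p (jqModC κ))).toRingHom
        = C (aeval (qExpand κ p (jqModC κ)) a) *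
          ((X - C (qExpand κ (p ^ 2) (jqModC κ))) *
            ∏ b ∈ Finset.range p, (X - C (Kummer.twist (ζ ^ b) (jqModC κ))))) :
    Ind.PrimeInput κ p :=
  primeInput_of_phi_zpow κ p hp ζ hζ (fun ξ => Kummer.twist ξ)
    (fun ξ f k => Kummer.twist_coeff ξ f k) hΦ

end Fermat.Agent.S28.KummerGlue

end
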