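/-
S28 piece NORMAL (helper22): base-ring facts for the Igusa charts.

* `ℤ_(ℓ) = GaloisRep.ratLocalizedAt ℓ` is the localization of `ℤ` at `(ℓ)`, hence a discrete
  valuation ring.
* For a field `F ⊇ ℚ` and `t : F` transcendental over `ℚ`, the ring `ℤ_(ℓ)[t]` is integrally
  closed with fraction field `ℚ(t)`: an element of `ℚ(t)` which is integral over `ℤ_(ℓ)[t]` lies
  in `ℤ_(ℓ)[t]`, and the minimal polynomial over `ℚ(t)` of an element integral over `ℤ_(ℓ)[t]`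
  has its coefficients in `ℤ_(ℓ)[t]`.
* Instantiation at the frozen chart generators `jFull N` and `(jFull N)⁻¹`.
-/
import Mathlib
import Fermat.Prelude.Def_GaloisRep_Flat
import Fermat.Prelude.Def_ModularCurve_IgusaScheme

set_option autoImplicit false

open Polynomial IntermediateField

namespace Fermat.Agent.S28.Normal

/-! ### `ℤ_(ℓ)` is a discrete valuation ring -/

section Base

variable (ℓ : ℕ) [Fact ℓ.Prime]

theorem span_prime : (Ideal.span {(ℓ : ℤ)}).IsPrime := by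
  rw [Ideal.span_singleton_prime (by exact_mod_cast (Fact.out : ℓ.Prime).ne_zero)]
  exact Nat.prime_iff_prime_int.mp Fact.out

theorem span_ne_bot : Ideal.span {(ℓ : ℤ)} ≠ ⊥ := by
  rw [Ne, Ideal.span_singleton_eq_bot]
  exact_mod_cast (Fact.out : ℓ.Prime).ne_zero

theorem mem_primeCompl_iff (n : ℤ) :
    haveI := span_prime ℓ
    n ∈ (Ideal.span {(ℓ : ℤ)}).primeCompl ↔ ¬ (ℓ : ℤ) ∣ n := by
  have := span_prime ℓ
  rw [Ideal.mem_primeCompl_iff, Ideal.mem_span_singleton]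

omit [Fact ℓ.Prime] in
theorem algebraMap_int_coe (n : ℤ) :
    ((algebraMap ℤ ↥(GaloisRep.ratLocalizedAt ℓ) n : ↥(GaloisRep.ratLocalizedAt ℓ)) : ℚ) = n := by
  simp

/-- `ℤ_(ℓ)` (the frozen subring of `ℚ`) is the localization of `ℤ` at the prime `(ℓ)`. -/
theorem isLocalization_atPrime :
    haveI := span_prime ℓ
    IsLocalization.AtPrime ↥(GaloisRep.ratLocalizedAt ℓ) (Ideal.span {(ℓ : ℤ)}) := by
  have := span_prime ℓ
  have hℓ : ℓ.Prime := Fact.out
  rw [IsLocalization.AtPrime, isLocalization_iff]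
  refine ⟨?_, ?_, ?_⟩
  · rintro ⟨y, hy⟩
    rw [mem_primeCompl_iff] at hy
    have hy0 : (y : ℚ) ≠ 0 := by
      rintro h
      have : y = 0 := by exact_mod_cast h
      exact hy (this ▸ dvd_zero _)
    have hmem : (y : ℚ)⁻¹ ∈ GaloisRep.ratLocalizedAt ℓ := by
      show ((y : ℚ)⁻¹).den.Coprime ℓ
      rw [Rat.inv_intCast_den, if_neg (by exact_mod_cast fun h : y = 0 => hy0 (by exact_mod_cast h))]
      rw [Nat.coprime_comm, hℓ.coprime_iff_not_dvd]
      intro h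
      exact hy (Int.natCast_dvd.mpr h)
    refine IsUnit.of_mul_eq_one ⟨(y : ℚ)⁻¹, hmem⟩ (Subtype.ext ?_)
    simp [hy0]
  · intro z
    have hz : (z : ℚ).den.Coprime ℓ := z.2
    refine ⟨((z : ℚ).num, ⟨((z : ℚ).den : ℤ), ?_⟩), Subtype.ext ?_⟩
    · rw [mem_primeCompl_iff]
      intro h
      have h1 : ℓ ∣ (z : ℚ).den := by exact_mod_cast h
      rw [Nat.coprime_comm, hℓ.coprime_iff_not_dvd] at hz
      exact hz h1
    · simp [Rat.mul_den_eq_num]
  · intro x y h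
    refine ⟨1, ?_⟩
    have h1 := congrArg (Subtype.val) h
    simp only [algebraMap_int_coe] at h1
    have : x = y := by exact_mod_cast h1
    simp [this]

/-- `ℤ_(ℓ)` is a discrete valuation ring. -/
instance instIsDiscreteValuationRing : IsDiscreteValuationRing ↥(GaloisRep.ratLocalizedAt ℓ) := by
  have := span_prime ℓ
  have := isLocalization_atPrime ℓ
  exact IsLocalization.AtPrime.isDiscreteValuationRing_of_dedekind_domain ℤ (span_ne_bot ℓ) _

end Base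

/-! ### `ℤ_(ℓ)[t] ⊆ ℚ(t)` -/

section Adjoin

variable (ℓ : ℕ)
variable {F : Type*} [Field F] [Algebra ℚ F] [Algebra ↥(GaloisRep.ratLocalizedAt ℓ) F]
  [IsScalarTower ↥(GaloisRep.ratLocalizedAt ℓ) ℚ F]

theorem algebraMap_injective_rat : Function.Injective
    (algebraMap ↥(GaloisRep.ratLocalizedAt ℓ) ℚ) := Subtype.val_injective

/-- a transcendental element over `ℚ` is transcendental over `ℤ_(ℓ)` -/
theorem transcendental_of_rat {t : F} (ht : Transcendental ℚ t) :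
    Transcendental ↥(GaloisRep.ratLocalizedAt ℓ) t :=
  ht.restrictScalars (algebraMap_injective_rat ℓ)

/-- `ℤ_(ℓ)[t] ⊆ ℚ(t)` -/
theorem adjoin_le_adjoin (t : F) :
    ∀ x ∈ Algebra.adjoin ↥(GaloisRep.ratLocalizedAt ℓ) ({t} : Set F), x ∈ ℚ⟮t⟯ := by
  intro x hx
  induction hx using Algebra.adjoin_induction with
  | mem y hy =>
    rw [Set.mem_singleton_iff] at hy
    subst hy
    exact mem_adjoin_simple_self ℚ _
  | algebraMap a =>
    rw [IsScalarTower.algebraMap_apply ↥(GaloisRep.ratLocalizedAt ℓ) ℚ F]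
    exact IntermediateField.algebraMap_mem _ _
  | add y z _ _ hy hz => exact add_mem hy hz
  | mul y z _ _ hy hz => exact mul_mem hy hz

omit [Algebra ℚ F] [IsScalarTower ↥(GaloisRep.ratLocalizedAt ℓ) ℚ F] in
/-- values of integer polynomials at `t` lie in `ℤ_(ℓ)[t]` -/
theorem aeval_int_mem_adjoin (t : F) (r : ℤ[X]) :
    aeval t r ∈ Algebra.adjoin ↥(GaloisRep.ratLocalizedAt ℓ) ({t} : Set F) := by
  have h : aeval t r = aeval t (r.map (algebraMap ℤ ↥(GaloisRep.ratLocalizedAt ℓ))) := by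
    rw [aeval_map_algebraMap]
  rw [h]
  exact aeval_mem_adjoin_singleton _ _

omit [IsScalarTower ↥(GaloisRep.ratLocalizedAt ℓ) ℚ F] in
/-- every element of `ℚ(t)` is a quotient of two elements of `ℤ_(ℓ)[t]` -/
theorem exists_div_of_mem_adjoin (t : F) {x : F} (hx : x ∈ ℚ⟮t⟯) :
    ∃ b₁ ∈ Algebra.adjoin ↥(GaloisRep.ratLocalizedAt ℓ) ({t} : Set F),
      ∃ b₂ ∈ Algebra.adjoin ↥(GaloisRep.ratLocalizedAt ℓ) ({t} : Set F),
        b₂ ≠ 0 ∧ x * b₂ = b₁ := by
  obtain ⟨r, s, rfl⟩ := (mem_adjoin_simple_iff ℚ x).mp hx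
  by_cases hs : aeval t s = 0
  · exact ⟨0, zero_mem _, 1, one_mem _, one_ne_zero, by simp [hs]⟩
  obtain ⟨br, hbr, hr⟩ := IsLocalization.integerNormalization_spec (nonZeroDivisors ℤ) r
  obtain ⟨bs, hbs, hs'⟩ := IsLocalization.integerNormalization_spec (nonZeroDivisors ℤ) s
  set r' := IsLocalization.integerNormalization (nonZeroDivisors ℤ) r
  set s' := IsLocalization.integerNormalization (nonZeroDivisors ℤ) s
  have hr2 : aeval t r' = (br : F) * aeval t r := by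
    have := congrArg (aeval t) hr
    rw [aeval_map_algebraMap] at this
    rw [this, map_zsmul, zsmul_eq_mul]
  have hs2 : aeval t s' = (bs : F) * aeval t s := by
    have := congrArg (aeval t) hs'
    rw [aeval_map_algebraMap] at this
    rw [this, map_zsmul, zsmul_eq_mul]
  have hcz : CharZero F := charZero_of_injective_algebraMap (algebraMap ℚ F).injective
  have hbr0 : (br : F) ≠ 0 := by exact_mod_cast nonZeroDivisors.ne_zero hbr
  have hbs0 : (bs : F) ≠ 0 := by exact_mod_cast nonZeroDivisors.ne_zero hbs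
  have hint : ∀ n : ℤ, (n : F) ∈ Algebra.adjoin ↥(GaloisRep.ratLocalizedAt ℓ) ({t} : Set F) :=
    fun n => intCast_mem _ n
  refine ⟨(bs : F) * aeval t r', mul_mem (hint bs) (aeval_int_mem_adjoin ℓ t r'),
    (br : F) * aeval t s', mul_mem (hint br) (aeval_int_mem_adjoin ℓ t s'), ?_, ?_⟩
  · rw [hs2]
    exact mul_ne_zero hbr0 (mul_ne_zero hbs0 hs)
  · rw [hr2, hs2]
    field_simp

/-- the inclusion `ℤ_(ℓ)[t] → ℚ(t)` -/
noncomputable def adjoinIncl (t : F) :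
    ↥(Algebra.adjoin ↥(GaloisRep.ratLocalizedAt ℓ) ({t} : Set F)) →+* ↥(ℚ⟮t⟯) where
  toFun b := ⟨b.1, adjoin_le_adjoin ℓ t b.1 b.2⟩
  map_one' := rfl
  map_mul' _ _ := rfl
  map_zero' := rfl
  map_add' _ _ := rfl

/-- `ℚ(t)` as an algebra over `ℤ_(ℓ)[t]` (not an instance) -/
@[reducible] noncomputable def algebraAdjoin (t : F) :
    Algebra ↥(Algebra.adjoin ↥(GaloisRep.ratLocalizedAt ℓ) ({t} : Set F)) ↥(ℚ⟮t⟯) :=
  (adjoinIncl ℓ t).toAlgebra

theorem isScalarTower_adjoin (t : F) :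
    letI := algebraAdjoin ℓ t
    IsScalarTower ↥(Algebra.adjoin ↥(GaloisRep.ratLocalizedAt ℓ) ({t} : Set F)) ↥(ℚ⟮t⟯) F :=
  letI := algebraAdjoin ℓ t
  IsScalarTower.of_algebraMap_eq (fun _ => rfl)

/-- `ℚ(t)` is the fraction field of `ℤ_(ℓ)[t]` -/
theorem isFractionRing_adjoin (t : F) :
    letI := algebraAdjoin ℓ t
    IsFractionRing ↥(Algebra.adjoin ↥(GaloisRep.ratLocalizedAt ℓ) ({t} : Set F)) ↥(ℚ⟮t⟯) := by
  let := algebraAdjoin ℓ t
  have hinj : Function.Injective (algebraMap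
      ↥(Algebra.adjoin ↥(GaloisRep.ratLocalizedAt ℓ) ({t} : Set F)) ↥(ℚ⟮t⟯)) := by
    intro a b h
    have h1 : ((algebraMap ↥(Algebra.adjoin ↥(GaloisRep.ratLocalizedAt ℓ) ({t} : Set F))
      ↥(ℚ⟮t⟯) a : ↥(ℚ⟮t⟯)) : F) = (algebraMap _ ↥(ℚ⟮t⟯) b : ↥(ℚ⟮t⟯)) := congrArg Subtype.val h
    exact Subtype.ext h1
  have : FaithfulSMul ↥(Algebra.adjoin ↥(GaloisRep.ratLocalizedAt ℓ) ({t} : Set F)) ↥(ℚ⟮t⟯) :=
    (faithfulSMul_iff_algebraMap_injective _ _).mpr hinj
  refine IsFractionRing.of_field _ _ ?_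
  intro z
  obtain ⟨b₁, hb₁, b₂, hb₂, hb₂0, h⟩ := exists_div_of_mem_adjoin ℓ t z.2
  refine ⟨⟨b₁, hb₁⟩, ⟨b₂, hb₂⟩, Subtype.ext ?_⟩
  show (z : F) = b₁ / b₂
  rw [eq_div_iff hb₂0, h]

omit [Algebra ↥(GaloisRep.ratLocalizedAt ℓ) F] [IsScalarTower ↥(GaloisRep.ratLocalizedAt ℓ) ℚ F] in
/-- `ℚ(t⁻¹) = ℚ(t)` -/
theorem adjoin_inv_eq (t : F) : ℚ⟮t⁻¹⟯ = ℚ⟮t⟯ := by
  apply le_antisymm
  · rw [adjoin_simple_le_iff]
    exact inv_mem (mem_adjoin_simple_self ℚ t)
  · rw [adjoin_simple_le_iff]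
    have h : t⁻¹⁻¹ ∈ ℚ⟮t⁻¹⟯ := inv_mem (mem_adjoin_simple_self ℚ t⁻¹)
    rwa [inv_inv] at h

omit [Algebra ↥(GaloisRep.ratLocalizedAt ℓ) F] [IsScalarTower ↥(GaloisRep.ratLocalizedAt ℓ) ℚ F] in
theorem transcendental_inv {t : F} (ht : Transcendental ℚ t) : Transcendental ℚ t⁻¹ :=
  fun h => ht (IsAlgebraic.inv_iff.mp h)

end Adjoin

/-! ### `ℤ_(ℓ)[t]` is integrally closed in `ℚ(t)` -/

section Closed

variable (ℓ : ℕ) [Fact ℓ.Prime]
variable {F : Type*} [Field F] [Algebra ℚ F] [Algebra ↥(GaloisRep.ratLocalizedAt ℓ) F]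
  [IsScalarTower ↥(GaloisRep.ratLocalizedAt ℓ) ℚ F]

/-- `ℤ_(ℓ)[t]` is integrally closed when `t` is transcendental. -/
theorem isIntegrallyClosed_adjoin {t : F} (ht : Transcendental ℚ t) :
    IsIntegrallyClosed ↥(Algebra.adjoin ↥(GaloisRep.ratLocalizedAt ℓ) ({t} : Set F)) :=
  IsIntegrallyClosed.of_equiv
    (Polynomial.algEquivOfTranscendental ↥(GaloisRep.ratLocalizedAt ℓ) t
      (transcendental_of_rat ℓ ht)).toRingEquiv

/-- **Normality of `ℤ_(ℓ)[t]`**: an element of `ℚ(t)` which is integral over `ℤ_(ℓ)[t]` lies in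
`ℤ_(ℓ)[t]`. -/
theorem mem_adjoin_of_isIntegral {t : F} (ht : Transcendental ℚ t) {x : F} (hx : x ∈ ℚ⟮t⟯)
    (hint : IsIntegral ↥(Algebra.adjoin ↥(GaloisRep.ratLocalizedAt ℓ) ({t} : Set F)) x) :
    x ∈ Algebra.adjoin ↥(GaloisRep.ratLocalizedAt ℓ) ({t} : Set F) := by
  let := algebraAdjoin ℓ t
  have := isScalarTower_adjoin ℓ t
  have := isFractionRing_adjoin ℓ t
  have := isIntegrallyClosed_adjoin ℓ ht
  have h1 : IsIntegral ↥(Algebra.adjoin ↥(GaloisRep.ratLocalizedAt ℓ) ({t} : Set F))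
      (⟨x, hx⟩ : ↥(ℚ⟮t⟯)) := by
    rw [← isIntegral_algebraMap_iff (algebraMap ↥(ℚ⟮t⟯) F).injective]
    exact hint
  obtain ⟨b, hb⟩ := IsIntegrallyClosed.isIntegral_iff.mp h1
  have h2 : (b : F) = x := congrArg Subtype.val hb
  rw [← h2]
  exact b.2

/-- **Gauss for `ℤ_(ℓ)[t]`**: if `y` is integral over `ℤ_(ℓ)[t]`, its minimal polynomial over
`ℚ(t)` has coefficients in `ℤ_(ℓ)[t]`. -/
theorem minpoly_coeff_mem {t : F} (ht : Transcendental ℚ t) {y : F}
    (hy : IsIntegral ↥(Algebra.adjoin ↥(GaloisRep.ratLocalizedAt ℓ) ({t} : Set F)) y) (i : ℕ) :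
    (((minpoly ↥(ℚ⟮t⟯) y).coeff i : ↥(ℚ⟮t⟯)) : F) ∈
      Algebra.adjoin ↥(GaloisRep.ratLocalizedAt ℓ) ({t} : Set F) := by
  let := algebraAdjoin ℓ t
  have := isScalarTower_adjoin ℓ t
  have := isFractionRing_adjoin ℓ t
  have := isIntegrallyClosed_adjoin ℓ ht
  rw [minpoly.isIntegrallyClosed_eq_field_fractions' ↥(ℚ⟮t⟯) hy, coeff_map]
  exact ((minpoly ↥(Algebra.adjoin ↥(GaloisRep.ratLocalizedAt ℓ) ({t} : Set F)) y).coeff i).2

omit [Fact ℓ.Prime] in
/-- an element integral over `ℤ_(ℓ)[t]` is integral over `ℚ(t)` -/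
theorem isIntegral_adjoin_rat {t : F} {y : F}
    (hy : IsIntegral ↥(Algebra.adjoin ↥(GaloisRep.ratLocalizedAt ℓ) ({t} : Set F)) y) :
    IsIntegral ↥(ℚ⟮t⟯) y := by
  let := algebraAdjoin ℓ t
  have := isScalarTower_adjoin ℓ t
  exact hy.tower_top

end Closed

/-! ### The frozen charts -/

section Charts

open ModularCurve ModularCurve.IgusaScheme

theorem coeff_algebraMap_mul (c : ℚ) (x : LaurentSeries ℚ) (k : ℤ) :
    (algebraMap ℚ (LaurentSeries ℚ) c * x).coeff k = c * x.coeff k := by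
  have h1 : algebraMap ℚ (PowerSeries ℚ) c = PowerSeries.C c := by
    simp
  have h2 : algebraMap ℚ (LaurentSeries ℚ) c = HahnSeries.single 0 c := by
    rw [HahnSeries.algebraMap_apply', h1, HahnSeries.ofPowerSeries_C]
    rfl
  rw [h2, HahnSeries.coeff_single_zero_mul]

/-- `j` is transcendental over `ℚ` (it has a pole at the cusp). -/
theorem transcendental_jq : Transcendental ℚ jq := by
  rintro ⟨P, hP0, hP⟩
  have h : (aeval jq P).coeff (-(P.natDegree : ℤ)) = P.leadingCoeff := by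
    rw [aeval_eq_sum_range, HahnSeries.coeff_sum, Finset.sum_eq_single_of_mem P.natDegree
      (Finset.mem_range.mpr (Nat.lt_succ_self _))]
    · rw [Algebra.smul_def, coeff_algebraMap_mul, coeff_jq_pow_self, mul_one]
      rfl
    · intro i hi hne
      have hlt : i < P.natDegree :=
        lt_of_le_of_ne (Nat.lt_succ_iff.mp (Finset.mem_range.mp hi)) hne
      rw [Algebra.smul_def, coeff_algebraMap_mul, coeff_jq_pow_of_lt (by omega), mul_zero]
  rw [hP, HahnSeries.coeff_zero] at h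
  exact hP0 (leadingCoeff_eq_zero.mp h.symm)

variable (N : ℕ) [NeZero N]

/-- `jFull N` is transcendental over `ℚ`. -/
theorem transcendental_jFull : Transcendental ℚ (jFull N) := by
  intro h
  apply transcendental_jq
  have h2 : IsAlgebraic ℚ (((modularFunctionFieldFull N).val :
      ↥(modularFunctionFieldFull N) →+* LaurentSeries ℚ).toRatAlgHom (jFull N)) := h.algHom _
  exact h2

theorem transcendental_jFull_inv : Transcendental ℚ (jFull N)⁻¹ :=
  transcendental_inv (transcendental_jFull N)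

theorem adjoin_jFull_inv_eq : ℚ⟮(jFull N)⁻¹⟯ = ℚ⟮jFull N⟯ := adjoin_inv_eq (jFull N)

variable (ℓ : ℕ) [Fact ℓ.Prime]

/-- Normality of the base ring `ℤ_(ℓ)[j]` of the finite chart (`hnormal` for `s = jFull N`). -/
theorem hnormal_fin : ∀ x : ↥(modularFunctionFieldFull N), x ∈ ℚ⟮jFull N⟯ →
    IsIntegral ↥(Algebra.adjoin ↥(GaloisRep.ratLocalizedAt ℓ)
      ({jFull N} : Set ↥(modularFunctionFieldFull N))) x →
    x ∈ Algebra.adjoin ↥(GaloisRep.ratLocalizedAt ℓ)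
      ({jFull N} : Set ↥(modularFunctionFieldFull N)) :=
  fun _ hx hint => mem_adjoin_of_isIntegral ℓ (transcendental_jFull N) hx hint

/-- Normality of the base ring `ℤ_(ℓ)[1/j]` of the chart at infinity (`hnormal` for
`s = (jFull N)⁻¹`). -/
theorem hnormal_inf : ∀ x : ↥(modularFunctionFieldFull N), x ∈ ℚ⟮jFull N⟯ →
    IsIntegral ↥(Algebra.adjoin ↥(GaloisRep.ratLocalizedAt ℓ)
      ({(jFull N)⁻¹} : Set ↥(modularFunctionFieldFull N))) x →
    x ∈ Algebra.adjoin ↥(GaloisRep.ratLocalizedAt ℓ)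
      ({(jFull N)⁻¹} : Set ↥(modularFunctionFieldFull N)) :=
  fun _ hx hint => mem_adjoin_of_isIntegral ℓ (transcendental_jFull_inv N)
    (by rw [adjoin_jFull_inv_eq]; exact hx) hint

/-- Gauss for the finite chart: coefficients of the minimal polynomial over `ℚ(j)`. -/
theorem minpoly_coeff_mem_fin {y : ↥(modularFunctionFieldFull N)}
    (hy : IsIntegral ↥(Algebra.adjoin ↥(GaloisRep.ratLocalizedAt ℓ)
      ({jFull N} : Set ↥(modularFunctionFieldFull N))) y) (i : ℕ) :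
    (((minpoly ↥(ℚ⟮jFull N⟯) y).coeff i : ↥(ℚ⟮jFull N⟯)) : ↥(modularFunctionFieldFull N)) ∈
      Algebra.adjoin ↥(GaloisRep.ratLocalizedAt ℓ)
        ({jFull N} : Set ↥(modularFunctionFieldFull N)) :=
  minpoly_coeff_mem ℓ (transcendental_jFull N) hy i

end Charts

end Fermat.Agent.S28.Normal
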