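/-
S28, step (5): a KEY-free route to the degree theorem.

`U(M) := [κ(J(q^d) : d ∣ M) : κ(J)]`.  From the level-`p` data (`Deg.LevelData`), `(A0)`
(`J(q^p) ∉ κ(J)`) and the UPPER bound `U(M) ≤ ψ(M)` we get `ψ(N) ≤ U(N)` by arithmetic:
`U(M p) ≥ p · U(M)` for every `M` (Kummer), `U(p) ≥ p + 1`, and the tower law.
-/
import Mathlib
import Fermat.Prelude.Def_ModularCurve_X0ModL
import Fermat.Agent.S28.DegDefs
import Fermat.Agent.S24.CombIndex

set_option autoImplicit false

noncomputable section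

open Polynomial ModularCurve IntermediateField

namespace Fermat.Agent.S28.Num

section General

variable {F E : Type*} [Field F] [Field E] [Algebra F E]

/-- Root forcing: if every nonzero polynomial over `A` killing `θ ∈ B` has degree `≥ t`, then
`t ≤ [B : A]`. -/
theorem le_relrank_of_forall_natDegree {A B : IntermediateField F E} (hAB : A ≤ B) (θ : E)
    (hθ : θ ∈ B) (t : ℕ)
    (h : ∀ g : (↥A)[X], g ≠ 0 → aeval θ g = 0 → t ≤ g.natDegree) :
    (t : Cardinal) ≤ relrank A B := by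
  classical
  rw [relrank_eq_rank_of_le hAB]
  let v : Fin t → ↥(extendScalars hAB) := fun i => ⟨θ ^ (i : ℕ), pow_mem hθ _⟩
  have hli : LinearIndependent (↥A) v := by
    rw [Fintype.linearIndependent_iff]
    intro c hc i
    have hev : aeval θ (Polynomial.ofFn t c) = 0 := by
      have h1 := congrArg (fun x : ↥(extendScalars hAB) => (x : E)) hc
      simp only [ZeroMemClass.coe_zero] at h1
      rw [Polynomial.ofFn_eq_sum_monomial, map_sum]
      rw [← h1]
      rw [AddSubmonoidClass.coe_finsetSum]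
      refine Finset.sum_congr rfl fun j _ => ?_
      rw [aeval_monomial]
      rfl
    by_contra hci
    have hg0 : Polynomial.ofFn t c ≠ 0 := by
      intro h0
      apply hci
      have := congrArg (fun q : (↥A)[X] => q.coeff (i : ℕ)) h0
      simpa [Polynomial.ofFn_coeff_eq_val_of_lt c i.2] using this
    have h2 := h _ hg0 hev
    have h3 : (Polynomial.ofFn t c).natDegree < t :=
      Polynomial.ofFn_natDegree_lt (Nat.one_le_iff_ne_zero.mpr (by
        rintro rfl
        exact i.elim0)) c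
    omega
  have h4 := hli.cardinal_lift_le_rank
  simpa using h4

/-- Monotonicity of `relrank` in the top field. -/
theorem relrank_mono_right' {A B C : IntermediateField F E} (hAB : A ≤ B) (hBC : B ≤ C) :
    relrank A B ≤ relrank A C := by
  rw [← relrank_mul_relrank hAB hBC]
  refine Cardinal.le_mul_right ?_
  rw [relrank_eq_rank_of_le hBC]
  exact (Cardinal.one_le_iff_ne_zero.mp (Cardinal.one_le_iff_pos.mpr rank_pos))

/-- Upper bound: if `K2 ≤ A(θ)` and `θ` is a root of a monic polynomial of degree `n` with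
coefficients in `A`, then `[K2 : A] ≤ n`. -/
theorem relrank_le_of_monic {A K2 : IntermediateField F E} (hA : A ≤ K2) (θ : E)
    (hK2 : K2 ≤ A ⊔ F⟮θ⟯) (g : E[X]) (hgm : g.Monic) (hgc : ∀ i, g.coeff i ∈ A)
    (hgθ : g.eval θ = 0) : relrank A K2 ≤ (g.natDegree : Cardinal) := by
  obtain ⟨g', hg', hdeg, hmon⟩ :=
    Polynomial.lifts_and_natDegree_eq_and_monic (f := algebraMap (↥A) E)
      ((Polynomial.lifts_iff_coeff_lifts g).mpr fun i => ⟨⟨g.coeff i, hgc i⟩, rfl⟩) hgm
  have hroot : aeval θ g' = 0 := by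
    rw [aeval_def, ← eval_map, hg', hgθ]
  have hint : IsIntegral (↥A) θ := ⟨g', hmon, hroot⟩
  have hle : extendScalars hA ≤ (↥A)⟮θ⟯ := by
    intro x hx
    have hx' : x ∈ A ⊔ F⟮θ⟯ := hK2 ((mem_extendScalars hA).mp hx)
    have hsup : A ⊔ F⟮θ⟯ ≤ ((↥A)⟮θ⟯).restrictScalars F := by
      refine sup_le ?_ ?_
      · intro a ha
        exact ((↥A)⟮θ⟯).algebraMap_mem ⟨a, ha⟩
      · rw [adjoin_le_iff]
        rintro y rfl
        exact mem_adjoin_simple_self (↥A) y
    exact hsup hx'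
  have := adjoin.finiteDimensional hint
  rw [relrank_eq_rank_of_le hA]
  calc Module.rank (↥A) ↥(extendScalars hA)
      ≤ Module.rank (↥A) ↥((↥A)⟮θ⟯) :=
        LinearMap.rank_le_of_injective (IntermediateField.inclusion hle).toLinearMap
          (IntermediateField.inclusion_injective hle)
    _ = (Module.finrank (↥A) ↥((↥A)⟮θ⟯) : Cardinal) := (Module.finrank_eq_rank _ _).symm
    _ = ((minpoly (↥A) θ).natDegree : Cardinal) := by rw [adjoin.finrank hint]
    _ ≤ (g.natDegree : Cardinal) := by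
        rw [← hdeg]
        exact_mod_cast natDegree_le_natDegree (minpoly.min (↥A) θ hmon hroot)

end General

section Roots

variable {F E : Type*} [Field F] [Field E] [Algebra F E]

/-- A polynomial with coefficients fixed by `τ` has its roots permuted by `τ`. -/
theorem eval_iterate_eq_zero (τ : E →+* E) (A : IntermediateField F E)
    (hA : ∀ x ∈ A, τ x = x) (g : (↥A)[X]) (z : E)
    (hz : (g.map (algebraMap (↥A) E)).eval z = 0) (b : ℕ) :
    (g.map (algebraMap (↥A) E)).eval (τ^[b] z) = 0 := by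
  have hfix : (g.map (algebraMap (↥A) E)).map τ = g.map (algebraMap (↥A) E) := by
    ext n
    rw [coeff_map, coeff_map]
    exact hA _ (g.coeff n).2
  induction b with
  | zero => simpa using hz
  | succ b ih =>
    rw [Function.iterate_succ_apply', ← hfix, eval_map, eval₂_at_apply, ih, map_zero]

/-- Kummer bound: if `τ` fixes `A` pointwise and `x` has `p` distinct `τ`-conjugates, then every
nonzero polynomial over `A` killing `x` has degree at least `p`. -/
theorem natDegree_ge_of_fixed (τ : E →+* E) (A : IntermediateField F E)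
    (hA : ∀ x ∈ A, τ x = x) (x : E) {p : ℕ}
    (hx : ∀ b c, b < p → c < p → τ^[b] x = τ^[c] x → b = c)
    (g : (↥A)[X]) (hg : g ≠ 0) (h0 : aeval x g = 0) : p ≤ g.natDegree := by
  classical
  have hg' : g.map (algebraMap (↥A) E) ≠ 0 :=
    (Polynomial.map_ne_zero_iff (algebraMap (↥A) E).injective).mpr hg
  have hroot : ∀ b, (g.map (algebraMap (↥A) E)).eval (τ^[b] x) = 0 := fun b =>
    eval_iterate_eq_zero τ A hA g x (by rw [eval_map, ← aeval_def]; exact h0) b
  have hcard : ((Finset.range p).image fun b => τ^[b] x).card = p := by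
    rw [Finset.card_image_of_injOn, Finset.card_range]
    intro b hb c hc h
    exact hx b c (Finset.mem_range.mp hb) (Finset.mem_range.mp hc) h
  have hsub : ((Finset.range p).image fun b => τ^[b] x).val ⊆
      (g.map (algebraMap (↥A) E)).roots := by
    intro z hz
    rw [Finset.mem_val, Finset.mem_image] at hz
    obtain ⟨b, -, rfl⟩ := hz
    exact (mem_roots hg').mpr (hroot b)
  have h1 := card_le_degree_of_subset_roots hsub
  rw [hcard, natDegree_map] at h1
  exact h1

/-- Dichotomy: `G` monic of degree `p + 1` over `A` with roots `y` and the `p` distinct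
`τ`-conjugates of `x` (cyclically permuted by `τ`, which fixes `A`). If `y ∉ A`, then every
nonzero polynomial over `A` killing `y` has degree at least `p + 1`. -/
theorem natDegree_ge_succ_of_fixed (τ : E →+* E) (A : IntermediateField F E)
    (hA : ∀ x ∈ A, τ x = x) (x y : E) {p : ℕ}
    (hx : ∀ b c, b < p → c < p → τ^[b] x = τ^[c] x → b = c) (hper : τ^[p] x = x)
    (hxy : ∀ b, τ^[b] x ≠ y)
    (G : E[X]) (hGm : G.Monic) (hGd : G.natDegree = p + 1) (hGc : ∀ i, G.coeff i ∈ A)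
    (hGy : G.eval y = 0) (hGx : ∀ b, G.eval (τ^[b] x) = 0)
    (hy : y ∉ A) (g : (↥A)[X]) (hg : g ≠ 0) (h0 : aeval y g = 0) : p + 1 ≤ g.natDegree := by
  classical
  set S : Finset E := (Finset.range p).image fun b => τ^[b] x with hS
  have hScard : S.card = p := by
    rw [hS, Finset.card_image_of_injOn, Finset.card_range]
    intro b hb c hc h
    exact hx b c (Finset.mem_range.mp hb) (Finset.mem_range.mp hc) h
  have hyS : y ∉ S := by
    intro h
    rw [hS, Finset.mem_image] at h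
    obtain ⟨b, -, hb⟩ := h
    exact hxy b hb
  have hZcard : (insert y S).card = p + 1 := by
    rw [Finset.card_insert_of_notMem hyS, hScard]
  -- factorisation of `G`
  have hG0 : G ≠ 0 := hGm.ne_zero
  have hZroots : (insert y S).val ⊆ G.roots := by
    intro z hz
    rw [Finset.mem_val, Finset.mem_insert] at hz
    rcases hz with rfl | hz
    · exact (mem_roots hG0).mpr hGy
    · rw [hS, Finset.mem_image] at hz
      obtain ⟨b, -, rfl⟩ := hz
      exact (mem_roots hG0).mpr (hGx b)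
  have hGfac : G = (X - C y) * ∏ z ∈ S, (X - C z) := by
    have hdvd : ((insert y S).val.map fun a => X - C a).prod ∣ G :=
      (Multiset.prod_X_sub_C_dvd_iff_le_roots hG0 _).mpr
        ((Multiset.le_iff_subset (insert y S).nodup).mpr hZroots)
    have hmon : ((insert y S).val.map fun a => X - C a).prod.Monic :=
      monic_multiset_prod_of_monic _ _ fun a _ => monic_X_sub_C a
    have hdeg : G.natDegree ≤ ((insert y S).val.map fun a => X - C a).prod.natDegree := by
      rw [natDegree_multiset_prod_X_sub_C_eq_card, Finset.card_val, hZcard, hGd]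
    have h1 := eq_of_monic_of_dvd_of_natDegree_le hmon hGm hdvd hdeg
    rw [h1]
    show ∏ z ∈ insert y S, (X - C z) = _
    rw [Finset.prod_insert hyS]
  -- `y` is integral over `A`, with minimal polynomial `m`
  obtain ⟨G', hG', -, hG'mon⟩ :=
    Polynomial.lifts_and_natDegree_eq_and_monic (f := algebraMap (↥A) E)
      ((Polynomial.lifts_iff_coeff_lifts G).mpr fun i => ⟨⟨G.coeff i, hGc i⟩, rfl⟩) hGm
  have hG'root : aeval y G' = 0 := by
    rw [aeval_def, ← eval_map, hG', hGy]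
  have hint : IsIntegral (↥A) y := ⟨G', hG'mon, hG'root⟩
  have hmdvd : (minpoly (↥A) y).map (algebraMap (↥A) E) ∣ G := by
    rw [← hG']
    exact Polynomial.map_dvd _ (minpoly.dvd (↥A) y hG'root)
  have hm0 : (minpoly (↥A) y).map (algebraMap (↥A) E) ≠ 0 :=
    (Polynomial.map_ne_zero_iff (algebraMap (↥A) E).injective).mpr (minpoly.ne_zero hint)
  have hmy : ((minpoly (↥A) y).map (algebraMap (↥A) E)).eval y = 0 := by
    rw [eval_map, ← aeval_def, minpoly.aeval]
  have hm2 : 2 ≤ (minpoly (↥A) y).natDegree := by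
    have h1 : (minpoly (↥A) y).natDegree ≠ 1 := by
      intro h
      rw [minpoly.natDegree_eq_one_iff] at h
      obtain ⟨a, ha⟩ := h
      exact hy (ha ▸ a.2)
    have h2 := minpoly.natDegree_pos hint
    omega
  -- some conjugate of `x` is a root of `m`
  have hex : ∃ b, ((minpoly (↥A) y).map (algebraMap (↥A) E)).eval (τ^[b] x) = 0 := by
    by_contra hno
    push Not at hno
    have hcop : IsCoprime ((minpoly (↥A) y).map (algebraMap (↥A) E)) (∏ z ∈ S, (X - C z)) := by
      refine IsCoprime.prod_right fun z hz => ?_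
      rw [hS, Finset.mem_image] at hz
      obtain ⟨b, -, rfl⟩ := hz
      refine IsCoprime.symm ?_
      rw [(irreducible_X_sub_C (τ^[b] x)).coprime_iff_not_dvd, dvd_iff_isRoot]
      exact hno b
    have hdvd : (minpoly (↥A) y).map (algebraMap (↥A) E) ∣ X - C y := by
      refine hcop.dvd_of_dvd_mul_right ?_
      rw [← hGfac]
      exact hmdvd
    have h1 := natDegree_le_of_dvd hdvd (X_sub_C_ne_zero y)
    rw [natDegree_map, natDegree_X_sub_C] at h1
    omega
  obtain ⟨b0, hb0⟩ := hex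
  have hall : ∀ b, ((minpoly (↥A) y).map (algebraMap (↥A) E)).eval (τ^[b] x) = 0 := by
    have hperk : ∀ k b, τ^[b + k * p] x = τ^[b] x := by
      intro k
      induction k with
      | zero => intro b; simp
      | succ k ih =>
        intro b
        rw [show b + (k + 1) * p = (b + k * p) + p by ring, Function.iterate_add_apply, hper, ih]
    intro b
    have h1 := eval_iterate_eq_zero τ A hA (minpoly (↥A) y) (τ^[b0] x) hb0 (b + b0 * p - b0)
    rw [← Function.iterate_add_apply] at h1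
    have hle : b0 ≤ b + b0 * p := by
      rcases Nat.eq_zero_or_pos p with hp0 | hp0
      · subst hp0
        have h2 := natDegree_le_of_dvd hmdvd hG0
        rw [natDegree_map, hGd] at h2
        omega
      · nlinarith
    rw [show b + b0 * p - b0 + b0 = b + b0 * p by omega, hperk] at h1
    exact h1
  have hsub : (insert y S).val ⊆ ((minpoly (↥A) y).map (algebraMap (↥A) E)).roots := by
    intro z hz
    rw [Finset.mem_val, Finset.mem_insert] at hz
    rcases hz with rfl | hz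
    · exact (mem_roots hm0).mpr hmy
    · rw [hS, Finset.mem_image] at hz
      obtain ⟨b, -, rfl⟩ := hz
      exact (mem_roots hm0).mpr (hall b)
  have h1 := card_le_degree_of_subset_roots hsub
  rw [hZcard, natDegree_map] at h1
  exact h1.trans (natDegree_le_of_dvd (minpoly.dvd (↥A) y h0) hg)

end Roots

section Level

variable (κ : Type*) [Field κ]

/-- Elements of the image of `x ↦ x^p` are fixed by the twist of a `LevelData`. -/
theorem fixed_of_mem_map (p : ℕ) [NeZero p] (τ : LaurentSeries κ →+* LaurentSeries κ)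
    (hτ : ∀ f, τ (qExpand κ p f) = qExpand κ p f)
    (A : IntermediateField κ (LaurentSeries κ)) :
    ∀ x ∈ A.map (qExpandAlgHomC κ p), τ x = x := by
  intro x hx
  obtain ⟨a, -, rfl⟩ := (IntermediateField.mem_map _).mp hx
  exact hτ a

theorem map_adjoin_jqModC (p : ℕ) [NeZero p] :
    (κ⟮jqModC κ⟯).map (qExpandAlgHomC κ p) = κ⟮qExpand κ p (jqModC κ)⟯ := by
  rw [adjoin_map, Set.image_singleton, qExpandAlgHomC_apply]

theorem qExpand_sq (p : ℕ) [NeZero p] (f : LaurentSeries κ) :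
    qExpand κ (p ^ 2) f = qExpand κ p (qExpand κ p f) := by
  rw [qExpand_qExpand]
  exact qExpand_congr (sq p) f

/-- **(P)**: `[κ(J, J(q^p)) : κ(J)] ≥ p + 1`, from the level-`p` data and `(A0)`. -/
theorem succ_le_relrank_pair (p : ℕ) [NeZero p] (hL : Deg.LevelData κ p)
    (hA0 : qExpand κ p (jqModC κ) ∉ κ⟮jqModC κ⟯) :
    ((p + 1 : ℕ) : Cardinal) ≤
      relrank κ⟮jqModC κ⟯ (κ⟮jqModC κ⟯ ⊔ κ⟮qExpand κ p (jqModC κ)⟯) := by
  obtain ⟨τ, G, hτ, hGm, hGd, hGc, hGy, hGx, hper, hinj, hne⟩ := hL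
  rw [← relrank_map_map _ _ (qExpandAlgHomC κ p), IntermediateField.map_sup,
    map_adjoin_jqModC, adjoin_map, Set.image_singleton, qExpandAlgHomC_apply, ← qExpand_sq]
  refine le_relrank_of_forall_natDegree le_sup_left (qExpand κ (p ^ 2) (jqModC κ))
    (le_sup_right (a := κ⟮qExpand κ p (jqModC κ)⟯)
      (mem_adjoin_simple_self κ (qExpand κ (p ^ 2) (jqModC κ)))) (p + 1) ?_
  intro g hg h0
  have hfix : ∀ x ∈ κ⟮qExpand κ p (jqModC κ)⟯, τ x = x := by
    rw [← map_adjoin_jqModC]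
    exact fixed_of_mem_map κ p τ hτ _
  refine natDegree_ge_succ_of_fixed τ _ hfix (jqModC κ) (qExpand κ (p ^ 2) (jqModC κ))
    hinj hper hne G hGm hGd hGc hGy hGx ?_ g hg h0
  intro hmem
  rw [← map_adjoin_jqModC, qExpand_sq] at hmem
  obtain ⟨a, ha, hae⟩ := (IntermediateField.mem_map _).mp hmem
  rw [qExpandAlgHomC_apply] at hae
  exact hA0 (qExpand_injective p hae ▸ ha)

/-- **(★)**: `[F_{M p} : κ(J)] ≥ p · [F_M : κ(J)]` for every `M` (Kummer + base change). -/
theorem mul_relrank_le (p : ℕ) [NeZero p] (hL : Deg.LevelData κ p)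
    (hA0 : qExpand κ p (jqModC κ) ∉ κ⟮jqModC κ⟯) (M : ℕ) [NeZero M] :
    (p : Cardinal) * relrank κ⟮jqModC κ⟯ (modularFunctionFieldFullC κ M) ≤
      relrank κ⟮jqModC κ⟯ (modularFunctionFieldFullC κ (M * p)) := by
  have hP := succ_le_relrank_pair κ p hL hA0
  obtain ⟨τ, G, hτ, hGm, hGd, hGc, hGy, hGx, hper, hinj, hne⟩ := hL
  set A : IntermediateField κ (LaurentSeries κ) := κ⟮jqModC κ⟯ with hAdef
  set Ap : IntermediateField κ (LaurentSeries κ) := κ⟮qExpand κ p (jqModC κ)⟯ with hApdef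
  set FM := modularFunctionFieldFullC κ M with hFM
  set FMp := FM.map (qExpandAlgHomC κ p) with hFMp
  have hAp : A.map (qExpandAlgHomC κ p) = Ap := map_adjoin_jqModC κ p
  have hA_FM : A ≤ FM := by
    rw [hAdef, adjoin_simple_le_iff]
    exact jqModC_mem_full κ M
  have hAp_FMp : Ap ≤ FMp := by
    rw [← hAp]
    exact IntermediateField.map_mono _ hA_FM
  have h1 : relrank Ap FMp = relrank A FM := by
    rw [← hAp]
    exact relrank_map_map A FM (qExpandAlgHomC κ p)
  have hFMp_B : FMp ≤ FMp ⊔ A := le_sup_left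
  have hJB : jqModC κ ∈ FMp ⊔ A :=
    (le_sup_right : A ≤ FMp ⊔ A) (mem_adjoin_simple_self κ (jqModC κ))
  have h2 : (p : Cardinal) ≤ relrank FMp (FMp ⊔ A) := by
    refine le_relrank_of_forall_natDegree hFMp_B (jqModC κ) hJB p ?_
    intro g hg h0
    exact natDegree_ge_of_fixed τ FMp (fixed_of_mem_map κ p τ hτ FM) (jqModC κ) hinj g hg h0
  have h3 : relrank Ap FMp * relrank FMp (FMp ⊔ A) = relrank Ap (FMp ⊔ A) :=
    relrank_mul_relrank hAp_FMp hFMp_B
  have hK2B : A ⊔ Ap ≤ FMp ⊔ A := sup_le le_sup_right (hAp_FMp.trans le_sup_left)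
  have h4 : relrank Ap (A ⊔ Ap) * relrank (A ⊔ Ap) (FMp ⊔ A) = relrank Ap (FMp ⊔ A) :=
    relrank_mul_relrank le_sup_right hK2B
  have h5 : relrank A (A ⊔ Ap) * relrank (A ⊔ Ap) (FMp ⊔ A) = relrank A (FMp ⊔ A) :=
    relrank_mul_relrank le_sup_left hK2B
  have h6 : relrank Ap (A ⊔ Ap) ≤ ((p + 1 : ℕ) : Cardinal) := by
    have h := relrank_le_of_monic (A := Ap) (K2 := A ⊔ Ap) le_sup_right (jqModC κ)
      (by rw [sup_comm]) G hGm hGc (by simpa using hGx 0)
    rwa [hGd] at h
  have hB : FMp ⊔ A ≤ modularFunctionFieldFullC κ (M * p) := by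
    refine sup_le (full_degeneracyC_map_le κ M p) ?_
    rw [hAdef, adjoin_simple_le_iff]
    exact jqModC_mem_full κ (M * p)
  calc (p : Cardinal) * relrank A FM
      = relrank Ap FMp * p := by rw [h1, mul_comm]
    _ ≤ relrank Ap FMp * relrank FMp (FMp ⊔ A) := mul_le_mul' le_rfl h2
    _ = relrank Ap (A ⊔ Ap) * relrank (A ⊔ Ap) (FMp ⊔ A) := by rw [h3, h4]
    _ ≤ ((p + 1 : ℕ) : Cardinal) * relrank (A ⊔ Ap) (FMp ⊔ A) := mul_le_mul' h6 le_rfl
    _ ≤ relrank A (A ⊔ Ap) * relrank (A ⊔ Ap) (FMp ⊔ A) := mul_le_mul' hP le_rfl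
    _ = relrank A (FMp ⊔ A) := h5
    _ ≤ relrank A (modularFunctionFieldFullC κ (M * p)) :=
        relrank_mono_right' le_sup_right hB

end Level

section Arith

theorem dedekindPsi_pos {M : ℕ} (hM : M ≠ 0) : 0 < dedekindPsi M := by
  unfold dedekindPsi
  have h1 : (1 : ℕ) ∈ M.divisors.filter Squarefree := by
    simp [hM]
  refine lt_of_lt_of_le ?_
    (Finset.single_le_sum (f := fun d => M / d) (fun _ _ => Nat.zero_le _) h1)
  simpa using Nat.pos_of_ne_zero hM

/-- The arithmetic core: a degree function `U` with `U(M p) ≥ p U(M)`, `U(p) ≥ p + 1`, the tower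
law and the upper bound `U ≤ ψ` satisfies `U ≥ ψ` on the divisors of `N`. -/
theorem psi_le_of_axioms (U : ℕ → Cardinal) (N : ℕ) (hN : N ≠ 0)
    (h1 : 1 ≤ U 1)
    (hstar : ∀ p M : ℕ, p.Prime → M ≠ 0 → M * p ∣ N → (p : Cardinal) * U M ≤ U (M * p))
    (hP : ∀ p : ℕ, p.Prime → p ∣ N → ((p + 1 : ℕ) : Cardinal) ≤ U p)
    (hT : ∀ M M' : ℕ, M ∣ M' → M' ∣ N → ∃ t : Cardinal, U M' = t * U M)
    (hUB : ∀ M : ℕ, M ∣ N → U M ≤ (dedekindPsi M : Cardinal)) :
    ∀ M : ℕ, M ∣ N → (dedekindPsi M : Cardinal) ≤ U M := by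
  intro M
  induction M using Nat.strong_induction_on with
  | _ M ih =>
  intro hMN
  have hM0 : M ≠ 0 := by
    rintro rfl
    exact hN (Nat.eq_zero_of_zero_dvd hMN)
  by_cases hM1 : M = 1
  · subst hM1
    simpa using h1
  by_cases hsq : Squarefree M
  swap
  · -- `M` is not squarefree: `p² ∣ M`
    rw [Nat.squarefree_iff_prime_squarefree] at hsq
    push Not at hsq
    obtain ⟨p, hp, k, hk⟩ := hsq
    have hMeq : M = p * k * p := by rw [hk]; ring
    have hM₀0 : p * k ≠ 0 := by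
      intro h
      rw [hMeq, h, zero_mul] at hM0
      exact hM0 rfl
    have hlt : p * k < M := by
      have h2 := hp.two_le
      have h3 : 0 < p * k := Nat.pos_of_ne_zero hM₀0
      rw [hMeq]
      nlinarith
    have hM₀N : p * k ∣ N := (Dvd.intro p hMeq.symm).trans hMN
    have ih0 := ih (p * k) hlt hM₀N
    have hs := hstar p (p * k) hp hM₀0 (hMeq ▸ hMN)
    rw [hMeq, Fermat.Agent.S24.Comb.dedekindPsi_mul_of_dvd hM₀0 hp (Dvd.intro k rfl)]
    calc ((dedekindPsi (p * k) * p : ℕ) : Cardinal)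
        = (p : Cardinal) * (dedekindPsi (p * k) : Cardinal) := by push_cast; ring
      _ ≤ (p : Cardinal) * U (p * k) := mul_le_mul' le_rfl ih0
      _ ≤ U (p * k * p) := hs
  by_cases hprime : M.Prime
  · have hψ : dedekindPsi M = M + 1 := by
      have h := Fermat.Agent.S24.Comb.dedekindPsi_mul_of_not_dvd (N := 1) one_ne_zero hprime
        (fun h => hprime.one_lt.ne' (Nat.dvd_one.mp h))
      rwa [one_mul, dedekindPsi_one, one_mul] at h
    rw [hψ]
    exact hP M hprime hMN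
  -- `M` squarefree and composite
  have hp : M.minFac.Prime := Nat.minFac_prime hM1
  obtain ⟨M₀, hM₀⟩ := Nat.minFac_dvd M
  set p := M.minFac with hpdef
  have hMeq : M = M₀ * p := by rw [mul_comm]; exact hM₀
  have hM₀0 : M₀ ≠ 0 := by
    rintro rfl
    exact hM0 (by rw [hMeq, zero_mul])
  have hM₀1 : M₀ ≠ 1 := by
    rintro rfl
    exact hprime (by rw [hMeq, one_mul]; exact hp)
  have hpM₀ : ¬ p ∣ M₀ := by
    rintro ⟨c, rfl⟩
    have h2 : IsUnit p := hsq p ⟨c, by rw [hMeq]; ring⟩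
    exact hp.one_lt.ne' (Nat.isUnit_iff.mp h2)
  have hr : M₀.minFac.Prime := Nat.minFac_prime hM₀1
  obtain ⟨M₁, hM₁⟩ := Nat.minFac_dvd M₀
  set r := M₀.minFac with hrdef
  have hM₀eq : M₀ = M₁ * r := by rw [mul_comm]; exact hM₁
  have hrM : r ∣ M := ⟨M₁ * p, by rw [hMeq, hM₀eq]; ring⟩
  have hpr : p < r := by
    have h2 : p ≤ r := Nat.minFac_le_of_dvd hr.two_le hrM
    have h3 : p ≠ r := by
      intro h
      exact hpM₀ (h ▸ ⟨M₁, hM₁⟩)
    omega
  have hM₁0 : M₁ ≠ 0 := by
    rintro rfl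
    exact hM₀0 (by rw [hM₀eq, zero_mul])
  have hrM₁ : ¬ r ∣ M₁ := by
    rintro ⟨c, rfl⟩
    have h2 : IsUnit r := hsq r ⟨c * p, by rw [hMeq, hM₀eq]; ring⟩
    exact hr.one_lt.ne' (Nat.isUnit_iff.mp h2)
  have hpM₁ : ¬ p ∣ M₁ := fun h => hpM₀ (hM₀eq ▸ Dvd.dvd.mul_right h r)
  have hMeq' : M = M₁ * p * r := by rw [hMeq, hM₀eq]; ring
  have hN'0 : M₁ * p ≠ 0 := Nat.mul_ne_zero hM₁0 hp.ne_zero
  have hlt0 : M₀ < M := by
    have h2 := hp.two_le
    have h3 : 0 < M₀ := Nat.pos_of_ne_zero hM₀0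
    rw [hMeq]
    nlinarith
  have hlt' : M₁ * p < M := by
    have h2 := hr.two_le
    have h3 : 0 < M₁ * p := Nat.pos_of_ne_zero hN'0
    rw [hMeq']
    nlinarith
  have hM₀M : M₀ ∣ M := Dvd.intro p hMeq.symm
  have hN'M : M₁ * p ∣ M := Dvd.intro r hMeq'.symm
  have ψM₀ : dedekindPsi M₀ = dedekindPsi M₁ * (r + 1) := by
    rw [hM₀eq]
    exact Fermat.Agent.S24.Comb.dedekindPsi_mul_of_not_dvd hM₁0 hr hrM₁
  have ψN' : dedekindPsi (M₁ * p) = dedekindPsi M₁ * (p + 1) :=
    Fermat.Agent.S24.Comb.dedekindPsi_mul_of_not_dvd hM₁0 hp hpM₁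
  have ψM : dedekindPsi M = dedekindPsi M₀ * (p + 1) := by
    rw [hMeq]
    exact Fermat.Agent.S24.Comb.dedekindPsi_mul_of_not_dvd hM₀0 hp hpM₀
  have ihM₀ := ih M₀ hlt0 (hM₀M.trans hMN)
  have ihN' := ih (M₁ * p) hlt' (hN'M.trans hMN)
  have hUM₀ : U M₀ = (dedekindPsi M₀ : Cardinal) := le_antisymm (hUB M₀ (hM₀M.trans hMN)) ihM₀
  obtain ⟨t, ht⟩ := hT M₀ M hM₀M hMN
  have hs : (r : Cardinal) * U (M₁ * p) ≤ U M := by
    have h := hstar r (M₁ * p) hr hN'0 (hMeq' ▸ hMN)
    rwa [← hMeq'] at h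
  have hkey : (r : Cardinal) * (dedekindPsi (M₁ * p) : Cardinal) ≤ t * (dedekindPsi M₀ : Cardinal) :=
    calc (r : Cardinal) * (dedekindPsi (M₁ * p) : Cardinal)
        ≤ (r : Cardinal) * U (M₁ * p) := mul_le_mul' le_rfl ihN'
      _ ≤ U M := hs
      _ = t * (dedekindPsi M₀ : Cardinal) := by rw [ht, hUM₀]
  have ht1 : ((p + 1 : ℕ) : Cardinal) ≤ t := by
    rcases lt_or_ge t Cardinal.aleph0 with hfin | hinf
    · obtain ⟨t₀, rfl⟩ := Cardinal.lt_aleph0.mp hfin
      have h2 : r * dedekindPsi (M₁ * p) ≤ t₀ * dedekindPsi M₀ := by exact_mod_cast hkey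
      rw [ψN', ψM₀] at h2
      have hc : 0 < dedekindPsi M₁ := dedekindPsi_pos hM₁0
      have h3 : p + 1 ≤ t₀ := by
        by_contra hlt
        push Not at hlt
        have h4 : t₀ ≤ p := by omega
        have h5 : t₀ * (dedekindPsi M₁ * (r + 1)) ≤ p * (dedekindPsi M₁ * (r + 1)) :=
          Nat.mul_le_mul_right _ h4
        nlinarith
      exact_mod_cast h3
    · exact Cardinal.natCast_lt_aleph0.le.trans hinf
  rw [ψM, ht, hUM₀]
  calc ((dedekindPsi M₀ * (p + 1) : ℕ) : Cardinal)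
      = ((p + 1 : ℕ) : Cardinal) * (dedekindPsi M₀ : Cardinal) := by push_cast; ring
    _ ≤ t * (dedekindPsi M₀ : Cardinal) := mul_le_mul' ht1 le_rfl

end Arith

section Main

variable (κ : Type*) [Field κ]

/-- `U(M) = [F_M : κ(J)]` as a function on all naturals (`0` at `M = 0`). -/
def Udeg (M : ℕ) : Cardinal :=
  if h : M = 0 then 0 else
    have : NeZero M := ⟨h⟩
    relrank κ⟮jqModC κ⟯ (modularFunctionFieldFullC κ M)

theorem Udeg_eq (M : ℕ) [NeZero M] :
    Udeg κ M = relrank κ⟮jqModC κ⟯ (modularFunctionFieldFullC κ M) := by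
  unfold Udeg
  rw [dif_neg (NeZero.ne M)]

theorem adjoin_jqModC_le_full (M : ℕ) [NeZero M] :
    κ⟮jqModC κ⟯ ≤ modularFunctionFieldFullC κ M := by
  rw [adjoin_simple_le_iff]
  exact jqModC_mem_full κ M

/-- **The degree theorem (5), KEY-free**: from the level data, `(A0)` and the upper bound
`[F_M : κ(J)] ≤ ψ(M)` for the divisors `M` of `N`, we get `ψ(N) ≤ [F_N : κ(J)]`. -/
theorem psi_le_relrank (N : ℕ) [NeZero N]
    (hLvl : ∀ (p : ℕ) [NeZero p], p.Prime → p ∣ N → Deg.LevelData κ p)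
    (hA0 : ∀ (p : ℕ) [NeZero p], p.Prime → p ∣ N →
      qExpand κ p (jqModC κ) ∉ κ⟮jqModC κ⟯)
    (hUB : ∀ (M : ℕ) [NeZero M], M ∣ N →
      relrank κ⟮jqModC κ⟯ (modularFunctionFieldFullC κ M) ≤ (dedekindPsi M : Cardinal)) :
    (dedekindPsi N : Cardinal) ≤ relrank κ⟮jqModC κ⟯ (modularFunctionFieldFullC κ N) := by
  have hN : N ≠ 0 := NeZero.ne N
  have hne : ∀ M : ℕ, M ∣ N → M ≠ 0 := by
    rintro M hM rfl
    exact hN (Nat.eq_zero_of_zero_dvd hM)
  rw [← Udeg_eq]
  refine psi_le_of_axioms (Udeg κ) N hN ?_ ?_ ?_ ?_ ?_ N dvd_rfl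
  · rw [Udeg_eq, ← relrank_self (κ⟮jqModC κ⟯)]
    exact relrank_mono_right' le_rfl (adjoin_jqModC_le_full κ 1)
  · intro p M hp hM hMp
    have : NeZero p := ⟨hp.ne_zero⟩
    have : NeZero M := ⟨hM⟩
    rw [Udeg_eq, Udeg_eq]
    exact mul_relrank_le κ p (hLvl p hp ((Dvd.intro_left M rfl).trans hMp))
      (hA0 p hp ((Dvd.intro_left M rfl).trans hMp)) M
  · intro p hp hpN
    have : NeZero p := ⟨hp.ne_zero⟩
    rw [Udeg_eq]
    refine (succ_le_relrank_pair κ p (hLvl p hp hpN) (hA0 p hp hpN)).trans ?_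
    refine relrank_mono_right' le_sup_left (sup_le (adjoin_jqModC_le_full κ p) ?_)
    rw [adjoin_simple_le_iff]
    exact jqModCd_mem_full κ p dvd_rfl
  · intro M M' hMM' hM'N
    have : NeZero M' := ⟨hne M' hM'N⟩
    have : NeZero M := ⟨hne M (hMM'.trans hM'N)⟩
    refine ⟨relrank (modularFunctionFieldFullC κ M) (modularFunctionFieldFullC κ M'), ?_⟩
    rw [Udeg_eq, Udeg_eq, mul_comm]
    exact (relrank_mul_relrank (adjoin_jqModC_le_full κ M) (full_degeneracyC_le κ hMM')).symm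
  · intro M hMN
    have : NeZero M := ⟨hne M hMN⟩
    rw [Udeg_eq]
    exact hUB M hMN

end Main

end Fermat.Agent.S28.Num

end
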