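/-
S28, glue (Φ) ⟹ LEVEL-DATA: the level-`p` data `Deg.LevelData κ p` consumed by the degree
induction (`Num.psi_le_relrank` / `Deg.psi_le_relrank`), unconditionally, for every field `κ` of
characteristic `ℓ` containing a primitive `p`-th root of unity, in particular for every
algebraically closed `κ` of characteristic `ℓ ≠ p`.
-/
import Fermat.Agent.S28.Phi.Main
import Fermat.Agent.S28.LevelData

set_option autoImplicit false

noncomputable section

open Polynomial ModularCurve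

namespace Fermat.Agent.S28.PhiLevel

theorem levelData (κ : Type*) [Field κ] (ℓ : ℕ) [Fact ℓ.Prime] [CharP κ ℓ] (p : ℕ) [NeZero p]
    (hp : p.Prime) (ζ : κˣ) (hζ : IsPrimitiveRoot (ζ : κ) p) : Deg.LevelData κ p :=
  LevelData.levelData_of_phi κ p hp ζ hζ (fun ξ => Phi.twistU ξ)
    (fun ξ f k => Phi.twistU_coeff ξ f k) (Phi.exists_modular_eq κ ℓ p hp ζ hζ)

theorem natCast_ne_zero (κ : Type*) [Field κ] (ℓ : ℕ) [Fact ℓ.Prime] [CharP κ ℓ] {p : ℕ}
    (hp : p.Prime) (hpℓ : p ≠ ℓ) : (p : κ) ≠ 0 := by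
  intro h
  have h1 : ℓ ∣ p := (CharP.cast_eq_zero_iff κ ℓ p).mp h
  exact hpℓ ((Nat.prime_dvd_prime_iff_eq (Fact.out : ℓ.Prime) hp).mp h1).symm

theorem levelData_algClosed (κ : Type*) [Field κ] [IsAlgClosed κ] (ℓ : ℕ) [Fact ℓ.Prime]
    [CharP κ ℓ] (p : ℕ) [NeZero p] (hp : p.Prime) (hpℓ : p ≠ ℓ) : Deg.LevelData κ p :=
  LevelData.levelData_of_phi_algClosed κ p hp (natCast_ne_zero κ ℓ hp hpℓ)
    (fun ξ => Phi.twistU ξ) (fun ξ f k => Phi.twistU_coeff ξ f k)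
    (fun ζ hζ => Phi.exists_modular_eq κ ℓ p hp ζ hζ)

end Fermat.Agent.S28.PhiLevel

end
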