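/-
S28, piece (α), analytic core (helper23): termwise differentiation in the `q`-expansion calculus
of S23.  If `f = ∑ aₙ qⁿ` on the upper half plane (`HasQ f P`), then `f` is holomorphic, bounded
at `i∞`, and `D f = (2πi)⁻¹ f' = ∑ n aₙ qⁿ` (`HasQ (D f) (X * P')`).
-/
import Mathlib
import Fermat.Agent.S23.QCalc

set_option autoImplicit false

namespace Fermat.Agent.S28.QDeriv

open UpperHalfPlane hiding I
open Function Complex Filter Topology
open Fermat.Agent.S23.QCalc
open scoped Manifold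

/-- the coefficients of `X * P'` -/
theorem coeff_X_mul_derivative (P : PowerSeries ℂ) (n : ℕ) :
    PowerSeries.coeff n (PowerSeries.X * PowerSeries.derivative ℂ P) =
      (n : ℂ) * PowerSeries.coeff n P := by
  cases n with
  | zero => simp
  | succ m =>
    rw [PowerSeries.coeff_succ_X_mul, PowerSeries.coeff_derivative]
    push_cast
    ring

/-- the derivative of `qⁿ` -/
theorem hasDerivAt_qParam_pow (n : ℕ) (w : ℂ) :
    HasDerivAt (fun w : ℂ => Periodic.qParam 1 w ^ n)
      (2 * Real.pi * I * ((n : ℂ) * Periodic.qParam 1 w ^ n)) w := by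
  have h1 : HasDerivAt (Periodic.qParam 1) (2 * Real.pi * I * Periodic.qParam 1 w) w := by
    have h2 : HasDerivAt (fun w : ℂ => 2 * Real.pi * I * w / (1 : ℝ)) (2 * Real.pi * I) w := by
      have := (hasDerivAt_id w).const_mul (2 * Real.pi * I)
      simpa using this
    have h3 := h2.cexp
    have e : Complex.exp (2 * Real.pi * I * w / (1 : ℝ)) * (2 * Real.pi * I) =
        2 * Real.pi * I * Periodic.qParam 1 w := by
      rw [Periodic.qParam]; ring
    rw [e] at h3
    exact h3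
  have h4 := h1.pow n
  refine h4.congr_deriv ?_
  cases n with
  | zero => simp
  | succ m =>
    simp only [Nat.add_sub_cancel]
    rw [pow_succ]
    ring

/-- a summable majorant for the derivative series on a half plane -/
theorem summable_majorant {f : ℍ → ℂ} {P : PowerSeries ℂ} (hf : HasQ f P) {c : ℝ} (hc : 0 < c) :
    Summable fun n : ℕ => 2 * Real.pi * ((n : ℝ) * ‖PowerSeries.coeff n P‖ *
      Real.exp (-2 * Real.pi * c) ^ n) := by
  -- compare with the point `i c / 2`
  let z₁ : ℍ := ⟨I * (c / 2 : ℝ), by simpa using half_pos hc⟩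
  set r₀ : ℝ := Real.exp (-Real.pi * c) with hr₀
  have hr₀0 : 0 < r₀ := Real.exp_pos _
  have hr₀1 : r₀ < 1 := by
    rw [hr₀, ← Real.exp_zero]
    apply Real.exp_lt_exp.mpr
    have := mul_pos Real.pi_pos hc
    linarith
  have hq : ‖Periodic.qParam 1 ((z₁ : ℍ) : ℂ)‖ = r₀ := by
    rw [Periodic.norm_qParam]
    congr 1
    show -2 * Real.pi * (I * ((c / 2 : ℝ) : ℂ)).im / 1 = -Real.pi * c
    simp
    ring
  have hsq : Real.exp (-2 * Real.pi * c) = r₀ ^ 2 := by
    rw [hr₀, ← Real.exp_nat_mul]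
    congr 1
    push_cast
    ring
  obtain ⟨C, hC⟩ : ∃ C : ℝ, ∀ n : ℕ, ‖PowerSeries.coeff n P‖ * r₀ ^ n ≤ C := by
    have h0 := (hf z₁).summable.tendsto_atTop_zero
    obtain ⟨C, hC⟩ := (h0.norm).bddAbove_range
    refine ⟨C, fun n => ?_⟩
    have := hC ⟨n, rfl⟩
    simpa [norm_mul, norm_pow, hq] using this
  have hgeo : Summable fun n : ℕ => 2 * Real.pi * C * ((n : ℝ) ^ 1 * r₀ ^ n) :=
    (summable_pow_mul_geometric_of_norm_lt_one 1
      (by rwa [Real.norm_of_nonneg hr₀0.le] : ‖r₀‖ < 1)).mul_left _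
  refine Summable.of_nonneg_of_le (fun n => by positivity) (fun n => ?_) hgeo
  rw [hsq, ← pow_mul, mul_comm 2 n, pow_mul, sq, pow_one]
  have h1 := hC n
  have h2 : (0 : ℝ) ≤ (n : ℝ) * r₀ ^ n := by positivity
  calc 2 * Real.pi * ((n : ℝ) * ‖PowerSeries.coeff n P‖ * (r₀ ^ n * r₀ ^ n))
      = 2 * Real.pi * ((‖PowerSeries.coeff n P‖ * r₀ ^ n) * ((n : ℝ) * r₀ ^ n)) := by ring
    _ ≤ 2 * Real.pi * (C * ((n : ℝ) * r₀ ^ n)) := by
        have := mul_le_mul_of_nonneg_right h1 h2
        have hpi : (0 : ℝ) ≤ 2 * Real.pi := by positivity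
        exact mul_le_mul_of_nonneg_left this hpi
    _ = 2 * Real.pi * C * ((n : ℝ) * r₀ ^ n) := by ring

/-- the derivative of a function with a `q`-expansion, computed termwise -/
theorem hasDerivAt_of_hasQ {f : ℍ → ℂ} {P : PowerSeries ℂ} (hf : HasQ f P) (z : ℍ) :
    HasDerivAt (f ∘ ofComplex)
      (2 * Real.pi * I * ∑' n : ℕ, (n : ℂ) * PowerSeries.coeff n P *
        Periodic.qParam 1 (z : ℂ) ^ n) (z : ℂ) ∧
    Summable fun n : ℕ => (n : ℂ) * PowerSeries.coeff n P * Periodic.qParam 1 (z : ℂ) ^ n := by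
  set c : ℝ := z.im / 2 with hc
  have hc0 : 0 < c := half_pos z.im_pos
  let t : Set ℂ := {w : ℂ | c < w.im}
  have ht : IsOpen t := isOpen_lt continuous_const Complex.continuous_im
  have hconv : Convex ℝ t := by
    intro x hx y hy a b ha hb hab
    show c < (a • x + b • y).im
    have hx' : c < x.im := hx
    have hy' : c < y.im := hy
    simp only [Complex.add_im, Complex.real_smul, Complex.mul_im, Complex.ofReal_re,
      Complex.ofReal_im, zero_mul, add_zero]
    rcases eq_or_lt_of_le ha with rfl | ha'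
    · have hb1 : b = 1 := by linarith
      subst hb1
      simpa using hy'
    · nlinarith
  have h't : IsPreconnected t := hconv.isPreconnected
  have hzt : (z : ℂ) ∈ t := by
    show c < (z : ℂ).im
    have : (z : ℂ).im = z.im := rfl
    rw [this, hc]
    linarith [z.im_pos]
  let g : ℕ → ℂ → ℂ := fun n w => PowerSeries.coeff n P * Periodic.qParam 1 w ^ n
  let g' : ℕ → ℂ → ℂ := fun n w =>
    PowerSeries.coeff n P * (2 * Real.pi * I * ((n : ℂ) * Periodic.qParam 1 w ^ n))
  let u : ℕ → ℝ := fun n => 2 * Real.pi * ((n : ℝ) * ‖PowerSeries.coeff n P‖ *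
      Real.exp (-2 * Real.pi * c) ^ n)
  have hu : Summable u := summable_majorant hf hc0
  have hg : ∀ n w, w ∈ t → HasDerivAt (g n) (g' n w) w := fun n w _ =>
    (hasDerivAt_qParam_pow n w).const_mul _
  have hqle : ∀ w ∈ t, ‖Periodic.qParam 1 w‖ ≤ Real.exp (-2 * Real.pi * c) := by
    intro w hw
    rw [Periodic.norm_qParam, div_one]
    apply Real.exp_le_exp.mpr
    have hw' : c < w.im := hw
    have := Real.pi_pos
    nlinarith
  have hg' : ∀ n w, w ∈ t → ‖g' n w‖ ≤ u n := by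
    intro n w hw
    show ‖PowerSeries.coeff n P * (2 * Real.pi * I * ((n : ℂ) * Periodic.qParam 1 w ^ n))‖ ≤ _
    have h1 : ‖PowerSeries.coeff n P * (2 * Real.pi * I * ((n : ℂ) * Periodic.qParam 1 w ^ n))‖ =
        2 * Real.pi * ((n : ℝ) * ‖PowerSeries.coeff n P‖ * ‖Periodic.qParam 1 w‖ ^ n) := by
      simp only [norm_mul, norm_pow, Complex.norm_I, Complex.norm_natCast, Complex.norm_real,
        Real.norm_of_nonneg Real.pi_pos.le, Complex.norm_ofNat]
      ring
    rw [h1]
    have h2 : ‖Periodic.qParam 1 w‖ ^ n ≤ Real.exp (-2 * Real.pi * c) ^ n :=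
      pow_le_pow_left₀ (norm_nonneg _) (hqle w hw) n
    have h3 : (0 : ℝ) ≤ (n : ℝ) * ‖PowerSeries.coeff n P‖ := by positivity
    have hpi : (0 : ℝ) ≤ 2 * Real.pi := by positivity
    exact mul_le_mul_of_nonneg_left (mul_le_mul_of_nonneg_left h2 h3) hpi
  have hg0 : Summable fun n => g n (z : ℂ) := (hf z).summable
  have key := hasDerivAt_tsum_of_isPreconnected hu ht h't hg hg' hzt hg0 hzt
  -- identify the sum with `f ∘ ofComplex` near `z`
  have heq : (f ∘ ofComplex) =ᶠ[𝓝 (z : ℂ)] fun w => ∑' n, g n w := by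
    filter_upwards [ht.mem_nhds hzt] with w hw
    have hw0 : 0 < w.im := lt_trans hc0 hw
    show f (ofComplex w) = _
    rw [ofComplex_apply_of_im_pos hw0]
    exact ((hf ⟨w, hw0⟩).tsum_eq).symm
  have hsum' : Summable fun n => g' n (z : ℂ) :=
    Summable.of_norm_bounded hu fun n => hg' n _ hzt
  have hsum : Summable fun n : ℕ =>
      (n : ℂ) * PowerSeries.coeff n P * Periodic.qParam 1 (z : ℂ) ^ n := by
    have h2 := hsum'.mul_left (2 * Real.pi * I)⁻¹
    refine h2.congr fun n => ?_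
    show (2 * Real.pi * I)⁻¹ * (PowerSeries.coeff n P *
      (2 * Real.pi * I * ((n : ℂ) * Periodic.qParam 1 (z : ℂ) ^ n))) = _
    field_simp [Complex.two_pi_I_ne_zero]
  refine ⟨?_, hsum⟩
  have e : ∑' n, g' n (z : ℂ) = 2 * Real.pi * I * ∑' n : ℕ, (n : ℂ) * PowerSeries.coeff n P *
      Periodic.qParam 1 (z : ℂ) ^ n := by
    rw [← tsum_mul_left]
    refine tsum_congr fun n => ?_
    show PowerSeries.coeff n P * (2 * Real.pi * I * ((n : ℂ) * Periodic.qParam 1 (z : ℂ) ^ n)) = _
    ring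
  rw [← e]
  exact key.congr_of_eventuallyEq heq

/-- **Termwise differentiation**: `D (∑ aₙ qⁿ) = ∑ n aₙ qⁿ`. -/
theorem hasQ_normalizedDeriv {f : ℍ → ℂ} {P : PowerSeries ℂ} (hf : HasQ f P) :
    HasQ (Derivative.normalizedDerivOfComplex f)
      (PowerSeries.X * PowerSeries.derivative ℂ P) := by
  intro z
  obtain ⟨hd, hs⟩ := hasDerivAt_of_hasQ hf z
  have hval : Derivative.normalizedDerivOfComplex f z =
      ∑' n : ℕ, (n : ℂ) * PowerSeries.coeff n P * Periodic.qParam 1 (z : ℂ) ^ n := by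
    rw [Derivative.normalizedDerivOfComplex, hd.deriv]
    field_simp [Complex.two_pi_I_ne_zero]
  rw [hval]
  refine hs.hasSum.congr_fun fun n => ?_
  rw [coeff_X_mul_derivative]

/-- a function with a `q`-expansion is holomorphic -/
theorem mdifferentiable_of_hasQ {f : ℍ → ℂ} {P : PowerSeries ℂ} (hf : HasQ f P) :
    MDifferentiable 𝓘(ℂ) 𝓘(ℂ) f := by
  rw [UpperHalfPlane.mdifferentiable_iff]
  intro w hw
  exact ((hasDerivAt_of_hasQ hf ⟨w, hw⟩).1).differentiableAt.differentiableWithinAt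

/-- a function with a `q`-expansion is bounded at `i∞` -/
theorem isBoundedAtImInfty_of_hasQ {f : ℍ → ℂ} {P : PowerSeries ℂ} (hf : HasQ f P) :
    IsBoundedAtImInfty f := by
  rw [isBoundedAtImInfty_iff]
  have hs := hf.summable_norm UpperHalfPlane.I
  refine ⟨∑' n : ℕ, ‖PowerSeries.coeff n P * Periodic.qParam 1 ((UpperHalfPlane.I : ℍ) : ℂ) ^ n‖,
    1, fun z hz => ?_⟩
  rw [← (hf z).tsum_eq]
  refine le_trans (norm_tsum_le_tsum_norm (hf.summable_norm z)) ?_
  refine Summable.tsum_le_tsum (fun n => ?_) (hf.summable_norm z) hs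
  rw [norm_mul, norm_mul, norm_pow, norm_pow]
  refine mul_le_mul_of_nonneg_left (pow_le_pow_left₀ (norm_nonneg _) ?_ n) (norm_nonneg _)
  rw [Periodic.norm_qParam, Periodic.norm_qParam]
  apply Real.exp_le_exp.mpr
  have h1 : ((UpperHalfPlane.I : ℍ) : ℂ).im = 1 := by simp
  have h2 : (z : ℂ).im = z.im := rfl
  rw [h1, h2, div_one, div_one]
  have := Real.pi_pos
  nlinarith

end Fermat.Agent.S28.QDeriv
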