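/-
S28 (Igusa): the degree bound `ψ(N) ≤ [κ(J(q^d) : d ∣ N) : κ(J)]` over an algebraically closed
field `κ` of characteristic `ℓ ∤ N`, from (A0) alone: the modular equations are supplied by
`Phi.exists_modular_eq`.
-/
import Mathlib
import Fermat.Agent.S28.ConjSpine
import Fermat.Agent.S28.Phi.Main

set_option autoImplicit false

open ModularCurve Polynomial IntermediateField

namespace Fermat.Agent.S28.SpineA0

/-- A prime divisor of `N` is invertible in a field of characteristic `ℓ ∤ N`. -/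
theorem natCast_ne_zero_of_dvd (κ : Type*) [Field κ] (ℓ : ℕ) [Fact ℓ.Prime] [CharP κ ℓ] {N r : ℕ}
    (hℓN : ¬ ℓ ∣ N) (hrN : r ∣ N) : (r : κ) ≠ 0 := by
  intro h
  exact hℓN (((CharP.cast_eq_zero_iff κ ℓ r).mp h).trans hrN)

/-- The modular equations of all prime levels dividing `N`, in the shape consumed by
`Conj.hKey_of_modular_eq` and `ConjSpine.psi_le_relrank_of_phi`. -/
theorem exists_modular_eq_of_dvd (κ : Type*) [Field κ] [IsAlgClosed κ] (ℓ : ℕ) [Fact ℓ.Prime]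
    [CharP κ ℓ] (N : ℕ) (hℓN : ¬ ℓ ∣ N) :
    ∀ (r : ℕ) [NeZero r], r.Prime → r ∣ N →
      ∃ ζ : κˣ, IsPrimitiveRoot (ζ : κ) r ∧ ∃ (a : κ[X]) (Φ : κ[X][X]), a ≠ 0 ∧
        Φ.map (aeval (qExpand κ r (jqModC κ))).toRingHom
          = C (aeval (qExpand κ r (jqModC κ)) a) *
            ((X - C (qExpand κ (r ^ 2) (jqModC κ))) *
              ∏ b ∈ Finset.range r, (X - C (Phi.twistU (ζ ^ b) (jqModC κ)))) := by
  intro r _ hr hrN
  obtain ⟨ζ, hζ⟩ := LevelData.exists_primitiveRoot_unit κ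
    (natCast_ne_zero_of_dvd κ ℓ hℓN hrN)
  exact ⟨ζ, hζ, Phi.exists_modular_eq κ ℓ r hr ζ hζ⟩

/-- **KEY**, unconditional in (PHI): for `ℓ ∤ N`, `p M ∣ N`, `p ∤ M`, the series `J(q^p)` is not
in `κ(J(q^d) : d ∣ M)`, given (A0) for the prime divisors of `N`. -/
theorem hKey_of_A0 (κ : Type*) [Field κ] [IsAlgClosed κ] (ℓ : ℕ) [Fact ℓ.Prime] [CharP κ ℓ]
    (N : ℕ) (hℓN : ¬ ℓ ∣ N)
    (hA0 : ∀ (p : ℕ) [NeZero p], p.Prime → p ∣ N →
      qExpand κ p (jqModC κ) ∉ IntermediateField.adjoin κ {jqModC κ}) :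
    ∀ (p M : ℕ) [NeZero p] [NeZero M], p.Prime → p * M ∣ N → ¬ p ∣ M →
      qExpand κ p (jqModC κ) ∉ modularFunctionFieldFullC κ M :=
  Conj.hKey_of_modular_eq κ N (fun ξ => Phi.twistU ξ) (fun ξ f k => Phi.twistU_coeff ξ f k) hA0
    (exists_modular_eq_of_dvd κ ℓ N hℓN)

/-- The degree lower bound of the Igusa argument, from (A0) for the prime divisors of `N`. -/
theorem psi_le_relrank_of_A0 (κ : Type*) [Field κ] [IsAlgClosed κ] (ℓ : ℕ) [Fact ℓ.Prime]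
    [CharP κ ℓ] (N : ℕ) [NeZero N] (hℓN : ¬ ℓ ∣ N)
    (hA0 : ∀ (p : ℕ) [NeZero p], p.Prime → p ∣ N →
      qExpand κ p (jqModC κ) ∉ IntermediateField.adjoin κ {jqModC κ}) :
    (dedekindPsi N : Cardinal) ≤
      IntermediateField.relrank κ⟮jqModC κ⟯ (modularFunctionFieldFullC κ N) :=
  ConjSpine.psi_le_relrank_of_phi κ N (fun ξ => Phi.twistU ξ)
    (fun ξ f k => Phi.twistU_coeff ξ f k) hA0 (exists_modular_eq_of_dvd κ ℓ N hℓN)

end Fermat.Agent.S28.SpineA0
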