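/-
S28, KEY-free route, piece UPPER (field-theory half): the upper bound
`[κ(J(q^d) : d ∣ M) : κ(J)] ≤ ψ` from "any `ψ + 1` monomials in the `J(q^d)` satisfy a nontrivial
relation with coefficients in `κ[J]`".
-/
import Mathlib
import Fermat.Prelude.Def_ModularCurve_X0ModL
import Fermat.Agent.S28.LevelData
import Fermat.Agent.S28.Mono

set_option autoImplicit false

noncomputable section

open ModularCurve IntermediateField

namespace Fermat.Agent.S28.Upper

universe u

variable (κ : Type u) [Field κ]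

/-- A lower bound `n ≤ [F_M : κ(J)]` yields `n` monomials in the `J(q^d)`, `d ∣ M`, which are
linearly independent over `κ(J)` (general `n`; same argument as `Mono.exists_monomials`). -/
theorem exists_monomials_of_le (M : ℕ) [NeZero M] (n : ℕ)
    (h : (n : Cardinal.{u}) ≤ relrank κ⟮jqModC κ⟯ (modularFunctionFieldFullC κ M)) :
    ∃ s : Fin n → LaurentSeries κ,
      (∀ i, s i ∈ Submonoid.closure (divisorExpansionsC κ M)) ∧
        LinearIndependent ↥(κ⟮jqModC κ⟯) s := by
  classical
  by_cases halg : ∀ x ∈ divisorExpansionsC κ M, IsAlgebraic ↥(κ⟮jqModC κ⟯) x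
  · have hle : κ⟮jqModC κ⟯ ≤ modularFunctionFieldFullC κ M :=
      adjoin_simple_le_iff.mpr (jqModC_mem_full κ M)
    have hE : extendScalars hle = adjoin ↥(κ⟮jqModC κ⟯) (divisorExpansionsC κ M) :=
      extendScalars_adjoin hle
    rw [relrank_eq_rank_of_le hle, hE, ← rank_eq_rank_subalgebra,
      adjoin_toSubalgebra_of_isAlgebraic halg, ← Subalgebra.rank_toSubmodule,
      Algebra.adjoin_eq_span] at h
    obtain ⟨b, hbsub, hbspan, hbli⟩ := exists_linearIndependent ↥(κ⟮jqModC κ⟯)
      ((Submonoid.closure (divisorExpansionsC κ M) : Submonoid (LaurentSeries κ)) :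
        Set (LaurentSeries κ))
    rw [← hbspan, rank_span_set hbli] at h
    have h' : Cardinal.lift.{u} (Cardinal.mk (Fin n)) ≤ Cardinal.lift.{0} (Cardinal.mk b) := by
      simpa using h
    obtain ⟨f⟩ := Cardinal.lift_mk_le'.mp h'
    exact ⟨fun i => (f i : LaurentSeries κ), fun i => hbsub (f i).2, hbli.comp f f.injective⟩
  · obtain ⟨x, hxS, hx⟩ : ∃ x ∈ divisorExpansionsC κ M, Transcendental ↥(κ⟮jqModC κ⟯) x := by
      by_contra hcon
      exact halg fun x hx => by
        by_contra hx'
        exact hcon ⟨x, hx, hx'⟩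
    exact ⟨fun i => x ^ (i : ℕ), fun i => pow_mem (Submonoid.subset_closure hxS) _,
      Mono.linearIndependent_pow_of_transcendental hx _⟩

/-- Polynomials in `J` with coefficients in `κ` lie in `κ(J)`. -/
theorem aeval_mem_adjoin (c : Polynomial κ) :
    Polynomial.aeval (jqModC κ) c ∈ κ⟮jqModC κ⟯ :=
  algebra_adjoin_le_adjoin κ _ (Polynomial.aeval_mem_adjoin_singleton κ (jqModC κ))

/-- A nontrivial `κ[J]`-relation between the members of a family forbids linear independence
over `κ(J)`. -/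
theorem not_linearIndependent_of_rel {n : ℕ} (s : Fin n → LaurentSeries κ)
    (c : Fin n → Polynomial κ) (hc : c ≠ 0)
    (hrel : ∑ i, Polynomial.aeval (jqModC κ) (c i) * s i = 0) :
    ¬ LinearIndependent ↥(κ⟮jqModC κ⟯) s := by
  intro hli
  rw [Fintype.linearIndependent_iff] at hli
  have h0 := hli (fun i => ⟨Polynomial.aeval (jqModC κ) (c i), aeval_mem_adjoin κ (c i)⟩) (by
    rw [← hrel]
    exact Finset.sum_congr rfl fun i _ => rfl)
  apply hc
  funext i
  have hi : Polynomial.aeval (jqModC κ) (c i) = 0 := congrArg Subtype.val (h0 i)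
  have hinj : Function.Injective (Polynomial.aeval (R := κ) (jqModC κ)) :=
    transcendental_iff_injective.mp (LevelData.transcendental_jqModC κ)
  exact hinj (by rw [hi, Pi.zero_apply, map_zero])

/-- **UPPER, abstract form**: if any `ψ + 1` monomials in the `J(q^d)`, `d ∣ M`, satisfy a
nontrivial relation with coefficients in `κ[J]`, then `[F_M : κ(J)] ≤ ψ`. -/
theorem relrank_le_of_rel (M : ℕ) [NeZero M] (ψ : ℕ)
    (hrel : ∀ e : Fin (ψ + 1) → ℕ → ℕ, ∃ c : Fin (ψ + 1) → Polynomial κ, c ≠ 0 ∧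
      ∑ i, Polynomial.aeval (jqModC κ) (c i) * Mono.mono κ M (e i) = 0) :
    relrank κ⟮jqModC κ⟯ (modularFunctionFieldFullC κ M) ≤ (ψ : Cardinal.{u}) := by
  by_contra hcon
  have hlt : (ψ : Cardinal.{u}) < relrank κ⟮jqModC κ⟯ (modularFunctionFieldFullC κ M) :=
    not_le.mp hcon
  have hle : ((ψ + 1 : ℕ) : Cardinal.{u}) ≤
      relrank κ⟮jqModC κ⟯ (modularFunctionFieldFullC κ M) := by
    rw [Nat.cast_add_one]
    exact Cardinal.natCast_add_one_le_iff.mpr hlt
  obtain ⟨s, hs, hli⟩ := exists_monomials_of_le κ M (ψ + 1) hle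
  choose e he using fun i => Mono.exists_eq_mono (NeZero.ne M) (hs i)
  obtain ⟨c, hc, hsum⟩ := hrel e
  refine not_linearIndependent_of_rel κ s c hc ?_ hli
  rw [← hsum]
  exact Finset.sum_congr rfl fun i _ => by rw [he i]

end Fermat.Agent.S28.Upper

end
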