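/-
S28, piece VAL-BASE part 2 (helper18): the two concrete inputs of the valuation argument on the
frozen charts, stated against `Lam` (helper11).

* `sat_fin`, `sat_inv`: saturation `Λ ∩ B[1/ℓ] = B` for `B = ℤ_(ℓ)[j]` and `B = ℤ_(ℓ)[1/j]`;
* `res_mem_ratfun`: the residue of an element of `ℚ(j) ∩ Λ` is a rational function of `J`.
-/
import Mathlib
import Fermat.Agent.S28.Lam
import Fermat.Agent.S28.ValBase

set_option autoImplicit false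

noncomputable section

namespace Fermat.Agent.S28.ValBase2

open ModularCurve ModularCurve.IgusaScheme Polynomial
open scoped IntermediateField

variable (ℓ : ℕ) [Fact ℓ.Prime]

set_option quotPrecheck false in
local notation "ℤℓ" => ↥(GaloisRep.ratLocalizedAt ℓ)

/-! ### Polynomials in `j` and `1/j` over `ℤ_(ℓ)` -/

omit [Fact ℓ.Prime] in
theorem ι_aeval (y : LaurentSeries ℤℓ) (P : ℤℓ[X]) :
    Lam.ι ℓ (aeval y P) = aeval (Lam.ι ℓ y) (P.map (algebraMap ℤℓ ℚ)) :=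
  ValBase.coeffMap_aeval _ y P

theorem red_aeval (y : LaurentSeries ℤℓ) (P : ℤℓ[X]) :
    Lam.red ℓ (aeval y P) = aeval (Lam.red ℓ y) (P.map (Lam.redHom ℓ)) :=
  ValBase.coeffMap_aeval _ y P

omit [Fact ℓ.Prime] in
theorem ι_jqInvC : Lam.ι ℓ (ValBase.jqInvC ℤℓ) = jq⁻¹ := by
  have h : jq * Lam.ι ℓ (ValBase.jqInvC ℤℓ) = 1 := by
    rw [Lam.jq_eq_ι ℓ, ← map_mul, ValBase.jqModC_mul_jqInvC, map_one]
  exact eq_inv_of_mul_eq_one_right h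

theorem red_jqInvC : Lam.red ℓ (ValBase.jqInvC ℤℓ) = ValBase.jqInvC (ZMod ℓ) :=
  ValBase.coeffMap_jqInvC _

/-- a polynomial in `j` over `ℤ_(ℓ)` whose value reduces to zero is divisible by `ℓ` -/
theorem exists_eq_C_mul_of_red_aeval_jqModC (P : ℤℓ[X])
    (h : Lam.red ℓ (aeval (jqModC ℤℓ) P) = 0) : ∃ P' : ℤℓ[X], P = C (ℓ : ℤℓ) * P' :=
  ValBase.exists_eq_C_mul_of_map_eq_zero (Lam.redHom ℓ) (ℓ : ℤℓ)
    (fun c hc => (Lam.redHom_eq_zero_iff ℓ c).mp hc) P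
    (ValBase.map_eq_zero_of_coeffMap_aeval_jqModC (Lam.redHom ℓ) P h)

theorem exists_eq_C_mul_of_red_aeval_jqInvC (P : ℤℓ[X])
    (h : Lam.red ℓ (aeval (ValBase.jqInvC ℤℓ) P) = 0) : ∃ P' : ℤℓ[X], P = C (ℓ : ℤℓ) * P' :=
  ValBase.exists_eq_C_mul_of_map_eq_zero (Lam.redHom ℓ) (ℓ : ℤℓ)
    (fun c hc => (Lam.redHom_eq_zero_iff ℓ c).mp hc) P
    (ValBase.map_eq_zero_of_coeffMap_aeval_jqInvC (Lam.redHom ℓ) P h)

omit [Fact ℓ.Prime] in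
theorem aeval_C_natCast_mul (y : LaurentSeries ℤℓ) (P : ℤℓ[X]) :
    aeval y (C (ℓ : ℤℓ) * P) = (ℓ : LaurentSeries ℤℓ) * aeval y P := by
  rw [map_mul, aeval_C, map_natCast]

/-- the residue of `ℓ * y` vanishes -/
theorem res_eq_zero_of_eq_mul {z : LaurentSeries ℚ} (hz : z ∈ Lam.Lam ℓ) {y : LaurentSeries ℚ}
    (hy : y ∈ Lam.Lam ℓ) (h : z = (ℓ : LaurentSeries ℚ) * y) : Lam.res ℓ ⟨z, hz⟩ = 0 := by
  rw [Lam.res_eq_zero_iff]
  exact ⟨⟨y, hy⟩, Subtype.ext (by rw [Subring.coe_mul, Subring.coe_natCast]; exact h)⟩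

/-- if `ι a = ℓ * y` with `y ∈ Λ`, then `red a = 0` -/
theorem red_eq_zero_of_ι_eq_mul (a : LaurentSeries ℤℓ) {y : LaurentSeries ℚ}
    (hy : y ∈ Lam.Lam ℓ) (h : Lam.ι ℓ a = (ℓ : LaurentSeries ℚ) * y) : Lam.red ℓ a = 0 := by
  rw [← Lam.res_ι]
  exact res_eq_zero_of_eq_mul ℓ (Lam.ι_mem ℓ a) hy h

/-! ### Saturation -/

section sat

variable (N : ℕ) [NeZero N]

set_option quotPrecheck false in
local notation "F" => ↥(modularFunctionFieldFull N)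

omit [Fact ℓ.Prime] [NeZero N] in
/-- the `q`-expansion of a polynomial over `ℤ_(ℓ)` in an element of the function field -/
theorem coe_aeval (s : F) (P : ℤℓ[X]) :
    ((aeval s P : F) : LaurentSeries ℚ) =
      aeval (s : LaurentSeries ℚ) (P.map (algebraMap ℤℓ ℚ)) := by
  let φ : F →+* LaurentSeries ℚ :=
    { toFun := fun x => (x : LaurentSeries ℚ)
      map_one' := rfl
      map_mul' := fun _ _ => rfl
      map_zero' := rfl
      map_add' := fun _ _ => rfl }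
  have h := Polynomial.hom_eval₂ P (algebraMap ℤℓ F) φ s
  have hc : φ.comp (algebraMap ℤℓ F) =
      (algebraMap ℚ (LaurentSeries ℚ)).comp (algebraMap ℤℓ ℚ) := by
    ext1 c
    show ((algebraMap ℤℓ F c : F) : LaurentSeries ℚ) =
      algebraMap ℚ (LaurentSeries ℚ) (algebraMap ℤℓ ℚ c)
    rw [IsScalarTower.algebraMap_apply ℤℓ ℚ F, eq_ratCast (algebraMap ℚ F),
      eq_ratCast (algebraMap ℚ (LaurentSeries ℚ))]
    rfl
  rw [hc] at h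
  rw [aeval_def, aeval_def, eval₂_map]
  exact h

omit [NeZero N] in
/-- **Saturation, general form**: if the `q`-expansion of `s` is `ι y` and polynomials in `y`
reducing to zero are divisible by `ℓ`, then `Λ ∩ ℤ_(ℓ)[s][1/ℓ] = ℤ_(ℓ)[s]`. -/
theorem sat_of (s : F) (y : LaurentSeries ℤℓ) (hs : (s : LaurentSeries ℚ) = Lam.ι ℓ y)
    (hy : ∀ P : ℤℓ[X], Lam.red ℓ (aeval y P) = 0 → ∃ P' : ℤℓ[X], P = C (ℓ : ℤℓ) * P')
    (x : F) (hx : (x : LaurentSeries ℚ) ∈ Lam.Lam ℓ)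
    (h : (ℓ : F) * x ∈ Algebra.adjoin ℤℓ {s}) : x ∈ Algebra.adjoin ℤℓ {s} := by
  rw [Algebra.adjoin_singleton_eq_range_aeval] at h ⊢
  obtain ⟨P, hP⟩ := h
  have hP' : (aeval s P : F) = (ℓ : F) * x := hP
  have h1 : Lam.ι ℓ (aeval y P) = (ℓ : LaurentSeries ℚ) * (x : LaurentSeries ℚ) := by
    rw [ι_aeval, ← hs, ← coe_aeval, hP']
    rfl
  obtain ⟨P', rfl⟩ := hy P (red_eq_zero_of_ι_eq_mul ℓ _ hx h1)
  refine ⟨P', ?_⟩
  have hℓ : (ℓ : F) ≠ 0 := Nat.cast_ne_zero.mpr (Fact.out : ℓ.Prime).ne_zero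
  have h2 : (ℓ : F) * aeval s P' = (ℓ : F) * x := by
    rw [← hP', map_mul, aeval_C, map_natCast]
  exact mul_left_cancel₀ hℓ h2

/-- **Saturation on the finite chart**: `Λ ∩ ℤ_(ℓ)[j][1/ℓ] = ℤ_(ℓ)[j]`. -/
theorem sat_fin (x : F) (hx : (x : LaurentSeries ℚ) ∈ Lam.Lam ℓ)
    (h : (ℓ : F) * x ∈ Algebra.adjoin ℤℓ {jFull N}) : x ∈ Algebra.adjoin ℤℓ {jFull N} :=
  sat_of ℓ N (jFull N) (jqModC ℤℓ) (Lam.jq_eq_ι ℓ)
    (exists_eq_C_mul_of_red_aeval_jqModC ℓ) x hx h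

/-- **Saturation on the chart at infinity**: `Λ ∩ ℤ_(ℓ)[1/j][1/ℓ] = ℤ_(ℓ)[1/j]`. -/
theorem sat_inv (x : F) (hx : (x : LaurentSeries ℚ) ∈ Lam.Lam ℓ)
    (h : (ℓ : F) * x ∈ Algebra.adjoin ℤℓ {(jFull N)⁻¹}) :
    x ∈ Algebra.adjoin ℤℓ {(jFull N)⁻¹} :=
  sat_of ℓ N (jFull N)⁻¹ (ValBase.jqInvC ℤℓ) (ι_jqInvC ℓ).symm
    (exists_eq_C_mul_of_red_aeval_jqInvC ℓ) x hx h

end sat

/-! ### The residue field of `ℚ(j) ∩ Λ` -/

section res

omit [Fact ℓ.Prime] in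
theorem ι_aeval_map_intCast (T : ℤ[X]) :
    Lam.ι ℓ (aeval (jqModC ℤℓ) (T.map (Int.castRingHom ℤℓ))) =
      aeval jq (T.map (Int.castRingHom ℚ)) := by
  rw [ι_aeval, ← Lam.jq_eq_ι, Polynomial.map_map,
    RingHom.ext_int ((algebraMap ℤℓ ℚ).comp (Int.castRingHom ℤℓ)) (Int.castRingHom ℚ)]

omit [Fact ℓ.Prime] in
/-- clearing denominators: an element of `ℚ(j)` is a quotient of polynomials in `j` over
`ℤ_(ℓ)` -/
theorem exists_poly_of_mem_adjoin {x : LaurentSeries ℚ} (hx : x ∈ ℚ⟮jq⟯) :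
    ∃ P Q : ℤℓ[X], Q ≠ 0 ∧
      x * Lam.ι ℓ (aeval (jqModC ℤℓ) Q) = Lam.ι ℓ (aeval (jqModC ℤℓ) P) := by
  obtain ⟨r, s, rfl⟩ := (IntermediateField.mem_adjoin_simple_iff ℚ x).mp hx
  by_cases hs : aeval jq s = 0
  · refine ⟨0, 1, one_ne_zero, ?_⟩
    rw [hs, div_zero, zero_mul, map_zero, map_zero]
  obtain ⟨b₁, hb₁, hr⟩ := IsLocalization.integerNormalization_spec (nonZeroDivisors ℤ) r
  obtain ⟨b₂, hb₂, hs'⟩ := IsLocalization.integerNormalization_spec (nonZeroDivisors ℤ) s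
  obtain ⟨r₁, hr₁⟩ : ∃ r₁, r₁ = IsLocalization.integerNormalization (nonZeroDivisors ℤ) r :=
    ⟨_, rfl⟩
  obtain ⟨s₁, hs₁⟩ : ∃ s₁, s₁ = IsLocalization.integerNormalization (nonZeroDivisors ℤ) s :=
    ⟨_, rfl⟩
  rw [← hr₁] at hr
  rw [← hs₁] at hs'
  have hcast : ∀ b : ℤ, b ≠ 0 → (b : LaurentSeries ℚ) ≠ 0 := by
    intro b hb
    rw [← map_intCast (algebraMap ℚ (LaurentSeries ℚ))]
    exact (_root_.map_ne_zero _).mpr (Int.cast_ne_zero.mpr hb)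
  have hb₁0 : (b₁ : LaurentSeries ℚ) ≠ 0 := hcast b₁ (nonZeroDivisors.ne_zero hb₁)
  have hb₂0 : (b₂ : LaurentSeries ℚ) ≠ 0 := hcast b₂ (nonZeroDivisors.ne_zero hb₂)
  have hr' : aeval jq (r₁.map (Int.castRingHom ℚ)) = (b₁ : LaurentSeries ℚ) * aeval jq r := by
    have h := congrArg (aeval jq) hr
    rw [map_zsmul, zsmul_eq_mul] at h
    exact h
  have hs'' : aeval jq (s₁.map (Int.castRingHom ℚ)) = (b₂ : LaurentSeries ℚ) * aeval jq s := by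
    have h := congrArg (aeval jq) hs'
    rw [map_zsmul, zsmul_eq_mul] at h
    exact h
  have hP : Lam.ι ℓ (aeval (jqModC ℤℓ) ((C b₂ * r₁).map (Int.castRingHom ℤℓ))) =
      (b₂ : LaurentSeries ℚ) * ((b₁ : LaurentSeries ℚ) * aeval jq r) := by
    rw [ι_aeval_map_intCast, Polynomial.map_mul, map_C, map_mul, aeval_C, hr']
    simp
  have hQ : Lam.ι ℓ (aeval (jqModC ℤℓ) ((C b₁ * s₁).map (Int.castRingHom ℤℓ))) =
      (b₁ : LaurentSeries ℚ) * ((b₂ : LaurentSeries ℚ) * aeval jq s) := by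
    rw [ι_aeval_map_intCast, Polynomial.map_mul, map_C, map_mul, aeval_C, hs'']
    simp
  refine ⟨(C b₂ * r₁).map (Int.castRingHom ℤℓ), (C b₁ * s₁).map (Int.castRingHom ℤℓ), ?_, ?_⟩
  · intro h0
    rw [h0, map_zero, map_zero] at hQ
    exact mul_ne_zero hb₁0 (mul_ne_zero hb₂0 hs) hQ.symm
  · rw [hP, hQ]
    field_simp

theorem natCast_prime_ne_zero : (ℓ : LaurentSeries ℤℓ) ≠ 0 := by
  intro h
  have h1 := congrArg (Lam.ι ℓ) h
  rw [map_natCast, map_zero] at h1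
  exact Lam.natCast_ne_zero_laurent (Fact.out : ℓ.Prime).ne_zero h1

/-- the content step: powers of `ℓ` are moved out of numerator and denominator -/
theorem exists_red_ne_zero (x : LaurentSeries ℚ) (hx : x ∈ Lam.Lam ℓ) :
    ∀ (m : ℕ) (P Q : ℤℓ[X]) (a' : LaurentSeries ℤℓ), Lam.red ℓ a' ≠ 0 →
      aeval (jqModC ℤℓ) Q = (ℓ : LaurentSeries ℤℓ) ^ m * a' →
      x * Lam.ι ℓ (aeval (jqModC ℤℓ) Q) = Lam.ι ℓ (aeval (jqModC ℤℓ) P) →
      ∃ P₀ Q₀ : ℤℓ[X], Lam.red ℓ (aeval (jqModC ℤℓ) Q₀) ≠ 0 ∧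
        x * Lam.ι ℓ (aeval (jqModC ℤℓ) Q₀) = Lam.ι ℓ (aeval (jqModC ℤℓ) P₀) := by
  intro m
  induction m with
  | zero =>
    intro P Q a' ha' hQ h
    refine ⟨P, Q, ?_, h⟩
    rw [hQ, pow_zero, one_mul]
    exact ha'
  | succ m ih =>
    intro P Q a' ha' hQ h
    have hredQ : Lam.red ℓ (aeval (jqModC ℤℓ) Q) = 0 := by
      rw [hQ, map_mul, map_pow, Lam.red_natCast_self, zero_pow (Nat.succ_ne_zero m), zero_mul]
    obtain ⟨Q', rfl⟩ := exists_eq_C_mul_of_red_aeval_jqModC ℓ Q hredQ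
    have hQ' : aeval (jqModC ℤℓ) Q' = (ℓ : LaurentSeries ℤℓ) ^ m * a' := by
      rw [aeval_C_natCast_mul, pow_succ', mul_assoc] at hQ
      exact mul_left_cancel₀ (natCast_prime_ne_zero ℓ) hQ
    have hy : x * Lam.ι ℓ (aeval (jqModC ℤℓ) Q') ∈ Lam.Lam ℓ :=
      (Lam.Lam ℓ).mul_mem hx (Lam.ι_mem ℓ _)
    have h1 : Lam.ι ℓ (aeval (jqModC ℤℓ) P) =
        (ℓ : LaurentSeries ℚ) * (x * Lam.ι ℓ (aeval (jqModC ℤℓ) Q')) := by
      rw [← h, aeval_C_natCast_mul, map_mul, map_natCast]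
      ring
    obtain ⟨P', rfl⟩ :=
      exists_eq_C_mul_of_red_aeval_jqModC ℓ P (red_eq_zero_of_ι_eq_mul ℓ _ hy h1)
    refine ih P' Q' a' ha' hQ' ?_
    rw [aeval_C_natCast_mul, map_mul, map_natCast] at h1
    exact (mul_left_cancel₀ (Lam.natCast_ne_zero_laurent (Fact.out : ℓ.Prime).ne_zero) h1).symm

/-- **Residue field of `ℚ(j) ∩ Λ`**: the residue of an element of `Λ` lying in `ℚ(j)` is a
rational function of `J = j mod ℓ`. -/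
theorem res_mem_ratfun (x : Lam.Lam ℓ) (hx : (x : LaurentSeries ℚ) ∈ ℚ⟮jq⟯) :
    ∃ P Q : (ZMod ℓ)[X], Q ≠ 0 ∧
      Lam.res ℓ x * aeval (jqModC (ZMod ℓ)) Q = aeval (jqModC (ZMod ℓ)) P := by
  obtain ⟨P, Q, hQ, h⟩ := exists_poly_of_mem_adjoin ℓ hx
  have hQ0 : aeval (jqModC ℤℓ) Q ≠ 0 := fun h0 => hQ (ValBase.aeval_jqModC_eq_zero ℤℓ h0)
  obtain ⟨m, a', hQa, ha'⟩ := Lam.exists_pow_mul ℓ hQ0
  obtain ⟨P₀, Q₀, hQ₀, h₀⟩ := exists_red_ne_zero ℓ x x.2 m P Q a' ha' hQa h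
  refine ⟨P₀.map (Lam.redHom ℓ), Q₀.map (Lam.redHom ℓ), ?_, ?_⟩
  · intro h0
    apply hQ₀
    rw [red_aeval, h0, map_zero]
  · have h2 := Lam.res_mul_red ℓ x hQ₀ h₀
    rw [red_aeval, red_aeval, Lam.red_jqModC] at h2
    exact h2

/-- the residue of an element of `ℚ(j) ∩ Λ` lies in `𝔽_ℓ(J)` -/
theorem res_mem_adjoin (x : Lam.Lam ℓ) (hx : (x : LaurentSeries ℚ) ∈ ℚ⟮jq⟯) :
    Lam.res ℓ x ∈ (ZMod ℓ)⟮jqModC (ZMod ℓ)⟯ := by
  obtain ⟨P, Q, hQ, h⟩ := res_mem_ratfun ℓ x hx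
  rw [IntermediateField.mem_adjoin_simple_iff]
  refine ⟨P, Q, ?_⟩
  have hQ' : aeval (jqModC (ZMod ℓ)) Q ≠ 0 :=
    fun h0 => hQ (ValBase.aeval_jqModC_eq_zero _ h0)
  rw [eq_div_iff hQ', h]

end res

/-! ### Bridges to the function field `F` -/

section bridge

variable (N : ℕ) [NeZero N]

set_option quotPrecheck false in
local notation "F" => ↥(modularFunctionFieldFull N)

omit [Fact ℓ.Prime] [NeZero N] in
/-- the `q`-expansion of a polynomial over `ℚ` in an element of the function field -/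
theorem coe_aeval_rat (s : F) (r : ℚ[X]) :
    ((aeval s r : F) : LaurentSeries ℚ) = aeval (s : LaurentSeries ℚ) r := by
  let φ : F →+* LaurentSeries ℚ :=
    { toFun := fun x => (x : LaurentSeries ℚ)
      map_one' := rfl
      map_mul' := fun _ _ => rfl
      map_zero' := rfl
      map_add' := fun _ _ => rfl }
  have h := Polynomial.hom_eval₂ r (algebraMap ℚ F) φ s
  rw [Subsingleton.elim (φ.comp (algebraMap ℚ F)) (algebraMap ℚ (LaurentSeries ℚ))] at h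
  rw [aeval_def, aeval_def]
  exact h

omit [Fact ℓ.Prime] in
/-- an element of `ℚ(j) ⊆ F` has its `q`-expansion in `ℚ(j) ⊆ ℚ((q))` -/
theorem coe_mem_adjoin_jq {x : F} (hx : x ∈ ℚ⟮jFull N⟯) : (x : LaurentSeries ℚ) ∈ ℚ⟮jq⟯ := by
  obtain ⟨r, s, rfl⟩ := (IntermediateField.mem_adjoin_simple_iff ℚ x).mp hx
  rw [IntermediateField.mem_adjoin_simple_iff]
  refine ⟨r, s, ?_⟩
  show ((aeval (jFull N) r : F) : LaurentSeries ℚ) / ((aeval (jFull N) s : F) : LaurentSeries ℚ)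
    = _
  rw [coe_aeval_rat, coe_aeval_rat]
  rfl

/-- the residue of an element of `ℚ(j) ∩ V` is a rational function of `J` -/
theorem resV_mem_ratfun (x : Lam.valSubring ℓ N) (hx : (x : F) ∈ ℚ⟮jFull N⟯) :
    ∃ P Q : (ZMod ℓ)[X], Q ≠ 0 ∧
      Lam.resV ℓ N x * aeval (jqModC (ZMod ℓ)) Q = aeval (jqModC (ZMod ℓ)) P :=
  res_mem_ratfun ℓ ⟨((x : F) : LaurentSeries ℚ), x.2⟩ (coe_mem_adjoin_jq N hx)

/-- the residue of an element of `ℚ(j) ∩ V` lies in `𝔽_ℓ(J)` -/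
theorem resV_mem_adjoin (x : Lam.valSubring ℓ N) (hx : (x : F) ∈ ℚ⟮jFull N⟯) :
    Lam.resV ℓ N x ∈ (ZMod ℓ)⟮jqModC (ZMod ℓ)⟯ :=
  res_mem_adjoin ℓ ⟨((x : F) : LaurentSeries ℚ), x.2⟩ (coe_mem_adjoin_jq N hx)

end bridge

end Fermat.Agent.S28.ValBase2
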