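import Fermat.Agent.S28.Lam
import Fermat.Agent.S28.ValAbs

/-!
# S28, piece VAL-FINAL: the kernel of the reduction map on the chart algebras

`ρ_S : chartAlg N ℓ S → 𝔽_ℓ((q))` is `Lam.rho`.  We show `ker ρ_S ⊆ ℓ · chartAlg N ℓ S`
from the abstract valuation-ring lemma `ValAbs.isIntegral_div_of_residue_eq_zero`, the facts
about `Λ` and `V = F ∩ Λ` of `Lam.lean`, and five inputs which are kept as explicit hypotheses
here (they are discharged in `ValFinalMain.lean`):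

* `hfin`, `hcard` : `[F : ℚ(j)] ≤ ψ(N)`                         (S24 degree bound, `Deg0Full`);
* `hcl`  : `ℤ_(ℓ)[s]` is integrally closed in `ℚ(j)`            (`Normal`);
* `hsat` : `x ∈ V`, `ℓ x ∈ ℤ_(ℓ)[s]` implies `x ∈ ℤ_(ℓ)[s]`     (saturation);
* `hres` : the residue of `ℚ(j) ∩ V` lies in `𝔽_ℓ(J)`           (`LamExtra`);
* `hmono`: `ψ(N)` elements of `V` with `𝔽_ℓ(J)`-independent residues  (`MonoLam` + the spine).

Main statements: `exists_mul_of_rho_eq_zero` (any chart `S`), `hFin`, `hInf`.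
-/

set_option autoImplicit false

noncomputable section

namespace Fermat.Agent.S28.ValFinal

open ModularCurve ModularCurve.IgusaScheme

variable (ℓ : ℕ) [Fact ℓ.Prime] (N : ℕ) [NeZero N]

set_option quotPrecheck false in
local notation "ℤℓ" => ↥(GaloisRep.ratLocalizedAt ℓ)

set_option quotPrecheck false in
local notation "F" => ↥(modularFunctionFieldFull N)

/-- `ℚ(j)` as a subfield of the function field `F` of `X₀(N)`. -/
abbrev K0 : Subfield F := (IntermediateField.adjoin ℚ {jFull N}).toSubfield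

omit [NeZero N] in
theorem natCast_ne_zero_F : (ℓ : F) ≠ 0 :=
  Nat.cast_ne_zero.mpr (Fact.out : ℓ.Prime).ne_zero

/-- **VAL-KER for a chart algebra**, from the pieces. -/
theorem exists_mul_of_rho_eq_zero (S : Set F) (hS : ∀ s ∈ S, s ∈ Lam.valSubring ℓ N)
    (hSK : ∀ s ∈ S, s ∈ IntermediateField.adjoin ℚ {jFull N})
    (hfin : FiniteDimensional ↥(K0 N) F)
    (hcard : Module.finrank ↥(K0 N) F ≤ dedekindPsi N)
    (hcl : ∀ x : F, x ∈ IntermediateField.adjoin ℚ {jFull N} →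
      IsIntegral ↥(Algebra.adjoin ℤℓ S) x → x ∈ Algebra.adjoin ℤℓ S)
    (hsat : ∀ x : F, x ∈ Lam.valSubring ℓ N → (ℓ : F) * x ∈ Algebra.adjoin ℤℓ S →
      x ∈ Algebra.adjoin ℤℓ S)
    (hres : ∀ c : Lam.valSubring ℓ N, (c : F) ∈ IntermediateField.adjoin ℚ {jFull N} →
      Lam.resV ℓ N c ∈ IntermediateField.adjoin (ZMod ℓ) {jqModC (ZMod ℓ)})
    (f : Fin (dedekindPsi N) → Lam.valSubring ℓ N)
    (hf : LinearIndependent ↥(IntermediateField.adjoin (ZMod ℓ) {jqModC (ZMod ℓ)})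
      (fun i => Lam.resV ℓ N (f i)))
    (a : chartAlg N ℓ S) (ha : Lam.rho ℓ N S hS a = 0) :
    ∃ b : chartAlg N ℓ S, a = (ℓ : chartAlg N ℓ S) * b := by
  classical
  have hℓ0 : (ℓ : F) ≠ 0 := natCast_ne_zero_F ℓ N
  -- the data of `ValAbs`
  let V : Subring F := (Lam.valSubring ℓ N).toSubring
  let B : Subring F := (Algebra.adjoin ℤℓ S).toSubring
  let ρ : ↥V →+* LaurentSeries (ZMod ℓ) := Lam.resV ℓ N
  have hBV : B ≤ V := fun x hx => Lam.chartAlg_le ℓ N S hS (adjoin_le_chartAlg N ℓ S hx)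
  have hBK : B ≤ (K0 N).toSubring := by
    intro x hx
    have hx' : x ∈ Algebra.adjoin ℤℓ S := hx
    show x ∈ IntermediateField.adjoin ℚ {jFull N}
    induction hx' using Algebra.adjoin_induction with
    | mem y hy => exact hSK y hy
    | algebraMap c =>
      rw [IsScalarTower.algebraMap_apply ℤℓ ℚ F]
      exact IntermediateField.algebraMap_mem _ _
    | add y z _ _ hy hz => exact add_mem (hy ‹_›) (hz ‹_›)
    | mul y z _ _ hy hz => exact mul_mem (hy ‹_›) (hz ‹_›)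
  have hBcl : ∀ x : F, x ∈ K0 N → IsIntegral ↥B x → x ∈ B := fun x hxK hx => hcl x hxK hx
  have hlB : (ℓ : F) ∈ B := natCast_mem (Algebra.adjoin ℤℓ S) ℓ
  have hρl : ρ ⟨(ℓ : F), hBV hlB⟩ = 0 := Lam.resV_natCast_self ℓ N
  have hker : ∀ v : ↥V, ρ v = 0 → (v : F) / (ℓ : F) ∈ V := by
    intro v hv
    obtain ⟨y, hy⟩ := (Lam.resV_eq_zero_iff ℓ N v).mp hv
    have hy' : (v : F) = (ℓ : F) * (y : F) := by
      have := congrArg (fun z : Lam.valSubring ℓ N => (z : F)) hy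
      simpa using this
    rw [hy', mul_div_assoc, mul_comm, div_mul_cancel₀ _ hℓ0]
    exact y.2
  have hBker : ∀ x : ↥V, (x : F) ∈ B → ρ x = 0 → (x : F) / (ℓ : F) ∈ B := by
    intro x hxB hρx
    refine hsat _ (hker x hρx) ?_
    rw [mul_div_cancel₀ _ hℓ0]
    exact hxB
  have hscale : ∀ a : F, a ∈ K0 N → a ≠ 0 →
      ∃ m : ℤ, ∃ u : ↥V, (u : F) = (ℓ : F) ^ m * a ∧ ρ u ≠ 0 := by
    intro a _ ha0
    obtain ⟨m, u, hu, hau⟩ := Lam.exists_zpow_mul_V ℓ N ha0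
    refine ⟨-m, u, ?_, hu⟩
    rw [hau, ← mul_assoc, ← zpow_add₀ hℓ0, neg_add_cancel, zpow_zero, one_mul]
  have hcard' : Module.finrank ↥(K0 N) F ≤ Fintype.card (Fin (dedekindPsi N)) := by
    simpa using hcard
  have hind : ∀ c : Fin (dedekindPsi N) → ↥V, (∀ i, (c i : F) ∈ K0 N) →
      ∑ i, ρ (c i) * ρ (f i) = 0 → ∀ i, ρ (c i) = 0 := by
    intro c hcK hsum i
    have h := Fintype.linearIndependent_iff.mp hf
      (fun i => ⟨ρ (c i), hres (c i) (hcK i)⟩) (by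
        rw [← hsum]
        exact Finset.sum_congr rfl fun i _ => rfl) i
    exact congrArg Subtype.val h
  have haV : (a : F) ∈ V := Lam.chartAlg_le ℓ N S hS a.2
  have haB : IsIntegral ↥B (a : F) := (mem_chartAlg_iff N ℓ).mp a.2
  have hρa : ρ ⟨(a : F), haV⟩ = 0 := ha
  have key : IsIntegral ↥B ((a : F) / (ℓ : F)) :=
    ValAbs.isIntegral_div_of_residue_eq_zero (K₀ := K0 N) (V := V) (ρ := ρ) B hBK hBV hBcl hlB
      hℓ0 hρl hker hBker hscale hcard' f hind haV haB hρa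
  refine ⟨⟨(a : F) / (ℓ : F), (mem_chartAlg_iff N ℓ).mpr key⟩, ?_⟩
  apply Subtype.ext
  show (a : F) = ((ℓ : chartAlg N ℓ S) : F) * ((a : F) / (ℓ : F))
  rw [show ((ℓ : chartAlg N ℓ S) : F) = (ℓ : F) from rfl, mul_div_cancel₀ _ hℓ0]

/-! ### The two charts -/

/-- **hFin**: the kernel of `ρ_Fin = Lam.rhoFin` is contained in `ℓ · chartAlgFin`. -/
theorem hFin
    (hfin : FiniteDimensional ↥(K0 N) F)
    (hcard : Module.finrank ↥(K0 N) F ≤ dedekindPsi N)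
    (hcl : ∀ x : F, x ∈ IntermediateField.adjoin ℚ {jFull N} →
      IsIntegral ↥(Algebra.adjoin ℤℓ ({jFull N} : Set F)) x →
      x ∈ Algebra.adjoin ℤℓ ({jFull N} : Set F))
    (hsat : ∀ x : F, x ∈ Lam.valSubring ℓ N →
      (ℓ : F) * x ∈ Algebra.adjoin ℤℓ ({jFull N} : Set F) →
      x ∈ Algebra.adjoin ℤℓ ({jFull N} : Set F))
    (hres : ∀ c : Lam.valSubring ℓ N, (c : F) ∈ IntermediateField.adjoin ℚ {jFull N} →
      Lam.resV ℓ N c ∈ IntermediateField.adjoin (ZMod ℓ) {jqModC (ZMod ℓ)})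
    (hmono : ∃ f : Fin (dedekindPsi N) → Lam.valSubring ℓ N,
      LinearIndependent ↥(IntermediateField.adjoin (ZMod ℓ) {jqModC (ZMod ℓ)})
        (fun i => Lam.resV ℓ N (f i)))
    (a : ↥(chartAlgFin N ℓ)) (ha : Lam.rhoFin ℓ N a = 0) :
    ∃ b : ↥(chartAlgFin N ℓ), a = (ℓ : ↥(chartAlgFin N ℓ)) * b := by
  obtain ⟨f, hf⟩ := hmono
  exact exists_mul_of_rho_eq_zero ℓ N _ _
    (by rintro s rfl; exact IntermediateField.subset_adjoin ℚ _ rfl)
    hfin hcard hcl hsat hres f hf a ha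

/-- **hInf**: the kernel of `ρ_Inf = Lam.rhoInf` is contained in `ℓ · chartAlgInf`. -/
theorem hInf
    (hfin : FiniteDimensional ↥(K0 N) F)
    (hcard : Module.finrank ↥(K0 N) F ≤ dedekindPsi N)
    (hcl : ∀ x : F, x ∈ IntermediateField.adjoin ℚ {jFull N} →
      IsIntegral ↥(Algebra.adjoin ℤℓ ({(jFull N)⁻¹} : Set F)) x →
      x ∈ Algebra.adjoin ℤℓ ({(jFull N)⁻¹} : Set F))
    (hsat : ∀ x : F, x ∈ Lam.valSubring ℓ N →
      (ℓ : F) * x ∈ Algebra.adjoin ℤℓ ({(jFull N)⁻¹} : Set F) →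
      x ∈ Algebra.adjoin ℤℓ ({(jFull N)⁻¹} : Set F))
    (hres : ∀ c : Lam.valSubring ℓ N, (c : F) ∈ IntermediateField.adjoin ℚ {jFull N} →
      Lam.resV ℓ N c ∈ IntermediateField.adjoin (ZMod ℓ) {jqModC (ZMod ℓ)})
    (hmono : ∃ f : Fin (dedekindPsi N) → Lam.valSubring ℓ N,
      LinearIndependent ↥(IntermediateField.adjoin (ZMod ℓ) {jqModC (ZMod ℓ)})
        (fun i => Lam.resV ℓ N (f i)))
    (a : ↥(chartAlgInf N ℓ)) (ha : Lam.rhoInf ℓ N a = 0) :
    ∃ b : ↥(chartAlgInf N ℓ), a = (ℓ : ↥(chartAlgInf N ℓ)) * b := by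
  obtain ⟨f, hf⟩ := hmono
  exact exists_mul_of_rho_eq_zero ℓ N _ _
    (by rintro s rfl; exact inv_mem (IntermediateField.subset_adjoin ℚ _ rfl))
    hfin hcard hcl hsat hres f hf a ha

end Fermat.Agent.S28.ValFinal

end
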