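import Fermat.Agent.S28.ValFinal
import Fermat.Agent.S28.Deg0Full
import Fermat.Agent.S28.ChartBase
import Fermat.Agent.S28.LamExtra
import Fermat.Agent.S28.MonoLam
import Fermat.Agent.S28.Scheme
import Fermat.Agent.S28.Tensor
import Fermat.Agent.S28.TensorNT

/-!
# S28, piece VAL-FINAL (discharged form)

`ValFinal.hFin` / `ValFinal.hInf` with their inputs supplied by the landed pieces
`Deg0Full` (degree bound), `ChartBase` (normality and saturation of `ℤ_(ℓ)[j]`, `ℤ_(ℓ)[1/j]`),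
`LamExtra` (residue field of `ℚ(j) ∩ V`) and `MonoLam` (residue-independent monomials).  What
remains is the degree inequality of the spine, `ψ(N) ≤ [κ(J(q^d) : d ∣ N) : κ(J)]` over some
field `κ ⊇ 𝔽_ℓ`.

* `hFin_of_spine`, `hInf_of_spine` : `ker ρ_Fin ⊆ ℓ · chartAlgFin`, `ker ρ_Inf ⊆ ℓ · chartAlgInf`;
* `isDomain_fin`, `isDomain_inf` : the two domain inputs of
  `Scheme.isIntegral_pullback`;
* `isIntegral_pullback_of_spine` : the statement of S28 from the spine inequality.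
-/

set_option autoImplicit false

noncomputable section

universe u

namespace Fermat.Agent.S28.ValFinalMain

open AlgebraicGeometry CategoryTheory CategoryTheory.Limits
open ModularCurve ModularCurve.IgusaScheme
open scoped IntermediateField

variable (ℓ : ℕ) [Fact ℓ.Prime] (N : ℕ) [NeZero N]

/-- `ker ρ_Fin ⊆ ℓ · chartAlgFin`, from a residue-independent family of `ψ(N)` elements. -/
theorem hFin_of_indep
    (hmono : ∃ f : Fin (dedekindPsi N) → Lam.valSubring ℓ N,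
      LinearIndependent ↥((ZMod ℓ)⟮jqModC (ZMod ℓ)⟯) (fun i => Lam.resV ℓ N (f i)))
    (a : ↥(chartAlgFin N ℓ)) (ha : Lam.rhoFin ℓ N a = 0) :
    ∃ b : ↥(chartAlgFin N ℓ), a = (ℓ : ↥(chartAlgFin N ℓ)) * b :=
  ValFinal.hFin ℓ N (Deg0Full.finiteDimensional_toSubfield N) (Deg0Full.finrank_toSubfield_le N)
    (ChartBase.hnormal_fin ℓ N) (ChartBase.hsat_fin ℓ N) (LamExtra.resV_mem_adjoin ℓ N) hmono a ha

/-- `ker ρ_Inf ⊆ ℓ · chartAlgInf`, from a residue-independent family of `ψ(N)` elements. -/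
theorem hInf_of_indep
    (hmono : ∃ f : Fin (dedekindPsi N) → Lam.valSubring ℓ N,
      LinearIndependent ↥((ZMod ℓ)⟮jqModC (ZMod ℓ)⟯) (fun i => Lam.resV ℓ N (f i)))
    (a : ↥(chartAlgInf N ℓ)) (ha : Lam.rhoInf ℓ N a = 0) :
    ∃ b : ↥(chartAlgInf N ℓ), a = (ℓ : ↥(chartAlgInf N ℓ)) * b :=
  ValFinal.hInf ℓ N (Deg0Full.finiteDimensional_toSubfield N) (Deg0Full.finrank_toSubfield_le N)
    (ChartBase.hnormal_inf ℓ N) (ChartBase.hsat_inf ℓ N) (LamExtra.resV_mem_adjoin ℓ N) hmono a ha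

section spine

variable {κ : Type u} [Field κ] [Algebra (ZMod ℓ) κ]
  (h : (dedekindPsi N : Cardinal.{u}) ≤
    IntermediateField.relrank κ⟮jqModC κ⟯ (modularFunctionFieldFullC κ N))

include h

/-- **hFin** from the spine inequality. -/
theorem hFin_of_spine (a : ↥(chartAlgFin N ℓ)) (ha : Lam.rhoFin ℓ N a = 0) :
    ∃ b : ↥(chartAlgFin N ℓ), a = (ℓ : ↥(chartAlgFin N ℓ)) * b :=
  hFin_of_indep ℓ N (MonoLam.exists_residue_independent' ℓ N h) a ha

/-- **hInf** from the spine inequality. -/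
theorem hInf_of_spine (a : ↥(chartAlgInf N ℓ)) (ha : Lam.rhoInf ℓ N a = 0) :
    ∃ b : ↥(chartAlgInf N ℓ), a = (ℓ : ↥(chartAlgInf N ℓ)) * b :=
  hInf_of_indep ℓ N (MonoLam.exists_residue_independent' ℓ N h) a ha

variable (K : Type) [Field K] [CharP K ℓ] [Algebra ↥(GaloisRep.ratLocalizedAt ℓ) K]

/-- the chart `Spec ℤ_(ℓ)[j]^~` stays a domain after base change to `K` -/
theorem isDomain_fin :
    IsDomain (TensorProduct ↥(GaloisRep.ratLocalizedAt ℓ) ↥(chartAlgFin N ℓ) K) :=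
  Tensor.isDomain_tensor ℓ _ K (Lam.rhoFin ℓ N) (hFin_of_spine ℓ N h)

/-- the chart `Spec ℤ_(ℓ)[1/j]^~` stays a domain after base change to `K` -/
theorem isDomain_inf :
    IsDomain (TensorProduct ↥(GaloisRep.ratLocalizedAt ℓ) ↥(chartAlgInf N ℓ) K) :=
  Tensor.isDomain_tensor ℓ _ K (Lam.rhoInf ℓ N) (hInf_of_spine ℓ N h)

/-- **S28 from the spine inequality.** -/
theorem isIntegral_pullback_of_spine :
    IsIntegral ↑(pullback (igusaTo N ℓ)
      (Spec.map (CommRingCat.ofHom (algebraMap ↥(GaloisRep.ratLocalizedAt ℓ) K)))) :=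
  Scheme.isIntegral_pullback N ℓ K (isDomain_fin ℓ N h K) (isDomain_inf ℓ N h K)
    (TensorNT.nontrivial_tensorProduct ℓ _ K (Lam.rhoMid ℓ N))

end spine

end Fermat.Agent.S28.ValFinalMain

end
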